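import Mathlib

/-!
# Birational data of an abelian variety

`AVData K g` packages what the counting of torsion points needs of an abelian variety of dimension
`g` over a field `K`: the function field `F`, groups `Pt E` of points in extension fields `E`, the
local ring `loc P` of `F` at a point with its evaluation `ev P`, the generic point `η`, the
specialisation `spec` along a residue map `KRes K E k` (a valuation ring with a map to `k`, trivial
on `K`), and finitely many standard smooth affine charts. Derived notions: the field of definition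
`resField`, local equations `IsDenom` of the denominators of a function, and `IsChart`.
-/

set_option autoImplicit false

universe u

noncomputable section

namespace FLTAgent.AbVarTors

variable {K : Type u} [Field K]

/-- A valuation subring `V` of `E` with a residue map `π` to `k`, trivial on `K`. -/
structure KRes (K E k : Type u) [Field K] [Field E] [Algebra K E] [Field k] [Algebra K k] where
  V : ValuationSubring E
  mem : ∀ a : K, algebraMap K E a ∈ V
  π : V →+* k
  map_algebraMap : ∀ a : K, π ⟨algebraMap K E a, mem a⟩ = algebraMap K k a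
  isUnit_of_ne : ∀ x : V, π x ≠ 0 → IsUnit x

/-- The data of an abelian variety of dimension `g`. -/
structure AVData (K : Type u) [Field K] (g : ℕ) where
  /-- the function field -/
  F : Type u
  instField : Field F
  instAlgebra : Algebra K F
  fg : (⊤ : IntermediateField K F).FG
  trdeg_eq : Algebra.trdeg K F = g
  /-- points in a field -/
  Pt : ∀ (E : Type u) [Field E] [Algebra K E], Type u
  instGroup : ∀ (E : Type u) [Field E] [Algebra K E], AddCommGroup (Pt E)
  map : ∀ {E E' : Type u} [Field E] [Algebra K E] [Field E'] [Algebra K E'],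
    (E →ₐ[K] E') → Pt E →+ Pt E'
  map_id : ∀ {E : Type u} [Field E] [Algebra K E] (P : Pt E), map (AlgHom.id K E) P = P
  map_comp : ∀ {E E' E'' : Type u} [Field E] [Algebra K E] [Field E'] [Algebra K E']
    [Field E''] [Algebra K E''] (σ : E →ₐ[K] E') (τ : E' →ₐ[K] E'') (P : Pt E),
    map (τ.comp σ) P = map τ (map σ P)
  /-- the local ring at the image of a point -/
  loc : ∀ {E : Type u} [Field E] [Algebra K E], Pt E → Subalgebra K F
  /-- evaluation at a point -/
  ev : ∀ {E : Type u} [Field E] [Algebra K E] (P : Pt E), loc P →ₐ[K] E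
  isUnit_of_ev_ne : ∀ {E : Type u} [Field E] [Algebra K E] (P : Pt E) (f : loc P),
    ev P f ≠ 0 → IsUnit f
  ext : ∀ {E : Type u} [Field E] [Algebra K E] {P Q : Pt E}, loc P = loc Q →
    (∀ (f : F) (hP : f ∈ loc P) (hQ : f ∈ loc Q), ev P ⟨f, hP⟩ = ev Q ⟨f, hQ⟩) → P = Q
  loc_map : ∀ {E E' : Type u} [Field E] [Algebra K E] [Field E'] [Algebra K E']
    (σ : E →ₐ[K] E') (P : Pt E), loc (map σ P) = loc P
  ev_map : ∀ {E E' : Type u} [Field E] [Algebra K E] [Field E'] [Algebra K E']
    (σ : E →ₐ[K] E') (P : Pt E) (f : F) (h : f ∈ loc (map σ P)) (h' : f ∈ loc P),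
    ev (map σ P) ⟨f, h⟩ = σ (ev P ⟨f, h'⟩)
  /-- the generic point -/
  η : Pt F
  loc_η : loc η = ⊤
  ev_η : ∀ (f : F) (h : f ∈ loc η), ev η ⟨f, h⟩ = f
  /-- specialisation -/
  spec : ∀ {E k : Type u} [Field E] [Algebra K E] [Field k] [Algebra K k],
    KRes K E k → Pt E →+ Pt k
  loc_spec_le : ∀ {E k : Type u} [Field E] [Algebra K E] [Field k] [Algebra K k]
    (R : KRes K E k) (P : Pt E), loc (spec R P) ≤ loc P
  ev_spec : ∀ {E k : Type u} [Field E] [Algebra K E] [Field k] [Algebra K k]
    (R : KRes K E k) (P : Pt E) (f : F) (h : f ∈ loc (spec R P)) (h' : f ∈ loc P),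
    ∃ hV : ev P ⟨f, h'⟩ ∈ R.V, R.π ⟨ev P ⟨f, h'⟩, hV⟩ = ev (spec R P) ⟨f, h⟩
  spec_unique : ∀ {E k : Type u} [Field E] [Algebra K E] [Field k] [Algebra K k]
    (R : KRes K E k) (P : Pt E) (Q : Pt k), loc Q ≤ loc P →
    (∀ (f : F) (h : f ∈ loc Q) (h' : f ∈ loc P),
      ∃ hV : ev P ⟨f, h'⟩ ∈ R.V, R.π ⟨ev P ⟨f, h'⟩, hV⟩ = ev Q ⟨f, h⟩) →
    spec R P = Q
  /-- affine charts -/
  charts : Finset (Finset F)
  cover : ∀ {E : Type u} [Field E] [Algebra K E] (P : Pt E),
    ∃ S ∈ charts, ∀ f ∈ S, f ∈ loc P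
  chart_smooth : ∀ S ∈ charts,
    Algebra.IsStandardSmoothOfRelativeDimension g K (Algebra.adjoin K (S : Set F))
  chart_loc : ∀ {E : Type u} [Field E] [Algebra K E] (P : Pt E), ∀ S ∈ charts,
    (∀ f ∈ S, f ∈ loc P) → ∀ f ∈ loc P,
      ∃ a ∈ Algebra.adjoin K (S : Set F), ∃ s ∈ Algebra.adjoin K (S : Set F),
        ∃ hs : s ∈ loc P, ev P ⟨s, hs⟩ ≠ 0 ∧ f * s = a
  chart_point : ∀ {E : Type u} [Field E] [Algebra K E], ∀ S ∈ charts,
    ∀ φ : Algebra.adjoin K (S : Set F) →ₐ[K] E, ∃ (P : Pt E), ∀ a : Algebra.adjoin K (S : Set F),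
      ∃ h : (a : F) ∈ loc P, ev P ⟨a, h⟩ = φ a
  chart_spec : ∀ {E k : Type u} [Field E] [Algebra K E] [Field k] [Algebra K k]
    (R : KRes K E k) (P : Pt E), ∀ S ∈ charts,
    (∀ f ∈ S, ∃ h : f ∈ loc P, ev P ⟨f, h⟩ ∈ R.V) → ∀ f ∈ S, f ∈ loc (spec R P)

instance avFieldInst {g : ℕ} (D : AVData K g) : Field D.F := D.instField

instance avAlgebraInst {g : ℕ} (D : AVData K g) : Algebra K D.F := D.instAlgebra

instance avGroupInst {g : ℕ} (D : AVData K g) (E : Type u) [Field E] [Algebra K E] :
    AddCommGroup (D.Pt E) := D.instGroup E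

namespace AVData

variable {g : ℕ} (D : AVData K g)

/-- The field generated by the coordinates of a point. -/
def resField {E : Type u} [Field E] [Algebra K E] (P : D.Pt E) : IntermediateField K E :=
  IntermediateField.adjoin K (Set.range (D.ev P))

/-- `e` generates the ideal of denominators of `x` at `P`. -/
def IsDenom {E : Type u} [Field E] [Algebra K E] (x : D.F) (P : D.Pt E) (e : D.F) : Prop :=
  e ≠ 0 ∧ e ∈ D.loc P ∧ e * x ∈ D.loc P ∧
    ∀ d ∈ D.loc P, d * x ∈ D.loc P → ∃ c ∈ D.loc P, d = c * e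

/-- `S` is regular at the specialisation whenever its values are integral. -/
def IsChart (S : Finset D.F) : Prop :=
  ∀ {E k : Type u} [Field E] [Algebra K E] [Field k] [Algebra K k]
    (R : KRes K E k) (P : D.Pt E),
    (∀ f ∈ S, ∃ h : f ∈ D.loc P, D.ev P ⟨f, h⟩ ∈ R.V) → ∀ f ∈ S, f ∈ D.loc (D.spec R P)

end AVData

end FLTAgent.AbVarTors
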