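import Mathlib
import Fermat.Agent.AbVarTors.Data

/-!
# Values of functions at points

For `D : AVData K g`: `val P x` is the value of the function `x` at the point `P` (`0` where `x` is
not regular), `IsEvenFn x` says that the value of `x` at the inverse of the generic point is `x`
itself, and `ofHom σ` is the image of the generic point under an embedding `σ` of the function
field.
-/

set_option autoImplicit false

universe u

noncomputable section

namespace FLTAgent.AbVarTors.AVData

variable {K : Type u} [Field K] {g : ℕ} (D : AVData K g)

open Classical in
/-- The value of a function at a point (junk `0` where it is not regular). -/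
def val {E : Type u} [Field E] [Algebra K E] (P : D.Pt E) (x : D.F) : E :=
  if h : x ∈ D.loc P then D.ev P ⟨x, h⟩ else 0

theorem val_eq {E : Type u} [Field E] [Algebra K E] (P : D.Pt E) {x : D.F} (h : x ∈ D.loc P) :
    D.val P x = D.ev P ⟨x, h⟩ := dif_pos h

/-- A function is even. -/
def IsEvenFn (x : D.F) : Prop := D.val (-D.η) x = x

/-- The scalar extension of the generic point. -/
def ofHom {E : Type u} [Field E] [Algebra K E] (σ : D.F →ₐ[K] E) : D.Pt E := D.map σ D.η

end FLTAgent.AbVarTors.AVData
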