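import Fermat.Agent.AbVarTors.Birational.Make

/-!
# Birational data of an abelian scheme

`exists_avData`: an abelian scheme of relative dimension `g` over an algebraically closed field
gives an `AVData K g` with the same numbers of torsion points. Assembled from integrality
(`Birational.Integral`), local rings and specialisation (`Birational.Local`), affine charts
(`Birational.Charts`) and `Birational.Make`.
-/

set_option autoImplicit false
set_option linter.style.haveILetI false

open CategoryTheory CategoryTheory.Limits AlgebraicGeometry NeronModelInfra GoodReductionJacobian

universe u

noncomputable section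

namespace FLTAgent.AbVarTors

/-- An abelian scheme over an algebraically closed field has birational data, with equal torsion. -/
theorem exists_avData (K : Type u) [Field K] [IsAlgClosed K] {A : Scheme.{u}}
    (f : A ⟶ Spec (CommRingCat.of K)) (L : RelativeGroupLaw K f) (hc : L.IsCommutative)
    (hA : AbelianSchemePropertyBundle K f) (g : ℕ) [SmoothOfRelativeDimension g f] :
    ∃ D : AVData K g, ∀ n : ℕ,
      Nat.card {x : SchemeHomOver (𝟙 (Spec (CommRingCat.of K))) f //
        L.IsTorsionPoint (𝟙 (Spec (CommRingCat.of K))) n x} =
      Nat.card {P : D.Pt K // n • P = 0} := by
  haveI := hA.proper
  haveI := isIntegral_of_groupLaw L hA g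
  haveI : CompactSpace A := QuasiCompact.compactSpace_of_compactSpace f
  exact Bir.exists_avData_aux L hc

end FLTAgent.AbVarTors
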