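import Fermat.Agent.AbVarTors.Jacobian
import Fermat.Prelude.Def_JacJ1Iface

/-!
# Points of an abelian scheme over an algebraically closed field

The rational points of a commutative group scheme form a group (`pointsCommGroup`). If it is
proper and smooth, multiplication by an invertible integer is onto (`surjective_nsmul`) with finite
kernel (`finite_torsion`), so the number of torsion points is multiplicative and its value for all
`n` follows from the value for primes (`natCard_torsion_mul`, `natCard_torsion_eq_pow`).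
-/

set_option autoImplicit false
set_option linter.style.haveILetI false
set_option linter.unusedSectionVars false

noncomputable section

open CategoryTheory CategoryTheory.Limits AlgebraicGeometry NeronModelInfra GoodReductionJacobian

universe u

namespace FLTAgent.AbVarTors

variable {K : Type u} [Field K] {A : Scheme.{u}} {f : A ⟶ Spec (CommRingCat.of K)}
  (L : RelativeGroupLaw K f)

/-- The commutative group of points. -/
@[reducible] def pointsCommGroup (hc : L.IsCommutative) {T : Scheme.{u}}
    (t : T ⟶ Spec (CommRingCat.of K)) : CommGroup (SchemeHomOver t f) :=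
  { L.pointGroup t with mul_comm := hc t }

theorem nsmul_eq_pow (hc : L.IsCommutative) {T : Scheme.{u}} (t : T ⟶ Spec (CommRingCat.of K))
    (n : ℕ) (x : SchemeHomOver t f) :
    letI := pointsCommGroup L hc t
    L.nsmul t n x = x ^ n := by
  letI := pointsCommGroup L hc t
  induction n with
  | zero => rfl
  | succ m ih => rw [pow_succ, RelativeGroupLaw.nsmul_succ, ih]; rfl

variable [IsAlgClosed K] (hc : L.IsCommutative) (hA : AbelianSchemePropertyBundle K f)
  (g : ℕ) [SmoothOfRelativeDimension g f]

include hc hA g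

/-- Multiplication by an invertible integer is onto on points. -/
theorem surjective_schemeNsmul (n : ℕ) (hn : (n : K) ≠ 0) :
    Function.Surjective (L.schemeNsmul n).base := by
  haveI := hA.proper
  haveI := etale_schemeNsmul L hc g n hn
  haveI := isFinite_schemeNsmul L hc g n hn
  have hconn : _root_.IsConnected (Set.univ : Set A) := by
    convert hA.connectedFibres (IsLocalRing.closedPoint K) using 1
    exact (Set.eq_univ_of_forall fun x => Subsingleton.elim (α := PrimeSpectrum K) _ _).symm
  haveI : Nonempty A := ⟨(L.one (𝟙 _)).1.base (IsLocalRing.closedPoint K)⟩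
  haveI : ConnectedSpace A := connectedSpace_iff_univ.mpr hconn
  rw [← Set.range_eq_univ]
  refine (IsClopen.eq_univ ⟨?_, ?_⟩ (Set.range_nonempty _))
  · exact (L.schemeNsmul n).isClosedMap.isClosed_range
  · exact (L.schemeNsmul n).isOpenMap.isOpen_range

/-- Multiplication by an invertible integer is onto on rational points. -/
theorem surjective_nsmul (n : ℕ) (hn : (n : K) ≠ 0) :
    Function.Surjective (L.nsmul (𝟙 (Spec (CommRingCat.of K))) n) := by
  haveI := hA.proper
  haveI : JacobsonSpace A := LocallyOfFiniteType.jacobsonSpace f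
  intro y
  have hy : IsClosed {y.1.base (IsLocalRing.closedPoint K)} :=
    (pointEquivClosedPoint f ⟨y.1, y.2⟩).2
  obtain ⟨x₀, hx₀⟩ := surjective_schemeNsmul L hc hA g n hn (y.1.base (IsLocalRing.closedPoint K))
  obtain ⟨x, hx, hxc⟩ := nonempty_inter_closedPoints
    (Z := (L.schemeNsmul n).base ⁻¹' {y.1.base (IsLocalRing.closedPoint K)}) ⟨x₀, hx₀⟩
    (hy.preimage (L.schemeNsmul n).continuous).isLocallyClosed
  refine ⟨⟨pointOfClosedPoint f x hxc, pointOfClosedPoint_comp f x hxc⟩, Subtype.ext ?_⟩
  refine ext_of_apply_closedPoint_eq f (L.nsmul _ n _).2 y.2 ?_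
  rw [← comp_schemeNsmul]
  show (L.schemeNsmul n) ((pointOfClosedPoint f x hxc) (IsLocalRing.closedPoint K)) = _
  exact (congrArg (L.schemeNsmul n) (pointOfClosedPoint_apply f x hxc _)).trans hx

/-- The torsion points are finite. -/
theorem finite_torsion (n : ℕ) (hn : (n : K) ≠ 0) :
    Finite {x : SchemeHomOver (𝟙 (Spec (CommRingCat.of K))) f //
      L.IsTorsionPoint (𝟙 (Spec (CommRingCat.of K))) n x} := by
  haveI := hA.proper
  haveI := etale_schemeNsmul L hc g n hn
  haveI := isFinite_schemeNsmul L hc g n hn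
  haveI := locallyQuasiFinite_of_etale (L.schemeNsmul n)
  set e := (L.one (𝟙 (Spec (CommRingCat.of K)))).1.base (IsLocalRing.closedPoint K)
  haveI : Finite ↥((L.schemeNsmul n).base ⁻¹' {e}) :=
    ((L.schemeNsmul n).finite_preimage_singleton e).to_subtype
  refine Finite.of_injective
    (fun x => (⟨x.1.1.base (IsLocalRing.closedPoint K), ?_⟩ :
      ↥((L.schemeNsmul n).base ⁻¹' {e}))) ?_
  · have h := congrArg (fun z : Spec (CommRingCat.of K) ⟶ A =>
      z.base (IsLocalRing.closedPoint K)) ((comp_schemeNsmul L x.1 n).trans (congrArg Subtype.val x.2))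
    exact h
  · intro x y h
    exact Subtype.ext (Subtype.ext
      (ext_of_apply_closedPoint_eq f x.1.2 y.1.2 (congrArg Subtype.val h)))

/-- The number of torsion points is multiplicative. -/
theorem natCard_torsion_mul (m n : ℕ) (hn : (n : K) ≠ 0) :
    Nat.card {x : SchemeHomOver (𝟙 (Spec (CommRingCat.of K))) f //
        L.IsTorsionPoint (𝟙 (Spec (CommRingCat.of K))) (n * m) x} =
      Nat.card {x : SchemeHomOver (𝟙 (Spec (CommRingCat.of K))) f //
          L.IsTorsionPoint (𝟙 (Spec (CommRingCat.of K))) m x} *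
        Nat.card {x : SchemeHomOver (𝟙 (Spec (CommRingCat.of K))) f //
          L.IsTorsionPoint (𝟙 (Spec (CommRingCat.of K))) n x} := by
  letI := pointsCommGroup L hc (𝟙 (Spec (CommRingCat.of K)))
  have key : ∀ k x, L.IsTorsionPoint (𝟙 (Spec (CommRingCat.of K))) k x ↔
      x ∈ (powMonoidHom k : SchemeHomOver (𝟙 (Spec (CommRingCat.of K))) f →* _).ker :=
    fun k x => by
      rw [RelativeGroupLaw.isTorsionPoint_def, nsmul_eq_pow L hc, MonoidHom.mem_ker,
        powMonoidHom_apply]
      exact Iff.rfl
  have hcard : ∀ k, Nat.card {x : SchemeHomOver (𝟙 (Spec (CommRingCat.of K))) f //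
        L.IsTorsionPoint (𝟙 (Spec (CommRingCat.of K))) k x} =
      Nat.card (powMonoidHom k : SchemeHomOver (𝟙 (Spec (CommRingCat.of K))) f →* _).ker :=
    fun k => Nat.card_congr (Equiv.subtypeEquivRight (key k))
  rw [hcard, hcard, hcard]
  set Pn : SchemeHomOver (𝟙 (Spec (CommRingCat.of K))) f →* _ := powMonoidHom n
  set Pm : SchemeHomOver (𝟙 (Spec (CommRingCat.of K))) f →* _ := powMonoidHom m
  set Pnm : SchemeHomOver (𝟙 (Spec (CommRingCat.of K))) f →* _ := powMonoidHom (n * m)
  have hcomp : Pnm = Pm.comp Pn := MonoidHom.ext fun x => pow_mul x n m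
  have hle : Pn.ker ≤ Pnm.ker := fun x hx => by
    rw [hcomp, MonoidHom.mem_ker, MonoidHom.comp_apply, MonoidHom.mem_ker.mp hx, map_one]
  have hsur : Function.Surjective Pn := fun y =>
    let ⟨x, hx⟩ := surjective_nsmul L hc hA g n hn y
    ⟨x, (nsmul_eq_pow L hc _ n x).symm.trans hx⟩
  let ψ : Pnm.ker →* Pm.ker := (Pn.comp Pnm.ker.subtype).codRestrict Pm.ker fun x =>
    MonoidHom.mem_ker.mpr ((DFunLike.congr_fun hcomp x.1).symm.trans (MonoidHom.mem_ker.mp x.2))
  have hψ : Function.Surjective ψ := fun y => by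
    obtain ⟨x, hx⟩ := hsur y.1
    refine ⟨⟨x, ?_⟩, Subtype.ext hx⟩
    exact MonoidHom.mem_ker.mpr ((DFunLike.congr_fun hcomp x).trans
      ((congrArg Pm hx).trans (MonoidHom.mem_ker.mp y.2)))
  rw [Subgroup.card_eq_card_quotient_mul_card_subgroup ψ.ker,
    Nat.card_congr (QuotientGroup.quotientKerEquivOfSurjective ψ hψ).toEquiv]
  congr 1
  refine Nat.card_congr
    { toFun := fun x => ⟨x.1.1, congrArg Subtype.val (MonoidHom.mem_ker.mp x.2)⟩
      invFun := fun x => ⟨⟨x.1, hle x.2⟩, Subtype.ext x.2⟩
      left_inv := fun _ => rfl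
      right_inv := fun _ => rfl }

/-- The count for all `n` follows from the count for primes. -/
theorem natCard_torsion_eq_pow (hp : ∀ l : ℕ, l.Prime → (l : K) ≠ 0 →
      Nat.card {x : SchemeHomOver (𝟙 (Spec (CommRingCat.of K))) f //
        L.IsTorsionPoint (𝟙 (Spec (CommRingCat.of K))) l x} = l ^ (2 * g))
    (n : ℕ) (hn : (n : K) ≠ 0) :
    Nat.card {x : SchemeHomOver (𝟙 (Spec (CommRingCat.of K))) f //
        L.IsTorsionPoint (𝟙 (Spec (CommRingCat.of K))) n x} = n ^ (2 * g) := by
  induction n using Nat.recOnMul with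
  | zero => exact absurd Nat.cast_zero hn
  | one =>
    rw [one_pow, Nat.card_eq_one_iff_unique]
    refine ⟨⟨fun x y => Subtype.ext ?_⟩, ⟨⟨L.one _, L.isTorsionPoint_unit _ 1⟩⟩⟩
    rw [(L.isTorsionPoint_one_iff _ _).mp x.2, (L.isTorsionPoint_one_iff _ _).mp y.2]
  | prime l hl => exact hp l hl hn
  | mul a b iha ihb =>
    rw [Nat.cast_mul, mul_ne_zero_iff] at hn
    rw [natCard_torsion_mul L hc hA g b a hn.1, iha hn.1, ihb hn.2, mul_pow, mul_comm]

end FLTAgent.AbVarTors
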