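import Fermat.Agent.AbVarTors.Etale

/-!
# The Jacobian criterion for etale maps

An unramified morphism between smooth schemes of the same relative dimension over a field is etale
(`etale_of_formallyUnramified`, from `etale_of_isStandardSmooth`). Consequently multiplication by
an invertible integer on a smooth commutative group scheme is etale (`etale_schemeNsmul`), and
finite when the group is proper (`isFinite_schemeNsmul`).
-/

set_option autoImplicit false
set_option linter.style.haveILetI false

noncomputable section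

open CategoryTheory CategoryTheory.Limits AlgebraicGeometry NeronModelInfra GoodReductionJacobian
open scoped TensorProduct

universe u

namespace FLTAgent.AbVarTors

/-- The Jacobian criterion: standard smooth of equal relative dimension and unramified is etale. -/
theorem etale_of_isStandardSmooth (g : ℕ) {R A B : Type u} [CommRing R] [CommRing A] [CommRing B]
    [Algebra R A] [Algebra R B] [Algebra A B] [IsScalarTower R A B]
    [Algebra.IsStandardSmoothOfRelativeDimension g R A]
    [Algebra.IsStandardSmoothOfRelativeDimension g R B]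
    [Algebra.FormallyUnramified A B] : Algebra.Etale A B := by
  haveI := Algebra.IsStandardSmoothOfRelativeDimension.isStandardSmooth (R := R) (S := A) g
  haveI := Algebra.IsStandardSmoothOfRelativeDimension.isStandardSmooth (R := R) (S := B) g
  haveI hfp : Algebra.FinitePresentation A B :=
    Algebra.FinitePresentation.of_restrict_scalars_finitePresentation R A B
  refine ⟨⟨inferInstance, ?_⟩, hfp⟩
  rcases subsingleton_or_nontrivial B with hB | hB
  · exact Module.subsingleton B _
  haveI : Nontrivial A := (algebraMap A B).domain_nontrivial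
  have hsur : Function.Surjective (KaehlerDifferential.mapBaseChange R A B) := fun y =>
    (KaehlerDifferential.exact_mapBaseChange_map R A B y).mp (Subsingleton.elim _ _)
  have hA : Module.finrank A Ω[A⁄R] = g := Module.finrank_eq_of_rank_eq
    (Algebra.IsStandardSmoothOfRelativeDimension.rank_kaehlerDifferential g)
  have hB' : Module.finrank B Ω[B⁄R] = g := Module.finrank_eq_of_rank_eq
    (Algebra.IsStandardSmoothOfRelativeDimension.rank_kaehlerDifferential g)
  have hT : Module.finrank B (B ⊗[A] Ω[A⁄R]) = g := by rw [Module.finrank_baseChange, hA]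
  let e : Ω[B⁄R] ≃ₗ[B] B ⊗[A] Ω[A⁄R] := LinearEquiv.ofFinrankEq _ _ (hB'.trans hT.symm)
  have hinj : Function.Injective (KaehlerDifferential.mapBaseChange R A B) := by
    have h := OrzechProperty.injective_of_surjective_endomorphism
      ((KaehlerDifferential.mapBaseChange R A B) ∘ₗ e.toLinearMap) (hsur.comp e.surjective)
    exact (Function.Injective.of_comp_iff' _ e.bijective).mp h
  refine subsingleton_of_forall_eq 0 fun z => ?_
  have hz : Algebra.H1Cotangent.δ R A B z = 0 := hinj (by
    rw [(Algebra.H1Cotangent.exact_δ_mapBaseChange R A B).apply_apply_eq_zero, map_zero])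
  obtain ⟨w, rfl⟩ := (Algebra.H1Cotangent.exact_map_δ R A B z).mp hz
  rw [Subsingleton.elim w 0, map_zero]

/-- A nonempty open of the spectrum of a field is everything. -/
theorem opens_eq_top {K : Type u} [Field K] (U : (Spec (CommRingCat.of K)).Opens)
    {x : Spec (CommRingCat.of K)} (hx : x ∈ U) : U = ⊤ :=
  top_unique fun y _ => Subsingleton.elim (α := PrimeSpectrum K) x y ▸ hx

/-- Unramified between smooth schemes of the same relative dimension over a field is etale. -/
theorem etale_of_formallyUnramified {K : Type u} [Field K] {X Y : Scheme.{u}}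
    (fX : X ⟶ Spec (CommRingCat.of K)) (fY : Y ⟶ Spec (CommRingCat.of K)) (g : ℕ)
    [SmoothOfRelativeDimension g fX] [SmoothOfRelativeDimension g fY] (h : X ⟶ Y)
    [FormallyUnramified h] (hh : h ≫ fY = fX) : Etale h := by
  have hsrc : RingHom.StableUnderCompositionWithLocalizationAwaySource @RingHom.Etale := by
    intro R S T _ _ _ _ r _ k hk
    exact RingHom.Etale.stableUnderComposition _ k
      (RingHom.etale_algebraMap.mpr (Algebra.Etale.of_isLocalizationAway r)) hk
  rw [HasRingHomProperty.iff_exists_appLE (P := @Etale) hsrc]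
  intro x
  subst hh
  obtain ⟨U₁, hU₁, V₁, hV₁, hx₁, e₁, hs₁⟩ :=
    SmoothOfRelativeDimension.exists_isStandardSmoothOfRelativeDimension (n := g) (f := fY) (h x)
  obtain ⟨U₂, hU₂, V₂, hV₂, hx₂, e₂, hs₂⟩ :=
    SmoothOfRelativeDimension.exists_isStandardSmoothOfRelativeDimension (n := g) (f := h ≫ fY) x
  obtain rfl : U₁ = ⊤ := opens_eq_top U₁ (e₁ hx₁)
  obtain rfl : U₂ = ⊤ := opens_eq_top U₂ (e₂ hx₂)
  obtain ⟨s, hsV, hxs⟩ := hV₂.exists_basicOpen_le (V := h ⁻¹ᵁ V₁) ⟨x, hx₁⟩ hx₂
  refine ⟨⟨V₁, hV₁⟩, ⟨X.basicOpen s, hV₂.basicOpen s⟩, hxs, hsV, ?_⟩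
  haveI := hV₂.isLocalization_basicOpen s
  have e : X.basicOpen s ≤ (h ≫ fY) ⁻¹ᵁ ⊤ := le_top
  have hs : RingHom.IsStandardSmoothOfRelativeDimension g
      ((h ≫ fY).appLE ⊤ (X.basicOpen s) e).hom := by
    have h' := (RingHom.isStandardSmoothOfRelativeDimension_stableUnderCompositionWithLocalizationAway
      g).right Γ(X, X.basicOpen s) s _ hs₂
    convert! h'
    rw [RingHom.algebraMap_toAlgebra, ← CommRingCat.hom_comp, Scheme.Hom.appLE_map]
  have hu := h.formallyUnramified_appLE hV₁ (hV₂.basicOpen s) hsV
  algebraize [(fY.appLE ⊤ V₁ e₁).hom, ((h ≫ fY).appLE ⊤ (X.basicOpen s) e).hom,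
    (h.appLE V₁ (X.basicOpen s) hsV).hom]
  haveI : IsScalarTower Γ(Spec (CommRingCat.of K), ⊤) Γ(Y, V₁) Γ(X, X.basicOpen s) :=
    IsScalarTower.of_algebraMap_eq' (by
      rw [RingHom.algebraMap_toAlgebra, RingHom.algebraMap_toAlgebra, RingHom.algebraMap_toAlgebra,
        ← CommRingCat.hom_comp, Scheme.Hom.appLE_comp_appLE])
  exact etale_of_isStandardSmooth g (R := Γ(Spec (CommRingCat.of K), ⊤)) (A := Γ(Y, V₁))
    (B := Γ(X, X.basicOpen s))

/-- Etale morphisms are locally quasi-finite. -/
theorem locallyQuasiFinite_of_etale {X Y : Scheme.{u}} (h : X ⟶ Y) [Etale h] :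
    LocallyQuasiFinite h := by
  refine ⟨fun {U} hU {V} hV e => ?_⟩
  have h' := h.etale_appLE hU hV e
  algebraize [(h.appLE U V e).hom]
  exact (inferInstance : Algebra.QuasiFinite Γ(Y, U) Γ(X, V))

/-- Multiplication by an invertible integer is etale. -/
theorem etale_schemeNsmul {K : Type u} [Field K] {A : Scheme.{u}}
    {f : A ⟶ Spec (CommRingCat.of K)} (L : RelativeGroupLaw K f) (hc : L.IsCommutative) (g : ℕ)
    [SmoothOfRelativeDimension g f] (n : ℕ) (hn : (n : K) ≠ 0) : Etale (L.schemeNsmul n) :=
  haveI := formallyUnramified_schemeNsmul L hc n hn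
  etale_of_formallyUnramified f f g (L.schemeNsmul n) (L.schemeNsmul_over n)

/-- Multiplication by an invertible integer on a proper group scheme is finite. -/
theorem isFinite_schemeNsmul {K : Type u} [Field K] {A : Scheme.{u}}
    {f : A ⟶ Spec (CommRingCat.of K)} [IsProper f] (L : RelativeGroupLaw K f)
    (hc : L.IsCommutative) (g : ℕ)
    [SmoothOfRelativeDimension g f] (n : ℕ) (hn : (n : K) ≠ 0) :
    IsFinite (L.schemeNsmul n) := by
  haveI := etale_schemeNsmul L hc g n hn
  haveI : IsProper (L.schemeNsmul n ≫ f) := by rw [L.schemeNsmul_over]; infer_instance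
  haveI : IsProper (L.schemeNsmul n) := .of_comp _ f
  haveI := locallyQuasiFinite_of_etale (L.schemeNsmul n)
  rw [IsFinite.iff_isProper_and_locallyQuasiFinite]
  exact ⟨inferInstance, inferInstance⟩

end FLTAgent.AbVarTors
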