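import Mathlib

/-!
# Linear disjointness over an algebraically closed field

A finitely generated reduced algebra over an algebraically closed field has enough points
(`eq_zero_of_forall_point`, the Nullstellensatz), hence a tensor product of domains over such a
field is a domain (`isDomain_tensorProduct`). A map from `A ⊗ B` to a domain is injective once a
transcendence family of `B` stays independent over `A` (`tensor_hom_injective`), in particular a
point of full transcendence degree is generic (`tensor_hom_injective_of_trdeg`).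
-/

set_option autoImplicit false
set_option linter.style.haveILetI false

universe u

noncomputable section

open TensorProduct

namespace FLTAgent.AbVarTors

variable {K : Type u} [Field K]

/-- A finitely generated reduced algebra over an algebraically closed field has enough points. -/
theorem eq_zero_of_forall_point [IsAlgClosed K] {R : Type u} [CommRing R] [Algebra K R]
    [Algebra.FiniteType K R] [IsReduced R] {r : R} (h : ∀ φ : R →ₐ[K] K, φ r = 0) : r = 0 := by
  haveI : IsJacobsonRing R := isJacobsonRing_of_finiteType (A := K)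
  have hr : r ∈ (⊥ : Ideal R).jacobson := by
    rw [Ideal.jacobson, Submodule.mem_sInf]
    rintro m ⟨-, hm⟩
    haveI := hm
    letI : Field (R ⧸ m) := Ideal.Quotient.field m
    haveI : Module.Finite K (R ⧸ m) := finite_of_finite_type_of_isJacobsonRing K (R ⧸ m)
    have hb := IsAlgClosed.algebraMap_bijective_of_isIntegral (k := K) (K := R ⧸ m)
    let φ : R →ₐ[K] K :=
      ((AlgEquiv.ofBijective (Algebra.ofId K (R ⧸ m)) hb).symm.toAlgHom).comp
        (Ideal.Quotient.mkₐ K m)
    exact Ideal.Quotient.eq_zero_iff_mem.mp
      ((map_eq_zero_iff _ (AlgEquiv.ofBijective (Algebra.ofId K (R ⧸ m)) hb).symm.injective).mp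
        (h φ))
  rw [Ideal.jacobson_bot] at *
  rw [← Ideal.jacobson_bot, IsJacobsonRing.out ‹IsJacobsonRing R› Ideal.isRadical_bot] at hr
  exact hr

/-- Over an algebraically closed field a tensor product of domains is a domain. -/
theorem isDomain_tensorProduct [IsAlgClosed K] (A B : Type u) [Field A] [Algebra K A]
    [CommRing B] [IsDomain B] [Algebra K B] : IsDomain (A ⊗[K] B) := by
  haveI : Nontrivial (A ⊗[K] B) :=
    Algebra.TensorProduct.nontrivial_of_algebraMap_injective_of_flat_left K A B
      (FaithfulSMul.algebraMap_injective K B)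
  refine @NoZeroDivisors.to_isDomain _ _ _ ⟨fun {u v} huv => ?_⟩
  classical
  let b := Module.Free.chooseBasis K B
  let bA := Algebra.TensorProduct.basis A b
  set uc := bA.repr u with huc
  set vc := bA.repr v with hvc
  let gens : Finset A := uc.support.image uc ∪ vc.support.image vc
  let R := Algebra.adjoin K (gens : Set A)
  haveI : Algebra.FiniteType K R := ⟨(Subalgebra.fg_top _).mpr ⟨gens, rfl⟩⟩
  have humem : ∀ i ∈ uc.support, uc i ∈ R := fun i hi =>
    Algebra.subset_adjoin (Finset.mem_union_left _ (Finset.mem_image_of_mem _ hi))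
  have hvmem : ∀ i ∈ vc.support, vc i ∈ R := fun i hi =>
    Algebra.subset_adjoin (Finset.mem_union_right _ (Finset.mem_image_of_mem _ hi))
  let uR : R ⊗[K] B := ∑ i ∈ uc.support.attach, (⟨uc i, humem i i.2⟩ : R) ⊗ₜ b i
  let vR : R ⊗[K] B := ∑ i ∈ vc.support.attach, (⟨vc i, hvmem i i.2⟩ : R) ⊗ₜ b i
  let incl : R ⊗[K] B →ₐ[K] A ⊗[K] B := Algebra.TensorProduct.map R.val (AlgHom.id K B)
  have hexp : ∀ w : A ⊗[K] B, w = ∑ i ∈ (bA.repr w).support.attach, bA.repr w i ⊗ₜ b i := by
    intro w
    rw [Finset.sum_attach (bA.repr w).support (fun i => bA.repr w i ⊗ₜ[K] b i)]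
    conv_lhs => rw [← bA.linearCombination_repr w]
    rw [Finsupp.linearCombination_apply]
    exact Finset.sum_congr rfl fun i _ => Algebra.TensorProduct.basis_repr_symm_apply' b _ i
  have hu : incl uR = u := by
    rw [map_sum]; exact (hexp u).symm
  have hv : incl vR = v := by
    rw [map_sum]; exact (hexp v).symm
  have hinj : Function.Injective incl :=
    Module.Flat.rTensor_preserves_injective_linearMap (M := B) R.val.toLinearMap
      Subtype.val_injective
  have h0 : uR * vR = 0 := hinj (by rw [map_mul, hu, hv, huv, map_zero])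
  have key : ∀ φ : R →ₐ[K] K, (∀ i (hi : i ∈ uc.support), φ ⟨uc i, humem i hi⟩ = 0) ∨
      ∀ i (hi : i ∈ vc.support), φ ⟨vc i, hvmem i hi⟩ = 0 := by
    intro φ
    let Φ : R ⊗[K] B →ₐ[K] B :=
      Algebra.TensorProduct.lift ((Algebra.ofId K B).comp φ) (AlgHom.id K B) fun _ _ => .all _ _
    have hΦ : ∀ (s : Finset _) (c : _ → R), Φ (∑ i ∈ s, c i ⊗ₜ b i) = ∑ i ∈ s, φ (c i) • b i := by
      intro s c
      rw [map_sum]
      refine Finset.sum_congr rfl fun i _ => ?_
      rw [Algebra.TensorProduct.lift_tmul, Algebra.smul_def]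
      rfl
    have hprod := congrArg Φ h0
    rw [map_mul, map_zero, mul_eq_zero] at hprod
    refine hprod.imp (fun h => ?_) (fun h => ?_)
    all_goals
      intro i hi
      simp only [uR, vR, map_sum] at h
      have hli := linearIndependent_iff'.mp b.linearIndependent
    · have := hli uc.support (fun j => if hj : j ∈ uc.support then φ ⟨uc j, humem j hj⟩ else 0) (by
        rw [← Finset.sum_attach, ← h]
        refine Finset.sum_congr rfl fun j _ => ?_
        rw [dif_pos j.2, Algebra.TensorProduct.lift_tmul, Algebra.smul_def]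
        rfl) i hi
      rwa [dif_pos hi] at this
    · have := hli vc.support (fun j => if hj : j ∈ vc.support then φ ⟨vc j, hvmem j hj⟩ else 0) (by
        rw [← Finset.sum_attach, ← h]
        refine Finset.sum_congr rfl fun j _ => ?_
        rw [dif_pos j.2, Algebra.TensorProduct.lift_tmul, Algebra.smul_def]
        rfl) i hi
      rwa [dif_pos hi] at this
  by_contra! hcon
  obtain ⟨hu0, hv0⟩ := hcon
  obtain ⟨i, hi⟩ := Finsupp.support_nonempty_iff.mpr (show uc ≠ 0 from fun h =>
    hu0 (bA.repr.map_eq_zero_iff.mp h))
  obtain ⟨j, hj⟩ := Finsupp.support_nonempty_iff.mpr (show vc ≠ 0 from fun h =>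
    hv0 (bA.repr.map_eq_zero_iff.mp h))
  have hzero : (⟨uc i, humem i hi⟩ : R) * (⟨vc j, hvmem j hj⟩ : R) = 0 :=
    eq_zero_of_forall_point (K := K) (R := R) fun φ => by
      rw [map_mul]
      rcases key φ with h | h
      · rw [h i hi, zero_mul]
      · rw [h j hj, mul_zero]
  rcases mul_eq_zero.mp hzero with h | h
  · exact Finsupp.mem_support_iff.mp hi (congrArg Subtype.val h)
  · exact Finsupp.mem_support_iff.mp hj (congrArg Subtype.val h)

/-- A homomorphism from `A ⊗ B` to a domain is injective as soon as a transcendence family of `B`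
maps to a family algebraically independent over `A`. -/
theorem tensor_hom_injective [IsAlgClosed K] {A B Ω : Type u} [Field A] [Algebra K A] [Field B]
    [Algebra K B] [Field Ω] [Algebra K Ω] [Algebra A Ω] [IsScalarTower K A Ω] (σ : B →ₐ[K] Ω)
    {ι : Type} (x : ι → B) [Algebra.IsAlgebraic (Algebra.adjoin K (Set.range x)) B]
    (hx : AlgebraicIndependent A (σ ∘ x)) :
    Function.Injective
      (Algebra.TensorProduct.lift (Algebra.ofId A Ω) σ fun _ _ => Commute.all _ _) := by
  haveI := isDomain_tensorProduct (K := K) A B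
  set ψ := Algebra.TensorProduct.lift (Algebra.ofId A Ω) σ fun _ _ => Commute.all _ _
  let α : MvPolynomial ι A →ₐ[A] A ⊗[K] B := MvPolynomial.aeval fun i => 1 ⊗ₜ x i
  let T₀ := α.range
  have hψα : ∀ p, ψ (α p) = MvPolynomial.aeval (σ ∘ x) p := fun p => by
    refine DFunLike.congr_fun (MvPolynomial.algHom_ext (f := ψ.comp α)
      (g := MvPolynomial.aeval (σ ∘ x)) fun i => ?_) p
    simp [α, ψ]
  have hleft : ∀ a : A, a ⊗ₜ[K] (1 : B) ∈ T₀ := fun a => T₀.algebraMap_mem a
  have hx1 : ∀ z ∈ Algebra.adjoin K (Set.range x), (1 : A) ⊗ₜ[K] z ∈ T₀ := by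
    intro z hz
    induction hz using Algebra.adjoin_induction with
    | mem z hz => obtain ⟨i, rfl⟩ := hz; exact ⟨MvPolynomial.X i, by simp [α]⟩
    | algebraMap c =>
      rw [Algebra.algebraMap_eq_smul_one, TensorProduct.tmul_smul, ← Algebra.TensorProduct.one_def]
      rw [← Algebra.algebraMap_eq_smul_one, IsScalarTower.algebraMap_apply K A (A ⊗[K] B)]
      exact T₀.algebraMap_mem _
    | add a c _ _ ha hc => rw [TensorProduct.tmul_add]; exact T₀.add_mem ha hc
    | mul a c _ _ ha hc =>
      rw [← one_mul (1 : A), ← Algebra.TensorProduct.tmul_mul_tmul]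
      exact T₀.mul_mem ha hc
  have halg : ∀ u : A ⊗[K] B, IsAlgebraic T₀ u := by
    intro u
    induction u using TensorProduct.induction_on with
    | zero => exact isAlgebraic_zero
    | add a c ha hc => exact ha.add hc
    | tmul a c =>
      have e : a ⊗ₜ[K] c = (⟨_, hleft a⟩ : T₀) • ((1 : A) ⊗ₜ[K] c) := by
        show _ = (a ⊗ₜ[K] (1 : B)) * ((1 : A) ⊗ₜ[K] c)
        rw [Algebra.TensorProduct.tmul_mul_tmul, mul_one, one_mul]
      rw [e]
      refine IsAlgebraic.smul ?_ _
      obtain ⟨p, hp0, hp⟩ := Algebra.IsAlgebraic.isAlgebraic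
        (R := Algebra.adjoin K (Set.range x)) c
      let j : Algebra.adjoin K (Set.range x) →+* T₀ :=
        ((Algebra.TensorProduct.includeRight (R := K) (A := A) (B := B)).toRingHom.comp
          (Algebra.adjoin K (Set.range x)).val.toRingHom).codRestrict T₀.toSubring
          fun z => hx1 z z.2
      have hjinj : Function.Injective j := by
        intro a b hab
        have h1 := congrArg Subtype.val hab
        exact Subtype.ext (Algebra.TensorProduct.includeRight_injective
          (FaithfulSMul.algebraMap_injective K A) h1)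
      refine ⟨p.map j, (Polynomial.map_ne_zero_iff hjinj).mpr hp0, ?_⟩
      rw [Polynomial.aeval_def, Polynomial.eval₂_map]
      have h2 := congrArg (Algebra.TensorProduct.includeRight (R := K) (A := A) (B := B)) hp
      rw [map_zero, Polynomial.aeval_def] at h2
      rw [← h2]
      exact (Polynomial.hom_eval₂ p (algebraMap (Algebra.adjoin K (Set.range x)) B)
        (Algebra.TensorProduct.includeRight (R := K) (A := A) (B := B)).toRingHom c).symm
  rw [injective_iff_map_eq_zero]
  intro u hu
  by_contra hu0
  have hne := Ideal.comap_ne_bot_of_algebraic_mem (R := T₀) (I := RingHom.ker ψ) hu0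
    (RingHom.mem_ker.mpr hu) (halg u)
  refine hne ((Submodule.eq_bot_iff _).mpr ?_)
  rintro ⟨_, p, rfl⟩ hp
  rw [Ideal.mem_comap, RingHom.mem_ker] at hp
  have : MvPolynomial.aeval (σ ∘ x) p = 0 := (hψα p).symm.trans hp
  have hp0 : p = 0 := hx.eq_zero_of_aeval_eq_zero p this
  subst hp0
  exact Subtype.ext (map_zero α)

/-- A point of transcendence degree `trdeg B` over an algebraically closed `k` is generic. -/
theorem tensor_hom_injective_of_trdeg [IsAlgClosed K] {k B Ω : Type u} [Field k] [Algebra K k]
    [Field B] [Algebra K B] [Field Ω] [Algebra K Ω] [Algebra k Ω] [IsScalarTower K k Ω]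
    (σ : B →ₐ[K] Ω) {n : ℕ} (hn : Algebra.trdeg K B = n)
    (h : (n : Cardinal) ≤ Algebra.trdeg k (IntermediateField.adjoin k (Set.range σ))) :
    Function.Injective
      (Algebra.TensorProduct.lift (Algebra.ofId k Ω) σ fun _ _ => Commute.all _ _) := by
  classical
  obtain ⟨s, hs⟩ := exists_isTranscendenceBasis K B
  have hcard : Cardinal.mk s = n := hs.cardinalMk_eq_trdeg.trans hn
  haveI : Finite s := Cardinal.mk_lt_aleph0_iff.mp (hcard ▸ Cardinal.natCast_lt_aleph0)
  have e := Finite.equivFin s
  have hcs : Nat.card s = n := by rw [Nat.card, hcard, Cardinal.toNat_natCast]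
  let x : Fin (Nat.card s) → B := fun i => ((e.symm i : s) : B)
  have hxb : IsTranscendenceBasis K x := hs.comp_equiv e.symm
  haveI := hxb.isAlgebraic
  set E := IntermediateField.adjoin k (Set.range σ) with hE
  refine tensor_hom_injective σ x ?_
  let y : Fin (Nat.card s) → E := fun i =>
    ⟨σ (x i), IntermediateField.subset_adjoin k _ ⟨x i, rfl⟩⟩
  haveI : Algebra.IsAlgebraic (Algebra.adjoin k (Set.range y)) E := by
    have hgen : ∀ b : B, IsAlgebraic (Algebra.adjoin k (Set.range y))
        (⟨σ b, IntermediateField.subset_adjoin k _ ⟨b, rfl⟩⟩ : E) := by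
      intro b
      obtain ⟨p, hp0, hp⟩ := Algebra.IsAlgebraic.isAlgebraic
        (R := Algebra.adjoin K (Set.range x)) b
      let σE : B →+* E := σ.toRingHom.codRestrict E.toSubfield fun b =>
        IntermediateField.subset_adjoin k _ ⟨b, rfl⟩
      have hmem : ∀ z : Algebra.adjoin K (Set.range x),
          σE z ∈ Algebra.adjoin k (Set.range y) := by
        rintro ⟨z, hz⟩
        induction hz using Algebra.adjoin_induction with
        | mem z hz => obtain ⟨i, rfl⟩ := hz; exact Algebra.subset_adjoin ⟨i, rfl⟩
        | algebraMap c =>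
          have : σE (algebraMap K B c) = algebraMap k E (algebraMap K k c) := Subtype.ext (by
            show σ (algebraMap K B c) = algebraMap k Ω (algebraMap K k c)
            rw [σ.commutes, ← IsScalarTower.algebraMap_apply])
          show σE (algebraMap K B c) ∈ _
          rw [this]; exact Subalgebra.algebraMap_mem _ _
        | add a c _ _ ha hc => show σE (a + c) ∈ _; rw [map_add]; exact add_mem ha hc
        | mul a c _ _ ha hc => show σE (a * c) ∈ _; rw [map_mul]; exact mul_mem ha hc
      let j : Algebra.adjoin K (Set.range x) →+* Algebra.adjoin k (Set.range y) :=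
        (σE.comp (Algebra.adjoin K (Set.range x)).val.toRingHom).codRestrict
          (Algebra.adjoin k (Set.range y)).toSubring hmem
      have hjinj : Function.Injective j := fun a c hac =>
        Subtype.ext (σ.toRingHom.injective (congrArg (fun w => ((w : E) : Ω))
          (congrArg Subtype.val hac)))
      refine ⟨p.map j, (Polynomial.map_ne_zero_iff hjinj).mpr hp0, ?_⟩
      rw [Polynomial.aeval_def, Polynomial.eval₂_map]
      have h2 := congrArg σE hp
      rw [map_zero, Polynomial.aeval_def] at h2
      rw [← h2]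
      exact (Polynomial.hom_eval₂ p (algebraMap (Algebra.adjoin K (Set.range x)) B) σE b).symm
    refine ⟨fun z => ?_⟩
    have hz : z ∈ IntermediateField.adjoin k (Set.range fun b : B =>
        (⟨σ b, IntermediateField.subset_adjoin k _ ⟨b, rfl⟩⟩ : E)) := by
      have hmap : (IntermediateField.adjoin k (Set.range fun b : B =>
          (⟨σ b, IntermediateField.subset_adjoin k _ ⟨b, rfl⟩⟩ : E))).map E.val = E := by
        rw [IntermediateField.adjoin_map, ← Set.range_comp]; rfl
      obtain ⟨w, hw, hwz⟩ : (z : Ω) ∈ (IntermediateField.adjoin k (Set.range fun b : B =>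
          (⟨σ b, IntermediateField.subset_adjoin k _ ⟨b, rfl⟩⟩ : E))).map E.val := by
        rw [hmap]; exact z.2
      rwa [show w = z from Subtype.ext hwz] at hw
    induction hz using IntermediateField.adjoin_induction with
    | mem w hw => obtain ⟨b, rfl⟩ := hw; exact hgen b
    | algebraMap c =>
      exact isAlgebraic_algebraMap (R := Algebra.adjoin k (Set.range y)) (A := E) (algebraMap k (Algebra.adjoin k (Set.range y)) c)
    | add a c _ _ ha hc => exact ha.add hc
    | inv a _ ha => exact ha.inv
    | mul a c _ _ ha hc => exact ha.mul hc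
  have hb := Algebra.IsAlgebraic.isTranscendenceBasis_of_lift_le_trdeg_of_finite k y (by
    simpa [hcs] using h)
  exact hb.1.map' (f := E.val) Subtype.val_injective


end FLTAgent.AbVarTors
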