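import Mathlib
import Fermat.Agent.AbVarTors.Data
import Fermat.Agent.AbVarTors.Disjoint
import Fermat.Agent.Torsion.ConstExtVal
import Fermat.Agent.Reduction.PlacesGauss

/-!
# Extensions of constants and their Gauss reductions

`IsExt M e` says that the embedding `e : L₀ → L` makes `L` the fraction field of `M ⊗ L₀`; over
algebraically closed constants `CExt` with `cextHom` is the canonical one. A residue map `R` from
`M` to `M'` fixing the old constants (`FixesConst`) induces `constRed`, the Gauss reduction from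
`L` to `L'`: fractions of tensors with integral coefficients are reduced term by term. It extends
the identity of the base field (`constRed_map`).
-/

set_option autoImplicit false
set_option linter.unusedSectionVars false
set_option linter.style.haveILetI false

universe u

noncomputable section

open TensorProduct

namespace FLTAgent.AbVarTors

variable {M₀ M L₀ L : Type u} [Field M₀] [Field M] [Algebra M₀ M] [Field L₀] [Algebra M₀ L₀]
  [Field L] [Algebra M L] [Algebra M₀ L] [IsScalarTower M₀ M L]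

/-- The map from the tensor product given by an embedding. -/
def cmap (M : Type u) {M₀ L₀ L : Type u} [Field M₀] [Field M] [Algebra M₀ M] [Field L₀]
    [Algebra M₀ L₀] [Field L] [Algebra M L] [Algebra M₀ L] [IsScalarTower M₀ M L]
    (e : L₀ →ₐ[M₀] L) : M ⊗[M₀] L₀ →ₐ[M] L :=
  Algebra.TensorProduct.lift (Algebra.ofId M L) e fun _ _ => Commute.all _ _

theorem cmap_tmul (e : L₀ →ₐ[M₀] L) (a : M) (z : L₀) :
    cmap M e (a ⊗ₜ z) = algebraMap M L a * e z := by
  simp [cmap]

/-- `L` is the extension of constants of `L₀` to `M` along `e`. -/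
structure IsExt (M : Type u) {M₀ L₀ L : Type u} [Field M₀] [Field M] [Algebra M₀ M] [Field L₀]
    [Algebra M₀ L₀] [Field L] [Algebra M L] [Algebra M₀ L] [IsScalarTower M₀ M L]
    (e : L₀ →ₐ[M₀] L) : Prop where
  inj : Function.Injective (cmap M e)
  gen : ∀ x : L, ∃ a b : M ⊗[M₀] L₀, cmap M e b ≠ 0 ∧ x = cmap M e a / cmap M e b

namespace IsExt

variable {e : L₀ →ₐ[M₀] L}

theorem isConstExt (he : IsExt M e) :
    Torsion.IsConstExt (algebraMap M₀ M) (e : L₀ →+* L) where
  map_algebraMap a := by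
    rw [RingHom.coe_coe, e.commutes, ← IsScalarTower.algebraMap_apply]
  linIndep s hs := by
    have h1 := Module.Flat.linearIndependent_one_tmul (S := M) hs
    have h2 := h1.map' (cmap M e).toLinearMap (LinearMap.ker_eq_bot.mpr he.inj)
    refine Eq.mp ?_ h2
    congr 1
    funext i
    simp [cmap_tmul]
  generates x := by
    obtain ⟨a, b, hb, rfl⟩ := he.gen x
    have hmem : ∀ w : M ⊗[M₀] L₀,
        cmap M e w ∈ Submodule.span M (Set.range (e : L₀ →+* L)) := by
      intro w
      induction w using TensorProduct.induction_on with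
      | zero => rw [map_zero]; exact zero_mem _
      | add a c ha hc => rw [map_add]; exact add_mem ha hc
      | tmul a z =>
        rw [cmap_tmul, ← Algebra.smul_def]
        exact Submodule.smul_mem _ _ (Submodule.subset_span ⟨z, rfl⟩)
    exact ⟨_, hmem a, _, hmem b, hb, rfl⟩

/-- The identity is an extension of constants. -/
protected theorem id : IsExt M₀ (AlgHom.id M₀ L₀) := by
  have h : ∀ w : M₀ ⊗[M₀] L₀,
      cmap M₀ (AlgHom.id M₀ L₀) w = Algebra.TensorProduct.lid M₀ L₀ w := by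
    intro w
    induction w using TensorProduct.induction_on with
    | zero => simp
    | add a c ha hc => simp [ha, hc]
    | tmul a z => simp [cmap_tmul, Algebra.smul_def]
  refine ⟨fun a b hab => (Algebra.TensorProduct.lid M₀ L₀).injective ?_, fun x => ?_⟩
  · rw [← h, ← h, hab]
  · exact ⟨1 ⊗ₜ x, 1 ⊗ₜ 1, by simp [h], by simp [h]⟩

end IsExt

section CExt

variable (M₀ M L₀) [IsAlgClosed M₀]

/-- The tensor product is a domain. -/
theorem isDomain_cext : IsDomain (M ⊗[M₀] L₀) := isDomain_tensorProduct M L₀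

instance avTorsDomainInst : IsDomain (M ⊗[M₀] L₀) := isDomain_cext M₀ M L₀

/-- The extension of constants. -/
abbrev CExt : Type u := FractionRing (M ⊗[M₀] L₀)

/-- The embedding into the extension of constants. -/
def cextHom : L₀ →ₐ[M₀] CExt M₀ M L₀ :=
  (IsScalarTower.toAlgHom M₀ (M ⊗[M₀] L₀) (CExt M₀ M L₀)).comp
    Algebra.TensorProduct.includeRight

theorem cmap_cextHom (w : M ⊗[M₀] L₀) :
    cmap M (cextHom M₀ M L₀) w = algebraMap (M ⊗[M₀] L₀) (CExt M₀ M L₀) w := by
  induction w using TensorProduct.induction_on with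
  | zero => simp
  | add a c ha hc => simp [ha, hc]
  | tmul a z =>
    rw [cmap_tmul, IsScalarTower.algebraMap_apply M (M ⊗[M₀] L₀) (CExt M₀ M L₀)]
    show _ * algebraMap _ _ ((1 : M) ⊗ₜ[M₀] z) = _
    rw [← map_mul, Algebra.TensorProduct.algebraMap_apply, Algebra.TensorProduct.tmul_mul_tmul,
      Algebra.algebraMap_self, RingHom.id_apply, mul_one, one_mul]

theorem isExt_cextHom : IsExt M (cextHom M₀ M L₀) := by
  refine ⟨fun a b h => ?_, fun x => ?_⟩
  · rw [cmap_cextHom, cmap_cextHom] at h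
    exact IsFractionRing.injective (M ⊗[M₀] L₀) (CExt M₀ M L₀) h
  · obtain ⟨a, b, hb, rfl⟩ := IsFractionRing.div_surjective (A := M ⊗[M₀] L₀) x
    refine ⟨a, b, ?_, by rw [cmap_cextHom, cmap_cextHom]⟩
    rw [cmap_cextHom]
    exact IsFractionRing.to_map_ne_zero_of_mem_nonZeroDivisors hb

end CExt

section Gauss

variable {K : Type u} [Field K] [Algebra K M₀] [Algebra K M] [IsScalarTower K M₀ M]
  {M' L' : Type u} [Field M'] [Algebra K M'] [Algebra M₀ M'] [Field L'] [Algebra M' L']
  [Algebra M₀ L'] [IsScalarTower M₀ M' L']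
  (R : KRes K M M')

/-- The residue map fixes `M₀`. -/
def FixesConst : Prop :=
  ∀ a : M₀, ∃ h : algebraMap M₀ M a ∈ R.V, R.π ⟨algebraMap M₀ M a, h⟩ = algebraMap M₀ M' a

variable {R} (hR : FixesConst (M₀ := M₀) R)

/-- The valuation ring as an algebra over the fixed constants. -/
def intSub : Subalgebra M₀ M :=
  { R.V.toSubring with algebraMap_mem' := fun a => (hR a).1 }

/-- The residue map as a homomorphism of algebras. -/
def resHom : intSub hR →ₐ[M₀] M' where
  toFun x := R.π ⟨x.1, x.2⟩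
  map_one' := map_one R.π
  map_mul' x y := map_mul R.π ⟨x.1, x.2⟩ ⟨y.1, y.2⟩
  map_zero' := map_zero R.π
  map_add' x y := map_add R.π ⟨x.1, x.2⟩ ⟨y.1, y.2⟩
  commutes' a := (hR a).2

variable (e : L₀ →ₐ[M₀] L) (e' : L₀ →ₐ[M₀] L')

/-- Integral combinations of the constant functions. -/
def intMap : (intSub hR) ⊗[M₀] L₀ →ₐ[M₀] L :=
  ((cmap M e).restrictScalars M₀).comp
    (Algebra.TensorProduct.map (intSub hR).val (AlgHom.id M₀ L₀))

/-- Their reductions. -/
def redMapT : (intSub hR) ⊗[M₀] L₀ →ₐ[M₀] L' :=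
  ((cmap M' e').restrictScalars M₀).comp
    (Algebra.TensorProduct.map (resHom hR) (AlgHom.id M₀ L₀))

theorem intMap_tmul (a : intSub hR) (z : L₀) :
    intMap hR e (a ⊗ₜ z) = algebraMap M L (a : M) * e z := by
  simp [intMap, cmap_tmul]

theorem redMapT_tmul (a : intSub hR) (z : L₀) :
    redMapT hR e' (a ⊗ₜ z) = algebraMap M' L' (R.π ⟨a.1, a.2⟩) * e' z := by
  simp [redMapT, cmap_tmul, resHom]

variable (he : IsExt M e) (he' : IsExt M' e') (hs : Function.Surjective R.π)
include he

theorem intMap_injective : Function.Injective (intMap hR e) :=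
  he.inj.comp (Module.Flat.rTensor_preserves_injective_linearMap (M := L₀)
    (intSub hR).val.toLinearMap Subtype.val_injective)

/-- `h` has reduction `w`. -/
def IsRedOf (h : L) (w : L') : Prop :=
  ∃ a b, redMapT hR e' b ≠ 0 ∧ h * intMap hR e b = intMap hR e a ∧
    w * redMapT hR e' b = redMapT hR e' a

theorem isRedOf_unique {h : L} {w w' : L'} (hw : IsRedOf hR e e' h w)
    (hw' : IsRedOf hR e e' h w') : w = w' := by
  obtain ⟨a, b, hb, h1, h2⟩ := hw
  obtain ⟨a', b', hb', h1', h2'⟩ := hw'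
  have : a * b' = a' * b := intMap_injective hR e he (by
    rw [map_mul, map_mul, ← h1, ← h1']; ring)
  have h3 : redMapT hR e' a * redMapT hR e' b' = redMapT hR e' a' * redMapT hR e' b := by
    rw [← map_mul, ← map_mul, this]
  rw [← h2, ← h2'] at h3
  have h4 : (w - w') * (redMapT hR e' b * redMapT hR e' b') = 0 := by linear_combination h3
  exact sub_eq_zero.mp ((mul_eq_zero.mp h4).resolve_right (mul_ne_zero hb hb'))

omit he in
theorem isRedOf_of_int (a : (intSub hR) ⊗[M₀] L₀) :
    IsRedOf hR e e' (intMap hR e a) (redMapT hR e' a) :=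
  ⟨a, 1, by rw [map_one]; exact one_ne_zero, by rw [map_one, mul_one], by rw [map_one, mul_one]⟩

omit he in
theorem IsRedOf.add {h h' : L} {w w' : L'} (hw : IsRedOf hR e e' h w)
    (hw' : IsRedOf hR e e' h' w') : IsRedOf hR e e' (h + h') (w + w') := by
  obtain ⟨a, b, hb, h1, h2⟩ := hw
  obtain ⟨a', b', hb', h1', h2'⟩ := hw'
  exact ⟨a * b' + a' * b, b * b', by rw [map_mul]; exact mul_ne_zero hb hb',
    by rw [map_add, map_mul, map_mul, map_mul, ← h1, ← h1']; ring,
    by rw [map_add, map_mul, map_mul, map_mul, ← h2, ← h2']; ring⟩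

omit he in
theorem IsRedOf.mul {h h' : L} {w w' : L'} (hw : IsRedOf hR e e' h w)
    (hw' : IsRedOf hR e e' h' w') : IsRedOf hR e e' (h * h') (w * w') := by
  obtain ⟨a, b, hb, h1, h2⟩ := hw
  obtain ⟨a', b', hb', h1', h2'⟩ := hw'
  exact ⟨a * a', b * b', by rw [map_mul]; exact mul_ne_zero hb hb',
    by rw [map_mul, map_mul, ← h1, ← h1']; ring,
    by rw [map_mul, map_mul, ← h2, ← h2']; ring⟩

omit he in
theorem IsRedOf.neg {h : L} {w : L'} (hw : IsRedOf hR e e' h w) :
    IsRedOf hR e e' (-h) (-w) := by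
  obtain ⟨a, b, hb, h1, h2⟩ := hw
  exact ⟨-a, b, hb, by rw [map_neg, ← h1]; ring, by rw [map_neg, ← h2]; ring⟩

/-- The Gauss valuation ring. -/
def gaussRing : Subring L where
  carrier := {h | ∃ w, IsRedOf hR e e' h w}
  zero_mem' := ⟨0, by simpa using isRedOf_of_int hR e e' 0⟩
  one_mem' := ⟨1, by simpa using isRedOf_of_int hR e e' 1⟩
  add_mem' := fun ⟨_, h⟩ ⟨_, h'⟩ => ⟨_, h.add hR e e' h'⟩
  mul_mem' := fun ⟨_, h⟩ ⟨_, h'⟩ => ⟨_, h.mul hR e e' h'⟩
  neg_mem' := fun ⟨_, h⟩ => ⟨_, h.neg hR e e'⟩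

open Classical in
/-- The Gauss reduction map. -/
def gaussFun (h : L) : L' := if hh : ∃ w, IsRedOf hR e e' h w then hh.choose else 0

theorem gaussFun_eq {h : L} {w : L'} (hw : IsRedOf hR e e' h w) : gaussFun hR e e' h = w := by
  rw [gaussFun, dif_pos ⟨w, hw⟩]
  exact isRedOf_unique hR e e' he (Exists.choose_spec (⟨w, hw⟩ : ∃ w, IsRedOf hR e e' h w)) hw

include he' hs

omit he in
theorem exists_redMapT_eq (w : M' ⊗[M₀] L₀) : ∃ a, redMapT hR e' a = cmap M' e' w := by
  induction w using TensorProduct.induction_on with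
  | zero => exact ⟨0, by rw [map_zero, map_zero]⟩
  | add a c ha hc =>
    obtain ⟨a', ha'⟩ := ha
    obtain ⟨c', hc'⟩ := hc
    exact ⟨a' + c', by rw [map_add, map_add, ha', hc']⟩
  | tmul c z =>
    obtain ⟨⟨a, ha⟩, rfl⟩ := hs c
    exact ⟨(⟨a, ha⟩ : intSub hR) ⊗ₜ z, by rw [redMapT_tmul, cmap_tmul]⟩

/-- The Gauss reduction of an extension of constants. -/
def constRed : Reduction.GaussRed R.V R.π L L' where
  V := gaussRing hR e e'
  red := gaussFun hR e e'
  red_one := gaussFun_eq hR e e' he (by simpa using isRedOf_of_int hR e e' 1)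
  red_add := by
    rintro y z ⟨w, hw⟩ ⟨w', hw'⟩
    rw [gaussFun_eq hR e e' he hw, gaussFun_eq hR e e' he hw',
      gaussFun_eq hR e e' he (hw.add hR e e' hw')]
  red_mul := by
    rintro y z ⟨w, hw⟩ ⟨w', hw'⟩
    rw [gaussFun_eq hR e e' he hw, gaussFun_eq hR e e' he hw',
      gaussFun_eq hR e e' he (hw.mul hR e e' hw')]
  const_mem a := ⟨algebraMap M' L' (R.π a), by
    have h := isRedOf_of_int hR e e' ((⟨a.1, a.2⟩ : intSub hR) ⊗ₜ (1 : L₀))
    rw [intMap_tmul, redMapT_tmul, map_one, mul_one, map_one, mul_one] at h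
    exact h⟩
  red_const a := by
    refine gaussFun_eq hR e e' he ?_
    have h := isRedOf_of_int hR e e' ((⟨a.1, a.2⟩ : intSub hR) ⊗ₜ (1 : L₀))
    rw [intMap_tmul, redMapT_tmul, map_one, mul_one, map_one, mul_one] at h
    exact h
  inv_mem := by
    rintro y ⟨w, hw⟩ hy
    rw [gaussFun_eq hR e e' he hw] at hy
    obtain ⟨a, b, hb, h1, h2⟩ := hw
    have ha : redMapT hR e' a ≠ 0 := by rw [← h2]; exact mul_ne_zero hy hb
    have hy0 : y ≠ 0 := fun h0 => ha (by
      rw [h0, zero_mul] at h1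
      rw [show a = 0 from intMap_injective hR e he (by rw [← h1, map_zero]), map_zero])
    refine ⟨w⁻¹, b, a, ha, ?_, ?_⟩
    · rw [← h1, ← mul_assoc, inv_mul_cancel₀ hy0, one_mul]
    · rw [← h2, ← mul_assoc, inv_mul_cancel₀ hy, one_mul]
  red_surj w := by
    obtain ⟨a, b, hb, rfl⟩ := he'.gen w
    obtain ⟨a', ha'⟩ := exists_redMapT_eq hR e' he' hs a
    obtain ⟨b', hb'⟩ := exists_redMapT_eq hR e' he' hs b
    have hb0 : intMap hR e b' ≠ 0 := fun h0 => hb (by
      rw [← hb', show b' = 0 from intMap_injective hR e he (by rw [h0, map_zero]), map_zero])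
    have h : IsRedOf hR e e' (intMap hR e a' / intMap hR e b') (cmap M' e' a / cmap M' e' b) :=
      ⟨a', b', by rw [hb']; exact hb, div_mul_cancel₀ _ hb0,
        by rw [hb', ha']; exact div_mul_cancel₀ _ hb⟩
    exact ⟨_, ⟨_, h⟩, gaussFun_eq hR e e' he h⟩
  res_surj := hs

/-- The Gauss reduction extends the identity of the base field. -/
theorem constRed_map (z : L₀) :
    e z ∈ (constRed hR e e' he he' hs).V ∧ (constRed hR e e' he he' hs).red (e z) = e' z := by
  have h := isRedOf_of_int hR e e' ((1 : intSub hR) ⊗ₜ z)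
  rw [intMap_tmul, redMapT_tmul] at h
  simp only [OneMemClass.coe_one, map_one, one_mul] at h
  have h1 : R.π ⟨(1 : M), (1 : intSub hR).2⟩ = 1 := map_one R.π
  rw [h1, map_one, one_mul] at h
  exact ⟨(⟨_, h⟩ : ∃ w, IsRedOf hR e e' (e z) w), gaussFun_eq hR e e' he h⟩

end Gauss

end FLTAgent.AbVarTors
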