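import Mathlib
import Fermat.Agent.AbVarTors.Basic

/-!
# Residue maps and specialisation

Calculus of residue maps trivial on the ground field: an embedding as a residue map
(`KRes.ofAlgHom`), pullback along an embedding (`KRes.comap`), composition (`KRes.comp`).
For the points of an `AVData` this gives the arithmetic of values and local rings, the
functoriality of specialisation (`spec_comp`, `spec_map`, `spec_eq_of_val`) and the dictionary
between generic points and embeddings of the function field (`genHom`, `ofHom_genHom`).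
-/

set_option autoImplicit false

universe u

noncomputable section

namespace FLTAgent.AbVarTors

variable {K : Type u} [Field K]
variable {E E' k k' m : Type u} [Field E] [Algebra K E] [Field E'] [Algebra K E'] [Field k]
  [Algebra K k] [Field k'] [Algebra K k'] [Field m] [Algebra K m]

namespace KRes

/-- The residue map on `K`. -/
theorem π_algebraMap' (R : KRes K E k) (a : K) (h : algebraMap K E a ∈ R.V) :
    R.π ⟨algebraMap K E a, h⟩ = algebraMap K k a := R.map_algebraMap a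

theorem π_congr (R : KRes K E k) {a b : E} (ha : a ∈ R.V) (hb : b ∈ R.V) (h : a = b) :
    R.π ⟨a, ha⟩ = R.π ⟨b, hb⟩ := congrArg R.π (Subtype.ext h)

/-- An element with nonzero residue has an integral inverse. -/
theorem inv_mem_of_ne (R : KRes K E k) {a : E} (ha : a ∈ R.V) (h : R.π ⟨a, ha⟩ ≠ 0) :
    a⁻¹ ∈ R.V := by
  obtain ⟨u, hu⟩ := R.isUnit_of_ne ⟨a, ha⟩ h
  have h1 : a * ((u⁻¹ : R.Vˣ) : R.V) = 1 := by
    have := congrArg Subtype.val u.mul_inv
    rwa [hu] at this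
  rw [inv_eq_of_mul_eq_one_right h1]
  exact ((u⁻¹ : R.Vˣ) : R.V).2

/-- An embedding as a residue map. -/
def ofAlgHom (σ : E →ₐ[K] k) : KRes K E k where
  V := ⊤
  mem _ := ValuationSubring.mem_top _
  π := σ.toRingHom.comp (⊤ : ValuationSubring E).subtype
  map_algebraMap a := σ.commutes a
  isUnit_of_ne x hx := by
    have hx0 : (x : E) ≠ 0 := fun h => hx (by
      show σ ((x : E)) = 0
      rw [h, map_zero])
    exact ⟨⟨x, ⟨(x : E)⁻¹, ValuationSubring.mem_top _⟩, Subtype.ext (mul_inv_cancel₀ hx0),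
      Subtype.ext (inv_mul_cancel₀ hx0)⟩, rfl⟩

@[simp] theorem mem_ofAlgHom (σ : E →ₐ[K] k) (x : E) : x ∈ (ofAlgHom σ).V := ValuationSubring.mem_top x

theorem π_ofAlgHom (σ : E →ₐ[K] k) (x : (ofAlgHom σ).V) : (ofAlgHom σ).π x = σ (x : E) := rfl

/-- Pullback of a residue map along an embedding. -/
def comap (R : KRes K E' k) (σ : E →ₐ[K] E') : KRes K E k where
  V := R.V.comap σ.toRingHom
  mem a := by
    show σ (algebraMap K E a) ∈ R.V
    rw [σ.commutes]
    exact R.mem a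
  π := R.π.comp ((σ.toRingHom.comp (R.V.comap σ.toRingHom).subtype).codRestrict R.V.toSubring
    fun x => x.2)
  map_algebraMap a := by
    refine (R.π_congr ?_ (R.mem a) (σ.commutes a)).trans (R.map_algebraMap a)
  isUnit_of_ne x hx := by
    have hinv : σ (x : E)⁻¹ ∈ R.V := by
      rw [map_inv₀]
      exact R.inv_mem_of_ne x.2 hx
    have hx0 : (x : E) ≠ 0 := fun h => hx (by
      exact (R.π_congr x.2 R.V.zero_mem ((congrArg σ h).trans (map_zero σ))).trans (map_zero R.π))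
    exact ⟨⟨x, ⟨(x : E)⁻¹, hinv⟩, Subtype.ext (mul_inv_cancel₀ hx0),
      Subtype.ext (inv_mul_cancel₀ hx0)⟩, rfl⟩

theorem mem_comap (R : KRes K E' k) (σ : E →ₐ[K] E') (x : E) :
    x ∈ (R.comap σ).V ↔ σ x ∈ R.V := Iff.rfl

theorem π_comap (R : KRes K E' k) (σ : E →ₐ[K] E') (x : E) (h : x ∈ (R.comap σ).V) :
    (R.comap σ).π ⟨x, h⟩ = R.π ⟨σ x, h⟩ := rfl

/-- The composite of two residue maps. -/
def comp (R : KRes K E k) (S : KRes K k m) : KRes K E m where
  V :=
    { carrier := {x | ∃ h : x ∈ R.V, R.π ⟨x, h⟩ ∈ S.V}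
      zero_mem' := ⟨R.V.zero_mem, by
        show R.π 0 ∈ S.V
        rw [map_zero]; exact S.V.zero_mem⟩
      one_mem' := ⟨R.V.one_mem, by
        show R.π 1 ∈ S.V
        rw [map_one]; exact S.V.one_mem⟩
      add_mem' := by
        rintro a b ⟨ha, ha'⟩ ⟨hb, hb'⟩
        refine ⟨R.V.add_mem _ _ ha hb, ?_⟩
        show R.π (⟨a, ha⟩ + ⟨b, hb⟩) ∈ S.V
        rw [map_add]; exact S.V.add_mem _ _ ha' hb'
      mul_mem' := by
        rintro a b ⟨ha, ha'⟩ ⟨hb, hb'⟩
        refine ⟨R.V.mul_mem _ _ ha hb, ?_⟩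
        show R.π (⟨a, ha⟩ * ⟨b, hb⟩) ∈ S.V
        rw [map_mul]; exact S.V.mul_mem _ _ ha' hb'
      neg_mem' := by
        rintro a ⟨ha, ha'⟩
        refine ⟨R.V.neg_mem _ ha, ?_⟩
        show R.π (-⟨a, ha⟩) ∈ S.V
        rw [map_neg]; exact S.V.neg_mem _ ha'
      mem_or_inv_mem' := fun a => by
        by_cases ha : a ∈ R.V
        · by_cases hz : R.π ⟨a, ha⟩ = 0
          · exact Or.inl ⟨ha, by rw [hz]; exact S.V.zero_mem⟩
          have hai := R.inv_mem_of_ne ha hz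
          rcases S.V.mem_or_inv_mem (R.π ⟨a, ha⟩) with h | h
          · exact Or.inl ⟨ha, h⟩
          · refine Or.inr ⟨hai, ?_⟩
            have h1 : R.π ⟨a, ha⟩ * R.π ⟨a⁻¹, hai⟩ = 1 := by
              rw [← map_mul, ← map_one R.π]
              refine congrArg R.π (Subtype.ext (mul_inv_cancel₀ ?_))
              rintro rfl
              exact hz (map_zero R.π)
            rw [← inv_eq_of_mul_eq_one_right h1]
            exact h
        · have hai := (R.V.mem_or_inv_mem a).resolve_left ha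
          refine Or.inr ⟨hai, ?_⟩
          have : R.π ⟨a⁻¹, hai⟩ = 0 := by
            by_contra hz
            exact ha (inv_inv a ▸ R.inv_mem_of_ne hai hz)
          rw [this]; exact S.V.zero_mem }
  mem a := ⟨R.mem a, by rw [R.map_algebraMap]; exact S.mem a⟩
  π :=
    { toFun := fun x => S.π ⟨R.π ⟨x.1, x.2.choose⟩, x.2.choose_spec⟩
      map_one' := (S.π_congr _ S.V.one_mem (map_one R.π)).trans (map_one S.π)
      map_mul' := fun x y => by
        rw [← map_mul]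
        exact congrArg S.π (Subtype.ext (map_mul R.π ⟨x.1, x.2.choose⟩ ⟨y.1, y.2.choose⟩))
      map_zero' := (S.π_congr _ S.V.zero_mem (map_zero R.π)).trans (map_zero S.π)
      map_add' := fun x y => by
        rw [← map_add]
        exact congrArg S.π (Subtype.ext (map_add R.π ⟨x.1, x.2.choose⟩ ⟨y.1, y.2.choose⟩)) }
  map_algebraMap a := by
    exact (S.π_congr _ (S.mem a) (R.map_algebraMap a)).trans (S.map_algebraMap a)
  isUnit_of_ne x hx := by
    obtain ⟨h1, h2⟩ := x.2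
    have hz : R.π ⟨x.1, h1⟩ ≠ 0 := fun h => hx (by
      exact (S.π_congr _ S.V.zero_mem h).trans (map_zero S.π))
    have hx0 : (x : E) ≠ 0 := fun h => hz (by
      rw [R.π_congr h1 R.V.zero_mem h]; exact map_zero R.π)
    have hai := R.inv_mem_of_ne h1 hz
    have hi : R.π ⟨(x : E)⁻¹, hai⟩ = (R.π ⟨x.1, h1⟩)⁻¹ := by
      refine (inv_eq_of_mul_eq_one_right ?_).symm
      exact (map_mul R.π _ _).symm.trans
        ((congrArg R.π (Subtype.ext (mul_inv_cancel₀ hx0))).trans (map_one R.π))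
    have hmem : R.π ⟨(x : E)⁻¹, hai⟩ ∈ S.V := by
      rw [hi]; exact S.inv_mem_of_ne h2 hx
    exact ⟨⟨x, ⟨(x : E)⁻¹, hai, hmem⟩, Subtype.ext (mul_inv_cancel₀ hx0),
      Subtype.ext (inv_mul_cancel₀ hx0)⟩, rfl⟩

theorem mem_comp (R : KRes K E k) (S : KRes K k m) (x : E) :
    x ∈ (R.comp S).V ↔ ∃ h : x ∈ R.V, R.π ⟨x, h⟩ ∈ S.V := Iff.rfl

theorem π_comp (R : KRes K E k) (S : KRes K k m) (x : E) (h : x ∈ (R.comp S).V) (h1 : x ∈ R.V)
    (h2 : R.π ⟨x, h1⟩ ∈ S.V) : (R.comp S).π ⟨x, h⟩ = S.π ⟨R.π ⟨x, h1⟩, h2⟩ := rfl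

end KRes

namespace AVData

variable {g : ℕ} (D : AVData K g)

theorem val_mem (P : D.Pt E) {x : D.F} (h : x ∈ D.loc P) : D.ev P ⟨x, h⟩ = D.val P x :=
  (D.val_eq P h).symm

theorem val_add (P : D.Pt E) {x y : D.F} (hx : x ∈ D.loc P) (hy : y ∈ D.loc P) :
    D.val P (x + y) = D.val P x + D.val P y := by
  rw [D.val_eq P hx, D.val_eq P hy, D.val_eq P (add_mem hx hy), ← map_add]
  rfl

theorem val_mul (P : D.Pt E) {x y : D.F} (hx : x ∈ D.loc P) (hy : y ∈ D.loc P) :
    D.val P (x * y) = D.val P x * D.val P y := by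
  rw [D.val_eq P hx, D.val_eq P hy, D.val_eq P (mul_mem hx hy), ← map_mul]
  rfl

theorem val_one (P : D.Pt E) : D.val P 1 = 1 := by
  rw [D.val_eq P (one_mem _)]
  exact map_one (D.ev P)

theorem val_algebraMap (P : D.Pt E) (a : K) : D.val P (algebraMap K D.F a) = algebraMap K E a := by
  rw [D.val_eq P ((D.loc P).algebraMap_mem a)]
  exact (D.ev P).commutes a

theorem isUnit_iff_val (P : D.Pt E) {x : D.F} (hx : x ∈ D.loc P) :
    IsUnit (⟨x, hx⟩ : D.loc P) ↔ D.val P x ≠ 0 := by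
  rw [D.val_eq P hx]
  exact ⟨fun h => (h.map (D.ev P)).ne_zero, D.isUnit_of_ev_ne P _⟩

theorem inv_mem_loc (P : D.Pt E) {x : D.F} (hx : x ∈ D.loc P) (h : D.val P x ≠ 0) :
    x⁻¹ ∈ D.loc P := by
  obtain ⟨u, hu⟩ := (D.isUnit_iff_val P hx).mpr h
  have h1 : x * (((u⁻¹ : (D.loc P)ˣ) : D.loc P) : D.F) = 1 := by
    have := congrArg Subtype.val u.mul_inv
    rwa [hu] at this
  rw [inv_eq_of_mul_eq_one_right h1]
  exact ((u⁻¹ : (D.loc P)ˣ) : D.loc P).2

theorem val_ne_zero_of_inv_mem (P : D.Pt E) {x : D.F} (hx0 : x ≠ 0) (hx : x ∈ D.loc P)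
    (hi : x⁻¹ ∈ D.loc P) : D.val P x ≠ 0 := fun h => by
  have h1 := D.val_mul P hx hi
  rw [mul_inv_cancel₀ hx0, D.val_one, h, zero_mul] at h1
  exact one_ne_zero h1

theorem val_inv (P : D.Pt E) {x : D.F} (hx0 : x ≠ 0) (hx : x ∈ D.loc P)
    (hi : x⁻¹ ∈ D.loc P) : D.val P x⁻¹ = (D.val P x)⁻¹ := by
  refine (inv_eq_of_mul_eq_one_right ?_).symm
  rw [← D.val_mul P hx hi, mul_inv_cancel₀ hx0, D.val_one]

/-- Extensionality in terms of values. -/
theorem ext_val {P Q : D.Pt E} (h : D.loc P = D.loc Q)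
    (hv : ∀ x ∈ D.loc P, D.val P x = D.val Q x) : P = Q :=
  D.ext h fun x hP hQ => by rw [D.val_mem, D.val_mem, hv x hP]

theorem val_map (σ : E →ₐ[K] E') (P : D.Pt E) (x : D.F) :
    D.val (D.map σ P) x = σ (D.val P x) := by
  by_cases h : x ∈ D.loc P
  · have h' : x ∈ D.loc (D.map σ P) := (D.loc_map σ P).symm ▸ h
    rw [D.val_eq P h, D.val_eq _ h']
    exact D.ev_map σ P x h' h
  · rw [val, val, dif_neg h, dif_neg fun h' => h ((D.loc_map σ P) ▸ h'), map_zero]

theorem map_injective (σ : E →ₐ[K] E') : Function.Injective (D.map σ) := fun P Q h => by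
  refine D.ext_val ((D.loc_map σ P).symm.trans ((congrArg D.loc h).trans (D.loc_map σ Q)))
    fun x _ => σ.toRingHom.injective ?_
  exact (D.val_map σ P x).symm.trans ((congrArg (D.val · x) h).trans (D.val_map σ Q x))

theorem spec_val (R : KRes K E k) (P : D.Pt E) {x : D.F} (h : x ∈ D.loc (D.spec R P)) :
    ∃ hV : D.val P x ∈ R.V, R.π ⟨D.val P x, hV⟩ = D.val (D.spec R P) x := by
  have h' : x ∈ D.loc P := D.loc_spec_le R P h
  rw [D.val_eq P h', D.val_eq _ h]
  exact D.ev_spec R P x h h'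

theorem val_spec_mem (R : KRes K E k) (P : D.Pt E) {x : D.F} (h : x ∈ D.loc (D.spec R P)) :
    D.val P x ∈ R.V := (D.spec_val R P h).choose

theorem val_spec_eq (R : KRes K E k) (P : D.Pt E) {x : D.F} (h : x ∈ D.loc (D.spec R P)) :
    R.π ⟨D.val P x, D.val_spec_mem R P h⟩ = D.val (D.spec R P) x := (D.spec_val R P h).choose_spec

theorem spec_eq_of_val (R : KRes K E k) (P : D.Pt E) (Q : D.Pt k) (hle : D.loc Q ≤ D.loc P)
    (h : ∀ x ∈ D.loc Q, ∃ hV : D.val P x ∈ R.V, R.π ⟨D.val P x, hV⟩ = D.val Q x) :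
    D.spec R P = Q := by
  refine D.spec_unique R P Q hle fun f hQ hP => ?_
  rw [D.val_mem, D.val_mem]
  exact h f hQ

theorem spec_comp (R : KRes K E k) (S : KRes K k m) (P : D.Pt E) :
    D.spec (R.comp S) P = D.spec S (D.spec R P) := by
  refine D.spec_eq_of_val _ _ _ ((D.loc_spec_le _ _).trans (D.loc_spec_le _ _)) fun x hx => ?_
  have h1 := D.loc_spec_le S _ hx
  have h2 : R.π ⟨D.val P x, D.val_spec_mem R P h1⟩ ∈ S.V := by
    rw [D.val_spec_eq R P h1]; exact D.val_spec_mem S _ hx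
  exact ⟨⟨D.val_spec_mem R P h1, h2⟩,
    (S.π_congr h2 (D.val_spec_mem S _ hx) (D.val_spec_eq R P h1)).trans (D.val_spec_eq S _ hx)⟩

theorem spec_map' (R : KRes K E' k) (σ : E →ₐ[K] E') (P : D.Pt E) :
    D.spec R (D.map σ P) = D.spec (R.comap σ) P := by
  refine D.spec_eq_of_val _ _ _ ?_ fun x hx => ?_
  · exact (D.loc_spec_le _ _).trans (D.loc_map σ P).ge
  · have h1 := D.val_spec_mem (R.comap σ) P hx
    have h2 : D.val (D.map σ P) x ∈ R.V := by rw [D.val_map]; exact h1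
    refine ⟨h2, ?_⟩
    rw [R.π_congr h2 h1 (D.val_map σ P x)]
    exact D.val_spec_eq (R.comap σ) P hx

/-- Naturality of specialisation. -/
theorem spec_map (R : KRes K E' k') (R₀ : KRes K E k) (σ : E →ₐ[K] E') (τ : k →ₐ[K] k')
    (h : ∀ (a : E) (ha : a ∈ R₀.V), ∃ ha' : σ a ∈ R.V, R.π ⟨σ a, ha'⟩ = τ (R₀.π ⟨a, ha⟩))
    (P : D.Pt E) : D.spec R (D.map σ P) = D.map τ (D.spec R₀ P) := by
  refine D.spec_eq_of_val _ _ _ ?_ fun x hx => ?_
  · rw [D.loc_map, D.loc_map]; exact D.loc_spec_le _ _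
  · rw [D.loc_map] at hx
    obtain ⟨h1, h2⟩ := h _ (D.val_spec_mem R₀ P hx)
    have h3 : D.val (D.map σ P) x ∈ R.V := by rw [D.val_map]; exact h1
    refine ⟨h3, ?_⟩
    rw [R.π_congr h3 h1 (D.val_map σ P x), h2, D.val_spec_eq R₀ P hx, D.val_map]

theorem spec_ofAlgHom (σ : E →ₐ[K] k) (P : D.Pt E) :
    D.spec (KRes.ofAlgHom σ) P = D.map σ P := by
  refine D.spec_eq_of_val _ _ _ (D.loc_map σ P).le fun x _ => ⟨ValuationSubring.mem_top _, ?_⟩
  rw [D.val_map]
  rfl

theorem val_η (x : D.F) : D.val D.η x = x := by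
  rw [D.val_eq D.η (D.loc_η ▸ Algebra.mem_top)]
  exact D.ev_η _ _

theorem loc_ofHom (σ : D.F →ₐ[K] E) : D.loc (D.ofHom σ) = ⊤ := by
  rw [ofHom, D.loc_map, D.loc_η]

theorem val_ofHom (σ : D.F →ₐ[K] E) (x : D.F) : D.val (D.ofHom σ) x = σ x := by
  rw [ofHom, D.val_map, D.val_η]

/-- The embedding of the function field given by a generic point. -/
def genHom (P : D.Pt E) (h : D.loc P = ⊤) : D.F →ₐ[K] E :=
  (D.ev P).comp ((Subalgebra.equivOfEq _ _ h).symm.toAlgHom.comp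
    (Subalgebra.topEquiv (R := K) (A := D.F)).symm.toAlgHom)

theorem genHom_apply (P : D.Pt E) (h : D.loc P = ⊤) (x : D.F) : D.genHom P h x = D.val P x := by
  rw [D.val_eq P (h ▸ Algebra.mem_top)]
  rfl

theorem ofHom_genHom (P : D.Pt E) (h : D.loc P = ⊤) : D.ofHom (D.genHom P h) = P :=
  D.ext_val (by rw [D.loc_ofHom, h]) fun x _ => by rw [D.val_ofHom, genHom_apply]

end AVData

end FLTAgent.AbVarTors
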