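import Mathlib

/-!
# Transcendence degree and quotients

A surjection of domains with nonzero kernel lowers the transcendence degree by at least one
(`trdeg_add_one_le`: lift a transcendence basis and add an element of the kernel). Also the degree
of a polynomial ring in one variable (`trdeg_polynomial`) and the existence of a polynomial
relation among more elements than the transcendence degree (`exists_relation`).
-/

set_option autoImplicit false
set_option linter.style.haveILetI false

universe u

noncomputable section

namespace FLTAgent.AbVarTors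

/-- A surjection of domains with nonzero kernel lowers the transcendence degree. -/
theorem trdeg_add_one_le {K A B : Type u} [Field K] [CommRing A] [IsDomain A] [Algebra K A]
    [CommRing B] [IsDomain B] [Algebra K B] (φ : A →ₐ[K] B) (hφ : Function.Surjective φ)
    {f : A} (hf0 : f ≠ 0) (hf : φ f = 0) :
    Algebra.trdeg K B + 1 ≤ Algebra.trdeg K A := by
  obtain ⟨ι, x, hx⟩ := exists_isTranscendenceBasis' K B
  choose y hy using fun i => hφ (x i)
  have hyx : φ ∘ y = x := funext hy
  have hind : AlgebraicIndependent K y := AlgebraicIndependent.of_comp φ (hyx ▸ hx.1)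
  have htr : Transcendental (Algebra.adjoin K (Set.range y)) f := by
    rintro ⟨p, hp0, hp⟩
    obtain ⟨q, hpq, hq⟩ := p.exists_eq_pow_rootMultiplicity_mul_and_not_dvd hp0 0
    rw [Polynomial.C_0, sub_zero, Polynomial.X_dvd_iff] at hq
    rw [hpq, map_mul, map_pow, Polynomial.C_0, sub_zero, Polynomial.aeval_X] at hp
    have hq' : Polynomial.aeval f q = 0 :=
      (mul_eq_zero.mp hp).resolve_left (pow_ne_zero _ hf0)
    rw [← Polynomial.X_mul_divX_add q, map_add, map_mul, Polynomial.aeval_X,
      Polynomial.aeval_C] at hq'
    have h0 : φ ((q.coeff 0 : Algebra.adjoin K (Set.range y)) : A) = 0 := by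
      have h := congrArg φ hq'
      rw [map_add, map_mul, hf, zero_mul, zero_add, map_zero] at h
      exact h
    obtain ⟨P, hP⟩ : ((q.coeff 0 : Algebra.adjoin K (Set.range y)) : A) ∈
        (MvPolynomial.aeval (R := K) y).range := by
      rw [← Algebra.adjoin_range_eq_range_aeval]
      exact (q.coeff 0).2
    have hP0 : P = 0 := hx.1.eq_zero_of_aeval_eq_zero P (by
      rw [← hyx, Function.comp_def, ← MvPolynomial.comp_aeval_apply]
      rw [← hP] at h0
      exact h0)
    exact hq (Subtype.ext (by rw [← hP, hP0, map_zero]; rfl))
  have hopt := (hind.option_iff_transcendental f).mpr htr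
  calc Algebra.trdeg K B + 1 = Cardinal.mk (Option ι) := by
        rw [Cardinal.mk_option, hx.cardinalMk_eq_trdeg]
    _ ≤ Algebra.trdeg K A := hopt.cardinalMk_le_trdeg

/-- The transcendence degree of a polynomial ring in one variable. -/
theorem trdeg_polynomial {K B : Type u} [Field K] [CommRing B] [IsDomain B] [Algebra K B] :
    Algebra.trdeg K (Polynomial B) = Algebra.trdeg K B + 1 := by
  haveI : FaithfulSMul K B :=
    (faithfulSMul_iff_algebraMap_injective K B).mpr (algebraMap K B).injective
  rw [← trdeg_add_eq K B (A := Polynomial B), Polynomial.trdeg_of_isDomain]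

/-- More elements than the transcendence degree satisfy a relation. -/
theorem exists_relation {K B : Type u} [Field K] [CommRing B] [Algebra K B] {n : ℕ}
    (h : Algebra.trdeg K B < n) (x : Fin n → B) :
    ∃ f : MvPolynomial (Fin n) K, f ≠ 0 ∧ MvPolynomial.aeval x f = 0 := by
  by_contra hc
  push Not at hc
  have hx : AlgebraicIndependent K x :=
    algebraicIndependent_iff.mpr fun f hf => by_contra fun h0 => hc f h0 hf
  have h' := hx.lift_cardinalMk_le_trdeg
  rw [Cardinal.mk_fin, Cardinal.lift_natCast, Cardinal.lift_id'] at h'
  exact (h'.trans_lt h).false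

end FLTAgent.AbVarTors
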