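import Mathlib
import Fermat.Agent.AbVarTors.Residue
import Fermat.Agent.AbVarTors.TrdegDrop
import Fermat.Agent.FF.Defs

/-!
# Fields of definition of points

Points with values in a subfield descend to it (`exists_descend`), the field generated by the
coordinates of a point is finitely generated and behaves well under the group law and
specialisation (`trdeg_adjoin_ev_spec_le`), a point is generic exactly when that field has
transcendence degree `g` (`loc_eq_top_or_trdeg_lt`, `loc_eq_top_of_trdeg`), and curves give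
function fields of one variable (`isFF_of_fg`). Also the inversion `negHom` of the function field
and `g` algebraically independent even functions (`exists_even_algebraicIndependent`).
-/

set_option autoImplicit false
set_option linter.style.haveILetI false
set_option linter.unusedSectionVars false

universe u

noncomputable section

open IntermediateField
open scoped IntermediateField.algebraAdjoinAdjoin

namespace FLTAgent.AbVarTors

variable {K : Type u} [Field K]

section FieldTheory

/-- Enlarging the ground field does not raise the transcendence degree of a generated field. -/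
theorem trdeg_adjoin_le_of_tower {k E : Type u} [Field k] [Algebra K k] [Field E] [Algebra K E]
    [Algebra k E] [IsScalarTower K k E] (s : Set E) :
    Algebra.trdeg k (adjoin k s) ≤ Algebra.trdeg K (adjoin K s) := by
  let s' : Set (adjoin k s) := Subtype.val ⁻¹' s
  haveI : Algebra.IsAlgebraic (Algebra.adjoin k s') (adjoin k s) := by
    have htop : adjoin k s' = ⊤ := by
      apply IntermediateField.lift_injective
      rw [lift_top, lift_adjoin]
      congr 1
      exact Set.image_preimage_eq_of_subset fun x hx => ⟨⟨x, subset_adjoin k s hx⟩, rfl⟩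
    rw [← IntermediateField.isAlgebraic_adjoin_iff_top, htop,
      Algebra.isAlgebraic_iff_isIntegral]
    exact Algebra.isIntegral_of_surjective IntermediateField.topEquiv.surjective
  obtain ⟨t, hts, ht⟩ := exists_isTranscendenceBasis_subset (R := k) s'
  rw [← ht.cardinalMk_eq_trdeg]
  let y : t → adjoin K s := fun z => ⟨(z.1 : E), subset_adjoin K s (hts z.2)⟩
  have hk : AlgebraicIndependent k (fun z : t => (z.1 : E)) :=
    ht.1.map' (f := (adjoin k s).val) Subtype.val_injective
  have hK : AlgebraicIndependent K (fun z : t => (z.1 : E)) :=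
    hk.restrictScalars (algebraMap K k).injective
  have hy : AlgebraicIndependent K y := AlgebraicIndependent.of_comp (adjoin K s).val hK
  exact hy.cardinalMk_le_trdeg

/-- The field generated by an algebra has the same transcendence degree. -/
theorem trdeg_adjoin_le_subalgebra {E : Type u} [Field E] [Algebra K E] (B : Subalgebra K E) :
    Algebra.trdeg K (adjoin K (B : Set E)) ≤ Algebra.trdeg K B := by
  rw [← trdeg_add_eq K (Algebra.adjoin K (B : Set E)) (A := adjoin K (B : Set E)),
    trdeg_eq_zero (R := Algebra.adjoin K (B : Set E)) (A := adjoin K (B : Set E)), add_zero]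
  exact (Subalgebra.equivOfEq _ _ (Algebra.adjoin_eq B)).trdeg_eq.le

/-- A finitely generated extension of transcendence degree one of an algebraically closed field is
a function field of one variable with a separating element. -/
theorem isFF_of_fg {M L : Type u} [Field M] [IsAlgClosed M] [Field L] [Algebra M L]
    (hfg : (⊤ : IntermediateField M L).FG) (htr : Algebra.trdeg M L = 1) : FF.IsFF M L := by
  haveI : Algebra.EssFiniteType M L := IntermediateField.fg_top_iff.mp hfg
  obtain ⟨s, hs, hsep⟩ := exists_isTranscendenceBasis_and_isSeparable_of_perfectField M L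
  have hcard : s.card = 1 := by
    have h := hs.cardinalMk_eq_trdeg
    rw [htr, Cardinal.mk_coe_finset] at h
    exact_mod_cast h
  obtain ⟨x, rfl⟩ := Finset.card_eq_one.mp hcard
  rw [Finset.coe_singleton] at hsep
  refine ⟨⟨x, ?_, ?_, hsep⟩⟩
  · exact hs.1.transcendental ⟨x, Finset.mem_singleton_self x⟩
  · haveI : Algebra.IsAlgebraic (adjoin M ({x} : Set L)) L := Algebra.IsSeparable.isAlgebraic _ _
    haveI : Algebra.EssFiniteType (adjoin M ({x} : Set L)) L :=
      Algebra.EssFiniteType.of_comp M _ L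
    exact Algebra.finite_of_essFiniteType_of_isAlgebraic

end FieldTheory

namespace AVData

variable {g : ℕ} (D : AVData K g) {E E₀ : Type u} [Field E] [Algebra K E] [Field E₀] [Algebra K E₀]

theorem val_sub (P : D.Pt E) {x y : D.F} (hx : x ∈ D.loc P) (hy : y ∈ D.loc P) :
    D.val P (x - y) = D.val P x - D.val P y := by
  rw [D.val_eq P hx, D.val_eq P hy, D.val_eq P (sub_mem hx hy), ← map_sub]
  rfl

/-- Off the local ring the value is zero, so ranges may be tested on the local ring. -/
theorem val_of_notMem (P : D.Pt E) {x : D.F} (h : x ∉ D.loc P) : D.val P x = 0 := by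
  rw [val, dif_neg h]

theorem range_ev_eq (P : D.Pt E) : Set.range (D.ev P) = D.val P '' (D.loc P : Set D.F) := by
  ext e
  constructor
  · rintro ⟨x, rfl⟩
    exact ⟨x, x.2, D.val_eq P x.2⟩
  · rintro ⟨x, hx, rfl⟩
    exact ⟨⟨x, hx⟩, (D.val_eq P hx).symm⟩

theorem range_ev_subset_iff (P : D.Pt E) (s : Set E) :
    Set.range (D.ev P) ⊆ s ↔ ∀ x ∈ D.loc P, D.val P x ∈ s := by
  rw [range_ev_eq, Set.image_subset_iff]
  rfl

theorem range_ev_map (σ : E₀ →ₐ[K] E) (P : D.Pt E₀) :
    Set.range (D.ev (D.map σ P)) = σ '' Set.range (D.ev P) := by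
  rw [range_ev_eq, range_ev_eq, Set.image_image, D.loc_map]
  exact Set.image_congr fun x _ => D.val_map σ P x

theorem resField_map (σ : E₀ →ₐ[K] E) (P : D.Pt E₀) :
    D.resField (D.map σ P) = (D.resField P).map σ := by
  rw [resField, resField, adjoin_map, range_ev_map]

/-- Values on a chart determine a point. -/
theorem ext_chart {P Q : D.Pt E} {S : Finset D.F} (hS : S ∈ D.charts)
    (hP : ∀ f ∈ S, f ∈ D.loc P) (hQ : ∀ f ∈ S, f ∈ D.loc Q)
    (h : ∀ a ∈ Algebra.adjoin K (S : Set D.F), D.val P a = D.val Q a) : P = Q := by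
  have key : ∀ {P Q : D.Pt E}, (∀ f ∈ S, f ∈ D.loc P) → (∀ f ∈ S, f ∈ D.loc Q) →
      (∀ a ∈ Algebra.adjoin K (S : Set D.F), D.val P a = D.val Q a) →
      ∀ z ∈ D.loc P, z ∈ D.loc Q ∧ D.val P z = D.val Q z := by
    intro P Q hP hQ h z hz
    obtain ⟨a, ha, s, hs, hsP, hs0, hzs⟩ := D.chart_loc P S hS hP z hz
    rw [D.val_mem] at hs0
    have hsQ : s ∈ D.loc Q := Algebra.adjoin_le (fun f hf => hQ f hf) hs
    have haQ : a ∈ D.loc Q := Algebra.adjoin_le (fun f hf => hQ f hf) ha
    have hs0' : D.val Q s ≠ 0 := h s hs ▸ hs0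
    have hsne : s ≠ 0 := by
      rintro rfl
      exact hs0' (by rw [D.val_eq Q hsQ]; exact map_zero (D.ev Q))
    have hzQ : z ∈ D.loc Q := by
      rw [← mul_inv_cancel_right₀ hsne z, hzs]
      exact mul_mem haQ (D.inv_mem_loc Q hsQ hs0')
    refine ⟨hzQ, mul_right_cancel₀ hs0 ?_⟩
    conv_rhs => rw [h s hs]
    rw [← D.val_mul P hz hsP, ← D.val_mul Q hzQ hsQ, hzs]
    exact h a ha
  exact D.ext_val (le_antisymm (fun z hz => (key hP hQ h z hz).1)
    fun z hz => (key hQ hP (fun a ha => (h a ha).symm) z hz).1) fun z hz => (key hP hQ h z hz).2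

/-- A point with values in a subfield comes from it. -/
theorem exists_descend (σ : E₀ →ₐ[K] E) (P : D.Pt E) (h : Set.range (D.ev P) ⊆ Set.range σ) :
    ∃ P₀ : D.Pt E₀, D.map σ P₀ = P := by
  obtain ⟨S, hS, hP⟩ := D.cover P
  have hC : Algebra.adjoin K (S : Set D.F) ≤ D.loc P := Algebra.adjoin_le fun f hf => hP f hf
  let φ : Algebra.adjoin K (S : Set D.F) →ₐ[K] E₀ :=
    (AlgEquiv.ofInjective σ σ.toRingHom.injective).symm.toAlgHom.comp
      (((D.ev P).comp (Subalgebra.inclusion hC)).codRestrict σ.range fun a => h ⟨_, rfl⟩)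
  have hφ : ∀ a, σ (φ a) = D.ev P (Subalgebra.inclusion hC a) := fun a =>
    congrArg Subtype.val ((AlgEquiv.ofInjective σ σ.toRingHom.injective).apply_symm_apply
      (((D.ev P).comp (Subalgebra.inclusion hC)).codRestrict σ.range (fun a => h ⟨_, rfl⟩) a))
  obtain ⟨P₀, hP₀⟩ := D.chart_point S hS φ
  refine ⟨P₀, D.ext_chart hS (fun f hf => ?_) hP fun a ha => ?_⟩
  · rw [D.loc_map]
    exact (hP₀ ⟨f, Algebra.subset_adjoin hf⟩).choose
  · obtain ⟨hm, he⟩ := hP₀ ⟨a, ha⟩
    rw [D.val_map, D.val_eq P₀ hm, he, hφ, D.val_eq P (hC ha)]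
    rfl

theorem range_ev_map_subset (σ : E₀ →ₐ[K] E) (P : D.Pt E₀) :
    Set.range (D.ev (D.map σ P)) ⊆ Set.range σ := by
  rw [range_ev_map]
  exact Set.image_subset_range _ _

theorem exists_descend_subfield (F₀ : IntermediateField K E) (P : D.Pt E)
    (h : Set.range (D.ev P) ⊆ F₀) : ∃ P₀ : D.Pt F₀, D.map F₀.val P₀ = P :=
  D.exists_descend F₀.val P fun _ hx => ⟨⟨_, h hx⟩, rfl⟩

/-- A point is defined over the field of its coordinates. -/
theorem exists_descend_resField (P : D.Pt E) :
    ∃ P₀ : D.Pt (D.resField P), D.map (D.resField P).val P₀ = P :=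
  D.exists_descend_subfield _ P (subset_adjoin K _)

variable {F₀ : IntermediateField K E}

theorem range_ev_map_val (P : D.Pt F₀) : Set.range (D.ev (D.map F₀.val P)) ⊆ F₀ := by
  rintro _ hx
  obtain ⟨y, rfl⟩ := D.range_ev_map_subset F₀.val P hx
  exact y.2

theorem range_ev_zero : Set.range (D.ev (0 : D.Pt E)) ⊆ F₀ := by
  have h := D.range_ev_map_val (0 : D.Pt F₀)
  rwa [map_zero] at h

theorem range_ev_add {P Q : D.Pt E} (hP : Set.range (D.ev P) ⊆ F₀)
    (hQ : Set.range (D.ev Q) ⊆ F₀) : Set.range (D.ev (P + Q)) ⊆ F₀ := by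
  obtain ⟨P₀, rfl⟩ := D.exists_descend_subfield F₀ P hP
  obtain ⟨Q₀, rfl⟩ := D.exists_descend_subfield F₀ Q hQ
  rw [← map_add]
  exact D.range_ev_map_val _

theorem range_ev_neg {P : D.Pt E} (hP : Set.range (D.ev P) ⊆ F₀) :
    Set.range (D.ev (-P)) ⊆ F₀ := by
  obtain ⟨P₀, rfl⟩ := D.exists_descend_subfield F₀ P hP
  rw [← map_neg]
  exact D.range_ev_map_val _

theorem range_ev_sub {P Q : D.Pt E} (hP : Set.range (D.ev P) ⊆ F₀)
    (hQ : Set.range (D.ev Q) ⊆ F₀) : Set.range (D.ev (P - Q)) ⊆ F₀ := by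
  rw [sub_eq_add_neg]
  exact D.range_ev_add hP (D.range_ev_neg hQ)

theorem range_ev_zsmul {P : D.Pt E} (hP : Set.range (D.ev P) ⊆ F₀) (n : ℤ) :
    Set.range (D.ev (n • P)) ⊆ F₀ := by
  obtain ⟨P₀, rfl⟩ := D.exists_descend_subfield F₀ P hP
  rw [← map_zsmul]
  exact D.range_ev_map_val _

theorem range_ev_nsmul {P : D.Pt E} (hP : Set.range (D.ev P) ⊆ F₀) (n : ℕ) :
    Set.range (D.ev (n • P)) ⊆ F₀ := by
  rw [← natCast_zsmul]
  exact D.range_ev_zsmul hP n

theorem resField_add_le (P Q : D.Pt E) : D.resField (P + Q) ≤ D.resField P ⊔ D.resField Q :=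
  adjoin_le_iff.mpr (D.range_ev_add
    ((subset_adjoin K (Set.range (D.ev P))).trans fun _ hx =>
      (le_sup_left : D.resField P ≤ D.resField P ⊔ D.resField Q) hx)
    ((subset_adjoin K (Set.range (D.ev Q))).trans fun _ hx =>
      (le_sup_right : D.resField Q ≤ D.resField P ⊔ D.resField Q) hx))

theorem resField_neg (P : D.Pt E) : D.resField (-P) = D.resField P := by
  have h : ∀ Q : D.Pt E, D.resField (-Q) ≤ D.resField Q := fun Q =>
    adjoin_le_iff.mpr (D.range_ev_neg (subset_adjoin K _))
  refine le_antisymm (h P) ?_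
  have h' := h (-P)
  rwa [neg_neg] at h'

theorem resField_zsmul_le (P : D.Pt E) (n : ℤ) : D.resField (n • P) ≤ D.resField P :=
  adjoin_le_iff.mpr (D.range_ev_zsmul (subset_adjoin K _) n)

section Over

variable {k : Type u} [Field k] [Algebra K k] [Algebra k E] [IsScalarTower K k E]
variable {F₁ : IntermediateField k E}

theorem range_ev_add_over {P Q : D.Pt E} (hP : Set.range (D.ev P) ⊆ F₁)
    (hQ : Set.range (D.ev Q) ⊆ F₁) : Set.range (D.ev (P + Q)) ⊆ F₁ :=
  D.range_ev_add (F₀ := F₁.restrictScalars K) hP hQ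

theorem range_ev_neg_over {P : D.Pt E} (hP : Set.range (D.ev P) ⊆ F₁) :
    Set.range (D.ev (-P)) ⊆ F₁ :=
  D.range_ev_neg (F₀ := F₁.restrictScalars K) hP

theorem range_ev_sub_over {P Q : D.Pt E} (hP : Set.range (D.ev P) ⊆ F₁)
    (hQ : Set.range (D.ev Q) ⊆ F₁) : Set.range (D.ev (P - Q)) ⊆ F₁ :=
  D.range_ev_sub (F₀ := F₁.restrictScalars K) hP hQ

theorem range_ev_zsmul_over {P : D.Pt E} (hP : Set.range (D.ev P) ⊆ F₁) (n : ℤ) :
    Set.range (D.ev (n • P)) ⊆ F₁ :=
  D.range_ev_zsmul (F₀ := F₁.restrictScalars K) hP n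

theorem range_ev_map_over (P : D.Pt k) :
    Set.range (D.ev (D.map (IsScalarTower.toAlgHom K k E) P)) ⊆ F₁ := by
  rintro _ hx
  obtain ⟨y, rfl⟩ := D.range_ev_map_subset _ P hx
  exact F₁.algebraMap_mem y

theorem adjoin_ev_add_le (P Q : D.Pt E) : adjoin k (Set.range (D.ev (P + Q))) ≤
    adjoin k (Set.range (D.ev P)) ⊔ adjoin k (Set.range (D.ev Q)) :=
  adjoin_le_iff.mpr (D.range_ev_add_over
    ((subset_adjoin k _).trans fun _ hx => (le_sup_left : adjoin k (Set.range (D.ev P)) ≤ _) hx)
    ((subset_adjoin k _).trans fun _ hx => (le_sup_right : adjoin k (Set.range (D.ev Q)) ≤ _) hx))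

theorem adjoin_ev_neg (P : D.Pt E) :
    adjoin k (Set.range (D.ev (-P))) = adjoin k (Set.range (D.ev P)) := by
  have h : ∀ Q : D.Pt E, adjoin k (Set.range (D.ev (-Q))) ≤ adjoin k (Set.range (D.ev Q)) :=
    fun Q => adjoin_le_iff.mpr (D.range_ev_neg_over (subset_adjoin k _))
  refine le_antisymm (h P) ?_
  have h' := h (-P)
  rwa [neg_neg] at h'

theorem adjoin_ev_zsmul_le (P : D.Pt E) (n : ℤ) :
    adjoin k (Set.range (D.ev (n • P))) ≤ adjoin k (Set.range (D.ev P)) :=
  adjoin_le_iff.mpr (D.range_ev_zsmul_over (subset_adjoin k _) n)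

/-- The coordinates of a point generate a finitely generated field. -/
theorem fg_adjoin_ev (P : D.Pt E) : (adjoin k (Set.range (D.ev P))).FG := by
  classical
  obtain ⟨S, hS, hP⟩ := D.cover P
  have hC : Algebra.adjoin K (S : Set D.F) ≤ D.loc P := Algebra.adjoin_le fun f hf => hP f hf
  refine ⟨S.image (D.val P), le_antisymm (adjoin_le_iff.mpr fun e he => ?_)
    (adjoin_le_iff.mpr fun e he => ?_)⟩
  · obtain ⟨f, hf, rfl⟩ := Finset.mem_image.mp (Finset.mem_coe.mp he)
    exact subset_adjoin k _ ⟨⟨f, hP f hf⟩, (D.val_eq P _).symm⟩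
  · have hmem : ∀ a ∈ Algebra.adjoin K (S : Set D.F),
        D.val P a ∈ adjoin k ((S.image (D.val P) : Finset E) : Set E) := fun a ha => by
      induction ha using Algebra.adjoin_induction with
      | mem a ha => exact subset_adjoin k _ (Finset.mem_image_of_mem _ ha)
      | algebraMap c =>
        rw [D.val_algebraMap, IsScalarTower.algebraMap_apply K k E]
        exact IntermediateField.algebraMap_mem _ _
      | add a b ha hb iha ihb => rw [D.val_add P (hC ha) (hC hb)]; exact add_mem iha ihb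
      | mul a b ha hb iha ihb => rw [D.val_mul P (hC ha) (hC hb)]; exact mul_mem iha ihb
    obtain ⟨⟨z, hz⟩, rfl⟩ := he
    obtain ⟨a, ha, s, hs, hsP, hs0, hzs⟩ := D.chart_loc P S hS hP z hz
    rw [SetLike.mem_coe, D.val_mem]
    rw [D.val_mem] at hs0
    have h1 : D.val P z = D.val P a / D.val P s := by
      rw [eq_div_iff hs0, ← D.val_mul P hz hsP, hzs]
    rw [h1]
    exact div_mem (hmem a ha) (hmem s hs)

end Over

/-! ### Generic points -/

/-- Either the point is generic or it has smaller transcendence degree. -/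
theorem loc_eq_top_or_trdeg_lt (P : D.Pt E) :
    D.loc P = ⊤ ∨ Algebra.trdeg K (D.resField P) + 1 ≤ g := by
  obtain ⟨S, hS, hP⟩ := D.cover P
  have hC : Algebra.adjoin K (S : Set D.F) ≤ D.loc P := Algebra.adjoin_le fun f hf => hP f hf
  let φ := (D.ev P).comp (Subalgebra.inclusion hC)
  by_cases hinj : ∀ a, φ a = 0 → a = 0
  · left
    refine eq_top_iff.mpr fun z _ => ?_
    have hη : ∀ f ∈ S, f ∈ D.loc D.η := fun f _ => by rw [D.loc_η]; exact Algebra.mem_top
    obtain ⟨a, ha, s, hs, hsη, hs0, hzs⟩ :=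
      D.chart_loc D.η S hS hη z (by rw [D.loc_η]; exact Algebra.mem_top)
    rw [D.ev_η] at hs0
    have hsP : D.val P s ≠ 0 := fun h => hs0 (congrArg Subtype.val
      (hinj ⟨s, hs⟩ ((D.val_eq P (hC hs)).symm.trans h)))
    rw [← mul_inv_cancel_right₀ hs0 z, hzs]
    exact mul_mem (hC ha) (D.inv_mem_loc P (hC hs) hsP)
  · right
    push Not at hinj
    obtain ⟨b, hb, hb0⟩ := hinj
    have step := trdeg_add_one_le φ.rangeRestrict φ.rangeRestrict_surjective hb0 (Subtype.ext hb)
    have hres : D.resField P ≤ adjoin K (φ.range : Set E) := by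
      refine adjoin_le_iff.mpr ?_
      rintro _ ⟨⟨z, hz⟩, rfl⟩
      obtain ⟨a, ha, s, hs, hsP, hs0, hzs⟩ := D.chart_loc P S hS hP z hz
      have h1 : D.ev P ⟨z, hz⟩ = φ ⟨a, ha⟩ / φ ⟨s, hs⟩ := by
        show D.ev P ⟨z, hz⟩ = D.ev P ⟨a, hC ha⟩ / D.ev P ⟨s, hsP⟩
        rw [eq_div_iff hs0]
        rw [← map_mul]
        exact congrArg (D.ev P) (Subtype.ext hzs)
      rw [SetLike.mem_coe, h1]
      exact div_mem (subset_adjoin _ _ ⟨_, rfl⟩) (subset_adjoin _ _ ⟨_, rfl⟩)
    calc Algebra.trdeg K (D.resField P) + 1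
        ≤ Algebra.trdeg K φ.range + 1 := add_le_add
          ((trdeg_le_of_injective (inclusion hres) (inclusion_injective hres)).trans
            (trdeg_adjoin_le_subalgebra _)) le_rfl
      _ ≤ Algebra.trdeg K (Algebra.adjoin K (S : Set D.F)) := step
      _ ≤ g := (trdeg_le_of_injective (Algebra.adjoin K (S : Set D.F)).val
          Subtype.val_injective).trans_eq D.trdeg_eq

theorem resField_eq_fieldRange (P : D.Pt E) (h : D.loc P = ⊤) :
    D.resField P = (D.genHom P h).fieldRange := by
  have hr : Set.range (D.ev P) = (D.genHom P h).fieldRange := by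
    rw [range_ev_eq, AlgHom.coe_fieldRange]
    ext e
    constructor
    · rintro ⟨x, -, rfl⟩; exact ⟨x, D.genHom_apply P h x⟩
    · rintro ⟨x, rfl⟩; exact ⟨x, h ▸ Algebra.mem_top, (D.genHom_apply P h x).symm⟩
  rw [resField, hr, adjoin_self]

theorem trdeg_resField_le (P : D.Pt E) : Algebra.trdeg K (D.resField P) ≤ g := by
  rcases D.loc_eq_top_or_trdeg_lt P with h | h
  · rw [D.resField_eq_fieldRange P h]
    exact ((AlgEquiv.ofInjectiveField (D.genHom P h)).trdeg_eq.symm.trans D.trdeg_eq).le
  · exact le_self_add.trans h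

/-- A point of maximal transcendence degree is generic. -/
theorem loc_eq_top_of_trdeg (P : D.Pt E) (h : (g : Cardinal) ≤ Algebra.trdeg K (D.resField P)) :
    D.loc P = ⊤ := by
  refine (D.loc_eq_top_or_trdeg_lt P).resolve_right fun h' => ?_
  have h'' : ((g + 1 : ℕ) : Cardinal) ≤ (g : ℕ) := by
    rw [Nat.cast_add, Nat.cast_one]
    exact (add_le_add h le_rfl).trans h'
  rw [Nat.cast_le] at h''
  omega

variable {k : Type u} [Field k] [Algebra K k] [Algebra k E] [IsScalarTower K k E]

theorem trdeg_adjoin_ev_le_resField (P : D.Pt E) :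
    Algebra.trdeg k (adjoin k (Set.range (D.ev P))) ≤ Algebra.trdeg K (D.resField P) :=
  trdeg_adjoin_le_of_tower _

theorem trdeg_adjoin_ev_le (P : D.Pt E) :
    Algebra.trdeg k (adjoin k (Set.range (D.ev P))) ≤ g :=
  (D.trdeg_adjoin_ev_le_resField P).trans (D.trdeg_resField_le P)

theorem loc_eq_top_of_trdeg_over (P : D.Pt E)
    (h : (g : Cardinal) ≤ Algebra.trdeg k (adjoin k (Set.range (D.ev P)))) : D.loc P = ⊤ :=
  D.loc_eq_top_of_trdeg P (h.trans (D.trdeg_adjoin_ev_le_resField P))

/-- A point on the curve over algebraically closed constants gives a function field. -/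
theorem isFF_of_adjoin_ev {M L : Type u} [Field M] [IsAlgClosed M] [Algebra K M] [Field L]
    [Algebra M L] [Algebra K L] [IsScalarTower K M L] (P : D.Pt L)
    (hgen : adjoin M (Set.range (D.ev P)) = ⊤) (htr : Algebra.trdeg M L = 1) : FF.IsFF M L :=
  isFF_of_fg (hgen ▸ D.fg_adjoin_ev P) htr

/-! ### Even functions -/

theorem resField_η : D.resField D.η = ⊤ := by
  refine eq_top_iff.mpr fun x _ => subset_adjoin K _ ?_
  exact ⟨⟨x, D.loc_η ▸ Algebra.mem_top⟩, D.ev_η x _⟩

theorem loc_neg_η : D.loc (-D.η) = ⊤ := by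
  refine D.loc_eq_top_of_trdeg _ ?_
  rw [D.resField_neg, D.resField_η, IntermediateField.topEquiv.trdeg_eq, D.trdeg_eq]

/-- The involution of the function field given by inversion. -/
def negHom : D.F →ₐ[K] D.F := D.genHom (-D.η) D.loc_neg_η

theorem negHom_apply (x : D.F) : D.negHom x = D.val (-D.η) x :=
  D.genHom_apply (-D.η) D.loc_neg_η x

theorem map_negHom_η : D.map D.negHom D.η = -D.η := D.ofHom_genHom _ _

theorem negHom_negHom (x : D.F) : D.negHom (D.negHom x) = x := by
  have h : D.map D.negHom (-D.η) = D.η := by rw [map_neg, map_negHom_η, neg_neg]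
  conv_lhs => rw [D.negHom_apply x, ← D.val_map, h, D.val_η]

theorem isEvenFn_iff (x : D.F) : D.IsEvenFn x ↔ D.negHom x = x := by
  rw [D.negHom_apply]
  rfl

/-- The value of an even function at the inverse of a generic point. -/
theorem val_neg_of_isEvenFn {x : D.F} (hx : D.IsEvenFn x) (P : D.Pt E) (hP : D.loc P = ⊤) :
    D.val (-P) x = D.val P x := by
  rw [← D.ofHom_genHom P hP, ofHom, ← map_neg, D.val_map, D.val_map, hx, D.val_η]

/-- The field of even functions. -/
def evenField : IntermediateField K D.F where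
  carrier := {x | D.negHom x = x}
  mul_mem' {a b} ha hb := by simp only [Set.mem_ofPred_eq] at *; rw [map_mul, ha, hb]
  add_mem' {a b} ha hb := by simp only [Set.mem_ofPred_eq] at *; rw [map_add, ha, hb]
  algebraMap_mem' a := D.negHom.commutes a
  inv_mem' a ha := by simp only [Set.mem_ofPred_eq] at *; rw [map_inv₀, ha]

theorem mem_evenField {x : D.F} : x ∈ D.evenField ↔ D.IsEvenFn x := (D.isEvenFn_iff x).symm

theorem isAlgebraic_evenField : Algebra.IsAlgebraic D.evenField D.F := by
  refine ⟨fun x => ?_⟩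
  have h1 : x + D.negHom x ∈ D.evenField := by
    show D.negHom _ = _
    rw [map_add, D.negHom_negHom, add_comm]
  have h2 : x * D.negHom x ∈ D.evenField := by
    show D.negHom _ = _
    rw [map_mul, D.negHom_negHom, mul_comm]
  let c : D.evenField := ⟨_, h1⟩
  let d : D.evenField := ⟨_, h2⟩
  refine ⟨Polynomial.X ^ 2 - Polynomial.C c * Polynomial.X + Polynomial.C d, ?_, ?_⟩
  · intro h
    have := congrArg (Polynomial.coeff · 2) h
    simp at this
  · simp only [map_add, map_sub, map_mul, map_pow, Polynomial.aeval_X, Polynomial.aeval_C]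
    show x ^ 2 - (x + D.negHom x) * x + x * D.negHom x = 0
    ring

/-- There are `g` independent even functions. -/
theorem exists_even_algebraicIndependent :
    ∃ x : Fin g → D.F, AlgebraicIndependent K x ∧ ∀ i, D.IsEvenFn (x i) := by
  haveI := D.isAlgebraic_evenField
  obtain ⟨s, hs⟩ := exists_isTranscendenceBasis K D.evenField
  have htr : Algebra.trdeg K D.evenField = g := by
    have h := trdeg_add_eq K D.evenField (A := D.F)
    rw [trdeg_eq_zero (R := D.evenField) (A := D.F), add_zero, D.trdeg_eq] at h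
    exact h
  have hcard : Cardinal.mk s = g := hs.cardinalMk_eq_trdeg.trans htr
  haveI : Finite s := Cardinal.mk_lt_aleph0_iff.mp (hcard ▸ Cardinal.natCast_lt_aleph0)
  have e : Fin g ≃ s := (Finite.equivFinOfCardEq (by
    rw [Nat.card, hcard, Cardinal.toNat_natCast])).symm
  exact ⟨fun i => ((e i : D.evenField) : D.F),
    ((hs.1.comp e e.injective).map' (f := D.evenField.val) Subtype.val_injective),
    fun i => D.mem_evenField.mp (e i : D.evenField).2⟩

/-! ### Specialisation -/

/-- Specialisation over constants does not raise the transcendence degree. -/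
theorem trdeg_adjoin_ev_spec_le {E' : Type u} [Field E'] [Algebra K E'] [Algebra k E']
    [IsScalarTower K k E'] (R : KRes K E E')
    (hk : ∀ a : k, ∃ h : algebraMap k E a ∈ R.V, R.π ⟨algebraMap k E a, h⟩ = algebraMap k E' a)
    (P : D.Pt E) :
    Algebra.trdeg k (adjoin k (Set.range (D.ev (D.spec R P)))) ≤
      Algebra.trdeg k (adjoin k (Set.range (D.ev P))) := by
  set F₁ := adjoin k (Set.range (D.ev P)) with hF₁
  let W : Subalgebra k E :=
    { (R.V.toSubring ⊓ F₁.toSubfield.toSubring) with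
      algebraMap_mem' := fun a => ⟨(hk a).choose, F₁.algebraMap_mem a⟩ }
  let π' : W →ₐ[k] E' :=
    { toRingHom := R.π.comp (W.val.toRingHom.codRestrict R.V.toSubring fun x => x.2.1)
      commutes' := fun a => (R.π_congr _ (hk a).choose rfl).trans (hk a).choose_spec }
  have hsub : Set.range (D.ev (D.spec R P)) ⊆ Set.range π' := by
    rw [range_ev_subset_iff]
    intro x hx
    obtain ⟨hV, hπ⟩ := D.spec_val R P hx
    refine ⟨⟨D.val P x, hV, ?_⟩, hπ⟩
    exact subset_adjoin k _ ⟨⟨x, D.loc_spec_le R P hx⟩, (D.val_eq P _).symm⟩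
  calc Algebra.trdeg k (adjoin k (Set.range (D.ev (D.spec R P))))
      ≤ Algebra.trdeg k (adjoin k (π'.range : Set E')) := trdeg_le_of_injective
        (inclusion (adjoin.mono k _ _ hsub)) (inclusion_injective _)
    _ ≤ Algebra.trdeg k π'.range := trdeg_adjoin_le_subalgebra _
    _ ≤ Algebra.trdeg k W := trdeg_le_of_surjective π'.rangeRestrict π'.rangeRestrict_surjective
    _ ≤ Algebra.trdeg k F₁ := trdeg_le_of_injective
        (Subalgebra.inclusion (show W ≤ F₁.toSubalgebra from fun _ hx => hx.2))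
        (Subalgebra.inclusion_injective _)

end AVData

end FLTAgent.AbVarTors
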