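import Mathlib
import Fermat.Agent.AbVarTors.Data

/-!
# Residue maps with a prescribed residue field

A homomorphism from a subring of a field `E` onto an algebraically closed field extends to a
residue map on `E` with that residue field (`exists_kres`): by Zorn there is a minimal valuation
ring dominating the subring at the kernel (`exists_minimal_valuationSubring`), and the residue
field of a minimal one is algebraic over the image of the subring.
-/

set_option autoImplicit false
set_option linter.style.haveILetI false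

universe u

noncomputable section

namespace FLTAgent.AbVarTors

variable {K E k : Type u} [Field K] [Field E] [Algebra K E] [Field k] [Algebra K k]

/-- A minimal valuation subring dominating `(B, ker φ)`. -/
theorem exists_minimal_valuationSubring (B : Subring E) (I : Ideal B) (hI : I ≠ ⊤) :
    ∃ V : ValuationSubring E, (B ≤ V.toSubring ∧ B.subtype '' (I : Set B) ⊆ V.nonunits) ∧
      ∀ W : ValuationSubring E, W ≤ V → B ≤ W.toSubring →
        B.subtype '' (I : Set B) ⊆ W.nonunits → V ≤ W := by
  let S : Set (ValuationSubring E)ᵒᵈ :=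
    {V | B ≤ (OrderDual.ofDual V).toSubring ∧
      B.subtype '' (I : Set B) ⊆ (OrderDual.ofDual V).nonunits}
  obtain ⟨V₀, h₁, h₂⟩ := Ideal.image_subset_nonunits_valuationSubring I hI
  have ih : ∀ c ⊆ S, IsChain (· ≤ ·) c → ∀ y ∈ c, ∃ ub ∈ S, ∀ z ∈ c, z ≤ ub := by
    intro c hcS hc y hy
    let W : ValuationSubring E :=
      { carrier := {a | ∀ V ∈ c, a ∈ OrderDual.ofDual V}
        zero_mem' := fun V _ => (OrderDual.ofDual V).zero_mem
        one_mem' := fun V _ => (OrderDual.ofDual V).one_mem
        add_mem' := fun ha hb V hV => (OrderDual.ofDual V).add_mem _ _ (ha V hV) (hb V hV)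
        mul_mem' := fun ha hb V hV => (OrderDual.ofDual V).mul_mem _ _ (ha V hV) (hb V hV)
        neg_mem' := fun ha V hV => (OrderDual.ofDual V).neg_mem _ (ha V hV)
        mem_or_inv_mem' := fun a => by
          by_contra hcon
          push Not at hcon
          obtain ⟨⟨V, hV, hVa⟩, ⟨V', hV', hV'a⟩⟩ :
              (∃ V ∈ c, a ∉ OrderDual.ofDual V) ∧ (∃ V ∈ c, a⁻¹ ∉ OrderDual.ofDual V) := by
            simpa using hcon
          rcases hc.total hV hV' with h | h
          · -- `V ≤ V'` in the dual order
            rcases (OrderDual.ofDual V').mem_or_inv_mem a with h' | h'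
            · exact hVa (h h')
            · exact hV'a h'
          · rcases (OrderDual.ofDual V).mem_or_inv_mem a with h' | h'
            · exact hVa h'
            · exact hV'a (h h') }
    refine ⟨OrderDual.toDual W, ⟨fun b hb V hV => (hcS hV).1 hb, ?_⟩, fun V hV a ha => ha V hV⟩
    intro z hz
    obtain ⟨hz1, hz2⟩ := (ValuationSubring.mem_nonunits_iff_exists_mem_maximalIdeal).mp ((hcS hy).2 hz)
    refine ValuationSubring.mem_nonunits_iff_exists_mem_maximalIdeal.mpr ⟨fun V hV => ?_, ?_⟩
    · exact ((ValuationSubring.mem_nonunits_iff_exists_mem_maximalIdeal).mp ((hcS hV).2 hz)).1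
    · rw [IsLocalRing.mem_maximalIdeal]
      intro hu
      obtain ⟨w, hw⟩ := isUnit_iff_exists_inv.mp hu
      refine (IsLocalRing.mem_maximalIdeal _).mp hz2 (isUnit_iff_exists_inv.mpr
        ⟨⟨(w : E), w.2 y hy⟩, Subtype.ext ?_⟩)
      exact congrArg (Subtype.val : W → E) hw
  obtain ⟨m, -, hm⟩ := zorn_le_nonempty₀ S ih (OrderDual.toDual V₀) ⟨h₁, h₂⟩
  refine ⟨OrderDual.ofDual m, hm.1, fun W hW hBW hIW => ?_⟩
  exact hm.2 (y := OrderDual.toDual W) ⟨hBW, hIW⟩ hW

/-- A homomorphism from a subring onto an algebraically closed field extends to a residue map with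
that residue field. -/
theorem exists_kres [IsAlgClosed k] (B : Subring E) (hB : ∀ a : K, algebraMap K E a ∈ B)
    (φ : B →+* k) (hφ : ∀ a : K, φ ⟨algebraMap K E a, hB a⟩ = algebraMap K k a)
    (hsurj : Function.Surjective φ) :
    ∃ R : KRes K E k, (∀ b : B, ∃ h : (b : E) ∈ R.V, R.π ⟨b, h⟩ = φ b) ∧
      Function.Surjective R.π := by
  classical
  obtain ⟨V, ⟨hBV, hIV⟩, hmin⟩ :=
    exists_minimal_valuationSubring B (RingHom.ker φ) (RingHom.ker_ne_top φ)
  let incl : B →+* V := B.subtype.codRestrict V.toSubring fun b => hBV b.2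
  let res : V →+* IsLocalRing.ResidueField V := IsLocalRing.residue V
  have hker : RingHom.ker φ ≤ RingHom.ker (res.comp incl) := fun b hb => by
    have hb' : (b : E) ∈ V.nonunits := hIV ⟨b, hb, rfl⟩
    obtain ⟨h1, h2⟩ := ValuationSubring.mem_nonunits_iff_exists_mem_maximalIdeal.mp hb'
    rw [RingHom.mem_ker, RingHom.comp_apply, IsLocalRing.residue_eq_zero_iff]
    exact h2
  let j : k →+* IsLocalRing.ResidueField V :=
    RingHom.liftOfRightInverse φ (Function.surjInv hsurj) (Function.rightInverse_surjInv hsurj)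
      ⟨res.comp incl, hker⟩
  have hj : ∀ b : B, j (φ b) = res (incl b) := fun b =>
    RingHom.liftOfRightInverse_comp_apply φ _ _ ⟨res.comp incl, hker⟩ b
  letI : Algebra k (IsLocalRing.ResidueField V) := j.toAlgebra
  haveI : Algebra.IsIntegral k (IsLocalRing.ResidueField V) := by
    refine ⟨fun z => ?_⟩
    by_contra hz
    have htr : Transcendental k z := fun h => hz h.isIntegral
    -- a valuation ring of the residue field containing `k` but not `z`
    let B' : Subring (IsLocalRing.ResidueField V) := (Algebra.adjoin k {z⁻¹}).toSubring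
    let zi : B' := ⟨z⁻¹, Algebra.subset_adjoin rfl⟩
    have hne : Ideal.span {zi} ≠ ⊤ := by
      intro h
      obtain ⟨⟨w, hw⟩, hwz⟩ := Ideal.mem_span_singleton'.mp ((Ideal.eq_top_iff_one _).mp h)
      have hw' : w * z⁻¹ = 1 := congrArg Subtype.val hwz
      obtain ⟨p, hp⟩ : w ∈ (Polynomial.aeval (R := k) z⁻¹).range :=
        (Algebra.adjoin_singleton_eq_range_aeval k z⁻¹) ▸ hw
      have htr' : Transcendental k z⁻¹ := fun h' => htr (by simpa using h'.inv)
      refine htr' ⟨p * Polynomial.X - 1, fun h0 => ?_, ?_⟩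
      · have := congrArg (Polynomial.coeff · 0) h0
        simp at this
      · rw [map_sub, map_mul, map_one, Polynomial.aeval_X, show Polynomial.aeval z⁻¹ p = w from hp,
          hw', sub_self]
    obtain ⟨W, hW1, hW2⟩ := Ideal.image_subset_nonunits_valuationSubring _ hne
    have hzW : z ∉ W := by
      intro hzW
      obtain ⟨h1, h2⟩ := ValuationSubring.mem_nonunits_iff_exists_mem_maximalIdeal.mp
        (hW2 ⟨zi, Ideal.subset_span rfl, rfl⟩)
      refine (IsLocalRing.mem_maximalIdeal _).mp h2 (isUnit_iff_exists_inv.mpr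
        ⟨⟨z, hzW⟩, Subtype.ext ?_⟩)
      exact inv_mul_cancel₀ (fun h0 => htr (h0 ▸ isAlgebraic_zero))
    let W' : ValuationSubring E :=
      { carrier := {a | ∃ h : a ∈ V, res ⟨a, h⟩ ∈ W}
        zero_mem' := ⟨V.zero_mem, by
          show res 0 ∈ W
          rw [map_zero]; exact W.zero_mem⟩
        one_mem' := ⟨V.one_mem, by
          show res 1 ∈ W
          rw [map_one]; exact W.one_mem⟩
        add_mem' := fun {a b} ha hb => ⟨V.add_mem _ _ ha.1 hb.1, by
          show res (⟨a, ha.1⟩ + ⟨b, hb.1⟩) ∈ W
          rw [map_add]; exact W.add_mem _ _ ha.2 hb.2⟩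
        mul_mem' := fun {a b} ha hb => ⟨V.mul_mem _ _ ha.1 hb.1, by
          show res (⟨a, ha.1⟩ * ⟨b, hb.1⟩) ∈ W
          rw [map_mul]; exact W.mul_mem _ _ ha.2 hb.2⟩
        neg_mem' := fun {a} ha => ⟨V.neg_mem _ ha.1, by
          show res (-⟨a, ha.1⟩) ∈ W
          rw [map_neg]; exact W.neg_mem _ ha.2⟩
        mem_or_inv_mem' := fun a => by
          rcases V.mem_or_inv_mem a with ha | ha
          · by_cases hu : IsUnit (⟨a, ha⟩ : V)
            · obtain ⟨w, hw⟩ := isUnit_iff_exists_inv.mp hu
              have hwa : (w : E) = a⁻¹ :=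
                (inv_eq_of_mul_eq_one_right (congrArg Subtype.val hw)).symm
              rcases W.mem_or_inv_mem (res ⟨a, ha⟩) with h | h
              · exact Or.inl ⟨ha, h⟩
              · refine Or.inr ⟨hwa ▸ w.2, ?_⟩
                have hmul : res ⟨a, ha⟩ * res w = 1 := by rw [← map_mul, hw, map_one]
                have : res (⟨a⁻¹, hwa ▸ w.2⟩ : V) = res w :=
                  congrArg res (Subtype.ext hwa.symm)
                rw [this, ← inv_eq_of_mul_eq_one_right hmul]
                exact h
            · refine Or.inl ⟨ha, ?_⟩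
              have : res ⟨a, ha⟩ = 0 :=
                (IsLocalRing.residue_eq_zero_iff _).mpr ((IsLocalRing.mem_maximalIdeal _).mpr hu)
              rw [this]; exact W.zero_mem
          · by_cases hu : IsUnit (⟨a⁻¹, ha⟩ : V)
            · obtain ⟨w, hw⟩ := isUnit_iff_exists_inv.mp hu
              have hwa : (w : E) = a := by
                have := inv_eq_of_mul_eq_one_right (congrArg Subtype.val hw)
                rwa [inv_inv, eq_comm] at this
              rcases W.mem_or_inv_mem (res ⟨a⁻¹, ha⟩) with h | h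
              · exact Or.inr ⟨ha, h⟩
              · refine Or.inl ⟨hwa ▸ w.2, ?_⟩
                have hmul : res ⟨a⁻¹, ha⟩ * res w = 1 := by rw [← map_mul, hw, map_one]
                have : res (⟨a, hwa ▸ w.2⟩ : V) = res w := congrArg res (Subtype.ext hwa.symm)
                rw [this, ← inv_eq_of_mul_eq_one_right hmul]
                exact h
            · refine Or.inr ⟨ha, ?_⟩
              have : res ⟨a⁻¹, ha⟩ = 0 :=
                (IsLocalRing.residue_eq_zero_iff _).mpr ((IsLocalRing.mem_maximalIdeal _).mpr hu)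
              rw [this]; exact W.zero_mem }
    have hkW : ∀ c : k, j c ∈ W := fun c => hW1 (Subalgebra.algebraMap_mem (Algebra.adjoin k {z⁻¹}) c)
    have hBW' : B ≤ W'.toSubring := fun b hb => ⟨hBV hb, by
      show res (incl ⟨b, hb⟩) ∈ W
      rw [← hj]; exact hkW _⟩
    have hIW' : B.subtype '' (RingHom.ker φ : Set B) ⊆ W'.nonunits := by
      rintro _ ⟨b, hb, rfl⟩
      obtain ⟨h1, h2⟩ := ValuationSubring.mem_nonunits_iff_exists_mem_maximalIdeal.mp
        (hIV ⟨b, hb, rfl⟩)
      refine ValuationSubring.mem_nonunits_iff_exists_mem_maximalIdeal.mpr ⟨hBW' b.2, ?_⟩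
      rw [IsLocalRing.mem_maximalIdeal]
      intro hu
      obtain ⟨w, hw⟩ := isUnit_iff_exists_inv.mp hu
      exact (IsLocalRing.mem_maximalIdeal _).mp h2
        (isUnit_iff_exists_inv.mpr ⟨⟨(w : E), w.2.1⟩, Subtype.ext (congrArg Subtype.val hw :)⟩)
    have hle := hmin W' (fun a ha => ha.1) hBW' hIW'
    obtain ⟨a, ha⟩ := IsLocalRing.residue_surjective z
    obtain ⟨_, h2⟩ := hle a.2
    exact hzW (ha ▸ h2)
  let e : k ≃+* IsLocalRing.ResidueField V :=
    RingEquiv.ofBijective j IsAlgClosed.algebraMap_bijective_of_isIntegral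
  have he : ∀ b : B, e.symm (res (incl b)) = φ b := fun b => by
    rw [← hj]; exact e.symm_apply_apply (φ b)
  refine ⟨{ V := V
            mem := fun a => hBV (hB a)
            π := e.symm.toRingHom.comp res
            map_algebraMap := fun a => (he ⟨_, hB a⟩).trans (hφ a)
            isUnit_of_ne := fun x hx => by
              by_contra hu
              apply hx
              show e.symm (res x) = 0
              rw [(IsLocalRing.residue_eq_zero_iff _).mpr ((IsLocalRing.mem_maximalIdeal _).mpr hu),
                map_zero] },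
    fun b => ⟨hBV b.2, he b⟩, e.symm.surjective.comp IsLocalRing.residue_surjective⟩

end FLTAgent.AbVarTors
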