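import Mathlib
import Fermat.Agent.AbVarTors.TrdegDrop

/-!
# Projections of smooth affine varieties

`IsProjection m q y` says that the coordinates `y` vanish at the rational point `m`, that `C/q` is
integral over them, that their differentials span at `m`, and that `m` is the only point of `V(q)`
over the origin. `exists_isProjection` finds `g` such coordinates when `C` is standard smooth of
relative dimension `g` and `V(q)` has smaller dimension: start from generators of `C` and drop one
generic linear combination at a time (`isProjection_step`).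
-/

set_option autoImplicit false
set_option linter.style.haveILetI false

universe u

noncomputable section

namespace FLTAgent.AbVarTors

section Residue

variable {K C : Type u} [Field K] [IsAlgClosed K] [CommRing C] [Algebra K C]
  [Algebra.FiniteType K C] (m : Ideal C) [m.IsMaximal]

theorem bijective_algebraMap_quotient : Function.Bijective (algebraMap K (C ⧸ m)) := by
  letI := Ideal.Quotient.field m
  haveI : Algebra.FiniteType K (C ⧸ m) :=
    Algebra.FiniteType.of_surjective (Ideal.Quotient.mkₐ K m) Ideal.Quotient.mk_surjective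
  haveI : Module.Finite K (C ⧸ m) := finite_of_finite_type_of_isJacobsonRing K _
  exact IsAlgClosed.algebraMap_bijective_of_isIntegral (k := K) (K := C ⧸ m)

/-- Evaluation at a rational point. -/
def residueHom : C →ₐ[K] K :=
  (AlgEquiv.ofBijective (Algebra.ofId K (C ⧸ m))
    (bijective_algebraMap_quotient m)).symm.toAlgHom.comp (Ideal.Quotient.mkₐ K m)

theorem residueHom_eq_zero_iff (x : C) : residueHom (K := K) m x = 0 ↔ x ∈ m := by
  rw [← Ideal.Quotient.eq_zero_iff_mem]
  exact map_eq_zero_iff _
    (AlgEquiv.ofBijective (Algebra.ofId K (C ⧸ m)) (bijective_algebraMap_quotient m)).symm.injective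

theorem sub_residueHom_mem (x : C) : x - algebraMap K C (residueHom (K := K) m x) ∈ m := by
  rw [← residueHom_eq_zero_iff (K := K), map_sub, AlgHom.commutes, Algebra.algebraMap_self,
    RingHom.id_apply, sub_self]

end Residue

/-- The top coefficient of a product of powers of linear polynomials. -/
theorem natDegree_prod_linear_le {R : Type u} [CommRing R] {ι : Type*} (s : Finset ι) (e : ι → ℕ)
    (a w : ι → R) :
    (∏ i ∈ s, (Polynomial.C (a i) + Polynomial.C (w i) * Polynomial.X) ^ e i).natDegree
        ≤ ∑ i ∈ s, e i ∧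
      (∏ i ∈ s, (Polynomial.C (a i) + Polynomial.C (w i) * Polynomial.X) ^ e i).coeff
        (∑ i ∈ s, e i) = ∏ i ∈ s, w i ^ e i := by
  classical
  induction s using Finset.induction_on with
  | empty => simp
  | @insert j t hj ih =>
    have h1 : (Polynomial.C (a j) + Polynomial.C (w j) * Polynomial.X).natDegree ≤ 1 := by
      rw [add_comm]; exact Polynomial.natDegree_linear_le
    have h2 : ((Polynomial.C (a j) + Polynomial.C (w j) * Polynomial.X) ^ e j).natDegree ≤ e j :=
      Polynomial.natDegree_pow_le.trans ((Nat.mul_le_mul_left _ h1).trans (mul_one _).le)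
    have h3 : ((Polynomial.C (a j) + Polynomial.C (w j) * Polynomial.X) ^ e j).coeff (e j)
        = w j ^ e j := by
      have h := Polynomial.coeff_pow_of_natDegree_le (m := e j) h1
      rw [mul_one] at h
      rw [h]
      simp
    rw [Finset.prod_insert hj, Finset.sum_insert hj, Finset.prod_insert hj]
    refine ⟨Polynomial.natDegree_mul_le_of_le h2 ih.1, ?_⟩
    rw [Polynomial.coeff_mul_add_eq_of_natDegree_le h2 ih.1, h3, ih.2]

/-- Substitution of a line into a polynomial. -/
theorem coeff_aeval_line {K R : Type u} [Field K] [CommRing R] [Algebra K R] {n : ℕ}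
    (f : MvPolynomial (Fin n) K) (a : Fin n → R) (w : Fin n → K) :
    (MvPolynomial.aeval (fun i => Polynomial.C (a i) +
          Polynomial.C (algebraMap K R (w i)) * Polynomial.X) f).natDegree ≤ f.totalDegree ∧
      (MvPolynomial.aeval (fun i => Polynomial.C (a i) +
          Polynomial.C (algebraMap K R (w i)) * Polynomial.X) f).coeff f.totalDegree =
        algebraMap K R (MvPolynomial.eval w (MvPolynomial.homogeneousComponent f.totalDegree f)) := by
  classical
  have hmon : ∀ e : Fin n →₀ ℕ, ∀ c : K,
      MvPolynomial.aeval (fun i => Polynomial.C (a i) +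
          Polynomial.C (algebraMap K R (w i)) * Polynomial.X) (MvPolynomial.monomial e c) =
        Polynomial.C (algebraMap K R c) * ∏ i ∈ e.support, (Polynomial.C (a i) +
          Polynomial.C (algebraMap K R (w i)) * Polynomial.X) ^ e i := by
    intro e c
    rw [MvPolynomial.aeval_monomial]
    rfl
  have hle : ∀ e ∈ f.support, e.degree ≤ f.totalDegree := fun e he =>
    MvPolynomial.le_totalDegree he
  have hsum : MvPolynomial.aeval (fun i => Polynomial.C (a i) +
        Polynomial.C (algebraMap K R (w i)) * Polynomial.X) f =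
      ∑ e ∈ f.support, MvPolynomial.aeval (fun i => Polynomial.C (a i) +
        Polynomial.C (algebraMap K R (w i)) * Polynomial.X)
          (MvPolynomial.monomial e (f.coeff e)) := by
    rw [← map_sum, MvPolynomial.support_sum_monomial_coeff]
  rw [hsum]
  refine ⟨?_, ?_⟩
  · refine Polynomial.natDegree_sum_le_of_forall_le _ _ fun e he => ?_
    rw [hmon]
    exact (Polynomial.natDegree_C_mul_le _ _).trans
      ((natDegree_prod_linear_le _ _ _ _).1.trans (hle e he))
  · rw [Polynomial.finsetSum_coeff, MvPolynomial.homogeneousComponent_apply, map_sum, map_sum,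
      Finset.sum_filter]
    refine Finset.sum_congr rfl fun e he => ?_
    rw [hmon, Polynomial.coeff_C_mul]
    split_ifs with hd
    · rw [← hd, Finsupp.degree_apply, (natDegree_prod_linear_le _ _ _ _).2, MvPolynomial.eval_monomial,
        map_mul, Finsupp.prod, map_prod]
      simp
    · rw [Polynomial.coeff_eq_zero_of_natDegree_lt, mul_zero]
      exact (natDegree_prod_linear_le _ _ _ _).1.trans_lt (lt_of_le_of_ne (hle e he) hd)

/-- An element satisfying a relation with nonvanishing top coefficient is integral. -/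
theorem isIntegral_of_coeff {K R B : Type u} [Field K] [CommRing R] [CommRing B] [Algebra K R]
    [Algebra R B] {P : Polynomial R} {d : ℕ} (hd : P.natDegree ≤ d) {c : K} (hc : c ≠ 0)
    (hcoeff : P.coeff d = algebraMap K R c) {b : B} (hb : Polynomial.aeval b P = 0) :
    IsIntegral R b := by
  have hd' : (Polynomial.C (algebraMap K R c⁻¹) * P).natDegree ≤ d :=
    (Polynomial.natDegree_C_mul_le _ _).trans hd
  refine ⟨Polynomial.C (algebraMap K R c⁻¹) * P,
    Polynomial.monic_of_natDegree_le_of_coeff_eq_one d hd' ?_, ?_⟩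
  · rw [Polynomial.coeff_C_mul, hcoeff, ← map_mul, inv_mul_cancel₀ hc, map_one]
  · rw [← Polynomial.aeval_def, map_mul, hb, mul_zero]

section Projection

variable {K C : Type u} [Field K] [IsAlgClosed K] [CommRing C] [Algebra K C]

/-- `y` projects `V(q)` finitely, is immersive at `m` and separates `m` from the rest of `V(q)`. -/
def IsProjection (m q : Ideal C) {n : ℕ} (y : Fin n → C) : Prop :=
  (∀ i, y i ∈ m) ∧
    (∀ b : C ⧸ q, IsIntegral (Algebra.adjoin K (Set.range (Ideal.Quotient.mk q ∘ y))) b) ∧
    (Submodule.span C (Set.range (KaehlerDifferential.D K C ∘ y)) ⊔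
        m • (⊤ : Submodule C (Ω[C⁄K])) = ⊤) ∧
    ∀ n' : Ideal C, n'.IsMaximal → q ≤ n' → (∀ i, y i ∈ n') → n' = m

theorem exists_isProjection_generators [Algebra.FiniteType K C] (m q : Ideal C) [m.IsMaximal] :
    ∃ (n : ℕ) (y : Fin n → C), IsProjection (K := K) m q y := by
  obtain ⟨n, φ, hφ⟩ := Algebra.FiniteType.iff_quotient_mvPolynomial''.mp
    (inferInstance : Algebra.FiniteType K C)
  let y : Fin n → C := fun i => φ (MvPolynomial.X i) -
    algebraMap K C (residueHom (K := K) m (φ (MvPolynomial.X i)))
  have hym : ∀ i, y i ∈ m := fun i => sub_residueHom_mem m _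
  have hgen : Algebra.adjoin K (Set.range y) = ⊤ := by
    rw [eq_top_iff, ← (AlgHom.range_eq_top φ).mpr hφ]
    rintro x ⟨p, rfl⟩
    induction p using MvPolynomial.induction_on with
    | C a => simp
    | add p q hp hq =>
      simp only [AlgHom.toRingHom_eq_coe, RingHom.coe_coe, map_add] at hp hq ⊢
      exact add_mem hp hq
    | mul_X p i hp =>
      simp only [AlgHom.toRingHom_eq_coe, RingHom.coe_coe, map_mul] at hp ⊢
      refine mul_mem hp ?_
      have h : φ (MvPolynomial.X i) = y i +
          algebraMap K C (residueHom (K := K) m (φ (MvPolynomial.X i))) := by simp [y]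
      rw [h]
      exact add_mem (Algebra.subset_adjoin (Set.mem_range_self i)) (Subalgebra.algebraMap_mem _ _)
  have hsurj : ∀ x : C, ∃ p : MvPolynomial (Fin n) K, MvPolynomial.aeval y p = x := fun x => by
    have : x ∈ (MvPolynomial.aeval (R := K) y).range := by
      rw [← Algebra.adjoin_range_eq_range_aeval, hgen]; trivial
    exact this
  refine ⟨n, y, hym, fun b => ?_, ?_, fun n' hn' _ hy => ?_⟩
  · obtain ⟨x, rfl⟩ := Ideal.Quotient.mk_surjective b
    have hx : Ideal.Quotient.mk q x ∈ Algebra.adjoin K (Set.range (Ideal.Quotient.mk q ∘ y)) := by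
      obtain ⟨p, rfl⟩ := hsurj x
      rw [Algebra.adjoin_range_eq_range_aeval]
      exact ⟨p, (MvPolynomial.comp_aeval_apply (f := y) (Ideal.Quotient.mkₐ K q) p).symm⟩
    exact isIntegral_algebraMap (x := (⟨_, hx⟩ : Algebra.adjoin K
      (Set.range (Ideal.Quotient.mk q ∘ y))))
  · rw [eq_top_iff, ← KaehlerDifferential.span_range_derivation]
    refine le_trans (Submodule.span_le.mpr ?_) le_sup_left
    rintro _ ⟨x, rfl⟩
    obtain ⟨p, rfl⟩ := hsurj x
    induction p using MvPolynomial.induction_on with
    | C a => simp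
    | add p q hp hq =>
      rw [map_add, map_add]
      exact add_mem hp hq
    | mul_X p i hp =>
      rw [map_mul, MvPolynomial.aeval_X, Derivation.leibniz]
      exact add_mem (Submodule.smul_mem _ _ (Submodule.subset_span (Set.mem_range_self i)))
        (Submodule.smul_mem _ _ hp)
  · haveI := hn'
    refine (Ideal.IsMaximal.eq_of_le ‹m.IsMaximal› hn'.ne_top fun x hx => ?_).symm
    obtain ⟨p, rfl⟩ := hsurj x
    have key : ∀ I : Ideal C, (∀ i, y i ∈ I) → Ideal.Quotient.mk I (MvPolynomial.aeval y p) =
        algebraMap K (C ⧸ I) (MvPolynomial.constantCoeff p) := fun I hI => by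
      rw [← Ideal.Quotient.mkₐ_eq_mk K, MvPolynomial.comp_aeval_apply]
      have : (fun i => Ideal.Quotient.mkₐ K I (y i)) = 0 :=
        funext fun i => Ideal.Quotient.eq_zero_iff_mem.mpr (hI i)
      rw [this, MvPolynomial.aeval_zero]
    have h0 := key m hym
    rw [Ideal.Quotient.eq_zero_iff_mem.mpr hx] at h0
    rw [← Ideal.Quotient.eq_zero_iff_mem, key n' hy,
      (map_eq_zero_iff _ (bijective_algebraMap_quotient m).1).mp h0.symm, map_zero]

omit [IsAlgClosed K] in
theorem isProjection_pad {m q : Ideal C} {n n' : ℕ} (h : n ≤ n') {y : Fin n → C}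
    (hy : IsProjection (K := K) m q y) :
    ∃ y' : Fin n' → C, IsProjection (K := K) m q y' := by
  obtain ⟨hym, hint, hspan, hsep⟩ := hy
  let y' : Fin n' → C := fun i => if hi : (i : ℕ) < n then y ⟨i, hi⟩ else 0
  have hy' : ∀ i : Fin n, y' ⟨i, i.2.trans_le h⟩ = y i := fun i => by simp [y', i.2]
  refine ⟨y', fun i => ?_, fun b => ?_, ?_, fun n'' hn hq hy'' => ?_⟩
  · simp only [y']
    split_ifs with hi
    · exact hym _
    · exact m.zero_mem
  · have hle : Algebra.adjoin K (Set.range (Ideal.Quotient.mk q ∘ y)) ≤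
        Algebra.adjoin K (Set.range (Ideal.Quotient.mk q ∘ y')) :=
      Algebra.adjoin_mono fun _ ⟨i, hi⟩ => ⟨⟨i, i.2.trans_le h⟩, by simp [hy', ← hi]⟩
    obtain ⟨p, hp, hpb⟩ := hint b
    exact ⟨p.map (Subalgebra.inclusion hle).toRingHom, hp.map _, by
      rw [Polynomial.eval₂_map]; exact hpb⟩
  · refine eq_top_iff.mpr (hspan.ge.trans (sup_le_sup (Submodule.span_mono ?_) le_rfl))
    rintro _ ⟨i, rfl⟩
    exact ⟨⟨i, i.2.trans_le h⟩, by simp [hy']⟩
  · exact hsep n'' hn hq fun i => hy' i ▸ hy'' _

variable {n : ℕ} {m q : Ideal C} {y : Fin (n + 1) → C} {w : Fin (n + 1) → K}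

omit [IsAlgClosed K] in
theorem isIntegral_newCoord (hwk : w (Fin.last n) = 1)
    (hint : ∀ b : C ⧸ q, IsIntegral (Algebra.adjoin K (Set.range (Ideal.Quotient.mk q ∘ y))) b)
    {f : MvPolynomial (Fin (n + 1)) K}
    (hf : MvPolynomial.aeval (Ideal.Quotient.mk q ∘ y) f = 0)
    (hwf : MvPolynomial.eval w (MvPolynomial.homogeneousComponent f.totalDegree f) ≠ 0) (b : C ⧸ q) :
    IsIntegral (Algebra.adjoin K (Set.range (Ideal.Quotient.mk q ∘
      (fun i : Fin n => y i.castSucc - algebraMap K C (w i.castSucc) * y (Fin.last n))))) b := by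
  let z : Fin (n + 1) → C := fun i => y i - algebraMap K C (w i) * y (Fin.last n)
  have hzk : z (Fin.last n) = 0 := by simp [z, hwk]
  let u : Fin n → C := fun i => z i.castSucc
  show IsIntegral (Algebra.adjoin K (Set.range (Ideal.Quotient.mk q ∘ u))) b
  let R' := Algebra.adjoin K (Set.range (Ideal.Quotient.mk q ∘ u))
  have hzmem : ∀ i, Ideal.Quotient.mk q (z i) ∈ R' := fun i => by
    induction i using Fin.lastCases with
    | last => rw [hzk, map_zero]; exact zero_mem _
    | cast i => exact Algebra.subset_adjoin ⟨i, rfl⟩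
  have hyk : IsIntegral R' (Ideal.Quotient.mk q (y (Fin.last n))) := by
    obtain ⟨h1, h2⟩ := coeff_aeval_line f (fun i => (⟨_, hzmem i⟩ : R')) w
    refine isIntegral_of_coeff (K := K) h1 hwf h2 ?_
    have hcomp : ((Polynomial.aeval (Ideal.Quotient.mk q (y (Fin.last n)))).restrictScalars K :
          Polynomial R' →ₐ[K] C ⧸ q).comp
        (MvPolynomial.aeval (fun i => Polynomial.C (⟨_, hzmem i⟩ : R') +
          Polynomial.C (algebraMap K R' (w i)) * Polynomial.X)) =
        MvPolynomial.aeval (Ideal.Quotient.mk q ∘ y) := by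
      refine MvPolynomial.algHom_ext fun i => ?_
      simp [z, ← IsScalarTower.algebraMap_apply, Ideal.Quotient.mk_algebraMap]
    exact (AlgHom.congr_fun hcomp f).trans hf
  have hyi : ∀ i, IsIntegral R' (Ideal.Quotient.mk q (y i)) := fun i => by
    have h : Ideal.Quotient.mk q (y i) = algebraMap R' (C ⧸ q) ⟨_, hzmem i⟩ +
        algebraMap R' (C ⧸ q) (algebraMap K R' (w i)) * Ideal.Quotient.mk q (y (Fin.last n)) := by
      simp [z, ← IsScalarTower.algebraMap_apply, Ideal.Quotient.mk_algebraMap]
    rw [h]
    exact isIntegral_algebraMap.add (isIntegral_algebraMap.mul hyk)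
  have hle : Algebra.adjoin K (Set.range (Ideal.Quotient.mk q ∘ y)) ≤
      (integralClosure R' (C ⧸ q)).restrictScalars K :=
    Algebra.adjoin_le fun _ ⟨i, hi⟩ => hi ▸ hyi i
  obtain ⟨p, hp, hpb⟩ := hint b
  let ι : Algebra.adjoin K (Set.range (Ideal.Quotient.mk q ∘ y)) →+* integralClosure R' (C ⧸ q) :=
    (Subalgebra.val _).toRingHom.codRestrict (integralClosure R' (C ⧸ q)) fun x => hle x.2
  have hb : IsIntegral (integralClosure R' (C ⧸ q)) b :=
    ⟨p.map ι, hp.map _, by
      rw [Polynomial.eval₂_map]; exact hpb⟩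
  exact isIntegral_trans (R := R') b hb

omit [IsAlgClosed K] in
theorem span_newCoord (hwk : w (Fin.last n) = 1) {r : Fin (n + 1) → K}
    (hrel : ∑ i, algebraMap K C (r i) • KaehlerDifferential.D K C (y i) ∈
      m • (⊤ : Submodule C (Ω[C⁄K]))) (hwL : ∑ i, r i * w i ≠ 0)
    (hspan : Submodule.span C (Set.range (KaehlerDifferential.D K C ∘ y)) ⊔
      m • (⊤ : Submodule C (Ω[C⁄K])) = ⊤) :
    Submodule.span C (Set.range (KaehlerDifferential.D K C ∘
      (fun i : Fin n => y i.castSucc - algebraMap K C (w i.castSucc) * y (Fin.last n)))) ⊔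
      m • (⊤ : Submodule C (Ω[C⁄K])) = ⊤ := by
  let z : Fin (n + 1) → C := fun i => y i - algebraMap K C (w i) * y (Fin.last n)
  have hzk : z (Fin.last n) = 0 := by simp [z, hwk]
  let u : Fin n → C := fun i => z i.castSucc
  show Submodule.span C (Set.range (KaehlerDifferential.D K C ∘ u)) ⊔
      m • (⊤ : Submodule C (Ω[C⁄K])) = ⊤
  refine eq_top_iff.mpr (hspan.ge.trans (sup_le (Submodule.span_le.mpr ?_) le_sup_right))
  have hz : ∀ i, KaehlerDifferential.D K C (z i) ∈
      Submodule.span C (Set.range (KaehlerDifferential.D K C ∘ u)) ⊔ m • ⊤ := fun i => by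
    induction i using Fin.lastCases with
    | last => rw [hzk, map_zero]; exact zero_mem _
    | cast i => exact Submodule.mem_sup_left (Submodule.subset_span (Set.mem_range_self i))
  have hdy : ∀ i, KaehlerDifferential.D K C (y i) = KaehlerDifferential.D K C (z i) +
      algebraMap K C (w i) • KaehlerDifferential.D K C (y (Fin.last n)) := fun i => by
    simp [z, Derivation.leibniz]
  have hk : KaehlerDifferential.D K C (y (Fin.last n)) ∈
      Submodule.span C (Set.range (KaehlerDifferential.D K C ∘ u)) ⊔ m • ⊤ := by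
    have hs : ∑ i, algebraMap K C (r i) • KaehlerDifferential.D K C (y i) =
        ∑ i, algebraMap K C (r i) • KaehlerDifferential.D K C (z i) +
          algebraMap K C (∑ i, r i * w i) • KaehlerDifferential.D K C (y (Fin.last n)) := by
      rw [map_sum, Finset.sum_smul, ← Finset.sum_add_distrib]
      refine Finset.sum_congr rfl fun i _ => ?_
      rw [hdy i, smul_add, smul_smul, map_mul]
    have hmem : algebraMap K C (∑ i, r i * w i) • KaehlerDifferential.D K C (y (Fin.last n)) ∈
        Submodule.span C (Set.range (KaehlerDifferential.D K C ∘ u)) ⊔ m • ⊤ := by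
      rw [← add_sub_cancel_left (∑ i, algebraMap K C (r i) • KaehlerDifferential.D K C (z i))
        (algebraMap K C (∑ i, r i * w i) • KaehlerDifferential.D K C (y (Fin.last n))), ← hs]
      exact sub_mem (Submodule.mem_sup_right hrel)
        (sum_mem fun i _ => Submodule.smul_mem _ _ (hz i))
    have h := Submodule.smul_mem _ (algebraMap K C (∑ i, r i * w i)⁻¹) hmem
    rwa [smul_smul, ← map_mul, inv_mul_cancel₀ hwL, map_one, one_smul] at h
  rintro _ ⟨i, rfl⟩
  rw [Function.comp_apply, hdy i]
  exact add_mem (hz i) (Submodule.smul_mem _ _ hk)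

theorem separated_newCoord [Algebra.FiniteType K C] (hwk : w (Fin.last n) = 1) {G : MvPolynomial (Fin (n + 1)) K}
    (hG : MvPolynomial.aeval (fun i => Polynomial.X * Polynomial.C (Ideal.Quotient.mk q (y i))) G =
      (0 : Polynomial (C ⧸ q)))
    {c : K} (hvG : MvPolynomial.eval (c • w) G ≠ 0)
    (hsep : ∀ n' : Ideal C, n'.IsMaximal → q ≤ n' → (∀ i, y i ∈ n') → n' = m)
    {n' : Ideal C} (hn' : n'.IsMaximal) (hqn' : q ≤ n')
    (hu : ∀ i : Fin n, y i.castSucc - algebraMap K C (w i.castSucc) * y (Fin.last n) ∈ n') :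
    n' = m := by
  let z : Fin (n + 1) → C := fun i => y i - algebraMap K C (w i) * y (Fin.last n)
  have hzk : z (Fin.last n) = 0 := by simp [z, hwk]
  let u : Fin n → C := fun i => z i.castSucc
  haveI := hn'
  refine hsep n' hn' hqn' fun i => ?_
  have hzn : ∀ i, z i ∈ n' := fun i => by
    induction i using Fin.lastCases with
    | last => rw [hzk]; exact n'.zero_mem
    | cast i => exact hu i
  rw [← residueHom_eq_zero_iff (K := K)]
  have ha : ∀ i, residueHom (K := K) n' (y i) =
      w i * residueHom (K := K) n' (y (Fin.last n)) := fun i => by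
    have h := (residueHom_eq_zero_iff (K := K) n' (z i)).mpr (hzn i)
    simpa [z, sub_eq_zero] using h
  suffices h : residueHom (K := K) n' (y (Fin.last n)) = 0 by rw [ha i, h, mul_zero]
  by_contra hne
  apply hvG
  let ε : C ⧸ q →ₐ[K] K := Ideal.Quotient.liftₐ q (residueHom n') fun x hx =>
    (residueHom_eq_zero_iff (K := K) n' x).mpr (hqn' hx)
  have hcomp : (((Polynomial.aeval (c * (residueHom (K := K) n' (y (Fin.last n)))⁻¹)).restrictScalars K).comp
        (Polynomial.mapAlgHom ε)).comp
      (MvPolynomial.aeval fun i => Polynomial.X * Polynomial.C (Ideal.Quotient.mk q (y i))) =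
      MvPolynomial.aeval (c • w) := by
    refine MvPolynomial.algHom_ext fun i => ?_
    simp [ε]
    field_simp
    show residueHom (K := K) n' (y i) * c = _
    rw [ha i]
    ring
  have h := AlgHom.congr_fun hcomp G
  rw [AlgHom.comp_apply, hG, map_zero, MvPolynomial.aeval_eq_eval] at h
  exact h.symm

theorem isProjection_step {g n : ℕ} [Algebra.IsStandardSmoothOfRelativeDimension g K C]
    [Algebra.FiniteType K C] {m q : Ideal C} [m.IsMaximal] [q.IsPrime] (hg : g ≤ n)
    (htr : Algebra.trdeg K (C ⧸ q) < g) {y : Fin (n + 1) → C}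
    (hy : IsProjection (K := K) m q y) :
    ∃ y' : Fin n → C, IsProjection (K := K) m q y' := by
  obtain ⟨hym, hint, hspan, hsep⟩ := hy
  haveI : Nontrivial C := Ideal.Quotient.mk_surjective (I := m) |>.nontrivial
  haveI := Algebra.IsStandardSmoothOfRelativeDimension.isStandardSmooth (R := K) (S := C) g
  -- the linear relation between the differentials at `m`
  have hrank : Module.finrank C Ω[C⁄K] = g := Module.finrank_eq_of_rank_eq
    (Algebra.IsStandardSmoothOfRelativeDimension.rank_kaehlerDifferential g)
  let bas : Module.Basis (Fin g) C Ω[C⁄K] := Module.finBasisOfFinrankEq C Ω[C⁄K] hrank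
  let Φ : (Fin (n + 1) → K) →ₗ[K] Fin g → K := Fintype.linearCombination K fun i j =>
    residueHom (K := K) m (bas.repr (KaehlerDifferential.D K C (y i)) j)
  have hker : LinearMap.ker Φ ≠ ⊥ := fun h => by
    have := LinearMap.finrank_le_finrank_of_injective (LinearMap.ker_eq_bot.mp h)
    simp at this
    omega
  obtain ⟨r, hr, hr0⟩ := Submodule.exists_mem_ne_zero_of_ne_bot hker
  have hrel : ∑ i, algebraMap K C (r i) • KaehlerDifferential.D K C (y i) ∈
      m • (⊤ : Submodule C (Ω[C⁄K])) := by
    rw [← bas.sum_repr (∑ i, algebraMap K C (r i) • KaehlerDifferential.D K C (y i))]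
    refine sum_mem fun j _ => Submodule.smul_mem_smul ?_ trivial
    rw [← residueHom_eq_zero_iff (K := K)]
    have h := congr_fun (LinearMap.mem_ker.mp hr) j
    simp only [map_sum, map_smul, Finsupp.finsetSum_apply, Finsupp.smul_apply, smul_eq_mul,
      map_mul, AlgHom.commutes, Algebra.algebraMap_self, RingHom.id_apply]
    simpa [Φ, Fintype.linearCombination_apply] using h
  -- the relations on `V(q)`
  have htr' : Algebra.trdeg K (C ⧸ q) < (n + 1 : ℕ) :=
    htr.trans_le (by exact_mod_cast hg.trans n.le_succ)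
  obtain ⟨f, hf0, hf⟩ := exists_relation htr' (Ideal.Quotient.mk q ∘ y)
  have htr'' : Algebra.trdeg K (Polynomial (C ⧸ q)) < (n + 1 : ℕ) := by
    rw [trdeg_polynomial]
    obtain ⟨k, hk⟩ := Cardinal.lt_aleph0.mp (htr.trans Cardinal.natCast_lt_aleph0)
    rw [hk] at htr ⊢
    norm_cast at htr ⊢
    omega
  obtain ⟨G, hG0, hG⟩ := exists_relation htr''
    (fun i => Polynomial.X * Polynomial.C (Ideal.Quotient.mk q (y i)))
  let L : MvPolynomial (Fin (n + 1)) K := ∑ i, MvPolynomial.C (r i) * MvPolynomial.X i
  have hL0 : L ≠ 0 := fun h => hr0 (funext fun i => by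
    have h' := congrArg (MvPolynomial.eval (Pi.single i (1 : K))) h
    simpa [L, Pi.single_apply] using h')
  let fd := MvPolynomial.homogeneousComponent f.totalDegree f
  have hfd : fd ≠ 0 := by
    obtain ⟨e, he, hdeg⟩ := Finset.exists_mem_eq_sup f.support
      (Finset.nonempty_of_ne_empty (by simpa using hf0)) (fun s => s.sum fun _ k => k)
    intro h
    have hc := congrArg (MvPolynomial.coeff e) h
    rw [MvPolynomial.coeff_homogeneousComponent, if_pos, MvPolynomial.coeff_zero] at hc
    · exact MvPolynomial.mem_support_iff.mp he hc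
    · exact hdeg.symm
  obtain ⟨v, hv⟩ : ∃ v, MvPolynomial.eval v (fd * G * L * MvPolynomial.X (Fin.last n)) ≠ 0 := by
    by_contra hc
    push Not at hc
    exact mul_ne_zero (mul_ne_zero (mul_ne_zero hfd hG0) hL0) (MvPolynomial.X_ne_zero _)
      (MvPolynomial.funext (by simpa using hc))
  simp only [map_mul, MvPolynomial.eval_X, mul_ne_zero_iff] at hv
  obtain ⟨⟨⟨hvf, hvG⟩, hvL⟩, hvk⟩ := hv
  let w : Fin (n + 1) → K := (v (Fin.last n))⁻¹ • v
  have hvw : v = v (Fin.last n) • w := by
    funext i
    simp [w, ← mul_assoc, mul_inv_cancel₀ hvk]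
  have hwk : w (Fin.last n) = 1 := by simp [w, inv_mul_cancel₀ hvk]
  have hwf : MvPolynomial.eval w fd ≠ 0 := fun h => hvf (by
    have hhom : fd.IsHomogeneous f.totalDegree :=
      MvPolynomial.homogeneousComponent_isHomogeneous _ f
    rw [hvw, MvPolynomial.eval_eq]
    rw [MvPolynomial.eval_eq] at h
    calc _ = v (Fin.last n) ^ f.totalDegree *
          ∑ d ∈ fd.support, fd.coeff d * ∏ i ∈ d.support, w i ^ d i := by
            rw [Finset.mul_sum]
            refine Finset.sum_congr rfl fun d hd => ?_
            have hdd : ∑ i ∈ d.support, d i = f.totalDegree := by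
              have := hhom (MvPolynomial.mem_support_iff.mp hd)
              simpa [Finsupp.weight_apply, Finsupp.sum] using this
            simp [mul_pow, Finset.prod_mul_distrib, Finset.prod_pow_eq_pow_sum, hdd]
            ring
      _ = 0 := by rw [h, mul_zero])
  have hwL : ∑ i, r i * w i ≠ 0 := fun h => hvL (by
    rw [hvw]
    simp only [L, map_sum, map_mul, MvPolynomial.eval_C, MvPolynomial.eval_X, Pi.smul_apply,
      smul_eq_mul]
    calc _ = v (Fin.last n) * ∑ i, r i * w i := by
            rw [Finset.mul_sum]; exact Finset.sum_congr rfl fun i _ => by ring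
      _ = 0 := by rw [h, mul_zero])
  refine ⟨fun i : Fin n => y i.castSucc - algebraMap K C (w i.castSucc) * y (Fin.last n),
    fun i => m.sub_mem (hym _) (m.mul_mem_left _ (hym _)),
    isIntegral_newCoord hwk hint hf hwf, span_newCoord hwk hrel hwL hspan,
    fun n' hn' hqn' hu =>
      separated_newCoord hwk hG (c := v (Fin.last n)) (hvw ▸ hvG) hsep hn' hqn' hu⟩

/-- A smooth variety has a good projection relative to any smaller subvariety and rational point. -/
theorem exists_isProjection {g : ℕ} [Algebra.IsStandardSmoothOfRelativeDimension g K C]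
    [Algebra.FiniteType K C] (m q : Ideal C) [m.IsMaximal] [q.IsPrime]
    (htr : Algebra.trdeg K (C ⧸ q) < g) :
    ∃ y : Fin g → C, IsProjection (K := K) m q y := by
  obtain ⟨n, y, hy⟩ := exists_isProjection_generators (K := K) m q
  rcases le_total n g with h | h
  · exact isProjection_pad h hy
  · induction n, h using Nat.le_induction with
    | base => exact ⟨y, hy⟩
    | succ k hk ih =>
      obtain ⟨y', hy'⟩ := isProjection_step hk htr hy
      exact ih y' hy'

end Projection

end FLTAgent.AbVarTors
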