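import Mathlib
import Fermat.Agent.AbVarTors.SmoothProjection

/-!
# Local rings of smooth varieties are factorial

For a prime `q` of height one through a rational point `m` of a smooth affine variety, a projection
to affine space that is finite on `V(q)` and etale at `m` carries `V(q)` to a hypersurface, whose
equation generates `q` at `m` (`exists_generator_localization`, by going down and Nakayama).
Hence the local ring at `m` is factorial (`uniqueFactorizationMonoid_localization`). This is the
substitute for the Auslander-Buchsbaum theorem.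
-/

set_option autoImplicit false
set_option linter.style.haveILetI false

universe u

noncomputable section

open scoped TensorProduct

namespace FLTAgent.AbVarTors

/-- An unramified algebra over a polynomial ring, smooth of the same dimension, is etale. -/
theorem etale_over_mvPolynomial (g : ℕ) {K B : Type u} [Field K] [CommRing B] [Algebra K B]
    [Algebra (MvPolynomial (Fin g) K) B] [IsScalarTower K (MvPolynomial (Fin g) K) B]
    [Algebra.IsStandardSmoothOfRelativeDimension g K B]
    [Algebra.FormallyUnramified (MvPolynomial (Fin g) K) B] :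
    Algebra.Etale (MvPolynomial (Fin g) K) B := by
  haveI := Algebra.IsStandardSmoothOfRelativeDimension.isStandardSmooth (R := K) (S := B) g
  haveI hfp : Algebra.FinitePresentation (MvPolynomial (Fin g) K) B :=
    Algebra.FinitePresentation.of_restrict_scalars_finitePresentation K (MvPolynomial (Fin g) K) B
  refine ⟨⟨inferInstance, ?_⟩, hfp⟩
  rcases subsingleton_or_nontrivial B with hB | hB
  · exact Module.subsingleton B _
  haveI : Module.Free (MvPolynomial (Fin g) K) Ω[MvPolynomial (Fin g) K⁄K] :=
    Module.Free.of_basis (KaehlerDifferential.mvPolynomialBasis K (Fin g))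
  haveI : Module.Finite (MvPolynomial (Fin g) K) Ω[MvPolynomial (Fin g) K⁄K] :=
    Module.Finite.of_basis (KaehlerDifferential.mvPolynomialBasis K (Fin g))
  have hsur : Function.Surjective
      (KaehlerDifferential.mapBaseChange K (MvPolynomial (Fin g) K) B) := fun y =>
    (KaehlerDifferential.exact_mapBaseChange_map K (MvPolynomial (Fin g) K) B y).mp
      (Subsingleton.elim _ _)
  have hA : Module.finrank (MvPolynomial (Fin g) K) Ω[MvPolynomial (Fin g) K⁄K] = g := by
    rw [Module.finrank_eq_card_basis (KaehlerDifferential.mvPolynomialBasis K (Fin g)),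
      Fintype.card_fin]
  have hB' : Module.finrank B Ω[B⁄K] = g := Module.finrank_eq_of_rank_eq
    (Algebra.IsStandardSmoothOfRelativeDimension.rank_kaehlerDifferential g)
  have hT : Module.finrank B (B ⊗[MvPolynomial (Fin g) K] Ω[MvPolynomial (Fin g) K⁄K]) = g := by
    rw [Module.finrank_baseChange, hA]
  let e : Ω[B⁄K] ≃ₗ[B] B ⊗[MvPolynomial (Fin g) K] Ω[MvPolynomial (Fin g) K⁄K] :=
    LinearEquiv.ofFinrankEq _ _ (hB'.trans hT.symm)
  have hinj : Function.Injective
      (KaehlerDifferential.mapBaseChange K (MvPolynomial (Fin g) K) B) := by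
    have h := OrzechProperty.injective_of_surjective_endomorphism
      ((KaehlerDifferential.mapBaseChange K (MvPolynomial (Fin g) K) B) ∘ₗ e.toLinearMap)
      (hsur.comp e.surjective)
    exact (Function.Injective.of_comp_iff' _ e.bijective).mp h
  refine subsingleton_of_forall_eq 0 fun z => ?_
  have hz : Algebra.H1Cotangent.δ K (MvPolynomial (Fin g) K) B z = 0 := hinj (by
    rw [(Algebra.H1Cotangent.exact_δ_mapBaseChange K (MvPolynomial (Fin g) K) B).apply_apply_eq_zero,
      map_zero])
  obtain ⟨w, rfl⟩ :=
    (Algebra.H1Cotangent.exact_map_δ K (MvPolynomial (Fin g) K) B z).mp hz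
  rw [Subsingleton.elim w 0, map_zero]

section Local

variable {K C : Type u} [Field K] [IsAlgClosed K] [CommRing C] [Algebra K C]
  [Algebra.FiniteType K C] (m : Ideal C) [m.IsMaximal] {g : ℕ} {y : Fin g → C}

/-- Differentials spanning at `m` give generators of the cotangent space. -/
theorem le_span_sup_sq (hym : ∀ i, y i ∈ m)
    (hspan : Submodule.span C (Set.range (KaehlerDifferential.D K C ∘ y)) ⊔
      m • (⊤ : Submodule C (Ω[C⁄K])) = ⊤) :
    m ≤ Ideal.span (Set.range y) ⊔ m ^ 2 := by
  let J := Ideal.span (Set.range y) ⊔ m ^ 2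
  have hmm : ∀ {a b : C}, a ∈ m → b ∈ m → a * b ∈ J := fun ha hb =>
    Ideal.mem_sup_right (by rw [pow_two]; exact Ideal.mul_mem_mul ha hb)
  let δ : C →ₗ[K] C ⧸ J :=
    { toFun := fun x => Ideal.Quotient.mk J (x - algebraMap K C (residueHom (K := K) m x))
      map_add' := fun x z => by simp; abel
      map_smul' := fun c x => by
        rw [map_smul, RingHom.id_apply, Algebra.smul_def, smul_eq_mul, map_mul, ← mul_sub,
          map_mul, Algebra.smul_def, Ideal.Quotient.mk_algebraMap] }
  let Dv : Derivation K C (C ⧸ J) := Derivation.mk' δ fun a b => by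
    show Ideal.Quotient.mk J _ = Ideal.Quotient.mk J (a * _) + Ideal.Quotient.mk J (b * _)
    rw [← map_add, Ideal.Quotient.eq, map_mul, map_mul]
    have h := hmm (sub_residueHom_mem (K := K) m a) (sub_residueHom_mem (K := K) m b)
    have e : a * b - algebraMap K C (residueHom (K := K) m a) * algebraMap K C (residueHom (K := K) m b) -
        (a * (b - algebraMap K C (residueHom (K := K) m b)) +
          b * (a - algebraMap K C (residueHom (K := K) m a))) =
        -((a - algebraMap K C (residueHom (K := K) m a)) *
          (b - algebraMap K C (residueHom (K := K) m b))) := by ring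
    rw [e]
    exact neg_mem h
  have hDv : ∀ x, Dv x = Ideal.Quotient.mk J (x - algebraMap K C (residueHom (K := K) m x)) :=
    fun _ => rfl
  let Lf := Dv.liftKaehlerDifferential
  have hLD : ∀ x, Lf (KaehlerDifferential.D K C x) = Dv x :=
    fun x => Derivation.liftKaehlerDifferential_comp_D _ x
  have hkill : ∀ a ∈ m, ∀ ω : Ω[C⁄K], a • Lf ω = 0 := by
    intro a ha ω
    have hω : ω ∈ Submodule.span C (Set.range (KaehlerDifferential.D K C)) := by
      rw [KaehlerDifferential.span_range_derivation]; trivial
    induction hω using Submodule.span_induction with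
    | mem z hz =>
      obtain ⟨x, rfl⟩ := hz
      rw [hLD, hDv]
      exact Ideal.Quotient.eq_zero_iff_mem.mpr (hmm ha (sub_residueHom_mem m x))
    | zero => rw [map_zero, smul_zero]
    | add z z' _ _ h h' => rw [map_add, smul_add, h, h', add_zero]
    | smul c z _ h => rw [map_smul, smul_comm, h, smul_zero]
  have hzero : ∀ ω, Lf ω = 0 := by
    have hker : (⊤ : Submodule C (Ω[C⁄K])) ≤ LinearMap.ker Lf := by
      refine hspan.ge.trans (sup_le (Submodule.span_le.mpr ?_) ?_)
      · rintro _ ⟨i, rfl⟩
        rw [SetLike.mem_coe, LinearMap.mem_ker, Function.comp_apply, hLD, hDv,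
          (residueHom_eq_zero_iff (K := K) m _).mpr (hym i), map_zero, sub_zero]
        exact Ideal.Quotient.eq_zero_iff_mem.mpr
          (Ideal.mem_sup_left (Ideal.subset_span (Set.mem_range_self i)))
      · refine Submodule.smul_le.mpr fun a ha ω _ => ?_
        rw [LinearMap.mem_ker, map_smul, hkill a ha ω]
    exact fun ω => hker trivial
  intro x hx
  have h := hLD x
  rw [hzero, hDv, (residueHom_eq_zero_iff (K := K) m x).mpr hx, map_zero, sub_zero] at h
  exact Ideal.Quotient.eq_zero_iff_mem.mp h.symm

/-- A projection has no other point of `V(q)` over the origin, not even infinitesimally. -/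
theorem le_span_sup {q : Ideal C} (hy : IsProjection (K := K) m q y) :
    m ≤ Ideal.span (Set.range y) ⊔ q := by
  obtain ⟨hym, -, hspan, hsep⟩ := hy
  haveI : IsJacobsonRing C := isJacobsonRing_of_finiteType (A := K)
  haveI : IsNoetherianRing C := Algebra.FiniteType.isNoetherianRing K C
  let J := Ideal.span (Set.range y) ⊔ q
  have hrad : m ≤ J.radical := by
    rw [Ideal.radical_eq_jacobson J]
    exact le_sInf fun M hM => (hsep M hM.2 (le_sup_right.trans hM.1)
      fun i => hM.1 (Ideal.mem_sup_left (Ideal.subset_span (Set.mem_range_self i)))).ge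
  obtain ⟨N, hN⟩ := Ideal.exists_pow_le_of_le_radical_of_fg hrad (IsNoetherian.noetherian m)
  have hstep : ∀ k, m ≤ J ⊔ m ^ (k + 1) := by
    intro k
    induction k with
    | zero => rw [zero_add, pow_one]; exact le_sup_right
    | succ k ih =>
      refine ih.trans (sup_le le_sup_left ?_)
      calc m ^ (k + 1) = m ^ k * m := pow_succ m k
        _ ≤ m ^ k * (J ⊔ m ^ 2) := Ideal.mul_mono_right
            ((le_span_sup_sq m hym hspan).trans (sup_le_sup le_sup_left le_rfl))
        _ ≤ J ⊔ m ^ (k + 1 + 1) := by
            rw [Ideal.mul_sup, ← pow_add]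
            exact sup_le_sup Ideal.mul_le_right le_rfl
  exact (hstep N).trans (sup_le le_rfl ((Ideal.pow_le_pow_right N.le_succ).trans hN))

variable [Algebra (MvPolynomial (Fin g) K) C] [IsScalarTower K (MvPolynomial (Fin g) K) C]

omit [IsAlgClosed K] [Algebra.FiniteType K C] [m.IsMaximal] in
theorem algebraMap_eq_aeval (hX : ∀ i, algebraMap (MvPolynomial (Fin g) K) C (MvPolynomial.X i) = y i)
    (a : MvPolynomial (Fin g) K) :
    algebraMap (MvPolynomial (Fin g) K) C a = MvPolynomial.aeval y a := by
  have h : IsScalarTower.toAlgHom K (MvPolynomial (Fin g) K) C = MvPolynomial.aeval y :=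
    MvPolynomial.algHom_ext fun i => by simp [hX]
  exact AlgHom.congr_fun h a

variable (hX : ∀ i, algebraMap (MvPolynomial (Fin g) K) C (MvPolynomial.X i) = y i)
include hX

omit [IsAlgClosed K] in
/-- A projection is unramified at `m`. -/
theorem exists_notMem_smul_eq_zero (hspan : Submodule.span C
      (Set.range (KaehlerDifferential.D K C ∘ y)) ⊔ m • (⊤ : Submodule C (Ω[C⁄K])) = ⊤) :
    ∃ r ∉ m, ∀ ω : Ω[C⁄MvPolynomial (Fin g) K], r • ω = 0 := by
  haveI : Algebra.FiniteType (MvPolynomial (Fin g) K) C :=
    Algebra.FiniteType.of_restrictScalars_finiteType K (MvPolynomial (Fin g) K) C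
  have htop : (⊤ : Submodule C (Ω[C⁄MvPolynomial (Fin g) K])) ≤ m • ⊤ := by
    intro ω _
    obtain ⟨ω, rfl⟩ := KaehlerDifferential.map_surjective K (MvPolynomial (Fin g) K) C ω
    have h : (⊤ : Submodule C (Ω[C⁄K])) ≤ Submodule.comap
        (KaehlerDifferential.map K (MvPolynomial (Fin g) K) C C) (m • ⊤) := by
      refine hspan.ge.trans (sup_le (Submodule.span_le.mpr ?_) ?_)
      · rintro _ ⟨i, rfl⟩
        simp [← hX]
      · rw [← Submodule.map_le_iff_le_comap, Submodule.map_smul'']
        exact Submodule.smul_mono le_rfl le_top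
    exact h trivial
  obtain ⟨r, hr, hr'⟩ := Submodule.exists_sub_one_mem_and_smul_eq_zero_of_fg_of_le_smul m _
    (Module.Finite.fg_top) htop
  refine ⟨r, fun hrm => ?_, fun ω => hr' ω trivial⟩
  exact (Ideal.IsMaximal.ne_top ‹_›) (m.eq_top_iff_one.mpr (by simpa using sub_mem hrm hr))

/-- The image of a projection is normal enough: `V(q)` is birational to it near `m`. -/
theorem exists_denominator {q : Ideal C} (hy : IsProjection (K := K) m q y) :
    ∃ s : MvPolynomial (Fin g) K, algebraMap (MvPolynomial (Fin g) K) C s ∉ m ∧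
      ∀ x : C, ∃ a : MvPolynomial (Fin g) K,
        algebraMap (MvPolynomial (Fin g) K) C s * x - algebraMap (MvPolynomial (Fin g) K) C a ∈ q := by
  have hint := hy.2.1
  haveI : Algebra.IsIntegral (MvPolynomial (Fin g) K) (C ⧸ q) := ⟨fun b => by
    let f : MvPolynomial (Fin g) K →ₐ[K] C ⧸ q := IsScalarTower.toAlgHom _ _ _
    have hf : f.range = Algebra.adjoin K (Set.range (Ideal.Quotient.mk q ∘ y)) := by
      rw [Algebra.adjoin_range_eq_range_aeval]
      congr 1
      refine MvPolynomial.algHom_ext fun i => ?_
      rw [MvPolynomial.aeval_X]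
      exact congrArg (Ideal.Quotient.mk q) (hX i)
    obtain ⟨p, hp, hpb⟩ := hint b
    have hsur : Function.Surjective ((Subalgebra.inclusion hf.le).comp f.rangeRestrict).toRingHom := by
      intro x
      obtain ⟨a, ha⟩ : (x : C ⧸ q) ∈ f.range := by rw [hf]; exact x.2
      exact ⟨a, Subtype.ext ha⟩
    obtain ⟨P, hP, -, hPm⟩ := Polynomial.lifts_and_natDegree_eq_and_monic
      (f := ((Subalgebra.inclusion hf.le).comp f.rangeRestrict).toRingHom)
      ((Polynomial.lifts_iff_coeff_lifts _).mpr fun k => hsur _) hp
    refine ⟨P, hPm, ?_⟩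
    rw [← hpb, ← hP, Polynomial.eval₂_map]
    rfl⟩
  haveI : Algebra.FiniteType (MvPolynomial (Fin g) K) (C ⧸ q) :=
    Algebra.FiniteType.of_restrictScalars_finiteType K (MvPolynomial (Fin g) K) (C ⧸ q)
  haveI : Module.Finite (MvPolynomial (Fin g) K) (C ⧸ q) := Algebra.IsIntegral.finite
  let a0 : Ideal (MvPolynomial (Fin g) K) := Ideal.span (Set.range MvPolynomial.X)
  let Q := (C ⧸ q) ⧸ LinearMap.range (Algebra.linearMap (MvPolynomial (Fin g) K) (C ⧸ q))
  have htop : (⊤ : Submodule (MvPolynomial (Fin g) K) Q) ≤ a0 • ⊤ := by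
    intro b _
    obtain ⟨b, rfl⟩ := Submodule.mkQ_surjective _ b
    obtain ⟨x, rfl⟩ := Ideal.Quotient.mk_surjective b
    have h1 : Ideal.Quotient.mk q (x - algebraMap K C (residueHom (K := K) m x)) ∈
        a0 • (⊤ : Submodule (MvPolynomial (Fin g) K) (C ⧸ q)) := by
      rw [Ideal.smul_top_eq_map, Submodule.restrictScalars_mem, Ideal.map_span, ← Set.range_comp]
      have h := Ideal.mem_map_of_mem (Ideal.Quotient.mk q)
        (le_span_sup m hy (sub_residueHom_mem (K := K) m x))
      rw [Ideal.map_sup, Ideal.map_quotient_self, sup_bot_eq, Ideal.map_span, ← Set.range_comp] at h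
      have he : algebraMap (MvPolynomial (Fin g) K) (C ⧸ q) ∘ MvPolynomial.X =
          Ideal.Quotient.mk q ∘ y := funext fun i => congrArg (Ideal.Quotient.mk q) (hX i)
      rw [he]
      exact h
    have h2 := Submodule.mem_map_of_mem (f := Submodule.mkQ
      (LinearMap.range (Algebra.linearMap (MvPolynomial (Fin g) K) (C ⧸ q)))) h1
    rw [map_sub, map_sub, Submodule.map_smul'', Submodule.map_top, Submodule.range_mkQ] at h2
    have h3 : Submodule.mkQ (LinearMap.range (Algebra.linearMap (MvPolynomial (Fin g) K) (C ⧸ q)))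
        (Ideal.Quotient.mk q (algebraMap K C (residueHom (K := K) m x))) = 0 := by
      refine (Submodule.Quotient.mk_eq_zero _).mpr
        ⟨algebraMap K (MvPolynomial (Fin g) K) (residueHom (K := K) m x), ?_⟩
      rw [Algebra.linearMap_apply, ← IsScalarTower.algebraMap_apply, Ideal.Quotient.mk_algebraMap]
    rwa [h3, sub_zero] at h2
  obtain ⟨s, hs, hs'⟩ := Submodule.exists_sub_one_mem_and_smul_eq_zero_of_fg_of_le_smul a0 _
    (Module.Finite.fg_top) htop
  refine ⟨s, fun hsm => ?_, fun x => ?_⟩
  · have h : algebraMap (MvPolynomial (Fin g) K) C (s - 1) ∈ m := by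
      have h' := Ideal.mem_map_of_mem (algebraMap (MvPolynomial (Fin g) K) C) hs
      rw [Ideal.map_span, ← Set.range_comp] at h'
      refine Ideal.span_le.mpr ?_ h'
      rintro _ ⟨i, rfl⟩
      rw [SetLike.mem_coe, Function.comp_apply, hX]
      exact hy.1 i
    refine (Ideal.IsMaximal.ne_top ‹_›) (m.eq_top_iff_one.mpr ?_)
    rw [map_sub, map_one] at h
    simpa using sub_mem hsm h
  · have h := hs' (Submodule.mkQ _ (Ideal.Quotient.mk q x)) trivial
    rw [← map_smul, Submodule.mkQ_apply, Submodule.Quotient.mk_eq_zero] at h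
    obtain ⟨a, ha⟩ := h
    refine ⟨a, Ideal.Quotient.eq.mp ?_⟩
    rw [map_mul, Ideal.Quotient.mk_algebraMap, Ideal.Quotient.mk_algebraMap]
    exact ((Algebra.smul_def s (Ideal.Quotient.mk q x)).symm.trans ha.symm)

end Local

section Cut

variable {A C : Type u} [CommRing A] [CommRing C] [Algebra A C]

/-- An unramified birational projection cuts out `q` up to its square. -/
theorem mul_mem_map_comap_sup_sq {q : Ideal C} {r : C} (hr : ∀ ω : Ω[C⁄A], r • ω = 0) {s : A}
    (hs : ∀ x : C, ∃ a : A, algebraMap A C s * x - algebraMap A C a ∈ q) {x : C} (hx : x ∈ q) :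
    r * algebraMap A C s ^ 2 * x ∈ (q.comap (algebraMap A C)).map (algebraMap A C) ⊔ q ^ 2 := by
  choose a ha using hs
  let J := (q.comap (algebraMap A C)).map (algebraMap A C) ⊔ q ^ 2
  -- any two numerators agree modulo `J`
  have hJ : ∀ {c : A}, algebraMap A C c ∈ q → algebraMap A C c ∈ J := fun hc =>
    Ideal.mem_sup_left (Ideal.mem_map_of_mem _ hc)
  have hsq : ∀ {u v : C}, u ∈ q → v ∈ q → u * v ∈ J := fun hu hv =>
    Ideal.mem_sup_right (by rw [pow_two]; exact Ideal.mul_mem_mul hu hv)
  let δ : C → C := fun z => algebraMap A C s * (algebraMap A C s * z - algebraMap A C (a z))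
  let δl : C →ₗ[A] C ⧸ J :=
    { toFun := fun z => Ideal.Quotient.mk J (δ z)
      map_add' := fun z w => by
        rw [← map_add, Ideal.Quotient.eq]
        have h : algebraMap A C (a z + a w - a (z + w)) ∈ q := by
          rw [map_sub, map_add]
          convert sub_mem (sub_mem (ha (z + w)) (ha z)) (ha w) using 1
          ring
        convert J.mul_mem_left (algebraMap A C s) (hJ h) using 1
        simp only [δ, map_sub, map_add]
        ring
      map_smul' := fun c z => by
        rw [RingHom.id_apply, Algebra.smul_def (A := C), Algebra.smul_def (A := C ⧸ J),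
          ← Ideal.Quotient.mk_algebraMap, ← map_mul, Ideal.Quotient.eq]
        have h : algebraMap A C (c * a z - a (algebraMap A C c * z)) ∈ q := by
          rw [map_sub, map_mul]
          convert sub_mem (ha (algebraMap A C c * z)) (q.mul_mem_left (algebraMap A C c) (ha z))
            using 1
          ring
        convert J.mul_mem_left (algebraMap A C s) (hJ h) using 1
        simp only [δ, map_sub, map_mul]
        ring }
  let Dv : Derivation A C (C ⧸ J) := Derivation.mk' δl fun z w => by
    show Ideal.Quotient.mk J (δ (z * w)) =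
      Ideal.Quotient.mk J (z * δ w) + Ideal.Quotient.mk J (w * δ z)
    rw [← map_add, Ideal.Quotient.eq]
    have h : algebraMap A C (a z * a w - s * a (z * w)) ∈ q := by
      rw [map_sub, map_mul, map_mul]
      convert sub_mem (q.mul_mem_left (algebraMap A C s) (ha (z * w)))
        (add_mem (q.mul_mem_left (algebraMap A C s * w) (ha z))
          (q.mul_mem_left (algebraMap A C (a z)) (ha w))) using 1
      ring
    convert sub_mem (hJ h) (hsq (ha z) (ha w)) using 1
    simp only [δ, map_sub, map_mul]
    ring
  have h := (Dv.liftKaehlerDifferential).map_smul r (KaehlerDifferential.D A C x)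
  rw [hr, map_zero, Derivation.liftKaehlerDifferential_comp_D] at h
  have h' : r * δ x ∈ J := Ideal.Quotient.eq_zero_iff_mem.mp h.symm
  have hax : algebraMap A C (a x) ∈ q := by
    simpa using sub_mem (q.mul_mem_left (algebraMap A C s) hx) (ha x)
  convert add_mem h' (J.mul_mem_left (r * algebraMap A C s) (hJ hax)) using 1
  simp only [δ]
  ring

/-- Inverting an annihilator of the differentials gives an unramified algebra. -/
theorem formallyUnramified_localization {r : C} (hr : ∀ ω : Ω[C⁄A], r • ω = 0)
    (R : Type u) [CommRing R] [Algebra A R] [Algebra C R] [IsScalarTower A C R]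
    [IsLocalization.Away r R] : Algebra.FormallyUnramified A R := by
  refine ⟨subsingleton_of_forall_eq 0 fun ω => ?_⟩
  have hru : IsUnit (algebraMap C R r) := IsLocalization.Away.algebraMap_isUnit r
  have hC : ∀ x : C, KaehlerDifferential.D A R (algebraMap C R x) = 0 := fun x => by
    rw [← hru.smul_eq_zero (x := KaehlerDifferential.D A R (algebraMap C R x)),
      algebraMap_smul, ← KaehlerDifferential.map_D A A C R, ← map_smul, hr, map_zero]
  have hω : ω ∈ Submodule.span R (Set.range (KaehlerDifferential.D A R)) := by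
    rw [KaehlerDifferential.span_range_derivation]; trivial
  induction hω using Submodule.span_induction with
  | mem z hz =>
    obtain ⟨w, rfl⟩ := hz
    obtain ⟨k, x, hx⟩ := IsLocalization.Away.surj r w
    have h := congrArg (KaehlerDifferential.D A R) hx
    rw [hC, Derivation.leibniz, ← map_pow, hC, smul_zero, zero_add, map_pow] at h
    exact (hru.pow k).smul_eq_zero.mp h
  | zero => rfl
  | add z z' _ _ h h' => rw [h, h', add_zero]
  | smul c z _ h => rw [h, smul_zero]

end Cut

section UFD

variable {K C : Type u} [Field K] [IsAlgClosed K] [CommRing C] [IsDomain C] [Algebra K C]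

/-- A prime of height one of a smooth variety is principal at each rational point on it. -/
theorem exists_generator_localization {g : ℕ}
    [Algebra.IsStandardSmoothOfRelativeDimension g K C] (htr : Algebra.trdeg K C ≤ g)
    (m : Ideal C) [m.IsMaximal] {q : Ideal C} [q.IsPrime] (hqm : q ≤ m) (hq0 : q ≠ ⊥)
    (hmin : ∀ q₁ : Ideal C, q₁.IsPrime → q₁ < q → q₁ = ⊥) :
    ∃ π : C, q.map (algebraMap C (Localization.AtPrime m)) =
      Ideal.span {algebraMap C (Localization.AtPrime m) π} := by
  haveI := Algebra.IsStandardSmoothOfRelativeDimension.isStandardSmooth (R := K) (S := C) g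
  haveI : Algebra.FiniteType K C := inferInstance
  haveI : IsNoetherianRing C := Algebra.FiniteType.isNoetherianRing K C
  obtain ⟨f, hfq, hf0⟩ := Submodule.exists_mem_ne_zero_of_ne_bot hq0
  have htrB : Algebra.trdeg K (C ⧸ q) < g := by
    have h := (trdeg_add_one_le (Ideal.Quotient.mkₐ K q) Ideal.Quotient.mk_surjective hf0
      (Ideal.Quotient.eq_zero_iff_mem.mpr hfq)).trans htr
    obtain ⟨k, hk⟩ := Cardinal.lt_aleph0.mp
      (((self_le_add_right _ _).trans h).trans_lt Cardinal.natCast_lt_aleph0)
    rw [hk] at h ⊢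
    norm_cast at h ⊢
  obtain ⟨y, hy⟩ := exists_isProjection (K := K) m q htrB
  letI : Algebra (MvPolynomial (Fin g) K) C := (MvPolynomial.aeval (R := K) y).toRingHom.toAlgebra
  haveI : IsScalarTower K (MvPolynomial (Fin g) K) C :=
    IsScalarTower.of_algebraMap_eq fun c => ((MvPolynomial.aeval (R := K) y).commutes c).symm
  have hX : ∀ i, algebraMap (MvPolynomial (Fin g) K) C (MvPolynomial.X i) = y i :=
    fun i => MvPolynomial.aeval_X y i
  obtain ⟨r, hrm, hr⟩ := exists_notMem_smul_eq_zero m hX hy.2.2.1
  obtain ⟨s, hsm, hs⟩ := exists_denominator m hX hy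
  -- the image of `V(q)` is a hypersurface
  let p := q.comap (algebraMap (MvPolynomial (Fin g) K) C)
  haveI : p.IsPrime := Ideal.IsPrime.comap _
  have hp0 : p ≠ ⊥ := fun h => by
    obtain ⟨G, hG0, hG⟩ := exists_relation htrB (Ideal.Quotient.mk q ∘ y)
    refine hG0 (Ideal.mem_bot.mp (h ▸ ?_))
    rw [Ideal.mem_comap, ← Ideal.Quotient.eq_zero_iff_mem, algebraMap_eq_aeval hX,
      ← Ideal.Quotient.mkₐ_eq_mk K, MvPolynomial.comp_aeval_apply]
    exact hG
  obtain ⟨π, hπp, hπ⟩ := Ideal.IsPrime.exists_mem_prime_of_ne_bot ‹p.IsPrime› hp0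
  haveI : (Ideal.span {π}).IsPrime := (Ideal.span_singleton_prime hπ.ne_zero).mpr hπ
  have hp : p = Ideal.span {π} := by
    by_contra hne
    have hlt : Ideal.span {π} < p :=
      lt_of_le_of_ne ((Ideal.span_singleton_le_iff_mem _).mpr hπp) (Ne.symm hne)
    let R := Localization.Away r
    haveI : Algebra.FormallyUnramified (MvPolynomial (Fin g) K) R :=
      formallyUnramified_localization hr R
    haveI : Algebra.IsStandardSmoothOfRelativeDimension 0 C R :=
      Algebra.IsStandardSmoothOfRelativeDimension.localization_away r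
    haveI : Algebra.IsStandardSmoothOfRelativeDimension g K R := by
      simpa using Algebra.IsStandardSmoothOfRelativeDimension.trans g 0 K C R
    haveI : Algebra.Etale (MvPolynomial (Fin g) K) R := etale_over_mvPolynomial g
    haveI : Algebra.HasGoingDown (MvPolynomial (Fin g) K) R := Algebra.HasGoingDown.of_flat
    have hd : Disjoint (Submonoid.powers r : Set C) q :=
      (Ideal.disjoint_powers_iff_notMem_of_isPrime r).mpr fun hrq => hrm (hqm hrq)
    haveI : (q.map (algebraMap C R)).IsPrime :=
      IsLocalization.isPrime_of_isPrime_disjoint (Submonoid.powers r) R q ‹_› hd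
    have hQ : (q.map (algebraMap C R)).comap (algebraMap C R) = q :=
      IsLocalization.under_map_of_isPrime_disjoint (Submonoid.powers r) R ‹_› hd
    have hQp : (q.map (algebraMap C R)).under (MvPolynomial (Fin g) K) = p := by
      rw [Ideal.under_def, IsScalarTower.algebraMap_eq (MvPolynomial (Fin g) K) C R,
        ← Ideal.comap_comap, hQ]
    haveI : (q.map (algebraMap C R)).LiesOver p := ⟨hQp.symm⟩
    obtain ⟨P, hPQ, hP, hPπ⟩ := Ideal.exists_ideal_lt_liesOver_of_lt (q.map (algebraMap C R)) hlt
    have hcomap : P.comap (algebraMap C R) < q := by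
      refine lt_of_le_of_ne ((Ideal.comap_mono hPQ.le).trans hQ.le) fun h => hPQ.ne ?_
      rw [← h, IsLocalization.map_under (Submonoid.powers r) R]
    have hmem : algebraMap (MvPolynomial (Fin g) K) C π ∈ P.comap (algebraMap C R) := by
      rw [Ideal.mem_comap, ← IsScalarTower.algebraMap_apply, ← Ideal.mem_comap, ← Ideal.under_def,
        ← hPπ.over]
      exact Ideal.mem_span_singleton_self π
    rw [hmin _ (Ideal.IsPrime.comap _) hcomap, Ideal.mem_bot] at hmem
    -- flatness makes the projection dominant
    haveI : (q.map (algebraMap C R)).LiesOver p := ⟨hQp.symm⟩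
    obtain ⟨P₀, -, hP₀, hP₀'⟩ := Ideal.exists_ideal_le_liesOver_of_le (p := (⊥ : Ideal _))
      (q.map (algebraMap C R)) (bot_le (a := p))
    have h0 : π ∈ (⊥ : Ideal (MvPolynomial (Fin g) K)) := by
      rw [hP₀'.over, Ideal.under_def, Ideal.mem_comap,
        IsScalarTower.algebraMap_apply (MvPolynomial (Fin g) K) C R, hmem, map_zero]
      exact P₀.zero_mem
    exact hπ.ne_zero (Ideal.mem_bot.mp h0)
  refine ⟨algebraMap (MvPolynomial (Fin g) K) C π, le_antisymm ?_ ?_⟩
  · haveI : IsNoetherianRing (Localization.AtPrime m) :=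
      IsLocalization.isNoetherianRing m.primeCompl _ inferInstance
    have hu : IsUnit (algebraMap C (Localization.AtPrime m)
        (r * algebraMap (MvPolynomial (Fin g) K) C s ^ 2)) :=
      IsLocalization.map_units _ (⟨_, m.primeCompl.mul_mem (show r ∈ m.primeCompl from hrm)
        (pow_mem (show _ ∈ m.primeCompl from hsm) 2)⟩ : m.primeCompl)
    have hle : q.map (algebraMap C (Localization.AtPrime m)) ≤
        (p.map (algebraMap (MvPolynomial (Fin g) K) C)).map (algebraMap C (Localization.AtPrime m)) ⊔
          q.map (algebraMap C (Localization.AtPrime m)) •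
            q.map (algebraMap C (Localization.AtPrime m)) := by
      refine Ideal.map_le_iff_le_comap.mpr fun x hx => ?_
      rw [Ideal.mem_comap, ← Ideal.unit_mul_mem_iff_mem _ hu, ← map_mul, smul_eq_mul,
        ← Ideal.map_mul, ← Ideal.map_sup, ← pow_two]
      exact Ideal.mem_map_of_mem _ (mul_mem_map_comap_sup_sq hr hs hx)
    have hjac : q.map (algebraMap C (Localization.AtPrime m)) ≤ Ideal.jacobson ⊥ := by
      rw [IsLocalRing.jacobson_eq_maximalIdeal _ bot_ne_top,
        ← Localization.AtPrime.map_eq_maximalIdeal]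
      exact Ideal.map_mono hqm
    refine (Submodule.le_of_le_smul_of_le_jacobson_bot (IsNoetherian.noetherian _) hjac hle).trans ?_
    rw [hp, Ideal.map_span, Ideal.map_span, Set.image_singleton, Set.image_singleton]
  · rw [Ideal.span_singleton_le_iff_mem]
    exact Ideal.mem_map_of_mem _ hπp

/-- The local rings of a smooth variety at rational points are factorial. -/
theorem uniqueFactorizationMonoid_localization {g : ℕ}
    [Algebra.IsStandardSmoothOfRelativeDimension g K C] (htr : Algebra.trdeg K C ≤ g)
    (m : Ideal C) [m.IsMaximal] : UniqueFactorizationMonoid (Localization.AtPrime m) := by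
  haveI := Algebra.IsStandardSmoothOfRelativeDimension.isStandardSmooth (R := K) (S := C) g
  haveI : IsNoetherianRing C := Algebra.FiniteType.isNoetherianRing K C
  haveI : IsNoetherianRing (Localization.AtPrime m) :=
    IsLocalization.isNoetherianRing m.primeCompl _ inferInstance
  refine UniqueFactorizationMonoid.of_forall_isPrincipal_of_height_eq_one fun P _ hP => ?_
  let q := P.comap (algebraMap C (Localization.AtPrime m))
  haveI : q.IsPrime := Ideal.IsPrime.comap _
  have hq : q.height = 1 := (IsLocalization.height_under m.primeCompl P).trans hP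
  have hqm : q ≤ m := fun x hx => by
    by_contra hxm
    exact Ideal.IsPrime.ne_top ‹P.IsPrime›
      (Ideal.eq_top_of_isUnit_mem _ hx (IsLocalization.map_units _ (⟨x, hxm⟩ : m.primeCompl)))
  have hmin : ∀ q₁ : Ideal C, q₁.IsPrime → q₁ < q → q₁ = ⊥ := fun q₁ h₁ hlt => by
    have h := (Ideal.height_strict_mono_of_isPrime_of_isPrime hlt).trans_le hq.le
    rw [Order.lt_one_iff, Ideal.height_eq_zero_iff] at h
    exact le_bot_iff.mp (h.2 ⟨Ideal.isPrime_bot, le_rfl⟩ bot_le)
  obtain ⟨π, hπ⟩ :=
    exists_generator_localization htr m hqm (Ideal.ne_bot_of_height_eq_one hq) hmin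
  rw [IsLocalization.map_under m.primeCompl] at hπ
  exact ⟨_, hπ⟩

end UFD


end FLTAgent.AbVarTors
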