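import Mathlib
import Fermat.Agent.AbVarTors.Data
import Fermat.Agent.AbVarTors.SmoothFactorial

/-!
# Local equations of polar divisors

In the factorial local ring at a rational point of a chart the denominators of a function `x` form
a principal ideal (`exists_denom_generator`), and one generator serves on a whole neighbourhood of
any point (`exists_denom_nbhd`). Consequently the indeterminacy locus of `x`, where the denominator
and `e * x` both vanish, has codimension at least two (`trdeg_add_two_le`).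
-/

set_option autoImplicit false
set_option linter.style.haveILetI false
set_option linter.unusedSectionVars false

universe u

noncomputable section

open scoped IntermediateField.algebraAdjoinAdjoin

namespace FLTAgent.AbVarTors

variable {K : Type u} [Field K] {g : ℕ}

section Colon

variable {F : Type u} [Field F] [Algebra K F]

/-- The ideal of denominators of `x` in a subalgebra. -/
def denomIdeal (C : Subalgebra K F) (x : F) : Ideal C where
  carrier := {d | (d : F) * x ∈ C}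
  add_mem' := fun {a b} ha hb => by simpa [add_mul] using add_mem ha hb
  zero_mem' := by simp
  smul_mem' := fun c d hd => by simpa [mul_assoc] using mul_mem c.2 hd

theorem mem_denomIdeal {C : Subalgebra K F} {x : F} {d : C} :
    d ∈ denomIdeal C x ↔ (d : F) * x ∈ C := Iff.rfl

variable [IsAlgClosed K]

/-- Near a rational point of a smooth variety the denominators of a function are principal. -/
theorem exists_denom_generator (C : Subalgebra K F)
    [Algebra.IsStandardSmoothOfRelativeDimension g K C] (htr : Algebra.trdeg K C ≤ g)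
    (m : Ideal C) [m.IsMaximal] {x : F} (a s : C) (hs : s ≠ 0) (hx : x * (s : F) = a) :
    ∃ e ∈ denomIdeal C x, e ≠ 0 ∧ ∃ T ∉ m, ∀ d ∈ denomIdeal C x, T * d ∈ Ideal.span {e} := by
  haveI := Algebra.IsStandardSmoothOfRelativeDimension.isStandardSmooth (R := K) (S := C) g
  haveI : IsNoetherianRing C := Algebra.FiniteType.isNoetherianRing K C
  haveI : UniqueFactorizationMonoid (Localization.AtPrime m) :=
    uniqueFactorizationMonoid_localization htr m
  haveI : DecompositionMonoid (Localization.AtPrime m) :=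
    UniqueFactorizationMonoid.instDecompositionMonoid
  let η := algebraMap C (Localization.AtPrime m)
  have hinj : Function.Injective η :=
    IsLocalization.injective (Localization.AtPrime m) m.primeCompl_le_nonZeroDivisors
  have hs' : η s ≠ 0 := (map_ne_zero_iff η hinj).mpr hs
  obtain ⟨A, S, G, hAS, hA, hS⟩ :=
    UniqueFactorizationMonoid.exists_reduced_factors' (η a) (η s) hs'
  have hG : G ≠ 0 := left_ne_zero_of_mul (hS ▸ hs')
  obtain ⟨⟨e₁, t₀⟩, he₁⟩ := IsLocalization.surj m.primeCompl S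
  obtain ⟨⟨a₁, t₁⟩, ha₁⟩ := IsLocalization.surj m.primeCompl A
  simp only at he₁ ha₁
  have key : e₁ * t₁ * a = a₁ * t₀ * s := hinj (by
    simp only [map_mul, η] at *
    rw [← hA, ← hS, ← he₁, ← ha₁]
    ring)
  have hemem : e₁ * t₁ ∈ denomIdeal C x := by
    rw [mem_denomIdeal]
    have h : ((e₁ * t₁ : C) : F) * x = ((a₁ * t₀ : C) : F) := by
      refine mul_right_cancel₀ (fun h => hs (Subtype.ext h) : (s : F) ≠ 0) ?_
      rw [mul_assoc, hx]
      exact congrArg Subtype.val key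
    rw [h]
    exact Subtype.coe_prop _
  have he0 : e₁ * (t₁ : C) ≠ 0 := by
    refine mul_ne_zero (fun h => ?_) (fun h => t₁.2 (h ▸ m.zero_mem))
    rw [h, map_zero, mul_eq_zero] at he₁
    rcases he₁ with h' | h'
    · exact right_ne_zero_of_mul (hS ▸ hs') h'
    · exact (IsLocalization.map_units (Localization.AtPrime m) t₀).ne_zero h'
  have hloc : ∀ d ∈ denomIdeal C x, ∃ T ∉ m, T * d ∈ Ideal.span {e₁ * (t₁ : C)} := by
    intro d hd
    let c : C := ⟨(d : F) * x, hd⟩
    have hdc : d * a = c * s := Subtype.ext (by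
      show (d : F) * a = (d : F) * x * s
      rw [mul_assoc, hx])
    have h1 : η d * A = η c * S := by
      refine mul_left_cancel₀ hG ?_
      rw [mul_left_comm, hA, mul_left_comm, hS, ← map_mul, ← map_mul, hdc]
    obtain ⟨w, hw⟩ : S ∣ η d :=
      hAS.symm.dvd_of_dvd_mul_right ⟨η c, by rw [h1, mul_comm]⟩
    obtain ⟨⟨w₁, t₂⟩, hw₁⟩ := IsLocalization.surj m.primeCompl w
    simp only at hw₁
    refine ⟨t₀ * t₁ * t₂, fun h => (m.primeCompl.mul_mem (m.primeCompl.mul_mem t₀.2 t₁.2) t₂.2) h,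
      Ideal.mem_span_singleton.mpr ⟨w₁, hinj ?_⟩⟩
    simp only [map_mul, η] at *
    rw [hw, ← he₁, ← hw₁]
    ring
  obtain ⟨G', hG'⟩ := (IsNoetherian.noetherian (denomIdeal C x) : (denomIdeal C x).FG)
  choose! T hTm hT using hloc
  refine ⟨_, hemem, he0, ∏ d ∈ G', T d, fun h => ?_, fun d hd => ?_⟩
  · obtain ⟨d, hd, hdm⟩ := (Ideal.IsPrime.prod_mem_iff (hp := (inferInstance : m.IsPrime))).mp h
    exact hTm d (hG' ▸ Submodule.subset_span hd) hdm
  · have hle : Submodule.span C (G' : Set C) ≤ Submodule.comap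
        (LinearMap.mulLeft C (∏ d ∈ G', T d)) (Ideal.span {e₁ * (t₁ : C)}) := by
      refine Submodule.span_le.mpr fun d hd => ?_
      obtain ⟨c, hc⟩ := Finset.dvd_prod_of_mem T (Finset.mem_coe.mp hd)
      rw [SetLike.mem_coe, Submodule.mem_comap, LinearMap.mulLeft_apply, hc, mul_right_comm]
      exact Ideal.mul_mem_right _ _ (hT d (hG' ▸ Submodule.subset_span hd))
    exact hle (hG'.symm ▸ hd)

end Colon

namespace AVData

variable (D : AVData K g)

theorem inv_mem_loc_of_ev_ne {E : Type u} [Field E] [Algebra K E] (P : D.Pt E) {f : D.F} (hf : f ∈ D.loc P)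
    (h : D.ev P ⟨f, hf⟩ ≠ 0) : f⁻¹ ∈ D.loc P := by
  obtain ⟨v, hv⟩ := (D.isUnit_of_ev_ne P _ h).exists_right_inv
  rw [inv_eq_of_mul_eq_one_right (show f * (v : D.F) = 1 from congrArg Subtype.val hv)]
  exact v.2

theorem adjoin_le_loc {S : Finset D.F} {E : Type u} [Field E] [Algebra K E] {P : D.Pt E}
    (hS : ∀ f ∈ S, f ∈ D.loc P) : Algebra.adjoin K (S : Set D.F) ≤ D.loc P :=
  Algebra.adjoin_le fun f hf => hS f (Finset.mem_coe.mp hf)

theorem trdeg_chart_le (S : Finset D.F) :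
    Algebra.trdeg K (Algebra.adjoin K (S : Set D.F)) ≤ g :=
  (trdeg_le_of_injective (Algebra.adjoin K (S : Set D.F)).val Subtype.val_injective).trans_eq
    D.trdeg_eq

variable [IsAlgClosed K]

/-- Every ideal of denominators is principal, uniformly on a neighbourhood. -/
theorem exists_denom_nbhd (x : D.F) {E : Type u} [Field E] [Algebra K E] (P : D.Pt E) :
    ∃ (e : D.F) (S : Finset D.F), (∀ f ∈ S, f ∈ D.loc P) ∧ D.IsChart S ∧
      ∀ {E' : Type u} [Field E'] [Algebra K E'] (Q : D.Pt E'),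
        (∀ f ∈ S, f ∈ D.loc Q) → D.IsDenom x Q e := by
  classical
  obtain ⟨S, hSc, hS⟩ := D.cover P
  haveI := D.chart_smooth S hSc
  have hC := D.adjoin_le_loc hS
  let φ := (D.ev P).comp (Subalgebra.inclusion hC)
  obtain ⟨m, hm, hpm⟩ := Ideal.exists_le_maximal _ (RingHom.ker_isPrime φ.toRingHom).ne_top
  have hη : ∀ f ∈ S, f ∈ D.loc D.η := fun f _ => by rw [D.loc_η]; exact Algebra.mem_top
  obtain ⟨a, ha, s, hs, hsη, hs0, hxs⟩ :=
    D.chart_loc D.η S hSc hη x (by rw [D.loc_η]; exact Algebra.mem_top)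
  rw [D.ev_η] at hs0
  obtain ⟨e, hemem, he0, T, hTm, hT⟩ := exists_denom_generator (Algebra.adjoin K (S : Set D.F))
    (D.trdeg_chart_le S) m ⟨a, ha⟩ ⟨s, hs⟩ (fun h => hs0 (congrArg Subtype.val h)) hxs
  have hT0 : (T : D.F) ≠ 0 := fun h => hTm ((Subtype.ext h : T = 0) ▸ m.zero_mem)
  have hTP : D.ev P ⟨T, hC T.2⟩ ≠ 0 := fun h => hTm (hpm h)
  refine ⟨e, insert (T : D.F)⁻¹ S, fun f hf => ?_, ?_, fun {E'} _ _ Q hQ => ?_⟩
  · rcases Finset.mem_insert.mp hf with rfl | hf
    · exact D.inv_mem_loc_of_ev_ne P (hC T.2) hTP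
    · exact hS f hf
  · intro E₁ k _ _ _ _ R P₁ hP₁
    have hS₁ : ∀ f ∈ S, f ∈ D.loc (D.spec R P₁) :=
      D.chart_spec R P₁ S hSc fun f hf => hP₁ f (Finset.mem_insert_of_mem hf)
    refine fun f hf => ?_
    rcases Finset.mem_insert.mp hf with rfl | hf
    · have hTs : (T : D.F) ∈ D.loc (D.spec R P₁) := D.adjoin_le_loc hS₁ T.2
      refine D.inv_mem_loc_of_ev_ne _ hTs fun h0 => ?_
      obtain ⟨hi, hiV⟩ := hP₁ _ (Finset.mem_insert_self _ _)
      obtain ⟨hV, hπ⟩ := D.ev_spec R P₁ _ hTs (D.loc_spec_le R P₁ hTs)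
      rw [h0] at hπ
      have h1 : D.ev P₁ ⟨(T : D.F), D.loc_spec_le R P₁ hTs⟩ * D.ev P₁ ⟨_, hi⟩ = 1 := by
        rw [← map_mul, ← map_one (D.ev P₁)]
        exact congrArg (D.ev P₁) (Subtype.ext (mul_inv_cancel₀ hT0))
      have h2 : R.π (⟨_, hV⟩ * ⟨_, hiV⟩) = 1 := by
        rw [← map_one R.π]
        exact congrArg R.π (Subtype.ext h1)
      rw [map_mul, hπ, zero_mul] at h2
      exact zero_ne_one h2
    · exact hS₁ f hf
  · have hSQ : ∀ f ∈ S, f ∈ D.loc Q := fun f hf => hQ f (Finset.mem_insert_of_mem hf)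
    have hCQ := D.adjoin_le_loc hSQ
    refine ⟨fun h => he0 (Subtype.ext h), hCQ e.2, hCQ hemem, fun d hd hdx => ?_⟩
    obtain ⟨a₁, ha₁, s₁, hs₁, hs₁Q, hs₁0, h₁⟩ := D.chart_loc Q S hSc hSQ d hd
    obtain ⟨a₂, ha₂, s₂, hs₂, hs₂Q, hs₂0, h₂⟩ := D.chart_loc Q S hSc hSQ (d * x) hdx
    have hmem : (⟨a₁, ha₁⟩ * ⟨s₂, hs₂⟩ : Algebra.adjoin K (S : Set D.F)) ∈ denomIdeal _ x := by
      rw [mem_denomIdeal]
      have h : a₁ * s₂ * x = s₁ * a₂ := by rw [← h₁, ← h₂]; ring
      show a₁ * s₂ * x ∈ _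
      rw [h]
      exact mul_mem hs₁ ha₂
    obtain ⟨w, hw⟩ := Ideal.mem_span_singleton.mp (hT _ hmem)
    have hw' : (T : D.F) * (a₁ * s₂) = (e : D.F) * w := congrArg Subtype.val hw
    have hs₁' : s₁ ≠ 0 := fun h => hs₁0 (by
      rw [show (⟨s₁, hs₁Q⟩ : D.loc Q) = 0 from Subtype.ext h, map_zero])
    have hs₂' : s₂ ≠ 0 := fun h => hs₂0 (by
      rw [show (⟨s₂, hs₂Q⟩ : D.loc Q) = 0 from Subtype.ext h, map_zero])
    refine ⟨(w : D.F) * ((T : D.F)⁻¹ * (s₁⁻¹ * s₂⁻¹)), mul_mem (hCQ w.2) (mul_mem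
      (hQ _ (Finset.mem_insert_self _ _))
      (mul_mem (D.inv_mem_loc_of_ev_ne Q hs₁Q hs₁0) (D.inv_mem_loc_of_ev_ne Q hs₂Q hs₂0))), ?_⟩
    field_simp
    rw [← h₁] at hw'
    linear_combination hw'

/-- The indeterminacy of a function has codimension at least two. -/
theorem trdeg_add_two_le {E : Type u} [Field E] [Algebra K E] (P : D.Pt E) {x e : D.F}
    (he : D.IsDenom x P e) (h1 : D.ev P ⟨e, he.2.1⟩ = 0) (h2 : D.ev P ⟨e * x, he.2.2.1⟩ = 0) :
    Algebra.trdeg K (D.resField P) + 2 ≤ g := by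
  obtain ⟨he0, heP, hexP, hgen⟩ := he
  let mP : Ideal (D.loc P) := RingHom.ker (D.ev P).toRingHom
  have hpow : ∀ k : ℕ, (⟨e * x, hexP⟩ : D.loc P) ^ k ∉ Ideal.span {(⟨e, heP⟩ : D.loc P)} := by
    intro k
    induction k with
    | zero =>
      rw [pow_zero, Ideal.mem_span_singleton]
      rintro ⟨w, hw⟩
      have h := congrArg (D.ev P) hw
      rw [map_one, map_mul, h1, zero_mul] at h
      exact one_ne_zero h
    | succ k ih =>
      rw [Ideal.mem_span_singleton]
      rintro ⟨w, hw⟩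
      have hw' : (e * x) ^ k * (e * x) = e * w := by
        simpa [pow_succ] using congrArg Subtype.val hw
      have hdx : (e * x) ^ k * x = (w : D.F) := mul_left_cancel₀ he0 (by linear_combination hw')
      obtain ⟨c, hc, hc'⟩ := hgen ((e * x) ^ k) (pow_mem hexP k) (hdx ▸ w.2)
      exact ih (Ideal.mem_span_singleton.mpr ⟨⟨c, hc⟩, Subtype.ext (by
        simpa [mul_comm] using hc')⟩)
  obtain ⟨Q, hQ, heQ, hQm⟩ : ∃ Q : Ideal (D.loc P), Q.IsPrime ∧
      (⟨e, heP⟩ : D.loc P) ∈ Q ∧ Q < mP := by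
    by_contra hc
    push Not at hc
    have hrad : (⟨e * x, hexP⟩ : D.loc P) ∈
        (Ideal.span {(⟨e, heP⟩ : D.loc P)}).radical := by
      rw [Ideal.radical_eq_sInf, Submodule.mem_sInf]
      rintro J ⟨hJ, hJp⟩
      have hle : J ≤ mP := fun f hf => by
        by_contra hf'
        exact hJp.ne_top (Ideal.eq_top_of_isUnit_mem _ hf (D.isUnit_of_ev_ne P f hf'))
      rw [eq_of_le_of_not_lt hle (hc J hJp ((Ideal.span_singleton_le_iff_mem _).mp hJ))]
      exact h2
    obtain ⟨k, hk⟩ := hrad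
    exact hpow k hk
  obtain ⟨f, hfm, hfQ⟩ := SetLike.exists_of_lt hQm
  obtain ⟨S, hSc, hS⟩ := D.cover P
  have hC := D.adjoin_le_loc hS
  let ι := Subalgebra.inclusion hC
  let φ := (D.ev P).comp ι
  haveI : (Q.comap ι.toRingHom).IsPrime := Ideal.IsPrime.comap _
  let q : Ideal (Algebra.adjoin K (S : Set D.F)) := Q.comap ι.toRingHom
  have hqφ : ∀ c ∈ q, φ.rangeRestrict c = 0 := fun c hc => Subtype.ext (hQm.le hc)
  -- `e` lies in `q`, and `q` misses part of the ideal of `P`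
  obtain ⟨a, ha, s, hs, hsP, hs0, has⟩ := D.chart_loc P S hSc hS e heP
  obtain ⟨b, hb, t, ht, htP, ht0, hbt⟩ := D.chart_loc P S hSc hS f f.2
  have haq : (⟨a, ha⟩ : Algebra.adjoin K (S : Set D.F)) ∈ q := by
    have h : ι ⟨a, ha⟩ = ⟨e, heP⟩ * ⟨s, hsP⟩ := Subtype.ext has.symm
    show ι ⟨a, ha⟩ ∈ Q
    rw [h]
    exact Q.mul_mem_right _ heQ
  have ha0 : (⟨a, ha⟩ : Algebra.adjoin K (S : Set D.F)) ≠ 0 := fun h => by
    have h' : e * s = 0 := has.trans (congrArg Subtype.val h)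
    rcases mul_eq_zero.mp h' with h'' | h''
    · exact he0 h''
    · exact hs0 (by rw [show (⟨s, hsP⟩ : D.loc P) = 0 from Subtype.ext h'', map_zero])
  have hbφ : φ.rangeRestrict ⟨b, hb⟩ = 0 := by
    refine Subtype.ext ?_
    show D.ev P (ι ⟨b, hb⟩) = 0
    rw [show ι ⟨b, hb⟩ = f * ⟨t, htP⟩ from Subtype.ext hbt.symm, map_mul,
      show D.ev P f = 0 from hfm, zero_mul]
  have hbq : (⟨b, hb⟩ : Algebra.adjoin K (S : Set D.F)) ∉ q := fun h => by
    have h' : ι ⟨b, hb⟩ ∈ Q := h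
    rw [show ι ⟨b, hb⟩ = f * ⟨t, htP⟩ from Subtype.ext hbt.symm] at h'
    rcases hQ.mem_or_mem h' with h'' | h''
    · exact hfQ h''
    · exact ht0 (hQm.le h'')
  have step1 := trdeg_add_one_le (Ideal.Quotient.mkₐ K q) Ideal.Quotient.mk_surjective ha0
    (Ideal.Quotient.eq_zero_iff_mem.mpr haq)
  have step2 := trdeg_add_one_le (Ideal.Quotient.liftₐ q φ.rangeRestrict hqφ)
    (fun z => (φ.rangeRestrict_surjective z).elim fun c hc => ⟨Ideal.Quotient.mk q c, hc⟩)
    (f := Ideal.Quotient.mk q ⟨b, hb⟩) (fun h => hbq (Ideal.Quotient.eq_zero_iff_mem.mp h)) hbφ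
  -- the residue field is generated by the values on the chart
  let L := IntermediateField.adjoin K (φ.range : Set E)
  have hres : D.resField P ≤ L := by
    refine IntermediateField.adjoin_le_iff.mpr ?_
    rintro _ ⟨z, rfl⟩
    obtain ⟨a', ha', s', hs', hs'P, hs'0, h'⟩ := D.chart_loc P S hSc hS z z.2
    have hz : D.ev P z * φ ⟨s', hs'⟩ = φ ⟨a', ha'⟩ := by
      show D.ev P z * D.ev P (ι ⟨s', hs'⟩) = D.ev P (ι ⟨a', ha'⟩)
      rw [← map_mul]
      exact congrArg (D.ev P) (Subtype.ext h')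
    rw [SetLike.mem_coe, show D.ev P z = φ ⟨a', ha'⟩ / φ ⟨s', hs'⟩ from
      (eq_div_iff hs'0).mpr hz]
    exact L.div_mem (IntermediateField.subset_adjoin _ _ ⟨_, rfl⟩)
      (IntermediateField.subset_adjoin _ _ ⟨_, rfl⟩)
  have hL : Algebra.trdeg K L = Algebra.trdeg K φ.range := by
    haveI : Algebra.IsAlgebraic (Algebra.adjoin K (φ.range : Set E)) L :=
      IsLocalization.isAlgebraic _ (nonZeroDivisors _)
    rw [← trdeg_add_eq K (Algebra.adjoin K (φ.range : Set E)) (A := L),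
      trdeg_eq_zero (R := Algebra.adjoin K (φ.range : Set E)) (A := L), add_zero]
    exact (Subalgebra.equivOfEq _ _ (Algebra.adjoin_eq φ.range)).trdeg_eq
  calc Algebra.trdeg K (D.resField P) + 2 ≤ Algebra.trdeg K φ.range + 1 + 1 := by
        rw [add_assoc, one_add_one_eq_two, ← hL]
        exact add_le_add (trdeg_le_of_injective (IntermediateField.inclusion hres)
          (IntermediateField.inclusion_injective hres)) le_rfl
    _ ≤ Algebra.trdeg K (Algebra.adjoin K (S : Set D.F) ⧸ q) + 1 := add_le_add step2 le_rfl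
    _ ≤ Algebra.trdeg K (Algebra.adjoin K (S : Set D.F)) := step1
    _ ≤ g := D.trdeg_chart_le S

end AVData

end FLTAgent.AbVarTors
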