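import Mathlib
import Fermat.Agent.Reduction.InputsCurve
import Fermat.Agent.Reduction.PlacesParam

/-!
# The degree of a polar divisor

For a function field of one variable over an algebraically closed field and any transcendental
element `y`, separating or not, the degree of the divisor of poles of `y` is the degree of the
field over `K⟮y⟯` (`degree_poleDiv_eq_finrank`). One inequality comes from independence of functions
with prescribed orders at the poles, the other from Riemann's inequality.
-/

set_option autoImplicit false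
set_option linter.unusedSectionVars false
set_option linter.style.haveILetI false

noncomputable section

open AlgebraicCurve Module IntermediateField Polynomial

namespace FLTAgent.AbVarTors

open FLTAgent.Reduction

variable {K F : Type*} [Field K] [Field F] [Algebra K F] [IsAlgClosed K] [FF.IsFF K F]

/-- The degree of the pole divisor is at most the degree of the field extension. -/
theorem degree_poleDiv_le {y : F} [FiniteDimensional K⟮y⟯ F] (hy : Transcendental K y) :
    Divisor.degree (poleDiv y : Divisor K F) ≤ finrank K⟮y⟯ F := by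
  classical
  have hC := curveData_of_isFF K F
  have hy0 : y ≠ 0 := fun h => hy (h ▸ isAlgebraic_zero)
  set D : Divisor K F := poleDiv y with hD
  set S := D.support with hS
  have hmemS : ∀ P, P ∈ S ↔ P.ord y < 0 := fun P => by
    rw [hS, Finsupp.mem_support_iff, hD, hC.poleDiv_apply]
    constructor <;> intro h <;> omega
  set N : ℤ := ∑ P ∈ S, (-P.ord y) with hN
  have hNge : ∀ P ∈ S, -P.ord y ≤ N := fun P hP => Finset.single_le_sum
    (f := fun P : Place K F => -P.ord y) (fun Q hQ => by have := (hmemS Q).mp hQ; omega) hP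
  let ι := Σ P : S, Fin (-(P : Place K F).ord y).toNat
  have hex : ∀ i : ι, ∃ f : F, f ≠ 0 ∧ (i.1 : Place K F).ord f = (i.2 : ℕ) ∧
      ∀ Q ∈ S, Q ≠ (i.1 : Place K F) → Q.ord f = N := by
    intro i
    obtain ⟨f, hf0, hf⟩ := FF.exists_forall_ord_eq S
      (fun Q => if Q = (i.1 : Place K F) then ((i.2 : ℕ) : ℤ) else N)
    exact ⟨f, hf0, by rw [hf _ i.1.2, if_pos rfl], fun Q hQ hne => by rw [hf Q hQ, if_neg hne]⟩
  choose f hf0 hfi hfo using hex
  have hli : LinearIndependent K⟮y⟯ f := by
    rw [Fintype.linearIndependent_iff]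
    intro b hb
    choose p q hq hpq using fun i => show ∃ p q : K[X], aeval y q ≠ 0 ∧
        (b i : F) * aeval y q = aeval y p by
      obtain ⟨p, q, h⟩ := (mem_adjoin_simple_iff K (b i : F)).mp (b i).2
      by_cases hq : aeval y q = 0
      · exact ⟨0, 1, by simp, by simp [h, hq]⟩
      · exact ⟨p, q, hq, by rw [h, div_mul_cancel₀ _ hq]⟩
    set s : K[X] := ∏ i, q i
    set φ : ι → K[X] := fun i => p i * ∏ j ∈ Finset.univ.erase i, q j with hφ
    have hφb : ∀ i, (b i : F) * aeval y s = aeval y (φ i) := fun i => by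
      simp only [s, hφ]
      rw [← Finset.prod_erase_mul _ _ (Finset.mem_univ i), map_mul, map_mul, ← hpq]; ring
    have hsum : ∑ i, aeval y (φ i) * f i = 0 := by
      have h1 : ∑ i, (b i : F) * f i = 0 := hb
      simp only [← hφb]
      rw [show ∑ i, (b i : F) * aeval y s * f i = aeval y s * ∑ i, (b i : F) * f i by
        rw [Finset.mul_sum]; exact Finset.sum_congr rfl fun i _ => by ring, h1, mul_zero]
    have hφ0 : ∀ i, φ i = 0 := by
      by_contra hcon
      push Not at hcon
      obtain ⟨i₀, hi₀⟩ := hcon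
      have hordy : ∀ (P : Place K F) (r : K[X]), P.ord y < 0 → r ≠ 0 →
          P.ord (aeval y r) = r.natDegree * P.ord y := fun P r hP hr => (ord_aeval_of_neg hP r hr).2
      let W : ι → ℤ := fun i => (i.1 : Place K F).ord (aeval y (φ i) * f i)
      have hne : ∀ {r : K[X]}, r ≠ 0 → aeval y r ≠ 0 := fun hr h => hy ⟨_, hr, h⟩
      have hW : ∀ i, φ i ≠ 0 →
          W i = (φ i).natDegree * (i.1 : Place K F).ord y + (i.2 : ℕ) := fun i hi => by
        simp only [W]
        rw [Place.ord_mul _ (hne hi) (hf0 i), hordy _ _ ((hmemS _).mp i.1.2) hi, hfi]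
      let T := Finset.univ.filter fun i => φ i ≠ 0
      obtain ⟨m, hmT, hm⟩ := Finset.exists_max_image T (fun i => (φ i).natDegree)
        ⟨i₀, by simpa [T] using hi₀⟩
      let T' := T.filter fun i => i.1 = m.1 ∧ (φ i).natDegree = (φ m).natDegree
      obtain ⟨i₁, hi₁, hmin⟩ := Finset.exists_min_image T' (fun i => (i.2 : ℕ)) ⟨m, by
        simp [T', hmT]⟩
      simp only [T', T, Finset.mem_filter, Finset.mem_univ, true_and] at hi₁
      obtain ⟨hφ1, hP1, hd1⟩ := hi₁
      have hPneg : (i₁.1 : Place K F).ord y < 0 := (hmemS _).mp i₁.1.2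
      have hval : ∀ i, i ≠ i₁ → Vanish (i₁.1 : Place K F) (aeval y (φ i) * f i) (W i₁ + 1) := by
        intro i hi
        rcases eq_or_ne (φ i) 0 with h0 | h0
        · exact Or.inl (by rw [h0, map_zero, zero_mul])
        refine Or.inr ?_
        have hiT : i ∈ T := by simpa [T] using h0
        have hle := hm i hiT
        rw [hW i₁ hφ1, Place.ord_mul _ (hne h0) (hf0 i), hordy _ _ hPneg h0, hd1]
        have hi1lt := i₁.2.2
        by_cases hPi : i.1 = i₁.1
        · have e2 : (i₁.1 : Place K F).ord (f i) = (i.2 : ℕ) := by rw [← hPi]; exact hfi i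
          rw [e2]
          rcases hle.lt_or_eq with hlt | heq
          · have h3 : ((φ i).natDegree : ℤ) + 1 ≤ (φ m).natDegree := by exact_mod_cast hlt
            have h4 : ((i₁.2 : ℕ) : ℤ) + 1 ≤ -(i₁.1 : Place K F).ord y := by
              omega
            nlinarith
          · have hi' : i ∈ T' := by
              simp [T', hiT, heq, hPi.trans hP1]
            have hle2 := hmin i hi'
            have hne2 : (i.2 : ℕ) ≠ (i₁.2 : ℕ) := by
              intro h
              apply hi
              obtain ⟨P', j⟩ := i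
              obtain ⟨P'', j''⟩ := i₁
              obtain rfl : P' = P'' := hPi
              exact congrArg _ (Fin.ext h)
            rw [heq]
            omega
        · have hne3 : (i₁.1 : Place K F) ≠ (i.1 : Place K F) := fun h => hPi (Subtype.ext h.symm)
          rw [hfo i (i₁.1 : Place K F) i₁.1.2 hne3]
          have h4 : ((i₁.2 : ℕ) : ℤ) + 1 ≤ -(i₁.1 : Place K F).ord y := by
            omega
          have h5 := hNge (i₁.1 : Place K F) i₁.1.2
          have h3 : ((φ i).natDegree : ℤ) ≤ (φ m).natDegree := by exact_mod_cast hle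
          nlinarith
      have hrest : Vanish (i₁.1 : Place K F) (∑ i ∈ Finset.univ.erase i₁, aeval y (φ i) * f i) (W i₁ + 1) :=
        Vanish.sum _ _ fun i hi => hval i (Finset.ne_of_mem_erase hi)
      rw [← Finset.add_sum_erase _ _ (Finset.mem_univ i₁)] at hsum
      rw [eq_neg_of_add_eq_zero_right hsum] at hrest
      have h1 := hrest.neg
      rw [neg_neg] at h1
      have h2 := h1.resolve_left (mul_ne_zero (hne hφ1) (hf0 i₁))
      simp only [W] at h2
      omega
    intro i
    have h := hφb i
    rw [hφ0 i, map_zero] at h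
    have hs0 : aeval y s ≠ 0 := by
      rw [map_prod]
      exact Finset.prod_ne_zero_iff.mpr fun i _ => hq i
    exact Subtype.ext ((mul_eq_zero.mp h).resolve_right hs0)
  have hcard := hli.fintype_card_le_finrank
  rw [hC.degree_eq_sum, Finsupp.sum, ← hS]
  have : (∑ P ∈ S, D P) = (Fintype.card ι : ℤ) := by
    rw [Fintype.card_sigma, Nat.cast_sum, ← Finset.sum_attach, ← Finset.univ_eq_attach]
    refine Finset.sum_congr rfl fun P _ => ?_
    rw [Fintype.card_fin, hD, hC.poleDiv_apply]
    have := (hmemS _).mp P.2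
    omega
  rw [this]
  exact_mod_cast hcard

/-- The degree of the field extension is at most the degree of the pole divisor. -/
theorem finrank_le_degree_poleDiv {y : F} [FiniteDimensional K⟮y⟯ F] (hy : Transcendental K y) :
    (finrank K⟮y⟯ F : ℤ) ≤ Divisor.degree (poleDiv y : Divisor K F) := by
  classical
  have hC := curveData_of_isFF K F
  have hy0 : y ≠ 0 := fun h => hy (h ▸ isAlgebraic_zero)
  obtain ⟨v₀, hv₀⟩ := FF.exists_pole (K := K) hy
  have hne : ∀ {r : K[X]}, r ≠ 0 → aeval y r ≠ 0 := fun hr h => hy ⟨_, hr, h⟩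
  -- clearing the poles away from the poles of `y`
  have hclear : ∀ u : F, ∃ r : K[X], r ≠ 0 ∧ RegAway (K := K) y (aeval y r * u) := by
    intro u
    rcases eq_or_ne u 0 with rfl | hu
    · exact ⟨1, one_ne_zero, fun P _ => by rw [mul_zero]; exact Vanish.zero_left⟩
    obtain ⟨Du, hDu, -⟩ := hC.exists_divisor u hu
    set T := Du.support.filter fun P => P.ord u < 0 ∧ 0 ≤ P.ord y with hT
    refine ⟨∏ P ∈ T, (X - C (valAt P y)) ^ (-P.ord u).toNat,
      Finset.prod_ne_zero_iff.mpr fun P _ => pow_ne_zero _ (X_sub_C_ne_zero _), ?_⟩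
    intro P hP
    have hreg : ∀ Q : Place K F, Vanish P (aeval y (X - C (valAt Q y))) 0 := fun Q => by
      rw [map_sub, aeval_X, aeval_C]
      exact (Vanish.zero_iff.mpr hP).sub (Vanish.const _)
    have hpow : ∀ s : Finset (Place K F),
        Vanish P (aeval y (∏ Q ∈ s, (X - C (valAt Q y)) ^ (-Q.ord u).toNat)) 0 := fun s => by
      induction s using Finset.induction with
      | empty => rw [Finset.prod_empty, map_one]; exact Vanish.one
      | insert a s ha ih =>
        rw [Finset.prod_insert ha, map_mul, map_pow]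
        exact ((hreg a).pow _).mul ih |>.mono (by simp)
    by_cases hu' : 0 ≤ P.ord u
    · exact (hpow T).mul (Or.inr hu') |>.mono (by simp)
    · push Not at hu'
      have hPT : P ∈ T := by
        rw [hT, Finset.mem_filter, Finsupp.mem_support_iff, hDu]
        exact ⟨hu'.ne, hu', hP⟩
      rw [← Finset.mul_prod_erase T _ hPT, map_mul, map_pow]
      have h1 : Vanish P (aeval y (X - C (valAt P y))) 1 := by
        rw [map_sub, aeval_X, aeval_C]
        exact hC.exists_valAt (Vanish.zero_iff.mpr hP)
      have h2 := ((h1.pow (-P.ord u).toNat).mul (hpow (T.erase P))).mul (Vanish.self u)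
      refine h2.mono ?_
      omega
  obtain ⟨n, hn⟩ : ∃ n, finrank K⟮y⟯ F = n := ⟨_, rfl⟩
  let bas := Module.finBasisOfFinrankEq K⟮y⟯ F hn
  choose r hr0 hr using fun j => hclear (bas j)
  choose k hk using fun j => hC.exists_mem_polesLe (hr j)
  set c := ∑ j, k j
  have hind : ∀ m : ℕ, LinearIndependent K fun a : Fin (m + 1) × Fin n =>
      y ^ (a.1 : ℕ) * (aeval y (r a.2) * bas a.2) := by
    intro m
    rw [Fintype.linearIndependent_iff]
    intro d hd
    rw [Fintype.sum_prod_type, Finset.sum_comm] at hd
    let B : Fin n → K⟮y⟯ := fun j => ⟨(∑ a : Fin (m + 1), d (a, j) • y ^ (a : ℕ)) * aeval y (r j),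
      mul_mem (sum_mem fun a _ => IntermediateField.smul_mem _
        (pow_mem (mem_adjoin_simple_self K y) _)) (IntermediateField.algebra_adjoin_le_adjoin K _ (aeval_mem_adjoin_singleton K y))⟩
    have hB := Fintype.linearIndependent_iff.mp bas.linearIndependent B (by
      rw [← hd]
      refine Finset.sum_congr rfl fun j _ => ?_
      show ((∑ a : Fin (m + 1), d (a, j) • y ^ (a : ℕ)) * aeval y (r j)) * bas j = _
      rw [Finset.sum_mul, Finset.sum_mul]
      exact Finset.sum_congr rfl fun a _ => by rw [mul_assoc, smul_mul_assoc])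
    rintro ⟨a, j⟩
    have h := congrArg Subtype.val (hB j)
    exact Fintype.linearIndependent_iff.mp (linearIndependent_pow_of_ord_neg hv₀ (m + 1))
      (fun a => d (a, j)) ((mul_eq_zero.mp h).resolve_right (hne (hr0 j))) a
  have hmem : ∀ (m : ℕ) (a : Fin (m + 1) × Fin n),
      y ^ (a.1 : ℕ) * (aeval y (r a.2) * bas a.2) ∈ (polesLe y (m + c) : Submodule K F) := by
    intro m a
    have h1 := hC.mul_mem_polesLe (hC.pow_mem_polesLe (hC.self_mem_polesLe y) (a.1 : ℕ)) (hk a.2)
    refine hC.polesLe_mono y ?_ h1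
    have : k a.2 ≤ c := Finset.single_le_sum (fun j _ => Nat.zero_le (k j)) (Finset.mem_univ _)
    have := a.1.2
    omega
  obtain ⟨C₁, hC₁⟩ := hC.exists_C
  have hd1 : 1 ≤ Divisor.degree (poleDiv y : Divisor K F) := by
    rw [hC.degree_eq_sum]
    have h0 : (poleDiv y : Divisor K F) v₀ ≠ 0 := by rw [hC.poleDiv_apply]; omega
    refine le_trans ?_ (Finset.single_le_sum (f := fun P => (poleDiv y : Divisor K F) P)
      (fun P _ => by rw [hC.poleDiv_apply]; omega) (Finsupp.mem_support_iff.mpr h0))
    rw [hC.poleDiv_apply]; omega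
  by_contra hlt
  push Not at hlt
  set dd := Divisor.degree (poleDiv y : Divisor K F)
  obtain ⟨m, hm⟩ : ∃ m : ℕ, C₁ ≤ m ∧ (c : ℤ) * dd + 1 < (m : ℤ) :=
    ⟨(max C₁ ((c : ℤ) * dd + 2)).toNat, by omega, by omega⟩
  haveI := hC.finite_L' (boundDiv y (m + c) (0 : Divisor K F))
  have hle : Fintype.card (Fin (m + 1) × Fin n) ≤
      finrank K (polesLe y (m + c) : Submodule K F) :=
    (LinearIndependent.of_comp (polesLe y (m + c) : Submodule K F).subtype
      (v := fun a => (⟨_, hmem m a⟩ : (polesLe y (m + c) : Submodule K F))) (hind m))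
      |>.fintype_card_le_finrank
  rw [Fintype.card_prod, Fintype.card_fin, Fintype.card_fin] at hle
  have he := hC₁ (boundDiv y (m + c) 0) (by
    rw [hC.degree_boundDiv, map_zero, sub_zero]
    have : (m : ℤ) ≤ ((m + c : ℕ) : ℤ) * dd := by
      push_cast; nlinarith [mul_nonneg (Nat.cast_nonneg (α := ℤ) c) (show (0 : ℤ) ≤ dd by omega)]
    simp only [dd] at this hm ⊢
    omega)
  rw [hC.degree_boundDiv, map_zero, sub_zero] at he
  have hle' : ((m + 1) * n : ℕ) ≤ (ell (boundDiv y (m + c) (0 : Divisor K F)) : ℤ) := by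
    exact_mod_cast hle
  rw [hn] at hlt
  push_cast at hle' he
  nlinarith [Nat.cast_nonneg (α := ℤ) (genusFF K F)]

/-- The fundamental identity for an arbitrary (possibly inseparable) parameter. -/
theorem degree_poleDiv_eq_finrank {y : F} [FiniteDimensional K⟮y⟯ F] (hy : Transcendental K y) :
    Divisor.degree (poleDiv y : Divisor K F) = finrank K⟮y⟯ F :=
  le_antisymm (degree_poleDiv_le hy) (finrank_le_degree_poleDiv hy)

end FLTAgent.AbVarTors
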