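import Mathlib
import Fermat.Agent.Reduction.GaussLE

/-!
# The genus does not increase under Gauss reduction

Generalisation of `Fermat.Agent.Reduction.GaussLE` to any characteristic, with a separability
hypothesis in place of characteristic zero: for a normalisable Gauss reduction which preserves the
degree over a parameter `x`, separating before and after, functions regular away from the poles of
`x` reduce to such functions (`red_regular_of_integral`) and reduction does not lose dimensions,
so `genusFF_le` bounds the genus of the residue curve by that of the curve.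
-/

set_option autoImplicit false
set_option linter.unusedSectionVars false
set_option linter.style.haveILetI false

noncomputable section

open AlgebraicCurve Module IntermediateField Polynomial FLTAgent.Reduction

namespace FLTAgent.AbVarTors

variable {K k F Fb : Type*} [Field K] [Field k] [Field F] [Field Fb] [Algebra K F] [Algebra k Fb]
variable {A : ValuationSubring K} {π : A →+* k} {G : GaussRed A π F Fb}

/-- Integral functions regular away from the poles of the parameter reduce to such functions. -/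
theorem red_regular_of_integral [IsAlgClosed K] [IsAlgClosed k] [FF.IsFF K F]
    [FF.IsFF k Fb]
    (hs : G.Normalisable) {x : F} (hx : x ∈ G.V)
    (hnc : Transcendental k (G.red x)) [Algebra.IsSeparable K⟮x⟯ F] [FiniteDimensional K⟮x⟯ F]
    [FiniteDimensional k⟮G.red x⟯ Fb] (hfin : finrank K⟮x⟯ F = finrank k⟮G.red x⟯ Fb)
    {y : F} (hy : y ∈ G.V) (hreg : RegAway (K := K) x y) :
    RegAway (K := k) (G.red x) (G.red y) := by
  classical
  have hCb := curveData_of_isFF k Fb
  obtain ⟨Q₀, hQ₀⟩ := FF.exists_pole (K := k) hnc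
  have hpow : ∀ M, G.RedIndep fun a : Fin M => x ^ (a : ℕ) := fun M => by
    refine ⟨fun a => pow_mem hx _, ?_⟩
    rw [show (fun a : Fin M => G.red (x ^ (a : ℕ))) = fun a : Fin M => G.red x ^ (a : ℕ) from
      funext fun a => G.red_pow hx _]
    exact linearIndependent_pow_of_ord_neg hQ₀ M
  have hxt : Transcendental K x := by
    rintro ⟨p, hp, hpx⟩
    have h := (hpow (p.natDegree + 1)).linearIndependent
    rw [Fintype.linearIndependent_iff] at h
    refine hp (Polynomial.ext fun i => ?_)
    rw [coeff_zero]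
    by_cases hi : i < p.natDegree + 1
    · exact h (fun a => p.coeff (a : ℕ)) (by
        rw [← Finset.sum_range (fun a => p.coeff a • x ^ a), ← aeval_eq_sum_range]
        exact hpx) ⟨i, hi⟩
    · exact coeff_eq_zero_of_natDegree_lt (by omega)
  obtain ⟨n, hn⟩ : ∃ n, finrank k⟮G.red x⟯ Fb = n := ⟨_, rfl⟩
  choose e he hered using fun i => G.red_surj (Module.finBasisOfFinrankEq k⟮G.red x⟯ Fb hn i)
  have hli : LinearIndependent k⟮G.red x⟯ fun i => G.red (e i) := by
    simp only [hered]; exact (Module.finBasisOfFinrankEq k⟮G.red x⟯ Fb hn).linearIndependent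
  have hint := GaussRed.isIntegral_of_mem hs hx hpow he hli (hfin.trans hn) (hn ▸ finrank_pos.ne') hy
  set m := minpoly K⟮x⟯ y with hm
  have hV : ∀ i, ((m.coeff i : K⟮x⟯) : F) ∈ G.V := by
    intro i
    rw [hm, minpoly.isIntegrallyClosed_eq_field_fractions' K⟮x⟯ hint, coeff_map]
    exact ((minpoly ↥((GaussRed.toVal hs).comap (algebraMap K⟮x⟯ F)) y).coeff i).2
  have hR : ∀ i, RegAway (K := K) x ((m.coeff i : K⟮x⟯) : F) := by
    intro i v hv
    set O := v.toValuationSubring.comap (algebraMap K⟮x⟯ F)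
    -- `y` is integral over the local ring downstairs
    have hyint : IsIntegral O y := by
      have h0 : IsIntegral (Algebra.adjoin K ({x} : Set F)) y :=
        (FF.mem_integralClosure_adjoin_iff hxt y).mpr fun w hw =>
          (FF.mem_iff w y).mpr (hreg w hw)
      obtain ⟨P, hPm, hP⟩ := h0
      have hmemO : ∀ z : Algebra.adjoin K ({x} : Set F),
          ∃ w : O, ((w : K⟮x⟯) : F) = (z : F) := by
        intro z
        obtain ⟨r, hr⟩ : (z : F) ∈ (Polynomial.aeval (R := K) x).range :=
          (Algebra.adjoin_singleton_eq_range_aeval K x) ▸ z.2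
        refine ⟨⟨⟨(z : F), ?_⟩, ?_⟩, rfl⟩
        · rw [← hr]; exact aeval_mem_adjoin_simple _ _
        · show (z : F) ∈ v.toValuationSubring
          refine (FF.mem_iff v _).mpr ?_
          rw [← hr]
          show Vanish v (aeval x r) 0
          rw [aeval_eq_sum_range]
          exact Vanish.sum _ _ fun i _ => Vanish.smul _
            (by simpa using (Vanish.zero_iff.mpr hv).pow i)
      have hl : P.map (algebraMap _ F) ∈ lifts (algebraMap O F) := by
        rw [lifts_iff_coeff_lifts]
        intro j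
        rw [coeff_map]
        obtain ⟨w, hw⟩ := hmemO (P.coeff j)
        exact ⟨w, hw⟩
      obtain ⟨P', hP', -, hP'm⟩ := lifts_and_natDegree_eq_and_monic hl (hPm.map _)
      exact ⟨P', hP'm, by rw [← eval_map, hP', eval_map]; exact hP⟩
    rw [hm, minpoly.isIntegrallyClosed_eq_field_fractions' K⟮x⟯ hyint, coeff_map]
    exact (FF.mem_iff v _).mp ((minpoly O y).coeff i).2
  intro Q hQ
  refine (FF.mem_iff Q _).mp ?_
  have hQreg : ∀ i, G.red ((m.coeff i : K⟮x⟯) : F) ∈ Q.toValuationSubring := by
    intro i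
    obtain ⟨p, hp⟩ := exists_aeval_eq_of_regAway hxt (m.coeff i).2 (hR i)
    obtain ⟨q, hq⟩ := GaussRed.exists_red_aeval hs hx hpow (hp.symm ▸ hV i : aeval x p ∈ G.V)
    rw [← hp, hq]
    refine (FF.mem_iff Q _).mpr ?_
    show Vanish Q (aeval (G.red x) q) 0
    rw [aeval_eq_sum_range]
    exact Vanish.sum _ _ fun i _ => Vanish.smul _
      (by simpa using (Vanish.zero_iff.mpr hQ).pow i)
  have hyK : IsIntegral K⟮x⟯ y := IsIntegral.of_finite K⟮x⟯ y
  have h0 : ∑ i : Fin (m.natDegree + 1), G.red ((m.coeff i : K⟮x⟯) : F) * G.red y ^ (i : ℕ) = 0 := by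
    have h := congrArg G.red (minpoly.aeval K⟮x⟯ y)
    rw [← hm, G.red_zero, aeval_eq_sum_range, Finset.sum_range,
      G.red_sum _ _ fun i _ => by
        rw [Algebra.smul_def]; exact G.V.mul_mem (hV i) (pow_mem hy _)] at h
    rw [← h]
    refine Finset.sum_congr rfl fun i _ => ?_
    rw [Algebra.smul_def, show algebraMap K⟮x⟯ F (m.coeff i) = ((m.coeff i : K⟮x⟯) : F) from rfl,
      G.red_mul (hV i) (pow_mem hy _), G.red_pow hy]
  let P : Q.toValuationSubring[X] :=
    ∑ i : Fin (m.natDegree + 1), C ⟨_, hQreg i⟩ * X ^ (i : ℕ)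
  have hPm : P.Monic := by
    have hPc : ∀ j : Fin (m.natDegree + 1), P.coeff j = ⟨_, hQreg j⟩ := fun j => by
      simp [P, finsetSum_coeff, coeff_X_pow, Fin.val_inj]
    refine monic_of_natDegree_le_of_coeff_eq_one m.natDegree
      (natDegree_sum_le_of_forall_le _ _ fun i _ =>
        (natDegree_C_mul_X_pow_le _ _).trans (by omega)) ?_
    rw [show m.natDegree = ((Fin.last m.natDegree : Fin (m.natDegree + 1)) : ℕ) from rfl, hPc]
    refine Subtype.ext ?_
    show G.red ((m.coeff (Fin.last m.natDegree : ℕ) : K⟮x⟯) : F) = 1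
    rw [Fin.val_last, (minpoly.monic hyK).coeff_natDegree, OneMemClass.coe_one, G.red_one]
  have hroot : aeval (G.red y) P = 0 := by
    rw [← h0]
    simp only [P, map_sum, map_mul, aeval_C, map_pow, aeval_X]
    rfl
  obtain ⟨w, hw⟩ := IsIntegrallyClosed.isIntegral_iff.mp
    (⟨P, hPm, hroot⟩ : IsIntegral Q.toValuationSubring (G.red y))
  exact hw ▸ w.2



section
variable [IsAlgClosed K] [IsAlgClosed k] [FF.IsFF K F] [FF.IsFF k Fb]
  (hs : G.Normalisable) {x : F} (hx : x ∈ G.V) (hnc : Transcendental k (G.red x))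
  [Algebra.IsSeparable K⟮x⟯ F] [FiniteDimensional K⟮x⟯ F] [FiniteDimensional k⟮G.red x⟯ Fb]
  (hfin : finrank K⟮x⟯ F = finrank k⟮G.red x⟯ Fb)
include hs hx hnc hfin

theorem red_mem_polesLe_of_mem {n : ℕ} {y : F} (hy : y ∈ G.V)
    (h : y ∈ (polesLe x n : Submodule K F)) :
    G.red y ∈ (polesLe (G.red x) n : Submodule k Fb) := by
  have hC := curveData_of_isFF K F
  have hCb := curveData_of_isFF k Fb
  have hr0 : G.red x ≠ 0 := fun h0 => hnc (h0 ▸ isAlgebraic_zero)
  have hx0 : x ≠ 0 := G.ne_zero_of_red hr0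
  have hinv := G.inv_mem hx hr0
  have h1 := red_regular_of_integral hs hx hnc hfin hy (hC.regAway_of_mem_polesLe h)
  have hreg : RegAway (K := K) x⁻¹ (x⁻¹ ^ n * y) := by
    intro P hP
    rw [P.ord_inv] at hP
    refine (((Vanish.self x⁻¹).pow n).mul (hC.mem_polesLe.mp h P)).mono ?_
    rw [P.ord_inv, max_eq_right hP]
    omega
  haveI : FiniteDimensional K⟮x⁻¹⟯ F := by rw [adjoin_simple_inv]; infer_instance
  haveI : Algebra.IsSeparable K⟮x⁻¹⟯ F := by rw [adjoin_simple_inv]; infer_instance
  haveI : FiniteDimensional k⟮G.red x⁻¹⟯ Fb := by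
    rw [G.red_inv hx hr0, adjoin_simple_inv]; infer_instance
  have hnc' : Transcendental k (G.red x⁻¹) := by
    rw [G.red_inv hx hr0]
    intro h'
    have := h'.inv
    rw [inv_inv] at this
    exact hnc this
  have hfin' : finrank K⟮x⁻¹⟯ F = finrank k⟮G.red x⁻¹⟯ Fb := by
    rw [G.red_inv hx hr0, adjoin_simple_inv, adjoin_simple_inv, hfin]
  have h2 := red_regular_of_integral hs hinv hnc' hfin'
    (G.V.mul_mem (pow_mem hinv n) hy) hreg
  rw [G.red_mul (pow_mem hinv n) hy, G.red_pow hinv, G.red_inv hx hr0] at h2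
  rw [hCb.mem_polesLe]
  intro Q
  rcases le_or_gt 0 (Q.ord (G.red x)) with hQ | hQ
  · rw [max_eq_left (by omega), mul_zero, neg_zero]
    exact h1 Q hQ
  · have h3 := h2 Q (by rw [Q.ord_inv]; omega)
    have h4 := ((Vanish.self (v := Q) (G.red x)).pow n).mul h3
    rw [← mul_assoc, ← mul_pow, mul_inv_cancel₀ hr0, one_pow, one_mul] at h4
    refine h4.mono ?_
    rw [max_eq_right (by omega), add_zero, mul_neg, neg_neg]

/-- The reduction of a finite-dimensional space has the same dimension. -/
theorem finrank_le_of_redSub_le (W : Submodule K F) [FiniteDimensional K W]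
    (W' : Submodule k Fb) [FiniteDimensional k W']
    (hW : ∀ y ∈ W, y ∈ G.V → G.red y ∈ W') : finrank K W ≤ finrank k W' := by
  classical
  obtain ⟨Q₀, hQ₀⟩ := FF.exists_pole (K := k) hnc
  have hpow : ∀ M, G.RedIndep fun a : Fin M => x ^ (a : ℕ) := fun M => by
    refine ⟨fun a => pow_mem hx _, ?_⟩
    rw [show (fun a : Fin M => G.red (x ^ (a : ℕ))) = fun a : Fin M => G.red x ^ (a : ℕ) from
      funext fun a => G.red_pow hx _]
    exact linearIndependent_pow_of_ord_neg hQ₀ M
  obtain ⟨n, hn⟩ : ∃ n, finrank k⟮G.red x⟯ Fb = n := ⟨_, rfl⟩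
  choose e he hered using fun i => G.red_surj (Module.finBasisOfFinrankEq k⟮G.red x⟯ Fb hn i)
  have hli : LinearIndependent k⟮G.red x⟯ fun i => G.red (e i) := by
    simp only [hered]; exact (Module.finBasisOfFinrankEq k⟮G.red x⟯ Fb hn).linearIndependent
  haveI : NeZero n := ⟨hn ▸ finrank_pos.ne'⟩
  have hspan : Submodule.span K⟮x⟯ (Set.range e) = ⊤ :=
    (GaussRed.linearIndependent_frame hs hx hpow he hli).span_eq_top_of_card_eq_finrank'
      (by rw [Fintype.card_fin, hfin, hn])
  let bW := Module.finBasis K W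
  choose c hc using fun i => (Submodule.mem_span_range_iff_exists_fun K⟮x⟯).mp
    (hspan.symm ▸ Submodule.mem_top : (bW i : F) ∈ Submodule.span K⟮x⟯ (Set.range e))
  -- a common denominator
  have hden : ∀ z : K⟮x⟯, ∃ q : K[X], aeval x q ≠ 0 ∧ ∃ p : K[X],
      aeval x q * (z : F) = aeval x p := by
    intro z
    obtain ⟨p, q, hpq⟩ := (mem_adjoin_simple_iff K (z : F)).mp z.2
    by_cases h : aeval x q = 0
    · exact ⟨1, by simp, 0, by rw [hpq, h, div_zero, mul_zero, map_zero]⟩
    · exact ⟨q, h, p, by rw [hpq, mul_div_cancel₀ _ h]⟩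
  choose q hq p hp using hden
  set s : K[X] := ∏ ij : Fin (finrank K W) × Fin n, q (c ij.1 ij.2) with hsdef
  have hs0 : aeval x s ≠ 0 := by
    rw [hsdef, map_prod]
    exact Finset.prod_ne_zero_iff.mpr fun _ _ => hq _
  set P : Fin (finrank K W) → Fin n → K[X] := fun i j =>
    p (c i j) * ∏ ij ∈ Finset.univ.erase (i, j), q (c ij.1 ij.2) with hP
  have hsP : ∀ i j, aeval x s * (c i j : F) = aeval x (P i j) := fun i j => by
    rw [hsdef, hP, ← Finset.prod_erase_mul _ _ (Finset.mem_univ (i, j)), map_mul, map_mul,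
      mul_assoc, hp, mul_comm]
  set M := s.natDegree + (∑ ij : Fin (finrank K W) × Fin n, (P ij.1 ij.2).natDegree) + 1 with hM
  have hframe : G.RedIndep fun a : Fin M × Fin n => x ^ (a.1 : ℕ) * e a.2 := by
    refine ⟨fun a => G.V.mul_mem (pow_mem hx _) (he _), ?_⟩
    rw [show (fun a : Fin M × Fin n => G.red (x ^ (a.1 : ℕ) * e a.2))
        = fun a : Fin M × Fin n => G.red x ^ (a.1 : ℕ) * G.red (e a.2) from
      funext fun a => by rw [G.red_mul (pow_mem hx _) (he _), G.red_pow hx]]
    rw [Fintype.linearIndependent_iff]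
    intro d hd
    rw [Fintype.sum_prod_type, Finset.sum_comm] at hd
    let b : Fin n → k⟮G.red x⟯ := fun i => ⟨∑ a : Fin M, d (a, i) • G.red x ^ (a : ℕ),
      sum_mem fun a _ => IntermediateField.smul_mem _ (pow_mem (mem_adjoin_simple_self k _) _)⟩
    have hb := Fintype.linearIndependent_iff.mp hli b (by
      rw [← hd]
      refine Finset.sum_congr rfl fun i _ => ?_
      show (∑ a : Fin M, d (a, i) • G.red x ^ (a : ℕ)) * G.red (e i) = _
      rw [Finset.sum_mul]
      exact Finset.sum_congr rfl fun a _ => smul_mul_assoc _ _ _)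
    rintro ⟨a, i⟩
    exact Fintype.linearIndependent_iff.mp (linearIndependent_pow_of_ord_neg hQ₀ M)
      (fun a => d (a, i)) (congrArg Subtype.val (hb i)) a
  -- scale
  obtain ⟨t, ht, htV, htr⟩ := hs _ hs0
  set u := t • aeval x s with hu
  set W₁ : Submodule K F := W.map (LinearMap.mulLeft K u) with hW₁
  have hu0 : u ≠ 0 := G.ne_zero_of_red htr
  have hle : W₁ ≤ Submodule.span K (Set.range fun a : Fin M × Fin n => x ^ (a.1 : ℕ) * e a.2) := by
    have hWspan : W = Submodule.span K (Set.range fun i => (bW i : F)) := by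
      conv_lhs => rw [← Submodule.range_subtype W, ← Submodule.map_top, ← bW.span_eq,
        Submodule.map_span, ← Set.range_comp]
      rfl
    rw [hW₁, hWspan, Submodule.map_span, Submodule.span_le]
    rintro _ ⟨_, ⟨i, rfl⟩, rfl⟩
    rw [SetLike.mem_coe, LinearMap.mulLeft_apply, hu, smul_mul_assoc]
    refine Submodule.smul_mem _ _ ?_
    show aeval x s * (bW i : F) ∈ _
    rw [← hc i, Finset.mul_sum]
    refine Submodule.sum_mem _ fun j _ => ?_
    show aeval x s * ((c i j : F) * e j) ∈ _
    rw [← mul_assoc, hsP, aeval_eq_sum_range' (n := M) (by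
      have := Finset.single_le_sum (f := fun ij : Fin (finrank K W) × Fin n =>
        (P ij.1 ij.2).natDegree) (fun _ _ => Nat.zero_le _) (Finset.mem_univ (i, j))
      simp only [hM] at this ⊢
      omega), Finset.sum_range, Finset.sum_mul]
    refine Submodule.sum_mem _ fun a _ => ?_
    rw [smul_mul_assoc]
    exact Submodule.smul_mem _ _ (Submodule.subset_span ⟨(a, j), rfl⟩)
  obtain ⟨hdim, hfd⟩ := G.finrank_redSub hframe hle
  haveI := hfd
  have hinj : Function.Injective (LinearMap.mulLeft K u) := mul_right_injective₀ hu0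
  rw [(Submodule.equivMapOfInjective _ hinj W).finrank_eq]
  rw [← hW₁, ← hdim]
  have hub : Function.Injective (LinearMap.mulLeft k (G.red u)) := mul_right_injective₀ htr
  refine le_trans (Submodule.finrank_mono (t := W'.map (LinearMap.mulLeft k (G.red u))) ?_)
    (Submodule.equivMapOfInjective _ hub W').finrank_eq.ge
  rintro _ ⟨_, ⟨y, hy, rfl⟩, hyV, rfl⟩
  rw [LinearMap.mulLeft_apply] at hyV ⊢
  have hyV' : y ∈ G.V := by
    have := G.V.mul_mem (G.inv_mem htV htr) hyV
    rwa [inv_mul_cancel_left₀ hu0] at this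
  exact ⟨G.red y, hW y hy hyV', (G.red_mul htV hyV').symm⟩

/-- The genus does not increase under reduction. -/
theorem genusFF_le [Algebra.IsSeparable k⟮G.red x⟯ Fb] :
    genusFF k Fb ≤ genusFF K F := by
  have hC := curveData_of_isFF K F
  have hCb := curveData_of_isFF k Fb
  have hxt : Transcendental K x := fun h => by
    have h1 := IntermediateField.adjoin.finiteDimensional (K := K) h.isIntegral
    haveI : FiniteDimensional K F := Module.Finite.trans K⟮x⟯ F
    obtain ⟨z, hz, -⟩ := FF.IsFF.exists_sep (K := K) (F := F)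
    exact hz (Algebra.IsAlgebraic.isAlgebraic z)
  have hd : Divisor.degree (poleDiv x : Divisor K F) = finrank K⟮x⟯ F := degree_poleDiv_eq hxt
  have hdb : Divisor.degree (poleDiv (G.red x) : Divisor k Fb) = finrank k⟮G.red x⟯ Fb :=
    degree_poleDiv_eq hnc
  have hpos : 1 ≤ finrank K⟮x⟯ F := finrank_pos
  obtain ⟨C, hCC⟩ := hC.exists_C
  obtain ⟨C', hCC'⟩ := hCb.exists_C
  obtain ⟨n, hn⟩ : ∃ n : ℕ, C ≤ n ∧ C' ≤ n := ⟨(max C C').toNat, by omega, by omega⟩
  have hnψ : (n : ℤ) ≤ n * (finrank K⟮x⟯ F : ℤ) :=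
    le_mul_of_one_le_right (Nat.cast_nonneg n) (by exact_mod_cast hpos)
  have e1 := hCC (boundDiv x n 0) (by rw [hC.degree_boundDiv, hd, map_zero]; omega)
  rw [hC.degree_boundDiv, hd, map_zero] at e1
  have e2 := hCC' (boundDiv (G.red x) n 0) (by
    rw [hCb.degree_boundDiv, hdb, ← hfin, map_zero]; omega)
  rw [hCb.degree_boundDiv, hdb, ← hfin, map_zero] at e2
  haveI := hC.finite_L' (boundDiv x n (0 : Divisor K F))
  haveI := hCb.finite_L' (boundDiv (G.red x) n (0 : Divisor k Fb))
  have h := finrank_le_of_redSub_le hs hx hnc hfin (polesLe x n) (polesLe (G.red x) n)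
    fun y hy hyV => red_mem_polesLe_of_mem hs hx hnc hfin hyV hy
  have h' : (ell (boundDiv x n (0 : Divisor K F)) : ℤ) ≤ ell (boundDiv (G.red x) n (0 : Divisor k Fb)) := by
    exact_mod_cast h
  omega

end

end FLTAgent.AbVarTors
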