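import Mathlib
import Fermat.Agent.AbVarTors.ConstRed
import Fermat.Agent.AbVarTors.GenusLE
import Fermat.Agent.AbVarTors.Degree
import Fermat.Agent.AbVarTors.Exist
import Fermat.Agent.Torsion.Descent
import Fermat.Agent.Reduction.PlacesMap

/-!
# Curves under extension of constants

For an extension of constants `L/M` of a function field of one variable `L₀/M₀`: it is again such
a field, with the same separating parameter (`IsExt.isFF`), each place has a place above it
(`extP'`), pole divisors and their degrees are preserved (`poleDiv_map`, `degree_mapDomain_extP'`),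
and the genus does not increase (`genusFF_le_base`).
-/

set_option autoImplicit false
set_option linter.unusedSectionVars false
set_option linter.style.haveILetI false

universe u

noncomputable section

open AlgebraicCurve IntermediateField Module FLTAgent.Reduction

namespace FLTAgent.AbVarTors

variable {M₀ M L₀ L : Type u} [Field M₀] [Field M] [Algebra M₀ M] [Field L₀] [Algebra M₀ L₀]
  [Field L] [Algebra M L] [Algebra M₀ L] [IsScalarTower M₀ M L]
  [IsAlgClosed M₀] [IsAlgClosed M] [FF.IsFF M₀ L₀]
  {e : L₀ →ₐ[M₀] L} (he : IsExt M e)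

/-- A separating parameter. -/
def sepX (M₀ L₀ : Type u) [Field M₀] [Field L₀] [Algebra M₀ L₀] [FF.IsFF M₀ L₀] : L₀ :=
  (FF.IsFF.exists_sep (K := M₀) (F := L₀)).choose

theorem transcendental_sepX : Transcendental M₀ (sepX M₀ L₀) :=
  (FF.IsFF.exists_sep (K := M₀) (F := L₀)).choose_spec.1

theorem finite_sepX : FiniteDimensional M₀⟮sepX M₀ L₀⟯ L₀ :=
  (FF.IsFF.exists_sep (K := M₀) (F := L₀)).choose_spec.2.1

theorem separable_sepX : Algebra.IsSeparable M₀⟮sepX M₀ L₀⟯ L₀ :=
  (FF.IsFF.exists_sep (K := M₀) (F := L₀)).choose_spec.2.2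

include he

theorem IsExt.transcendental_map {z : L₀} (hz : Transcendental M₀ z) :
    Transcendental M (e z) := by
  rintro ⟨p, hp, hpz⟩
  have hli : LinearIndependent M₀ fun i : ℕ => z ^ i := by
    rw [linearIndependent_iff]
    intro l hl
    by_contra hne
    refine hz ⟨Polynomial.ofFinsupp ⟨l⟩, ?_, ?_⟩
    · intro h
      exact hne (by simpa using congrArg Polynomial.toFinsupp h)
    · rw [Polynomial.aeval_eq_sum_range, ← hl, Finsupp.linearCombination_apply]
      rw [Finsupp.sum]
      refine (Finset.sum_subset ?_ ?_).symm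
      · intro i hi
        rw [Finset.mem_range, Nat.lt_succ_iff]
        exact Polynomial.le_natDegree_of_ne_zero (by simpa [Polynomial.coeff] using hi)
      · intro i _ hi
        simp only [Finsupp.mem_support_iff, not_not] at hi
        simp [hi]
  have h1 := he.isConstExt.li hli
  refine hp (Polynomial.ext fun i => ?_)
  rw [Polynomial.coeff_zero]
  by_cases hi : i ∈ p.support
  · refine linearIndependent_iff'.mp h1 p.support (fun j => p.coeff j) ?_ i hi
    rw [← hpz, Polynomial.aeval_def, Polynomial.eval₂_eq_sum, Polynomial.sum]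
    exact Finset.sum_congr rfl fun j _ => by
      simp [Algebra.smul_def]
  · exact Polynomial.notMem_support_iff.mp hi

/-- The parameter stays separating. -/
theorem IsExt.finite_separable_map : FiniteDimensional M⟮e (sepX M₀ L₀)⟯ L ∧
    Algebra.IsSeparable M⟮e (sepX M₀ L₀)⟯ L := by
  classical
  set x := sepX M₀ L₀
  haveI := finite_sepX (M₀ := M₀) (L₀ := L₀)
  haveI := separable_sepX (M₀ := M₀) (L₀ := L₀)
  set E := M⟮e x⟯ with hE
  have hmem : ∀ a : M₀⟮x⟯, e (a : L₀) ∈ E := by
    rintro ⟨a, ha⟩
    induction ha using IntermediateField.adjoin_induction with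
    | mem a ha => rw [Set.mem_singleton_iff] at ha; subst ha; exact mem_adjoin_simple_self M _
    | algebraMap c =>
      show e (algebraMap M₀ L₀ c) ∈ E
      rw [e.commutes, IsScalarTower.algebraMap_apply M₀ M L]
      exact E.algebraMap_mem _
    | add a c _ _ ha hc => show e (a + c) ∈ E; rw [map_add]; exact add_mem ha hc
    | inv a _ ha => show e a⁻¹ ∈ E; rw [map_inv₀]; exact inv_mem ha
    | mul a c _ _ ha hc => show e (a * c) ∈ E; rw [map_mul]; exact mul_mem ha hc
  let j : M₀⟮x⟯ →+* E :=
    (e.toRingHom.comp M₀⟮x⟯.val.toRingHom).codRestrict E.toSubfield hmem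
  have hj : (algebraMap E L).comp j = (e : L₀ →+* L).comp (algebraMap M₀⟮x⟯ L₀) := rfl
  have hsep : ∀ z : L₀, IsSeparable E (e z) := by
    intro z
    have h1 : ((minpoly M₀⟮x⟯ z).map j).Separable :=
      Polynomial.Separable.map (Algebra.IsSeparable.isSeparable M₀⟮x⟯ z)
    refine h1.of_dvd (minpoly.dvd E (e z) ?_)
    rw [Polynomial.aeval_def, Polynomial.eval₂_map, hj]
    refine (Polynomial.hom_eval₂ (minpoly M₀⟮x⟯ z) (algebraMap M₀⟮x⟯ L₀) (e : L₀ →+* L) z).symm.trans ?_
    show e (Polynomial.eval₂ _ z (minpoly M₀⟮x⟯ z)) = 0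
    rw [← Polynomial.aeval_def, minpoly.aeval, map_zero]
  let b := Module.finBasis M₀⟮x⟯ L₀
  let S : Set L := Set.range fun i => e (b i)
  haveI : Finite S := Finite.Set.finite_range _
  have hfinS : FiniteDimensional E (adjoin E S) :=
    finiteDimensional_adjoin fun y hy => by
      obtain ⟨i, rfl⟩ := hy
      exact (hsep (b i)).isIntegral
  have htop : adjoin E S = ⊤ := by
    rw [eq_top_iff]
    intro w _
    have he' : ∀ z : L₀, e z ∈ adjoin E S := by
      intro z
      rw [← b.sum_repr z, map_sum]
      refine sum_mem fun i _ => ?_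
      show e (((b.repr z i : M₀⟮x⟯) : L₀) * b i) ∈ _
      rw [map_mul]
      exact mul_mem ((adjoin E S).algebraMap_mem (j (b.repr z i)))
        (subset_adjoin E S ⟨i, rfl⟩)
    obtain ⟨a, c, -, rfl⟩ := he.gen w
    have hcm : ∀ t, cmap M e t ∈ adjoin E S := by
      intro t
      induction t using TensorProduct.induction_on with
      | zero => rw [map_zero]; exact zero_mem _
      | add a c ha hc => rw [map_add]; exact add_mem ha hc
      | tmul m z =>
        rw [cmap_tmul]
        exact mul_mem ((adjoin E S).algebraMap_mem ⟨_, E.algebraMap_mem m⟩) (he' z)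
    exact div_mem (hcm a) (hcm c)
  refine ⟨?_, ?_⟩
  · rw [htop] at hfinS
    exact (IntermediateField.topEquiv (F := E) (E := L)).toLinearEquiv.finiteDimensional
  · have h1 : Algebra.IsSeparable E (adjoin E S) := by
      rw [IntermediateField.isSeparable_adjoin_iff_isSeparable]
      rintro y ⟨i, rfl⟩
      exact hsep (b i)
    rw [htop] at h1
    haveI := h1
    exact Algebra.IsSeparable.of_algHom E (⊤ : IntermediateField E L)
      (IntermediateField.topEquiv (F := E) (E := L)).symm.toAlgHom

/-- An extension of constants of a function field is a function field. -/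
theorem IsExt.isFF : FF.IsFF M L :=
  ⟨⟨e (sepX M₀ L₀), he.transcendental_map transcendental_sepX, he.finite_separable_map.1,
    he.finite_separable_map.2⟩⟩

variable [FF.IsFF M L]

/-- The place above a place. -/
def extP' (v : Place M₀ L₀) : Place M L := Torsion.extP he.isConstExt v

theorem ord_extP' (v : Place M₀ L₀) (z : L₀) : (extP' he v).ord (e z) = v.ord z :=
  Torsion.ord_extP he.isConstExt v z

theorem exists_eq_extP' {w : Place M L} {z : L₀} (hz : w.ord (e z) ≠ 0) :
    ∃ v, w = extP' he v :=
  Torsion.exists_eq_extP he.isConstExt hz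

theorem extP'_injective : Function.Injective (extP' he) := Torsion.extP_injective he.isConstExt

theorem divOf_map (z : L₀) :
    (divOf (e z) : Divisor M L) = Finsupp.mapDomain (extP' he) (divOf z : Divisor M₀ L₀) := by
  have hC := curveData_of_isFF M L
  have hC₀ := curveData_of_isFF M₀ L₀
  refine Finsupp.ext fun w => ?_
  rw [hC.divOf_apply]
  by_cases h : w ∈ Set.range (extP' he)
  · obtain ⟨v, rfl⟩ := h
    rw [Finsupp.mapDomain_apply (extP'_injective he), hC₀.divOf_apply, ord_extP']
  · rw [Finsupp.mapDomain_of_notMem_range _ _ h]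
    by_contra hne
    exact h (by obtain ⟨v, rfl⟩ := exists_eq_extP' he hne; exact ⟨v, rfl⟩)

/-- Pole divisors commute with extension of constants. -/
theorem poleDiv_map (z : L₀) :
    (poleDiv (e z) : Divisor M L) = Finsupp.mapDomain (extP' he) (poleDiv z : Divisor M₀ L₀) := by
  rw [poleDiv, poleDiv, divOf_map he]
  refine Finsupp.ext fun w => ?_
  rw [Finsupp.mapRange_apply]
  by_cases h : w ∈ Set.range (extP' he)
  · obtain ⟨v, rfl⟩ := h
    rw [Finsupp.mapDomain_apply (extP'_injective he), Finsupp.mapDomain_apply (extP'_injective he),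
      Finsupp.mapRange_apply]
  · rw [Finsupp.mapDomain_of_notMem_range _ _ h, Finsupp.mapDomain_of_notMem_range _ _ h]
    simp

theorem degree_mapDomain_extP' (D : Divisor M₀ L₀) :
    Divisor.degree (Finsupp.mapDomain (extP' he) D : Divisor M L) = Divisor.degree D := by
  rw [(curveData_of_isFF M L).degree_eq_sum, (curveData_of_isFF M₀ L₀).degree_eq_sum]
  exact Finsupp.sum_mapDomain_index (fun _ => rfl) (fun _ _ _ => rfl)

/-- Extension of constants does not raise the genus. -/
theorem genusFF_le_base : genusFF M L ≤ genusFF M₀ L₀ := by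
  classical
  have hC := curveData_of_isFF M L
  have hC₀ := curveData_of_isFF M₀ L₀
  obtain ⟨C, hCC⟩ := hC.exists_C
  obtain ⟨v⟩ := FF.place_nonempty (K := M₀) (F := L₀)
  set n : ℕ := C.toNat
  set D : Divisor M₀ L₀ := Finsupp.single v (n : ℤ) with hD
  haveI := hC₀.finite_L D
  haveI := hC.finite_L (Finsupp.mapDomain (extP' he) D)
  have hmem : ∀ f : riemannRochSpace D,
      e (f : L₀) ∈ riemannRochSpace (Finsupp.mapDomain (extP' he) D) := by
    rintro ⟨f, hf⟩
    refine mem_L_iff.mpr fun w => ?_
    rcases eq_or_ne f 0 with rfl | hf0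
    · rw [map_zero]; exact Vanish.zero_left
    refine Or.inr ?_
    have hDnn : ∀ u : Place M₀ L₀, 0 ≤ D u := fun u => by
      rw [hD, Finsupp.single_apply]; split_ifs <;> simp
    by_cases h : w ∈ Set.range (extP' he)
    · obtain ⟨u, rfl⟩ := h
      rw [Finsupp.mapDomain_apply (extP'_injective he), ord_extP']
      exact (mem_L_iff.mp hf u).resolve_left hf0
    · rw [Finsupp.mapDomain_of_notMem_range _ _ h, neg_zero]
      by_contra hne
      have hne0 : w.ord (e f) ≠ 0 := fun h0 => hne (le_of_eq h0.symm)
      exact h (by obtain ⟨v, rfl⟩ := exists_eq_extP' he (z := f) hne0; exact ⟨v, rfl⟩)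
  let b := Module.finBasis M₀ (riemannRochSpace D)
  have hli : LinearIndependent M fun i => (⟨e (b i : L₀), hmem (b i)⟩ :
      riemannRochSpace (Finsupp.mapDomain (extP' he) D : Divisor M L)) :=
    LinearIndependent.of_comp (riemannRochSpace _).subtype
      (he.isConstExt.li (b.linearIndependent.map' _ (Submodule.ker_subtype _)))
  have h1 := hli.fintype_card_le_finrank
  rw [Fintype.card_fin] at h1
  have h2 := hC₀.riemann D
  have h3 := hCC (Finsupp.mapDomain (extP' he) D) (by
    rw [degree_mapDomain_extP', hD, hC₀.degree_single]; omega)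
  rw [degree_mapDomain_extP'] at h3
  have h1' : (finrank M₀ (riemannRochSpace D) : ℤ) ≤
      ell (Finsupp.mapDomain (extP' he) D : Divisor M L) := by exact_mod_cast h1
  omega

end FLTAgent.AbVarTors
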