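import Mathlib
import Fermat.Agent.AbVarTors.CurveExt

/-!
# Good reduction of a constant extension

A residue map of the constants gives the Gauss reduction `constRed` of a constant extension. Its
parameter is good (`goodParam`, which needs equality of genera, `genusFF_ext`), so it reduces
places (`placeRed`), constant places to the corresponding ones (`placeRed_extP`); `centre` compares
the values of a function of the base curve at a place and at its reduction.
-/

set_option autoImplicit false
set_option linter.unusedSectionVars false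
set_option linter.style.haveILetI false

universe u

noncomputable section

open AlgebraicCurve IntermediateField Module FLTAgent.Reduction

namespace FLTAgent.AbVarTors

variable {K M₀ M L₀ L M' L' : Type u} [Field K] [Field M₀] [Algebra K M₀] [Field M] [Algebra M₀ M]
  [Algebra K M] [IsScalarTower K M₀ M]
  [Field L₀] [Algebra M₀ L₀] [Field L] [Algebra M L] [Algebra M₀ L] [IsScalarTower M₀ M L]
  [Field M'] [Algebra K M'] [Algebra M₀ M'] [IsScalarTower K M₀ M']
  [Field L'] [Algebra M' L'] [Algebra M₀ L'] [IsScalarTower M₀ M' L']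
  [IsAlgClosed M₀] [IsAlgClosed M] [IsAlgClosed M'] [FF.IsFF M₀ L₀] [FF.IsFF M L] [FF.IsFF M' L']
  {e : L₀ →ₐ[M₀] L} {e' : L₀ →ₐ[M₀] L'}

theorem finrank_map_sepX (he : IsExt M e) :
    (finrank M⟮e (sepX M₀ L₀)⟯ L : ℤ) =
      Divisor.degree (poleDiv (sepX M₀ L₀) : Divisor M₀ L₀) := by
  haveI := he.finite_separable_map.1
  rw [← degree_poleDiv_eq_finrank (he.transcendental_map transcendental_sepX), poleDiv_map he,
    degree_mapDomain_extP' he]

variable (K M₀) in
theorem exists_kres_base : ∃ R : KRes K M M₀, FixesConst (M₀ := M₀) R ∧ Function.Surjective R.π := by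
  obtain ⟨R, hR, hs⟩ := exists_kres (K := K) (k := M₀) (algebraMap M₀ M).range
    (fun a => ⟨algebraMap K M₀ a, (IsScalarTower.algebraMap_apply K M₀ M a).symm⟩)
    (RingEquiv.ofBijective (algebraMap M₀ M).rangeRestrict
      ⟨fun a b h => (algebraMap M₀ M).injective (congrArg Subtype.val h),
        (algebraMap M₀ M).rangeRestrict_surjective⟩).symm.toRingHom
    (fun a => by
      refine (RingEquiv.symm_apply_eq _).mpr (Subtype.ext ?_)
      exact IsScalarTower.algebraMap_apply K M₀ M a)
    (RingEquiv.surjective _)
  refine ⟨R, fun a => ?_, hs⟩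
  obtain ⟨h, h'⟩ := hR ⟨algebraMap M₀ M a, a, rfl⟩
  exact ⟨h, h'.trans ((RingEquiv.symm_apply_eq _).mpr (Subtype.ext rfl))⟩

variable (K) in
include K in
/-- Extension of constants preserves the genus. -/
theorem genusFF_ext (he : IsExt M e) : genusFF M L = genusFF M₀ L₀ := by
  refine le_antisymm (genusFF_le_base he) ?_
  obtain ⟨R, hR, hs⟩ := exists_kres_base K M₀ (M := M)
  set x := sepX M₀ L₀
  set G := constRed hR e (AlgHom.id M₀ L₀) he IsExt.id hs with hG
  obtain ⟨hxV, hxr⟩ := constRed_map hR e (AlgHom.id M₀ L₀) he IsExt.id hs x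
  change G.red (e x) = x at hxr
  have hfin : finrank M⟮e x⟯ L = finrank M₀⟮G.red (e x)⟯ L₀ := by
    rw [hxr]
    haveI := finite_sepX (M₀ := M₀) (L₀ := L₀)
    have h1 := finrank_map_sepX he
    rw [degree_poleDiv_eq_finrank transcendental_sepX] at h1
    exact_mod_cast h1
  haveI := he.finite_separable_map.1
  haveI := he.finite_separable_map.2
  haveI : FiniteDimensional M₀⟮G.red (e x)⟯ L₀ := by rw [hxr]; exact finite_sepX
  haveI : Algebra.IsSeparable M₀⟮G.red (e x)⟯ L₀ := by rw [hxr]; exact separable_sepX
  have hnc : Transcendental M₀ (G.red (e x)) := by rw [hxr]; exact transcendental_sepX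
  have hnorm : G.Normalisable := G.exists_smul_of_finrank (curveData_of_isFF M₀ L₀) hxV
    (fun c hc => hnc (hc ▸ isAlgebraic_algebraMap c)) hfin
  exact genusFF_le hnorm hxV hnc hfin

variable {R : KRes K M M'} (hR : FixesConst (M₀ := M₀) R) (he : IsExt M e) (he' : IsExt M' e')
  (hs : Function.Surjective R.π)
include he he' hs

/-- The parameter is good. -/
theorem goodParam :
    GoodParam (constRed hR e e' he he' hs) (genusFF M₀ L₀) (e (sepX M₀ L₀)) where
  curve := genusFF_ext K he ▸ curveData_of_isFF M L
  curveBar := genusFF_ext K he' ▸ curveData_of_isFF M' L'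
  mem := (constRed_map hR e e' he he' hs _).1
  not_const c h := he'.transcendental_map transcendental_sepX (by
    rw [(constRed_map hR e e' he he' hs _).2] at h
    exact h ▸ isAlgebraic_algebraMap c)
  deg_eq := by
    rw [(constRed_map hR e e' he he' hs _).2, poleDiv_map he, poleDiv_map he',
      degree_mapDomain_extP' he, degree_mapDomain_extP' he']

/-- The reduction of places. -/
def placeRed (P : Place M L) : Place M' L' := redMap (goodParam hR he he' hs) P

theorem isRed_placeRed :
    IsRed (constRed hR e e' he he' hs) (genusFF M₀ L₀) (placeRed hR he he' hs) :=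
  (goodParam hR he he' hs).isRed

/-- Reduction of a constant place. -/
theorem placeRed_extP (v : Place M₀ L₀) :
    placeRed hR he he' hs (extP' he v) = extP' he' v := by
  classical
  have hC₀ := curveData_of_isFF M₀ L₀
  have hr := isRed_placeRed hR he he' hs
  obtain ⟨C, hCC⟩ := hC₀.exists_C
  set n : ℕ := (C + 1).toNat + 1
  obtain ⟨f, hf, hf0, hord⟩ := hC₀.exists_exact v C hCC
    (D := Finsupp.single v (n : ℤ)) (by rw [hC₀.degree_single]; omega)
  rw [Finsupp.single_eq_same] at hord
  obtain ⟨hV, hred⟩ := constRed_map hR e e' he he' hs f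
  have hne : (constRed hR e e' he he' hs).red (e f) ≠ 0 := by
    rw [hred]; exact (map_ne_zero e').mpr hf0
  have h := hr.ord_eq (e f) hV hne (extP' he' v)
  rw [hred, ord_extP', divOf_map he, ← Finsupp.mapDomain_comp, mapDomain_apply_eq_sum] at h
  by_contra hne'
  have hnn : 0 ≤ ∑ a ∈ (divOf f : Divisor M₀ L₀).support.filter
      (fun a => (placeRed hR he he' hs ∘ extP' he) a = extP' he' v),
      (divOf f : Divisor M₀ L₀) a := by
    refine Finset.sum_nonneg fun a ha => ?_
    rw [hC₀.divOf_apply]
    have hav : a ≠ v := fun hav => hne' (hav ▸ (Finset.mem_filter.mp ha).2)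
    have := (mem_L_iff.mp hf a).resolve_left hf0
    rw [Finsupp.single_apply, if_neg (Ne.symm hav), neg_zero] at this
    exact this
  omega

/-- A function of the base curve regular at the reduced place has integral value, reducing to the
value at the reduced place. -/
theorem centre (P : Place M L) {z : L₀}
    (hz : 0 ≤ (placeRed hR he he' hs P).ord (e' z)) :
    Vanish P (e z) 0 ∧ ∃ h : valAt P (e z) ∈ R.V,
      R.π ⟨valAt P (e z), h⟩ = valAt (placeRed hR he he' hs P) (e' z) := by
  have hr := isRed_placeRed hR he he' hs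
  obtain ⟨hV, hred⟩ := constRed_map hR e e' he he' hs z
  set Q := placeRed hR he he' hs P
  have hreg : RegFibre (placeRed hR he he' hs) Q (e z) := by
    intro P' hP'
    rcases eq_or_ne z 0 with rfl | hz0
    · rw [map_zero]; exact Vanish.zero_left
    refine Vanish.zero_iff.mpr ?_
    by_contra hneg
    push Not at hneg
    obtain ⟨v, rfl⟩ := exists_eq_extP' he hneg.ne
    rw [ord_extP'] at hneg
    rw [placeRed_extP] at hP'
    rw [← hP', ord_extP'] at hz
    omega
  obtain ⟨hcA, -, hval⟩ := hr.value_of_regFibre hV hreg (P := P) rfl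
  refine ⟨hreg P rfl, hcA, ?_⟩
  rw [hred] at hval
  rw [hval]
  exact (resVal_of_eq P (e z) ⟨_, hcA⟩ rfl).symm

end FLTAgent.AbVarTors
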