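import Mathlib
import Fermat.Agent.AbVarTors.Denom
import Fermat.Agent.AbVarTors.Residue
import Fermat.Agent.AbVarTors.Gauss

/-!
# The pullback of a polar divisor to a curve

For a function `x` on the abelian variety and a point `P` in the function field of a curve,
`polar x P h` is the pullback of the polar divisor of `x` relative to a local equation `h` at the
image of `P`; it may be computed with any local equation at each place (`polar_eq`), changes by a
principal divisor with `h` (`polar_change`), so has a class `cls x P`, and is the divisor of poles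
of `x(P)` when no indeterminacy is met (`polar_one_eq_poleDiv`).
-/

set_option autoImplicit false
set_option linter.unusedSectionVars false
set_option linter.style.haveILetI false

universe u

noncomputable section

open AlgebraicCurve Module FLTAgent.Reduction

namespace FLTAgent.AbVarTors

variable {K M L : Type u} [Field K] [Field M] [Algebra K M] [Field L] [Algebra M L] [Algebra K L]
  [IsScalarTower K M L] [IsAlgClosed M] [FF.IsFF M L]

theorem vanish_zero_of_mem (P : Place M L) {f : L} (hf : f ∈ P.toValuationSubring) :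
    Vanish P f 0 := (FF.mem_iff P f).mp hf

/-- Evaluation at a place as a residue map. -/
def placeKRes (K : Type u) [Field K] [Algebra K M] [Algebra K L] [IsScalarTower K M L]
    (P : Place M L) : KRes K L M where
  V := P.toValuationSubring
  mem a := by
    rw [IsScalarTower.algebraMap_apply K M L]
    exact P.algebraMap_mem' _
  π :=
    { toFun := fun f => valAt P (f : L)
      map_one' := valAt_one P
      map_mul' := fun f g => (curveData_of_isFF M L).valAt_mul (vanish_zero_of_mem P f.2)
        (vanish_zero_of_mem P g.2)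
      map_zero' := valAt_zero P
      map_add' := fun f g => (curveData_of_isFF M L).valAt_add (vanish_zero_of_mem P f.2)
        (vanish_zero_of_mem P g.2) }
  map_algebraMap a := by
    show valAt P (algebraMap K L a) = _
    rw [IsScalarTower.algebraMap_apply K M L, valAt_algebraMap]
  isUnit_of_ne f hf := by
    have hf0 : (f : L) ≠ 0 := fun h => hf (by
      show valAt P (f : L) = 0
      rw [h, valAt_zero])
    have hnn := FF.ord_nonneg_of_mem_placeRing P f.2
    have hz : P.ord (f : L) = 0 := by
      by_contra hne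
      exact hf (valAt_eq_zero_of_vanish (Or.inr (by omega)))
    have hinv : (f : L)⁻¹ ∈ P.toValuationSubring := by
      refine (FF.mem_iff P _).mpr (Or.inr ?_)
      rw [P.ord_inv]; omega
    exact ⟨⟨f, ⟨_, hinv⟩, Subtype.ext (mul_inv_cancel₀ hf0), Subtype.ext (inv_mul_cancel₀ hf0)⟩, rfl⟩

theorem mem_placeKRes {P : Place M L} {f : L} :
    f ∈ (placeKRes K P).V ↔ Vanish P f 0 := FF.mem_iff P f

theorem π_placeKRes (P : Place M L) (f : L) (h : f ∈ (placeKRes K P).V) :
    (placeKRes K P).π ⟨f, h⟩ = valAt P f := rfl

namespace AVData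

variable {g : ℕ} (D : AVData K g) [IsAlgClosed K]

/-- The chosen denominator at a point. -/
def den (x : D.F) {E : Type u} [Field E] [Algebra K E] (P : D.Pt E) : D.F :=
  (D.exists_denom_nbhd x P).choose

variable {E E' : Type u} [Field E] [Algebra K E] [Field E'] [Algebra K E']

theorem isDenom_den (x : D.F) (P : D.Pt E) : D.IsDenom x P (D.den x P) := by
  obtain ⟨S, hS, -, h⟩ := (D.exists_denom_nbhd x P).choose_spec
  exact h P hS

theorem isDenom_of_le {x : D.F} {P : D.Pt E} {Q : D.Pt E'} (hle : D.loc Q ≤ D.loc P) :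
    D.IsDenom x P (D.den x Q) := by
  obtain ⟨S, hS, -, h⟩ := (D.exists_denom_nbhd x Q).choose_spec
  exact h P fun f hf => hle (hS f hf)

theorem isDenom_one {x : D.F} {P : D.Pt E} (hx : x ∈ D.loc P) : D.IsDenom x P 1 :=
  ⟨one_ne_zero, one_mem _, by rwa [one_mul], fun d hd _ => ⟨d, hd, (mul_one d).symm⟩⟩

theorem denom_ratio {x : D.F} {P : D.Pt E} {a b : D.F} (ha : D.IsDenom x P a)
    (hb : D.IsDenom x P b) : a / b ∈ D.loc P ∧ D.val P (a / b) ≠ 0 := by
  obtain ⟨c, hc, hac⟩ := hb.2.2.2 a ha.2.1 ha.2.2.1
  obtain ⟨c', hc', hbc⟩ := ha.2.2.2 b hb.2.1 hb.2.2.1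
  have hab : a / b = c := by rw [hac, mul_div_cancel_right₀ _ hb.1]
  have hba : b / a = c' := by rw [hbc, mul_div_cancel_right₀ _ ha.1]
  refine ⟨hab ▸ hc, D.val_ne_zero_of_inv_mem P (div_ne_zero ha.1 hb.1) (hab ▸ hc) ?_⟩
  rw [inv_div, hba]
  exact hc'

theorem val_ratio_mul {x : D.F} {P : D.Pt E} {a b c : D.F} (ha : D.IsDenom x P a)
    (hb : D.IsDenom x P b) (hc : D.IsDenom x P c) :
    D.val P (a / c) = D.val P (a / b) * D.val P (b / c) := by
  rw [← D.val_mul P (D.denom_ratio ha hb).1 (D.denom_ratio hb hc).1, div_mul_div_cancel₀ hb.1]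

theorem val_ratio_ord (x : D.F) {P : D.Pt L} (R : Place M L) {a b : D.F}
    (ha : D.IsDenom x (D.spec (placeKRes K R) P) a)
    (hb : D.IsDenom x (D.spec (placeKRes K R) P) b) : R.ord (D.val P (a / b)) = 0 := by
  set Q := D.spec (placeKRes K R) P
  obtain ⟨h1, h2⟩ := D.denom_ratio ha hb
  have hv := D.val_spec_mem (placeKRes K R) P h1
  have he : valAt R (D.val P (a / b)) = D.val Q (a / b) := D.val_spec_eq (placeKRes K R) P h1
  rcases mem_placeKRes.mp hv with h0 | h0
  · rw [h0, valAt_zero] at he
    exact absurd he.symm h2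
  · by_contra hne
    rw [valAt_eq_zero_of_vanish (v := R) (Or.inr (by omega))] at he
    exact h2 he.symm

variable (x : D.F)

/-- The values of the pullback of the polar divisor. -/
def polarFun (P : D.Pt L) (h : D.F) (R : Place M L) : ℤ :=
  R.ord (D.val P (D.den x (D.spec (placeKRes K R) P) / h))

theorem denom_spec (P : D.Pt L) (R : Place M L) :
    D.IsDenom x P (D.den x (D.spec (placeKRes K R) P)) :=
  D.isDenom_of_le (D.loc_spec_le _ P)

/-- The polar divisor can be computed with any local equation. -/
theorem polarFun_eq {P : D.Pt L} {h e : D.F} (hh : D.IsDenom x P h) (R : Place M L)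
    (he : D.IsDenom x (D.spec (placeKRes K R) P) e) (heP : D.IsDenom x P e) :
    D.polarFun x P h R = R.ord (D.val P (e / h)) := by
  have h1 := D.denom_spec x P R
  rw [polarFun, D.val_ratio_mul h1 heP hh,
    Place.ord_mul _ (D.denom_ratio h1 heP).2 (D.denom_ratio heP hh).2,
    D.val_ratio_ord x R (D.isDenom_den x _) he, zero_add]

theorem finite_polarFun {P : D.Pt L} {h : D.F} (hh : D.IsDenom x P h) :
    (Function.support (D.polarFun x P h : Place M L → ℤ)).Finite := by
  obtain ⟨S, hS, hchart, hden⟩ := (D.exists_denom_nbhd x P).choose_spec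
  set e := D.den x P
  have heP : D.IsDenom x P e := D.isDenom_den x P
  refine Set.Finite.subset (((S : Set D.F).toFinite.biUnion fun f _ =>
    FF.finite_ord_ne_zero (K := M) (D.val P f)).union
      (FF.finite_ord_ne_zero (K := M) (D.val P (e / h)))) ?_
  intro R hR
  by_contra hcon
  simp only [Set.mem_union, Set.mem_iUnion, Set.mem_ofPred_eq, not_or, not_exists, not_not,
    Finset.mem_coe] at hcon
  have hmem : ∀ f ∈ S, f ∈ D.loc (D.spec (placeKRes K R) P) := hchart _ P fun f hf =>
    ⟨hS f hf, mem_placeKRes.mpr (Or.inr (by rw [D.val_mem]; exact (hcon.1 f hf).ge))⟩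
  exact hR (by
    rw [D.polarFun_eq x hh R (hden _ hmem) heP]
    exact hcon.2)

open Classical in
/-- The pullback of the polar divisor, relative to a local equation `h` at the image. -/
def polar (P : D.Pt L) (h : D.F) : Divisor M L :=
  if hf : (Function.support (D.polarFun x P h : Place M L → ℤ)).Finite then
    Finsupp.ofSupportFinite _ hf else 0

theorem polar_apply {P : D.Pt L} {h : D.F} (hh : D.IsDenom x P h) (R : Place M L) :
    D.polar x P h R = D.polarFun x P h R := by
  rw [polar, dif_pos (D.finite_polarFun x hh)]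
  rfl

/-- The polar divisor at a place from any local equation there. -/
theorem polar_eq {P : D.Pt L} {h e : D.F} (hh : D.IsDenom x P h) (R : Place M L)
    (he : D.IsDenom x (D.spec (placeKRes K R) P) e) (heP : D.IsDenom x P e) :
    D.polar x P h R = R.ord (D.val P (e / h)) := by
  rw [D.polar_apply x hh, D.polarFun_eq x hh R he heP]

/-- Another local equation changes the polar divisor by a principal divisor. -/
theorem polar_change {P : D.Pt L} {h h' : D.F} (hh : D.IsDenom x P h) (hh' : D.IsDenom x P h') :
    (D.polar x P h : Divisor M L) = D.polar x P h' + divOf (D.val P (h' / h)) := by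
  refine Finsupp.ext fun R => ?_
  have h1 := D.denom_spec x P R
  rw [Finsupp.add_apply, D.polar_apply x hh, D.polar_apply x hh',
    (curveData_of_isFF M L).divOf_apply, polarFun, polarFun, D.val_ratio_mul h1 hh' hh,
    Place.ord_mul _ (D.denom_ratio h1 hh').2 (D.denom_ratio hh' hh).2]

/-- The class of the pullback of the polar divisor. -/
def cls (P : D.Pt L) : Pic M L := QuotientAddGroup.mk (D.polar x P (D.den x P))

theorem cls_eq {P : D.Pt L} {h : D.F} (hh : D.IsDenom x P h) :
    (D.cls x P : Pic M L) = QuotientAddGroup.mk (D.polar x P h) := by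
  rw [cls, D.polar_change x hh (D.isDenom_den x P), QuotientAddGroup.mk_add, eq_comm, add_eq_left,
    QuotientAddGroup.eq_zero_iff]
  exact (curveData_of_isFF M L).isPrincipal_divOf (D.denom_ratio (D.isDenom_den x P) hh).2

/-- The polar divisor of the pullback, when no indeterminacy is met. -/
theorem polar_one_eq_poleDiv {P : D.Pt L} (hx : x ∈ D.loc P)
    (hno : ∀ (R : Place M L) (e : D.F) (he : D.IsDenom x (D.spec (placeKRes K R) P) e),
      ¬(D.ev _ ⟨e, he.2.1⟩ = 0 ∧ D.ev _ ⟨e * x, he.2.2.1⟩ = 0)) :
    (D.polar x P 1 : Divisor M L) = poleDiv (D.val P x) := by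
  have hC := curveData_of_isFF M L
  refine Finsupp.ext fun R => ?_
  set Q := D.spec (placeKRes K R) P
  set e := D.den x Q
  have he : D.IsDenom x Q e := D.isDenom_den x Q
  have heP : D.IsDenom x P e := D.denom_spec x P R
  have hv0 : D.val P e ≠ 0 := by simpa using (D.denom_ratio heP (D.isDenom_one hx)).2
  rw [D.polar_eq x (D.isDenom_one hx) R he heP, hC.poleDiv_apply, div_one]
  have h1 := mem_placeKRes.mp (D.val_spec_mem (placeKRes K R) P he.2.1)
  have h1' : valAt R (D.val P e) = D.val Q e := D.val_spec_eq (placeKRes K R) P he.2.1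
  have h2 := mem_placeKRes.mp (D.val_spec_mem (placeKRes K R) P he.2.2.1)
  have h2' : valAt R (D.val P (e * x)) = D.val Q (e * x) :=
    D.val_spec_eq (placeKRes K R) P he.2.2.1
  rw [D.val_mul P heP.2.1 hx] at h2 h2'
  have hnn : 0 ≤ R.ord (D.val P e) := h1.resolve_left hv0
  have hcase := hno R e he
  rw [D.val_mem, D.val_mem, not_and_or] at hcase
  rcases hcase with hc | hc
  · have he0 : R.ord (D.val P e) = 0 := by
      by_contra hne
      rw [valAt_eq_zero_of_vanish (v := R) (Or.inr (by omega))] at h1'
      exact hc h1'.symm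
    rcases eq_or_ne (D.val P x) 0 with hy | hy
    · rw [hy, Place.ord_zero, he0]; rfl
    · have h3 := h2.resolve_left (mul_ne_zero hv0 hy)
      rw [Place.ord_mul _ hv0 hy] at h3
      omega
  · rcases eq_or_ne (D.val P x) 0 with hy | hy
    · rw [hy, mul_zero, valAt_zero] at h2'
      exact absurd h2'.symm hc
    · have h3 := h2.resolve_left (mul_ne_zero hv0 hy)
      rw [Place.ord_mul _ hv0 hy] at h3
      have hp0 : R.ord (D.val P e) + R.ord (D.val P x) = 0 := by
        by_contra hne
        rw [valAt_eq_zero_of_vanish (v := R) (Or.inr (by rw [Place.ord_mul _ hv0 hy]; omega))]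
          at h2'
        exact hc h2'.symm
      omega

end AVData

end FLTAgent.AbVarTors
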