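import Mathlib
import Fermat.Agent.AbVarTors.Polar

/-!
# Reduction of polar divisors of translates

Along the Gauss valuation of a constant extension (`gaussKRes`) a translate `transl e u Q` of a
point of the curve by a constant point specialises to the translate by the specialised point
(`spec_gauss_transl`, `spec_comm`). Hence the reduction of places carries the polar divisor of a
translate to that of the reduced translate (`mapDomain_polar`, `redPic_cls`).
-/

set_option autoImplicit false
set_option linter.unusedSectionVars false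
set_option linter.style.haveILetI false

universe u

noncomputable section

open AlgebraicCurve Module FLTAgent.Reduction

namespace FLTAgent.AbVarTors

variable {K M₀ M L₀ L M' L' : Type u} [Field K] [Field M₀] [Algebra K M₀] [Field M] [Algebra M₀ M]
  [Algebra K M] [IsScalarTower K M₀ M]
  [Field L₀] [Algebra M₀ L₀] [Algebra K L₀] [IsScalarTower K M₀ L₀]
  [Field L] [Algebra M L] [Algebra M₀ L] [IsScalarTower M₀ M L]
  [Algebra K L] [IsScalarTower K M L] [IsScalarTower K M₀ L]
  [Field M'] [Algebra K M'] [Algebra M₀ M'] [IsScalarTower K M₀ M']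
  [Field L'] [Algebra M' L'] [Algebra M₀ L'] [IsScalarTower M₀ M' L']
  [Algebra K L'] [IsScalarTower K M' L'] [IsScalarTower K M₀ L']
  [IsAlgClosed M₀] [IsAlgClosed M] [IsAlgClosed M'] [FF.IsFF M₀ L₀] [FF.IsFF M L] [FF.IsFF M' L']
  {e : L₀ →ₐ[M₀] L} {e' : L₀ →ₐ[M₀] L'}
  {R : KRes K M M'} (hR : FixesConst (M₀ := M₀) R) (he : IsExt M e) (he' : IsExt M' e')
  (hs : Function.Surjective R.π)

include hR he he' hs

theorem normalisable_constRed :
    (constRed hR e e' he he' hs).Normalisable :=
  fun _ hy => (goodParam hR he he' hs).exists_smul hy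

/-- The Gauss valuation as a residue map. -/
def gaussKRes : KRes K L L' where
  V := GaussRed.toVal (normalisable_constRed hR he he' hs)
  mem a := by
    rw [IsScalarTower.algebraMap_apply K M L]
    exact (constRed hR e e' he he' hs).const_mem ⟨_, R.mem a⟩
  π :=
    { toFun := fun y => (constRed hR e e' he he' hs).red (y : L)
      map_one' := (constRed hR e e' he he' hs).red_one
      map_mul' := fun y z => (constRed hR e e' he he' hs).red_mul y.2 z.2
      map_zero' := (constRed hR e e' he he' hs).red_zero
      map_add' := fun y z => (constRed hR e e' he he' hs).red_add y.2 z.2 }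
  map_algebraMap a := by
    show (constRed hR e e' he he' hs).red (algebraMap K L a) = _
    rw [IsScalarTower.algebraMap_apply K M L,
      show algebraMap K M a = ((⟨_, R.mem a⟩ : R.V) : M) from rfl,
      GaussRed.red_const, R.map_algebraMap, ← IsScalarTower.algebraMap_apply K M' L']
  isUnit_of_ne y hy := by
    have hy0 : (y : L) ≠ 0 := (constRed hR e e' he he' hs).ne_zero_of_red hy
    exact ⟨⟨y, ⟨(y : L)⁻¹, (constRed hR e e' he he' hs).inv_mem y.2 hy⟩,
      Subtype.ext (mul_inv_cancel₀ hy0), Subtype.ext (inv_mul_cancel₀ hy0)⟩, rfl⟩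

namespace AVData

variable {g : ℕ} (D : AVData K g)

theorem spec_gauss_const (u : D.Pt M) :
    D.spec (gaussKRes hR he he' hs) (D.map (IsScalarTower.toAlgHom K M L) u) =
      D.map (IsScalarTower.toAlgHom K M' L') (D.spec R u) :=
  D.spec_map (gaussKRes hR he he' hs) R (IsScalarTower.toAlgHom K M L)
    (IsScalarTower.toAlgHom K M' L') (fun a ha =>
    ⟨(constRed hR e e' he he' hs).const_mem ⟨a, ha⟩,
      (constRed hR e e' he he' hs).red_const ⟨a, ha⟩⟩) u

theorem spec_gauss_ext (Q : D.Pt L₀) :
    D.spec (gaussKRes hR he he' hs) (D.map (e.restrictScalars K) Q) =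
      D.map (e'.restrictScalars K) Q := by
  have h := D.spec_map (gaussKRes hR he he' hs) (KRes.ofAlgHom (AlgHom.id K L₀))
    (e.restrictScalars K) (e'.restrictScalars K)
    (fun a _ => ⟨(constRed_map hR e e' he he' hs a).1, (constRed_map hR e e' he he' hs a).2⟩) Q
  rwa [D.spec_ofAlgHom, D.map_id] at h

omit hR he he' hs in
theorem spec_place_const (P : Place M L) (u : D.Pt M) :
    D.spec (placeKRes K P) (D.map (IsScalarTower.toAlgHom K M L) u) = u := by
  have h := D.spec_map (placeKRes K P) (KRes.ofAlgHom (AlgHom.id K M))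
    (IsScalarTower.toAlgHom K M L) (AlgHom.id K M)
    (fun a _ => ⟨mem_placeKRes.mpr (Vanish.const a), valAt_algebraMap P a⟩) u
  rwa [D.spec_ofAlgHom, D.map_id, D.map_id] at h

/-- The translate of a point of the curve by a constant point. -/
def transl (e : L₀ →ₐ[M₀] L) (u : D.Pt M) (Q : D.Pt L₀) : D.Pt L :=
  D.map (IsScalarTower.toAlgHom K M L) u + D.map (e.restrictScalars K) Q

/-- A translate specialises to the translate by the specialised point. -/
theorem spec_gauss_transl (u : D.Pt M) (Q : D.Pt L₀) :
    D.spec (gaussKRes hR he he' hs) (D.transl e u Q) = D.transl e' (D.spec R u) Q := by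
  rw [transl, transl, map_add, D.spec_gauss_const hR he he' hs, D.spec_gauss_ext hR he he' hs]

/-- Specialising at a place and then along the valuation is specialising along the Gauss valuation
and then at the reduced place. -/
theorem spec_comm (P : Place M L) (u : D.Pt M) (Q : D.Pt L₀) :
    D.spec R (D.spec (placeKRes K P) (D.transl e u Q)) =
      D.spec (placeKRes K (placeRed hR he he' hs P)) (D.transl e' (D.spec R u) Q) := by
  rw [transl, transl, map_add, map_add, map_add, D.spec_place_const, D.spec_place_const]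
  congr 1
  rw [D.spec_map', D.spec_map', ← D.spec_comp]
  refine D.spec_eq_of_val _ _ _ (D.loc_spec_le _ Q) fun y hy => ?_
  have h1 := D.val_spec_mem _ Q hy
  have h2 := D.val_spec_eq _ Q hy
  have h1' : Vanish (placeRed hR he he' hs P) (e' (D.val Q y)) 0 :=
    mem_placeKRes.mp ((KRes.mem_comap _ _ _).mp h1)
  have hnn : 0 ≤ (placeRed hR he he' hs P).ord (e' (D.val Q y)) := Vanish.zero_iff.mp h1'
  obtain ⟨hc1, hc2, hc3⟩ := centre hR he he' hs P hnn
  refine ⟨⟨mem_placeKRes.mpr hc1, hc2⟩, ?_⟩
  rw [← h2]
  exact hc3

variable [IsAlgClosed K] (x : D.F)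

/-- The polar divisor of a translate reduces to the polar divisor of the reduced translate. -/
theorem mapDomain_polar (u : D.Pt M) (Q : D.Pt L₀) {h : D.F}
    (hh : D.IsDenom x (D.transl e u Q) h) (hh' : D.IsDenom x (D.transl e' (D.spec R u) Q) h) :
    Finsupp.mapDomain (placeRed hR he he' hs) (D.polar x (D.transl e u Q) h : Divisor M L) =
      D.polar x (D.transl e' (D.spec R u) Q) h := by
  classical
  have hr := isRed_placeRed hR he he' hs
  set P := D.transl e u Q
  set P' := D.transl e' (D.spec R u) Q
  have hP' : D.spec (gaussKRes hR he he' hs) P = P' := D.spec_gauss_transl hR he he' hs u Q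
  refine Finsupp.ext fun r => ?_
  set c := D.den x (D.spec (placeKRes K r) P')
  have hc : D.IsDenom x (D.spec (placeKRes K r) P') c := D.isDenom_den x _
  have hcP' : D.IsDenom x P' c := D.denom_spec x P' r
  have hle : D.loc P' ≤ D.loc P := hP' ▸ D.loc_spec_le _ P
  have hcP : D.IsDenom x P c := D.isDenom_of_le ((D.loc_spec_le _ P').trans hle)
  obtain ⟨hq, hq0⟩ := D.denom_ratio hcP' hh'
  have hmem := D.val_spec_mem (gaussKRes hR he he' hs) P (x := c / h) (hP'.symm ▸ hq)
  have hred : (constRed hR e e' he he' hs).red (D.val P (c / h)) = D.val P' (c / h) := by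
    exact (D.val_spec_eq (gaussKRes hR he he' hs) P (x := c / h) (hP'.symm ▸ hq)).trans
      (congrArg (D.val · (c / h)) hP')
  rw [D.polar_eq x hh' r hc hcP', ← hred]
  have hord := hr.ord_eq (D.val P (c / h)) hmem (hred ▸ hq0) r
  rw [hord, mapDomain_apply_eq_sum, mapDomain_apply_eq_sum]
  have hval : ∀ S : Place M L, placeRed hR he he' hs S = r →
      D.polar x P h S = (divOf (D.val P (c / h)) : Divisor M L) S := by
    intro S hS
    have hle' : D.loc (D.spec (placeKRes K r) P') ≤ D.loc (D.spec (placeKRes K S) P) := by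
      rw [← hS, ← D.spec_comm hR he he' hs S u Q]
      exact D.loc_spec_le R _
    rw [D.polar_eq x hh S (D.isDenom_of_le hle') hcP, hr.curve.divOf_apply]
  refine Finset.sum_congr_of_eq_on_inter ?_ ?_ fun S hS _ => hval S (Finset.mem_filter.mp hS).2
  · intro S hS hS'
    obtain ⟨-, h2⟩ := Finset.mem_filter.mp hS
    rw [hval S h2]
    exact Finsupp.notMem_support_iff.mp fun h => hS' (Finset.mem_filter.mpr ⟨h, h2⟩)
  · intro S hS hS'
    obtain ⟨-, h2⟩ := Finset.mem_filter.mp hS
    rw [← hval S h2]
    exact Finsupp.notMem_support_iff.mp fun h => hS' (Finset.mem_filter.mpr ⟨h, h2⟩)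

/-- The reduction of divisor classes. -/
def redPic : Pic M L →+ Pic M' L' :=
  QuotientAddGroup.map _ _ (Finsupp.mapDomain.addMonoidHom (placeRed hR he he' hs))
    fun _ hD => (isRed_placeRed hR he he' hs).mapDomain_principal hD

omit [IsAlgClosed K] in
theorem redPic_mk (E : Divisor M L) :
    redPic hR he he' hs (QuotientAddGroup.mk E) =
      QuotientAddGroup.mk (Finsupp.mapDomain (placeRed hR he he' hs) E) := rfl

/-- Reduction of classes of translates. -/
theorem redPic_cls (u : D.Pt M) (Q : D.Pt L₀) :
    redPic hR he he' hs (D.cls x (D.transl e u Q)) = D.cls x (D.transl e' (D.spec R u) Q) := by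
  have hle : D.loc (D.transl e' (D.spec R u) Q) ≤ D.loc (D.transl e u Q) := by
    rw [← D.spec_gauss_transl hR he he' hs u Q]
    exact D.loc_spec_le _ _
  have h' := D.isDenom_den x (D.transl e' (D.spec R u) Q)
  have h := D.isDenom_of_le (x := x) hle
  rw [D.cls_eq x h, redPic_mk, D.mapDomain_polar hR he he' hs x u Q h h']
  rfl

end AVData

end FLTAgent.AbVarTors
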