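import Mathlib
import Fermat.Agent.AbVarTors.Reduce

/-!
# Values at two places of a function with prescribed polar divisors

For a Gauss reduction of an extension of constants: a unit without zeros and poles on a fibre has
unit values there (`isResUnit_valAt`), and if the divisor of `f` is a second difference of polar
divisors of translates, its values at two places differ by local equations at the reductions and a
unit (`AVData.valAt_compare`).
-/

set_option autoImplicit false
set_option linter.unusedSectionVars false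
set_option linter.style.haveILetI false

universe u

noncomputable section

open AlgebraicCurve Module FLTAgent.Reduction

namespace FLTAgent.AbVarTors

namespace KRes

variable {K E m : Type u} [Field K] [Field E] [Algebra K E] [Field m] [Algebra K m]

/-- An element with nonzero residue. -/
def IsResUnit (R : KRes K E m) (y : E) : Prop := ∃ h : y ∈ R.V, R.π ⟨y, h⟩ ≠ 0

variable {R : KRes K E m} {a b : E}

theorem IsResUnit.ne_zero (h : R.IsResUnit a) : a ≠ 0 := fun h0 => by
  obtain ⟨ha, ha'⟩ := h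
  exact ha' ((R.π_congr ha R.V.zero_mem h0).trans (map_zero R.π))

theorem IsResUnit.mul (ha : R.IsResUnit a) (hb : R.IsResUnit b) : R.IsResUnit (a * b) := by
  obtain ⟨ha, ha'⟩ := ha
  obtain ⟨hb, hb'⟩ := hb
  refine ⟨R.V.mul_mem _ _ ha hb, ?_⟩
  show R.π (⟨a, ha⟩ * ⟨b, hb⟩) ≠ 0
  rw [map_mul]
  exact mul_ne_zero ha' hb'

theorem IsResUnit.inv (ha : R.IsResUnit a) : R.IsResUnit a⁻¹ := by
  have ha0 := ha.ne_zero
  obtain ⟨ha, ha'⟩ := ha
  have hi := R.inv_mem_of_ne ha ha'
  refine ⟨hi, fun h => ?_⟩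
  have h1 : R.π (⟨a, ha⟩ * ⟨a⁻¹, hi⟩) = 1 := by
    rw [← map_one R.π]
    exact congrArg R.π (Subtype.ext (mul_inv_cancel₀ ha0))
  rw [map_mul, h, mul_zero] at h1
  exact zero_ne_one h1

theorem IsResUnit.div (ha : R.IsResUnit a) (hb : R.IsResUnit b) : R.IsResUnit (a / b) := by
  rw [div_eq_mul_inv]
  exact ha.mul hb.inv

theorem IsResUnit.pow (ha : R.IsResUnit a) : ∀ n : ℕ, R.IsResUnit (a ^ n)
  | 0 => by
    refine ⟨by rw [pow_zero]; exact R.V.one_mem, ?_⟩
    rw [R.π_congr _ R.V.one_mem (pow_zero a)]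
    show R.π 1 ≠ 0
    rw [map_one]
    exact one_ne_zero
  | n + 1 => by
    rw [pow_succ]
    exact (ha.pow n).mul ha

end KRes

section Eval

variable {M L : Type u} [Field M] [Field L] [Algebra M L] [IsAlgClosed M] [FF.IsFF M L]
  {S : Place M L} {a b : L}

theorem valAt_ne_zero_of_ord (ha : a ≠ 0) (h : S.ord a = 0) : valAt S a ≠ 0 :=
  (valAt_inv (curveData_of_isFF M L) ha h).1

theorem valAt_mul_of_ord (ha : S.ord a = 0) (hb : S.ord b = 0) :
    valAt S (a * b) = valAt S a * valAt S b :=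
  (curveData_of_isFF M L).valAt_mul (Or.inr ha.ge) (Or.inr hb.ge)

theorem valAt_div_of_ord (hb0 : b ≠ 0) (ha : S.ord a = 0) (hb : S.ord b = 0) :
    valAt S (a / b) = valAt S a / valAt S b := by
  rw [div_eq_mul_inv, valAt_mul_of_ord ha (by rw [S.ord_inv, hb]; rfl),
    (valAt_inv (curveData_of_isFF M L) hb0 hb).2, div_eq_mul_inv]

theorem valAt_combination {f a₀ a₁ a₂ : L} (hf : f ≠ 0) (h₀ : a₀ ≠ 0) (h₁ : a₁ ≠ 0) (h₂ : a₂ ≠ 0)
    (of : S.ord f = 0) (o₀ : S.ord a₀ = 0) (o₁ : S.ord a₁ = 0) (o₂ : S.ord a₂ = 0) :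
    valAt S (f * a₁ ^ 2 / (a₂ * a₀)) =
      valAt S f * valAt S a₁ ^ 2 / (valAt S a₂ * valAt S a₀) := by
  have o₁' : S.ord (a₁ * a₁) = 0 := by rw [S.ord_mul h₁ h₁, o₁]; rfl
  have e1 : S.ord (f * (a₁ * a₁)) = 0 := by rw [S.ord_mul hf (mul_ne_zero h₁ h₁), of, o₁']; rfl
  have e2 : S.ord (a₂ * a₀) = 0 := by rw [S.ord_mul h₂ h₀, o₂, o₀]; rfl
  rw [sq, valAt_div_of_ord (mul_ne_zero h₂ h₀) e1 e2, valAt_mul_of_ord of o₁',
    valAt_mul_of_ord o₁ o₁, valAt_mul_of_ord o₂ o₀, sq]

end Eval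

section Fibre

variable {K M₀ M L₀ L M' L' : Type u} [Field K] [Field M₀] [Algebra K M₀] [Field M] [Algebra M₀ M]
  [Algebra K M] [IsScalarTower K M₀ M]
  [Field L₀] [Algebra M₀ L₀] [Algebra K L₀] [IsScalarTower K M₀ L₀]
  [Field L] [Algebra M L] [Algebra M₀ L] [IsScalarTower M₀ M L]
  [Algebra K L] [IsScalarTower K M L] [IsScalarTower K M₀ L]
  [Field M'] [Algebra K M'] [Algebra M₀ M'] [IsScalarTower K M₀ M']
  [Field L'] [Algebra M' L'] [Algebra M₀ L'] [IsScalarTower M₀ M' L']
  [Algebra K L'] [IsScalarTower K M' L'] [IsScalarTower K M₀ L']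
  [IsAlgClosed M₀] [IsAlgClosed M] [IsAlgClosed M'] [FF.IsFF M₀ L₀] [FF.IsFF M L] [FF.IsFF M' L']
  {e : L₀ →ₐ[M₀] L} {e' : L₀ →ₐ[M₀] L'}
  {R : KRes K M M'} (hR : FixesConst (M₀ := M₀) R) (he : IsExt M e) (he' : IsExt M' e')
  (hs : Function.Surjective R.π)

/-- A Gauss unit without zeros and poles on a fibre has unit values there. -/
theorem isResUnit_valAt {U : L} (hU : (gaussKRes hR he he' hs).IsResUnit U) (S₀ : Place M L)
    (hord : ∀ S, placeRed hR he he' hs S = placeRed hR he he' hs S₀ → S.ord U = 0) :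
    R.IsResUnit (valAt S₀ U) := by
  classical
  have hr := isRed_placeRed hR he he' hs
  obtain ⟨hV, hred⟩ := hU
  change (constRed hR e e' he he' hs).red U ≠ 0 at hred
  set Q := placeRed hR he he' hs S₀ with hQ
  obtain ⟨hcA, -, hval⟩ := hr.value_of_regFibre hV
    (fun S hS => Or.inr (hord S hS).ge) (P := S₀) hQ.symm
  have hQ0 : Q.ord ((constRed hR e e' he he' hs).red U) = 0 := by
    rw [hr.ord_eq U hV hred Q, mapDomain_apply_eq_sum]
    refine Finset.sum_eq_zero fun S hS => ?_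
    rw [hr.curve.divOf_apply]
    exact hord S (Finset.mem_filter.mp hS).2
  refine ⟨hcA, ?_⟩
  rw [← resVal_of_eq S₀ U ⟨_, hcA⟩ rfl, ← hval]
  exact valAt_ne_zero_of_ord hred hQ0

variable {g : ℕ} (D : AVData K g) [IsAlgClosed K] (x : D.F)
include hR he he' hs

/-- If the divisor of `f` is a second difference of polar divisors of translates, then its values
at two places compare through local equations at the reductions. -/
theorem AVData.valAt_compare (u₀ u₁ u₂ : D.Pt M) (Q : D.Pt L₀) {f : L} (hf : f ≠ 0)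
    (hdiv : ∀ S : Place M L, S.ord f =
      D.polar x (D.transl e u₂ Q) 1 S - 2 * D.polar x (D.transl e u₁ Q) 1 S +
        D.polar x (D.transl e u₀ Q) 1 S)
    (S S' : Place M L)
    (hS : ∀ u ∈ [u₀, u₁, u₂], D.loc (D.spec (placeKRes K S) (D.transl e u Q)) = ⊤)
    (hS' : ∀ u ∈ [u₀, u₁, u₂], D.loc (D.spec (placeKRes K S') (D.transl e u Q)) = ⊤) :
    let z := fun u : D.Pt M => D.spec (placeKRes K S) (D.transl e u Q)
    let w := fun u : D.Pt M => D.spec (placeKRes K S') (D.transl e u Q)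
    let d := fun u : D.Pt M => D.val (z u) (D.den x (D.spec R (z u)))
    let d' := fun u : D.Pt M => D.val (w u) (D.den x (D.spec R (w u)))
    R.IsResUnit ((valAt S f * d u₁ ^ 2 / (d u₂ * d u₀)) /
      (valAt S' f * d' u₁ ^ 2 / (d' u₂ * d' u₀))) := by
  classical
  intro z w d d'
  let G := gaussKRes hR he he' hs
  let P := fun u : D.Pt M => D.transl e u Q
  let r := placeRed hR he he' hs
  -- the local equation along the fibre of a place
  let E := fun (T : Place M L) (u : D.Pt M) => D.den x (D.spec R (D.spec (placeKRes K T) (P u)))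
  have hloc : ∀ u ∈ [u₀, u₁, u₂], D.loc (P u) = ⊤ := fun u hu =>
    eq_top_iff.mpr ((hS u hu).ge.trans (D.loc_spec_le _ _))
  have hne : ∀ T, ∀ u ∈ [u₀, u₁, u₂], D.val (P u) (E T u) ≠ 0 := by
    intro T u hu
    refine D.val_ne_zero_of_inv_mem _ (D.isDenom_den x _).1 ?_ ?_ <;>
      exact (hloc u hu).symm ▸ Algebra.mem_top
  have hfib : ∀ T T', r T' = r T → ∀ u ∈ [u₀, u₁, u₂],
      D.polar x (P u) 1 T' = T'.ord (D.val (P u) (E T u)) := by
    intro T T' hT u hu
    have hle : D.loc (D.spec R (D.spec (placeKRes K T) (P u))) ≤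
        D.loc (D.spec (placeKRes K T') (P u)) := by
      rw [D.spec_comm hR he he' hs T u Q]
      change _ at hT
      rw [← show placeRed hR he he' hs T' = placeRed hR he he' hs T from hT,
        ← D.spec_comm hR he he' hs T' u Q]
      exact D.loc_spec_le R _
    rw [D.polar_eq x (D.isDenom_one ((hloc u hu).symm ▸ Algebra.mem_top)) T'
      (D.isDenom_of_le hle) (D.isDenom_of_le (hle.trans (D.loc_spec_le _ _))), div_one]
  -- the normalised combinations
  let U := fun T => f * D.val (P u₁) (E T u₁) ^ 2 / (D.val (P u₂) (E T u₂) * D.val (P u₀) (E T u₀))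
  have m₀ : u₀ ∈ [u₀, u₁, u₂] := by simp
  have m₁ : u₁ ∈ [u₀, u₁, u₂] := by simp
  have m₂ : u₂ ∈ [u₀, u₁, u₂] := by simp
  have hU0 : ∀ T, U T ≠ 0 := fun T => div_ne_zero
    (mul_ne_zero hf (pow_ne_zero _ (hne T u₁ m₁))) (mul_ne_zero (hne T u₂ m₂) (hne T u₀ m₀))
  have hUord : ∀ T T', r T' = r T → T'.ord (U T) = 0 := by
    intro T T' hT
    have a := hne T u₁ m₁
    have b := hne T u₂ m₂
    have c := hne T u₀ m₀
    show T'.ord (_ / _) = 0
    rw [FF.ord_div _ (mul_ne_zero hf (pow_ne_zero _ a)) (mul_ne_zero b c),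
      T'.ord_mul hf (pow_ne_zero _ a), T'.ord_mul b c, FF.ord_pow, hdiv,
      hfib T T' hT u₀ m₀, hfib T T' hT u₁ m₁, hfib T T' hT u₂ m₂]
    push_cast
    ring
  -- two local equations at the reduced point differ by a Gauss unit
  have hq : ∀ T, ∀ u ∈ [u₀, u₁, u₂],
      G.IsResUnit (D.val (P u) (E T u) / D.val (P u) (E S u)) := by
    intro T u hu
    set P' := D.transl e' (D.spec R u) Q
    have hP' : D.spec G (P u) = P' := D.spec_gauss_transl hR he he' hs u Q
    have hden : ∀ T₁ : Place M L, D.IsDenom x P' (E T₁ u) := fun T₁ => by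
      refine D.isDenom_of_le ?_
      rw [D.spec_comm hR he he' hs T₁ u Q]
      exact D.loc_spec_le _ _
    obtain ⟨h1, h2⟩ := D.denom_ratio (hden T) (hden S)
    rw [← hP'] at h1 h2
    have h3 := D.val_spec_eq G (P u) h1
    have htop : ∀ y : D.F, y ∈ D.loc (P u) := fun y => (hloc u hu).symm ▸ Algebra.mem_top
    have hSne := (D.isDenom_den x (D.spec R (D.spec (placeKRes K S) (P u)))).1
    have heq : D.val (P u) (E T u) / D.val (P u) (E S u) = D.val (P u) (E T u / E S u) := by
      rw [div_eq_iff (hne S u hu), ← D.val_mul _ (htop _) (htop _), div_mul_cancel₀ _ hSne]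
    rw [heq]
    exact ⟨D.val_spec_mem G (P u) h1, by rw [h3]; exact h2⟩
  have hrat : G.IsResUnit (U S / U S') := by
    have h := ((hq S' u₂ m₂).mul (hq S' u₀ m₀)).div ((hq S' u₁ m₁).pow 2)
    have heq : D.val (P u₂) (E S' u₂) / D.val (P u₂) (E S u₂) *
        (D.val (P u₀) (E S' u₀) / D.val (P u₀) (E S u₀)) /
        (D.val (P u₁) (E S' u₁) / D.val (P u₁) (E S u₁)) ^ 2 = U S / U S' := by
      have := hne S u₀ m₀; have := hne S u₁ m₁; have := hne S u₂ m₂
      have := hne S' u₀ m₀; have := hne S' u₁ m₁; have := hne S' u₂ m₂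
      simp only [U]
      field_simp
    rwa [heq] at h
  -- a common scaling
  obtain ⟨c, hc, hcV, hcr⟩ := (isRed_placeRed hR he he' hs).scale (U S) (hU0 S)
  have hcS : G.IsResUnit (algebraMap M L c * U S) := by
    rw [← Algebra.smul_def]
    exact ⟨hcV, hcr⟩
  have hcS' : G.IsResUnit (algebraMap M L c * U S') := by
    have h := hcS.div hrat
    have := hU0 S
    have := hU0 S'
    rwa [show algebraMap M L c * U S / (U S / U S') = algebraMap M L c * U S' by field_simp] at h
  have hordc : ∀ T T', r T' = r T → T'.ord (algebraMap M L c * U T) = 0 := fun T T' hT => by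
    rw [T'.ord_mul (by simpa using hc) (hU0 T), FF.ord_algebraMap, hUord T T' hT]
    rfl
  have hA := isResUnit_valAt hR he he' hs hcS S (hordc S)
  have hB := isResUnit_valAt hR he he' hs hcS' S' (hordc S')
  -- the values
  have hval : ∀ T, (∀ u ∈ [u₀, u₁, u₂], D.loc (D.spec (placeKRes K T) (P u)) = ⊤) →
      valAt T (algebraMap M L c * U T) = c * (valAt T f *
        D.val (D.spec (placeKRes K T) (P u₁)) (E T u₁) ^ 2 /
        (D.val (D.spec (placeKRes K T) (P u₂)) (E T u₂) *
          D.val (D.spec (placeKRes K T) (P u₀)) (E T u₀))) := by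
    intro T hT
    have hmem : ∀ u ∈ [u₀, u₁, u₂], ∀ y : D.F, y ∈ D.loc (D.spec (placeKRes K T) (P u)) :=
      fun u hu y => (hT u hu).symm ▸ Algebra.mem_top
    have hpol : ∀ u ∈ [u₀, u₁, u₂], D.polar x (P u) 1 T = 0 := by
      intro u hu
      rw [D.polar_eq x (D.isDenom_one ((hloc u hu).symm ▸ Algebra.mem_top)) T
        (D.isDenom_one (hmem u hu x)) (D.isDenom_one ((hloc u hu).symm ▸ Algebra.mem_top)),
        div_one, D.val_one, T.ord_one]
    have hordf : T.ord f = 0 := by
      rw [hdiv, hpol u₀ m₀, hpol u₁ m₁, hpol u₂ m₂]; rfl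
    have hv : ∀ u ∈ [u₀, u₁, u₂], T.ord (D.val (P u) (E T u)) = 0 ∧
        valAt T (D.val (P u) (E T u)) = D.val (D.spec (placeKRes K T) (P u)) (E T u) := by
      intro u hu
      have h2 : valAt T (D.val (P u) (E T u)) = D.val (D.spec (placeKRes K T) (P u)) (E T u) :=
        D.val_spec_eq (placeKRes K T) (P u) (hmem u hu _)
      refine ⟨?_, h2⟩
      have hne' : D.val (D.spec (placeKRes K T) (P u)) (E T u) ≠ 0 :=
        D.val_ne_zero_of_inv_mem _ (D.isDenom_den x _).1 (hmem u hu _) (hmem u hu _)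
      have hnn := (mem_placeKRes.mp (D.val_spec_mem (placeKRes K T) (P u) (hmem u hu (E T u))))
      have hnn' := hnn.resolve_left (hne T u hu)
      by_contra hcon
      exact hne' (h2.symm.trans (valAt_eq_zero_of_vanish (Or.inr (by omega))))
    rw [valAt_mul_of_ord (FF.ord_algebraMap T c) (hUord T T rfl), valAt_algebraMap,
      valAt_combination hf (hne T u₀ m₀) (hne T u₁ m₁) (hne T u₂ m₂) hordf (hv u₀ m₀).1
        (hv u₁ m₁).1 (hv u₂ m₂).1, (hv u₀ m₀).2, (hv u₁ m₁).2, (hv u₂ m₂).2]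
  rw [hval S hS] at hA
  rw [hval S' hS'] at hB
  have h := hA.div hB
  rwa [mul_div_mul_left _ _ hc] at h

end Fibre

end FLTAgent.AbVarTors
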