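import Mathlib
import Fermat.Agent.AbVarTors.Reduce

/-!
# The degree of the pullback of a polar divisor

`degCls x P` is the degree of the pullback to the curve of the polar divisor of `x` along `P`. It
does not depend on the local equation used (`degCls_eq`) and depends only on the divisor class
(`degCls_eq_of_cls`).
-/

set_option autoImplicit false
set_option linter.unusedSectionVars false

universe u

noncomputable section

open AlgebraicCurve Module FLTAgent.Reduction

namespace FLTAgent.AbVarTors.AVData

variable {K M L : Type u} [Field K] [IsAlgClosed K] [Field M] [Algebra K M] [Field L] [Algebra M L]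
  [Algebra K L] [IsScalarTower K M L] [IsAlgClosed M] [FF.IsFF M L]
variable {g : ℕ} (D : AVData K g) (x : D.F)

/-- The degree of the pullback of the polar divisor of `x`. -/
def degCls (P : D.Pt L) : ℤ := Divisor.degree (D.polar x P (D.den x P) : Divisor M L)

/-- Any local equation computes the degree. -/
theorem degCls_eq {P : D.Pt L} {h : D.F} (hh : D.IsDenom x P h) :
    (D.degCls x P (M := M)) = Divisor.degree (D.polar x P h : Divisor M L) := by
  rw [degCls, D.polar_change x hh (D.isDenom_den x P), map_add,
    (curveData_of_isFF M L).degree_divOf, add_zero]

/-- The degree depends only on the class. -/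
theorem degCls_eq_of_cls {P Q : D.Pt L} (h : (D.cls x P : Pic M L) = D.cls x Q) :
    D.degCls x P (M := M) = D.degCls x Q (M := M) := by
  obtain ⟨f, -, hfd⟩ := QuotientAddGroup.eq.mp h
  have h1 : (-D.polar x P (D.den x P) + D.polar x Q (D.den x Q) : Divisor M L) = divOf f :=
    Finsupp.ext fun v => by rw [hfd, (curveData_of_isFF M L).divOf_apply]
  have h2 := congrArg (Divisor.degree (K := M) (F := L)) h1
  rw [map_add, map_neg, (curveData_of_isFF M L).degree_divOf] at h2
  simp only [degCls]
  omega

end FLTAgent.AbVarTors.AVData
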