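import Mathlib
import Fermat.Agent.AbVarTors.Fields
import Fermat.Agent.AbVarTors.DegCls

/-!
# Generic translates of multiples of a point of a curve

If `P` generates a curve defined over `k` and `c` is generic over `k`, then `c + m • P` is a
generic point (`loc_translate_eq_top`), its specialisations at places miss the indeterminacy locus
(`trdeg_spec_translate`), and its pulled back polar divisor on a finite cover is the divisor of
poles of the value of the function (`polar_translate`). Includes the needed subadditivity of
transcendence degrees.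
-/

set_option autoImplicit false
set_option linter.unusedSectionVars false
set_option linter.style.haveILetI false

universe u

noncomputable section

open AlgebraicCurve Module IntermediateField FLTAgent.Reduction

namespace FLTAgent.AbVarTors

section FieldTheory

variable {M L : Type u} [Field M] [Field L] [Algebra M L]

/-- A function field of one variable has transcendence degree one. -/
theorem trdeg_eq_one_of_isFF [FF.IsFF M L] : Algebra.trdeg M L = 1 := by
  obtain ⟨x, hx, hfin, -⟩ := FF.IsFF.exists_sep (K := M) (F := L)
  have halg : Algebra.IsAlgebraic M⟮x⟯ L := Algebra.IsAlgebraic.of_finite _ _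
  have hx1 : Algebra.IsAlgebraic (Algebra.adjoin M (Set.range ![x])) L := by
    rw [Matrix.range_cons, Matrix.range_empty, Set.union_empty]
    exact isAlgebraic_adjoin_iff_top.mp halg
  have hbasis : IsTranscendenceBasis M ![x] :=
    (algebraicIndependent_iff_transcendental.mpr hx).isTranscendenceBasis_iff_isAlgebraic.mpr hx1
  simpa using hbasis.lift_cardinalMk_eq_trdeg.symm

/-- Additivity of transcendence degrees in towers of fields. -/
theorem trdeg_tower (k F A : Type u) [Field k] [Field F] [Field A] [Algebra k F] [Algebra F A]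
    [Algebra k A] [IsScalarTower k F A] :
    Algebra.trdeg k F + Algebra.trdeg F A = Algebra.trdeg k A :=
  trdeg_add_eq k F

/-- Transcendence degrees of generated fields are subadditive. -/
theorem trdeg_adjoin_union_le {k : Type u} [Field k] [Algebra k L] (s t : Set L) :
    Algebra.trdeg k (adjoin k (s ∪ t)) ≤
      Algebra.trdeg k (adjoin k s) + Algebra.trdeg k (adjoin k t) := by
  have h := trdeg_tower k (adjoin k s) (adjoin (adjoin k s) t)
  rw [← adjoin_adjoin_left k s t]
  refine le_trans ?_ (add_le_add le_rfl (trdeg_adjoin_le_of_tower (K := k) (k := adjoin k s) t))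
  rw [h]
  exact le_rfl

/-- Constants and a set which is transcendental over them add up. -/
theorem trdeg_adjoin_const_union_ge {k : Type u} [Field k] [Algebra k M] [Algebra k L]
    [IsScalarTower k M L] (S : Set M) (t : Set L) :
    Algebra.trdeg k (adjoin k S) + Algebra.trdeg M (adjoin M t) ≤
      Algebra.trdeg k (adjoin k (algebraMap M L '' S ∪ t)) := by
  have hadd := trdeg_tower k (adjoin k S) (adjoin (adjoin k S) t)
  have hle : (adjoin (adjoin k S) t).restrictScalars k ≤
      adjoin k (algebraMap M L '' S ∪ t) := by
    intro z hz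
    rw [mem_restrictScalars] at hz
    induction hz using IntermediateField.adjoin_induction with
    | mem a ha => exact subset_adjoin k _ (Or.inr ha)
    | algebraMap a =>
      have h1 : algebraMap M L (a : M) ∈ (adjoin k S).map (IsScalarTower.toAlgHom k M L) :=
        ⟨(a : M), a.2, rfl⟩
      rw [adjoin_map] at h1
      exact adjoin.mono k _ _ Set.subset_union_left h1
    | add a b _ _ ha hb => exact add_mem ha hb
    | inv a _ ha => exact inv_mem ha
    | mul a b _ _ ha hb => exact mul_mem ha hb
  refine le_trans ?_ (trdeg_le_of_injective (inclusion hle) (inclusion_injective hle))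
  refine le_trans (add_le_add le_rfl (trdeg_adjoin_le_of_tower (K := adjoin k S) (k := M) t)) ?_
  rw [hadd]
  exact le_rfl

end FieldTheory

section Degree

variable {M L N : Type u} [Field M] [IsAlgClosed M] [Field L] [Algebra M L] [Field N] [Algebra M N]
  [FF.IsFF M L] [FF.IsFF M N] [Algebra L N] [IsScalarTower M L N] [FiniteDimensional L N]

/-- Degrees of polar divisors of functions in a finite extension. -/
theorem degree_poleDiv_algebraMap (y : L) :
    Divisor.degree (poleDiv (algebraMap L N y) : Divisor M N) =
      (finrank L N : ℤ) * Divisor.degree (poleDiv y : Divisor M L) := by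
  by_cases hy : Transcendental M y
  · haveI := FF.finiteDimensional_adjoin_of_transcendental' hy
    have hy' : Transcendental M (algebraMap L N y) :=
      (transcendental_algebraMap_iff (algebraMap L N).injective).mpr hy
    haveI := FF.finiteDimensional_adjoin_of_transcendental' hy'
    rw [degree_poleDiv_eq_finrank hy', degree_poleDiv_eq_finrank hy]
    let φ : L →ₐ[M] N := IsScalarTower.toAlgHom M L N
    have hmap : (M⟮y⟯).map φ = M⟮algebraMap L N y⟯ := by
      rw [adjoin_map, Set.image_singleton]
      rfl
    let i : M⟮y⟯ ≃ₐ[M] M⟮algebraMap L N y⟯ :=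
      ((M⟮y⟯).equivMap φ).trans (equivOfEq hmap)
    have h : finrank M⟮y⟯ N = finrank M⟮algebraMap L N y⟯ N :=
      Algebra.finrank_eq_of_equiv_equiv i.toRingEquiv (RingEquiv.refl N) (RingHom.ext fun a => rfl)
    rw [← h, ← Module.finrank_mul_finrank M⟮y⟯ L N]
    push_cast
    ring
  · obtain ⟨m, rfl⟩ := FF.mem_range_of_not_transcendental' hy
    have h : ∀ (E : Type u) [Field E] [Algebra M E] [FF.IsFF M E],
        (poleDiv (algebraMap M E m) : Divisor M E) = 0 := fun E _ _ _ => by
      refine Finsupp.ext fun v => ?_
      rw [(curveData_of_isFF M E).poleDiv_apply, FF.ord_algebraMap]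
      rfl
    rw [← IsScalarTower.algebraMap_apply, h L, h N]
    simp

end Degree

namespace AVData

variable {K M L : Type u} [Field K] [Field M] [Algebra K M] [Field L] [Algebra M L]
  [Algebra K L] [IsScalarTower K M L] [IsAlgClosed M] [FF.IsFF M L]
variable {g : ℕ} (D : AVData K g) (k : IntermediateField K M)

/-- The translate of a multiple of a point of the curve by a generic constant is generic. -/
theorem loc_translate_eq_top {c : D.Pt M}
    (hc : Algebra.trdeg k (adjoin k (Set.range (D.ev c))) = g) {P : D.Pt L}
    (hP : Algebra.trdeg k (adjoin k (Set.range (D.ev P))) = 1)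
    (hgen : adjoin M (Set.range (D.ev P)) = ⊤) (m : ℤ) :
    D.loc (D.map (IsScalarTower.toAlgHom K M L) c + m • P) = ⊤ := by
  set Z := D.map (IsScalarTower.toAlgHom K M L) c + m • P with hZ
  refine D.loc_eq_top_of_trdeg_over (k := k) Z ?_
  have hsub : algebraMap M L '' Set.range (D.ev c) ∪ Set.range (D.ev P) ⊆
      (adjoin k (Set.range (D.ev Z) ∪ Set.range (D.ev P)) : Set L) := by
    have hPG : Set.range (D.ev P) ⊆
        (adjoin k (Set.range (D.ev Z) ∪ Set.range (D.ev P)) : Set L) :=
      fun z hz => subset_adjoin k _ (Or.inr hz)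
    refine Set.union_subset ?_ hPG
    have h := D.range_ev_sub_over (P := Z) (Q := m • P)
      (F₁ := adjoin k (Set.range (D.ev Z) ∪ Set.range (D.ev P)))
      (fun z hz => subset_adjoin k _ (Or.inl hz)) (D.range_ev_zsmul_over hPG m)
    rwa [hZ, add_sub_cancel_right, range_ev_map, IsScalarTower.coe_toAlgHom'] at h
  have hM : Algebra.trdeg M (adjoin M (Set.range (D.ev P))) = 1 := by
    rw [hgen, IntermediateField.topEquiv.trdeg_eq, trdeg_eq_one_of_isFF]
  have h1 := trdeg_adjoin_const_union_ge (k := k) (L := L) (Set.range (D.ev c)) (Set.range (D.ev P))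
  rw [hc, hM] at h1
  have h2 : ((g : Cardinal) + 1) ≤
      Algebra.trdeg k (adjoin k (Set.range (D.ev Z))) + 1 := by
    refine (h1.trans ?_).trans ((trdeg_adjoin_union_le (Set.range (D.ev Z)) (Set.range (D.ev P))).trans_eq (by rw [hP]))
    exact trdeg_le_of_injective (inclusion (adjoin_le_iff.mpr hsub))
      (inclusion_injective (adjoin_le_iff.mpr hsub))
  exact (Cardinal.add_le_add_iff_of_lt_aleph0 Cardinal.one_lt_aleph0).mp h2

/-- Specialisations of such translates miss the indeterminacy locus. -/
theorem trdeg_spec_translate {c : D.Pt M}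
    (hc : Algebra.trdeg k (adjoin k (Set.range (D.ev c))) = g) {P : D.Pt L}
    (hP : Algebra.trdeg k (adjoin k (Set.range (D.ev P))) = 1) (m : ℤ) (R : KRes K L M)
    (hR : FixesConst (M₀ := M) R) :
    (g : Cardinal) ≤ Algebra.trdeg K
      (D.resField (D.spec R (D.map (IsScalarTower.toAlgHom K M L) c + m • P))) + 1 := by
  have hC : D.spec R (D.map (IsScalarTower.toAlgHom K M L) c) = c := by
    have h := D.spec_map R (KRes.ofAlgHom (AlgHom.id K M)) (IsScalarTower.toAlgHom K M L)
      (AlgHom.id K M) (fun a _ => hR a) c
    rwa [D.spec_ofAlgHom, D.map_id, D.map_id] at h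
  rw [map_add, map_zsmul, hC]
  set s := D.spec R P with hs
  set z := c + m • s with hz
  have hs1 : Algebra.trdeg k (adjoin k (Set.range (D.ev s))) ≤ 1 := by
    refine (D.trdeg_adjoin_ev_spec_le R (fun a => ?_) P).trans_eq hP
    obtain ⟨h, h'⟩ := hR (algebraMap k M a)
    rw [IsScalarTower.algebraMap_apply k M L]
    exact ⟨h, h'⟩
  have hsub : Set.range (D.ev c) ⊆
      (adjoin k (Set.range (D.ev z) ∪ Set.range (D.ev s)) : Set M) := by
    have hsG : Set.range (D.ev s) ⊆
        (adjoin k (Set.range (D.ev z) ∪ Set.range (D.ev s)) : Set M) :=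
      fun y hy => subset_adjoin k _ (Or.inr hy)
    have h := D.range_ev_sub_over (P := z) (Q := m • s)
      (F₁ := adjoin k (Set.range (D.ev z) ∪ Set.range (D.ev s)))
      (fun y hy => subset_adjoin k _ (Or.inl hy)) (D.range_ev_zsmul_over hsG m)
    rwa [hz, add_sub_cancel_right] at h
  calc (g : Cardinal) = Algebra.trdeg k (adjoin k (Set.range (D.ev c))) := hc.symm
    _ ≤ Algebra.trdeg k (adjoin k (Set.range (D.ev z) ∪ Set.range (D.ev s))) :=
        trdeg_le_of_injective (inclusion (adjoin_le_iff.mpr hsub))
          (inclusion_injective (adjoin_le_iff.mpr hsub))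
    _ ≤ Algebra.trdeg k (adjoin k (Set.range (D.ev z))) +
          Algebra.trdeg k (adjoin k (Set.range (D.ev s))) := trdeg_adjoin_union_le _ _
    _ ≤ Algebra.trdeg K (D.resField z) + 1 :=
        add_le_add (D.trdeg_adjoin_ev_le_resField z) hs1

variable [IsAlgClosed K] (x : D.F)

/-- The polar divisor of a translate, pulled back to a finite cover, is the divisor of poles. -/
theorem polar_translate {N : Type u} [Field N] [Algebra M N] [Algebra K N] [IsScalarTower K M N]
    [FF.IsFF M N] (ι : L →ₐ[M] N) {c : D.Pt M}
    (hc : Algebra.trdeg k (adjoin k (Set.range (D.ev c))) = g) {P : D.Pt L}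
    (hP : Algebra.trdeg k (adjoin k (Set.range (D.ev P))) = 1)
    (hgen : adjoin M (Set.range (D.ev P)) = ⊤) (m : ℤ) :
    (D.polar x (D.map (ι.restrictScalars K) (D.map (IsScalarTower.toAlgHom K M L) c + m • P)) 1 :
        Divisor M N) =
      poleDiv (ι (D.val (D.map (IsScalarTower.toAlgHom K M L) c + m • P) x)) := by
  set Z := D.map (IsScalarTower.toAlgHom K M L) c + m • P
  have hZ := D.loc_translate_eq_top k hc hP hgen m
  rw [D.polar_one_eq_poleDiv x (by rw [D.loc_map, hZ]; exact Algebra.mem_top), D.val_map]
  · rfl
  · rintro R e he ⟨h1, h2⟩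
    have h3 := D.trdeg_add_two_le _ he h1 h2
    rw [D.spec_map'] at h3
    have h4 := D.trdeg_spec_translate k hc hP m ((placeKRes K R).comap (ι.restrictScalars K))
      fun a => by
        have hmem : Vanish R (ι (algebraMap M L a)) 0 := by rw [ι.commutes]; exact Vanish.const a
        refine ⟨mem_placeKRes.mpr hmem, ?_⟩
        show valAt R (ι (algebraMap M L a)) = _
        rw [ι.commutes, valAt_algebraMap]
        rfl
    set t := Algebra.trdeg K (D.resField (D.spec ((placeKRes K R).comap (ι.restrictScalars K)) Z))
    have hfin : t < Cardinal.aleph0 :=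
      lt_of_le_of_lt (self_le_add_right t 2) (h3.trans_lt Cardinal.natCast_lt_aleph0)
    obtain ⟨d, hd⟩ := Cardinal.lt_aleph0.mp hfin
    rw [hd] at h3 h4
    norm_cast at h3 h4
    omega

end AVData

end FLTAgent.AbVarTors
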