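import Mathlib
import Fermat.Agent.AbVarTors.Generic

/-!
# Residue maps and places of curves

An algebra map onto an algebraically closed field extends to a residue map (`exists_kres_of_hom`),
a residue map of a function field of one variable fixing the constants is evaluation at a place
(`exists_place_of_kres`), and some place makes a given point defined over the subfield `k` rational
over `k` (`exists_rational_place`).
-/

set_option autoImplicit false
set_option linter.unusedSectionVars false
set_option linter.style.haveILetI false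

universe u

noncomputable section

open AlgebraicCurve Module IntermediateField FLTAgent.Reduction TensorProduct

namespace FLTAgent.AbVarTors

section Hom

variable {K E T m : Type u} [Field K] [Field E] [Algebra K E] [CommRing T] [Algebra K T] [Field m]
  [Algebra K m] [IsAlgClosed m]

/-- An algebra embedded in a field with a map onto an algebraically closed field gives a residue
map. -/
theorem exists_kres_of_hom (j : T →ₐ[K] E) (hj : Function.Injective j) (φ : T →ₐ[K] m)
    (hφ : Function.Surjective φ) :
    ∃ R : KRes K E m, (∀ b : T, ∃ h : j b ∈ R.V, R.π ⟨j b, h⟩ = φ b) ∧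
      Function.Surjective R.π := by
  let i : T ≃+* j.toRingHom.range := RingEquiv.ofBijective j.toRingHom.rangeRestrict
    ⟨fun a b h => hj (congrArg Subtype.val h), j.toRingHom.rangeRestrict_surjective⟩
  have hmem : ∀ a : K, algebraMap K E a ∈ j.toRingHom.range := fun a =>
    ⟨algebraMap K T a, j.commutes a⟩
  have hi : ∀ (b : T) (h : j b ∈ j.toRingHom.range), i.symm ⟨j b, h⟩ = b := fun b h =>
    (RingEquiv.symm_apply_eq i).mpr rfl
  obtain ⟨R, hR, hs⟩ := exists_kres (K := K) (k := m) j.toRingHom.range hmem
    (φ.toRingHom.comp i.symm.toRingHom)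
    (fun a => by
      show φ (i.symm ⟨algebraMap K E a, hmem a⟩) = _
      rw [show i.symm ⟨algebraMap K E a, hmem a⟩ = algebraMap K T a from
        (RingEquiv.symm_apply_eq i).mpr (Subtype.ext (j.commutes a).symm), φ.commutes])
    (hφ.comp i.symm.surjective)
  refine ⟨R, fun b => ?_, hs⟩
  obtain ⟨h, h'⟩ := hR ⟨j b, b, rfl⟩
  exact ⟨h, h'.trans (congrArg φ (hi b _))⟩

end Hom

section Place

variable {K M L : Type u} [Field K] [Field M] [Algebra K M] [Field L] [Algebra M L] [Algebra K L]
  [IsScalarTower K M L] [IsAlgClosed M] [FF.IsFF M L]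

/-- A residue map fixing the constants is evaluation at a place. -/
theorem exists_place_of_kres (R : KRes K L M) (hR : FixesConst (M₀ := M) R) :
    ∃ v : Place M L, ∀ (z : L) (h : z ∈ R.V),
      ∃ h' : z ∈ (placeKRes K v).V, valAt v z = R.π ⟨z, h⟩ ∧
        (placeKRes K v).π ⟨z, h'⟩ = R.π ⟨z, h⟩ := by
  have htop : R.V ≠ ⊤ := by
    intro htop
    have hmem : ∀ z : L, z ∈ R.V := fun z => htop ▸ ValuationSubring.mem_top z
    refine transcendental_sepX (M₀ := M) (L₀ := L) ?_
    have hfix : algebraMap M L (R.π ⟨sepX M L, hmem _⟩) = sepX M L := by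
      obtain ⟨h1, h2⟩ := hR (R.π ⟨sepX M L, hmem _⟩)
      rw [Algebra.algebraMap_self, RingHom.id_apply] at h2
      refine sub_eq_zero.mp (by_contra fun hne => ?_)
      let f : L →+* M := R.π.comp ((RingHom.id L).codRestrict R.V.toSubring hmem)
      refine hne (f.injective ?_)
      rw [map_zero, map_sub, sub_eq_zero]
      exact h2
    rw [← hfix]
    exact isAlgebraic_algebraMap _
  obtain ⟨v, hv⟩ := FF.exists_place_eq (K := M) R.V (fun a => (hR a).1) htop
  refine ⟨v, fun z hz => ?_⟩
  have hz' : z ∈ (placeKRes K v).V := by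
    show z ∈ v.toValuationSubring
    rw [hv]; exact hz
  have hval : valAt v z = R.π ⟨z, hz⟩ := by
    refine valAt_eq ?_
    set a := R.π ⟨z, hz⟩ with ha
    obtain ⟨h1, h2⟩ := hR a
    rw [Algebra.algebraMap_self, RingHom.id_apply] at h2
    have hw : z - algebraMap M L a ∈ R.V := sub_mem hz h1
    have hπ : R.π ⟨z - algebraMap M L a, hw⟩ = 0 := by
      show R.π (⟨z, hz⟩ - ⟨_, h1⟩) = 0
      rw [map_sub, h2, ← ha, sub_self]
    rcases eq_or_ne (z - algebraMap M L a) 0 with h0 | h0
    · exact Or.inl h0
    refine Or.inr ?_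
    have hnn : 0 ≤ v.ord (z - algebraMap M L a) :=
      FF.ord_nonneg_of_mem_placeRing v (hv ▸ hw)
    by_contra hlt
    have hinv : (z - algebraMap M L a)⁻¹ ∈ R.V := by
      rw [← hv]
      exact (FF.mem_iff v _).mpr (Or.inr (by rw [v.ord_inv]; omega))
    have h3 : R.π (⟨_, hw⟩ * ⟨_, hinv⟩) = 1 := by
      rw [← map_one R.π]
      exact congrArg R.π (Subtype.ext (mul_inv_cancel₀ h0))
    rw [map_mul, hπ, zero_mul] at h3
    exact zero_ne_one h3
  exact ⟨hz', hval, hval⟩

namespace AVData

variable {g : ℕ} (D : AVData K g) (k : IntermediateField K M) [IsAlgClosed k]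

/-- There is a place at which a point defined over `k` is rational over `k`. -/
theorem exists_rational_place (P : D.Pt L)
    (hP : Algebra.trdeg k (adjoin k (Set.range (D.ev P))) = 1)
    (hgen : adjoin M (Set.range (D.ev P)) = ⊤) :
    ∃ v : Place M L,
      Set.range (D.ev (D.spec (placeKRes K v) P)) ⊆ (⊥ : IntermediateField k M) := by
  set L' := adjoin k (Set.range (D.ev P)) with hL'
  obtain ⟨R', hR', -⟩ := exists_kres_of_hom (K := k) (Algebra.ofId k L')
    (algebraMap k L').injective (AlgHom.id k k) Function.surjective_id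
  have hinj : Function.Injective
      (Algebra.TensorProduct.lift (Algebra.ofId M L) L'.val fun _ _ => Commute.all _ _) := by
    refine tensor_hom_injective_of_trdeg (K := k) L'.val (n := 1) (by rw [hP, Nat.cast_one]) ?_
    have htop : adjoin M (Set.range L'.val) = ⊤ := by
      refine eq_top_iff.mpr (hgen ▸ adjoin.mono M _ _ fun z hz => ⟨⟨z, subset_adjoin k _ hz⟩, rfl⟩)
    rw [htop, IntermediateField.topEquiv.trdeg_eq, trdeg_eq_one_of_isFF, Nat.cast_one]
  let W : Subalgebra k L' :=
    { R'.V.toSubring with algebraMap_mem' := fun a => R'.mem a }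
  let π' : W →ₐ[k] k :=
    { toRingHom := R'.π
      commutes' := fun a => R'.map_algebraMap a }
  let jk : M ⊗[k] W →ₐ[M] L :=
    (Algebra.TensorProduct.lift (Algebra.ofId M L) L'.val fun _ _ => Commute.all _ _).comp
      (Algebra.TensorProduct.map (AlgHom.id M M) W.val)
  haveI : Module.Free k M := Module.Free.of_divisionRing k M
  haveI : Module.Flat k M := Module.Flat.of_free
  have hjk : Function.Injective jk :=
    hinj.comp (Module.Flat.lTensor_preserves_injective_linearMap (M := M) W.val.toLinearMap
      Subtype.val_injective)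
  let φk : M ⊗[k] W →ₐ[M] M :=
    Algebra.TensorProduct.lift (AlgHom.id M M) ((Algebra.ofId k M).comp π')
      fun _ _ => Commute.all _ _
  have hφk : Function.Surjective φk := fun a => ⟨a ⊗ₜ 1, by simp [φk]⟩
  obtain ⟨R, hR, -⟩ :=
    exists_kres_of_hom (K := K) (jk.restrictScalars K) hjk (φk.restrictScalars K) hφk
  have hRfix : FixesConst (M₀ := M) R := fun a => by
    obtain ⟨h, h'⟩ := hR (a ⊗ₜ 1)
    simp only [AlgHom.restrictScalars_apply] at h h'
    have hja : jk (a ⊗ₜ 1) = algebraMap M L a := by simp [jk]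
    have hφa : φk (a ⊗ₜ 1) = a := by simp [φk]
    rw [hja] at h
    refine ⟨h, ?_⟩
    refine (R.π_congr _ _ hja.symm).trans (h'.trans ?_)
    rw [hφa]
    rfl
  obtain ⟨v, hv⟩ := exists_place_of_kres R hRfix
  refine ⟨v, ?_⟩
  let incl : L' →ₐ[K] L := L'.val.restrictScalars K
  obtain ⟨P₀, hP₀⟩ := D.exists_descend incl P fun z hz => ⟨⟨z, subset_adjoin k _ hz⟩, rfl⟩
  let R₀ : KRes K L' k :=
    { V := R'.V
      mem := fun a => by
        rw [IsScalarTower.algebraMap_apply K k L']
        exact R'.mem _
      π := R'.π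
      map_algebraMap := fun a => by
        exact (R'.π_congr _ (R'.mem _) (IsScalarTower.algebraMap_apply K k L' a)).trans
          (R'.map_algebraMap (algebraMap K k a))
      isUnit_of_ne := R'.isUnit_of_ne }
  have hspec := D.spec_map (placeKRes K v) R₀ incl (IsScalarTower.toAlgHom K k M)
    (fun a ha => by
      obtain ⟨h, h'⟩ := hR (1 ⊗ₜ (⟨a, ha⟩ : W))
      simp only [AlgHom.restrictScalars_apply] at h h'
      have hja : jk (1 ⊗ₜ (⟨a, ha⟩ : W)) = incl a := by simp [jk, incl]
      have hφa : φk (1 ⊗ₜ (⟨a, ha⟩ : W)) = algebraMap k M (R'.π ⟨a, ha⟩) := by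
        simp [φk, π']
      obtain ⟨h1, -, h2⟩ := hv _ h
      rw [hja] at h1
      refine ⟨h1, ?_⟩
      refine ((placeKRes K v).π_congr _ _ hja.symm).trans (h2.trans (h'.trans ?_))
      rw [hφa]
      rfl) P₀
  rw [hP₀] at hspec
  rw [hspec]
  exact D.range_ev_map_over _

end AVData

end Place

end FLTAgent.AbVarTors
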