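import Mathlib
import Fermat.Agent.AbVarTors.DegCls

/-!
# Residue maps prescribed on a generic point

Residue maps extend along ring maps (`exists_extendsRes`), with a transcendental element sent to
infinity if wanted (`exists_extendsRes_notMem`), and with any prescribed specialisation of a point
generic over the smaller field (`exists_extendsRes_spec`). Generic points exist over any field
(`exists_genericPt`).
-/

set_option autoImplicit false
set_option linter.unusedSectionVars false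
set_option linter.style.haveILetI false

universe u

noncomputable section

open TensorProduct

namespace FLTAgent.AbVarTors

section Extend

variable {K E₀ E k : Type u} [Field K] [Field E₀] [Algebra K E₀] [Field E] [Algebra K E]
  [Algebra E₀ E] [IsScalarTower K E₀ E] [Field k] [Algebra K k]

/-- `R` extends `R₀`. -/
def ExtendsRes (R₀ : KRes K E₀ k) (R : KRes K E k) : Prop :=
  ∀ a : R₀.V, ∃ h : algebraMap E₀ E a ∈ R.V, R.π ⟨_, h⟩ = R₀.π a

variable [IsAlgClosed k] (R₀ : KRes K E₀ k)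

/-- A residue map extends along a ring into which the valuation ring maps. -/
theorem exists_extendsRes (hs : Function.Surjective R₀.π) {T : Type u} [CommRing T]
    (j : T →+* E) (hj : Function.Injective j) (φ : T →+* k) (i : R₀.V →+* T)
    (hji : ∀ a : R₀.V, j (i a) = algebraMap E₀ E a) (hφi : ∀ a, φ (i a) = R₀.π a) :
    ∃ R : KRes K E k, ExtendsRes R₀ R ∧ Function.Surjective R.π ∧
      ∀ w, ∃ h : j w ∈ R.V, R.π ⟨_, h⟩ = φ w := by
  let e : T ≃+* j.range :=
    RingEquiv.ofBijective j.rangeRestrict ⟨fun a b h => hj (congrArg Subtype.val h),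
      j.rangeRestrict_surjective⟩
  have he : ∀ (w : T) (h : j w ∈ j.range), e.symm ⟨j w, h⟩ = w := fun w h =>
    (RingEquiv.symm_apply_eq e).mpr (Subtype.ext rfl)
  have hB : ∀ a : K, algebraMap K E a ∈ j.range := fun a =>
    ⟨i ⟨_, R₀.mem a⟩, by rw [hji, IsScalarTower.algebraMap_apply K E₀ E]⟩
  obtain ⟨R, hR, hsR⟩ := exists_kres (K := K) j.range hB (φ.comp e.symm.toRingHom)
    (fun a => by
      show φ (e.symm ⟨algebraMap K E a, hB a⟩) = _
      have h1 : (⟨algebraMap K E a, hB a⟩ : j.range) = e (i ⟨_, R₀.mem a⟩) := Subtype.ext (by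
        show algebraMap K E a = j (i _)
        rw [hji, IsScalarTower.algebraMap_apply K E₀ E])
      rw [h1, RingEquiv.symm_apply_apply, hφi, R₀.map_algebraMap])
    (fun c => by
      obtain ⟨a, ha⟩ := hs c
      refine ⟨e (i a), ?_⟩
      show φ (e.symm (e (i a))) = c
      rw [RingEquiv.symm_apply_apply, hφi, ha])
  have hw : ∀ w, ∃ h : j w ∈ R.V, R.π ⟨_, h⟩ = φ w := fun w => by
    obtain ⟨h, h'⟩ := hR ⟨j w, w, rfl⟩
    exact ⟨h, h'.trans (congrArg φ (he w _))⟩
  refine ⟨R, fun a => ?_, hsR, hw⟩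
  obtain ⟨h, h'⟩ := hw (i a)
  exact ⟨hji a ▸ h, by rw [← hφi a, ← h']; exact KRes.π_congr R _ _ (hji a).symm⟩

theorem ExtendsRes.fixesConst {M₀ : Type u} [Field M₀] [Algebra K M₀] [Algebra M₀ E₀]
    [Algebra M₀ E] [IsScalarTower M₀ E₀ E] [Algebra M₀ k] {R₀ : KRes K E₀ k} {R : KRes K E k}
    (h : ExtendsRes R₀ R) (h₀ : FixesConst (M₀ := M₀) R₀) : FixesConst (M₀ := M₀) R := fun a => by
  obtain ⟨ha, ha'⟩ := h₀ a
  obtain ⟨hb, hb'⟩ := h ⟨_, ha⟩
  have e : algebraMap M₀ E a = algebraMap E₀ E (algebraMap M₀ E₀ a) :=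
    IsScalarTower.algebraMap_apply M₀ E₀ E a
  exact ⟨e ▸ hb, by rw [← ha', ← hb']; exact KRes.π_congr R _ _ e⟩

/-- A transcendental element may be sent to infinity. -/
theorem exists_extendsRes_notMem (hs : Function.Surjective R₀.π) {f : E}
    (hf : Transcendental E₀ f) :
    ∃ R : KRes K E k, ExtendsRes R₀ R ∧ Function.Surjective R.π ∧ f ∉ R.V := by
  have hf' : Transcendental E₀ f⁻¹ := fun h => hf (by simpa using h.inv)
  let j : Polynomial R₀.V →+* E :=
    Polynomial.eval₂RingHom ((algebraMap E₀ E).comp R₀.V.subtype) f⁻¹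
  have hjm : ∀ p : Polynomial R₀.V, j p = Polynomial.aeval f⁻¹ (p.map R₀.V.subtype) := fun p => by
    rw [Polynomial.aeval_def, Polynomial.eval₂_map]; rfl
  have hj : Function.Injective j := fun p q h => by
    rw [hjm, hjm] at h
    exact Polynomial.map_injective _ (fun a b h => Subtype.ext h)
      (transcendental_iff_injective.mp hf' h)
  obtain ⟨R, h1, h2, h3⟩ := exists_extendsRes R₀ hs j hj
    (Polynomial.eval₂RingHom R₀.π 0) Polynomial.C (fun a => by simp [j]) (fun a => by simp)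
  refine ⟨R, h1, h2, fun hmem => ?_⟩
  obtain ⟨hi, hi'⟩ := h3 Polynomial.X
  have hf0 : f ≠ 0 := fun h => hf (h ▸ isAlgebraic_zero)
  have hX : j Polynomial.X = f⁻¹ := by simp [j]
  have hzero : R.π ⟨f⁻¹, hX ▸ hi⟩ = 0 :=
    ((KRes.π_congr R _ _ hX.symm).trans hi').trans (by simp)
  have h1 : R.π (⟨f, hmem⟩ * ⟨f⁻¹, hX ▸ hi⟩) = 1 := by
    rw [show (⟨f, hmem⟩ * ⟨f⁻¹, hX ▸ hi⟩ : R.V) = 1 from Subtype.ext (mul_inv_cancel₀ hf0),
      map_one]
  rw [map_mul, hzero, mul_zero] at h1
  exact zero_ne_one h1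

end Extend

section Generic

variable {K E₀ E k : Type u} [Field K] [Field E₀] [Algebra K E₀] [Field E] [Algebra K E]
  [Algebra E₀ E] [IsScalarTower K E₀ E] [Field k] [Algebra K k]
variable {g : ℕ} (D : AVData K g)

theorem ExtendsRes.spec_map {R₀ : KRes K E₀ k} {R : KRes K E k} (h : ExtendsRes R₀ R)
    (P : D.Pt E₀) :
    D.spec R (D.map (IsScalarTower.toAlgHom K E₀ E) P) = D.spec R₀ P := by
  rw [D.spec_map R R₀ (IsScalarTower.toAlgHom K E₀ E) (AlgHom.id K k) (fun a ha => h ⟨a, ha⟩),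
    D.map_id]

/-- `t` is generic over `E₀`. -/
def IsGenericPt (E₀ : Type u) [Field E₀] [Algebra K E₀] [Algebra E₀ E] [IsScalarTower K E₀ E]
    (t : D.Pt E) : Prop :=
  ∃ h : D.loc t = ⊤, Function.Injective
    (Algebra.TensorProduct.lift (Algebra.ofId E₀ E) (D.genHom t h) fun _ _ => Commute.all _ _)

/-- A residue map extends with prescribed specialisation of a generic point. -/
theorem exists_extendsRes_spec [IsAlgClosed k] (R₀ : KRes K E₀ k)
    (hs : Function.Surjective R₀.π) {t : D.Pt E} (ht : IsGenericPt D E₀ t) (t₀ : D.Pt k) :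
    ∃ R : KRes K E k, ExtendsRes R₀ R ∧ Function.Surjective R.π ∧ D.spec R t = t₀ := by
  obtain ⟨hloc, hinj⟩ := ht
  obtain ⟨S, hS, hS0⟩ := D.cover t₀
  have hle : Algebra.adjoin K (S : Set D.F) ≤ D.loc t₀ := Algebra.adjoin_le hS0
  have hK : FixesConst (M₀ := K) R₀ := fun a => ⟨R₀.mem a, R₀.map_algebraMap a⟩
  let A := Algebra.adjoin K (S : Set D.F)
  let ψ := Algebra.TensorProduct.lift (Algebra.ofId E₀ E) (D.genHom t hloc)
    fun _ _ => Commute.all _ _
  let j : (intSub hK) ⊗[K] A →ₐ[K] E :=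
    (ψ.restrictScalars K).comp (Algebra.TensorProduct.map (intSub hK).val A.val)
  have hj : Function.Injective j := hinj.comp
    (TensorProduct.map_injective_of_flat_flat (intSub hK).val.toLinearMap A.val.toLinearMap
      Subtype.val_injective Subtype.val_injective)
  let φ : (intSub hK) ⊗[K] A →ₐ[K] k :=
    Algebra.TensorProduct.lift (resHom hK) ((D.ev t₀).comp (Subalgebra.inclusion hle))
      fun _ _ => Commute.all _ _
  let i : R₀.V →+* (intSub hK) ⊗[K] A :=
    Algebra.TensorProduct.includeLeftRingHom.comp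
      (R₀.V.subtype.codRestrict (intSub hK).toSubring fun a => a.2)
  obtain ⟨R, h1, h2, h3⟩ := exists_extendsRes R₀ hs j.toRingHom hj φ.toRingHom i
    (fun a => by simp [i, j, ψ]) (fun a => by simp [i, φ, resHom]; rfl)
  refine ⟨R, h1, h2, D.spec_eq_of_val R t t₀ (hloc ▸ le_top) fun f hf => ?_⟩
  have hval : ∀ a : A, ∃ h : D.val t (a : D.F) ∈ R.V,
      R.π ⟨_, h⟩ = D.val t₀ (a : D.F) := fun a => by
    obtain ⟨h, h'⟩ := h3 ((1 : intSub hK) ⊗ₜ a)
    have e : j.toRingHom ((1 : intSub hK) ⊗ₜ a) = D.val t (a : D.F) := by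
      simp [j, ψ, D.genHom_apply]
    refine ⟨e ▸ h, ((KRes.π_congr R _ _ e.symm).trans h').trans ?_⟩
    rw [D.val_eq t₀ (hle a.2)]
    simp [φ]
    rfl
  obtain ⟨a, ha, s, hs', hs0, hsne, hfs⟩ := D.chart_loc t₀ S hS hS0 f hf
  obtain ⟨hta, hta'⟩ := hval ⟨a, ha⟩
  obtain ⟨hts, hts'⟩ := hval ⟨s, hs'⟩
  rw [D.val_mem] at hsne
  have hinv : (D.val t s)⁻¹ ∈ R.V := KRes.inv_mem_of_ne R hts (by rw [hts']; exact hsne)
  have hmem : ∀ y : D.F, y ∈ D.loc t := fun y => hloc ▸ Algebra.mem_top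
  have hmul : D.val t a = D.val t f * D.val t s := by rw [← D.val_mul t (hmem _) (hmem _), hfs]
  have hs0' : D.val t s ≠ 0 := fun h0 => hsne (by
    rw [← hts', KRes.π_congr R hts R.V.zero_mem h0]; exact map_zero R.π)
  have e : D.val t f = D.val t a * (D.val t s)⁻¹ := by rw [hmul, mul_inv_cancel_right₀ hs0']
  have hfm : D.val t f ∈ R.V := e ▸ R.V.mul_mem _ _ hta hinv
  refine ⟨hfm, mul_right_cancel₀ hsne ?_⟩
  rw [← hts', ← map_mul, show (⟨_, hfm⟩ * ⟨_, hts⟩ : R.V) = ⟨_, hta⟩ from Subtype.ext hmul.symm,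
    hta', hts', ← D.val_mul t₀ hf hs0, hfs]

/-- A point generic over a field, in an algebraically closed extension. -/
theorem exists_genericPt [IsAlgClosed K] (E₀ : Type u) [Field E₀] [Algebra K E₀] :
    ∃ (E : Type u) (_ : Field E) (_ : Algebra K E) (_ : Algebra E₀ E)
      (_ : IsScalarTower K E₀ E), IsAlgClosed E ∧ ∃ t : D.Pt E, IsGenericPt D E₀ t := by
  haveI : IsDomain (E₀ ⊗[K] D.F) := isDomain_tensorProduct E₀ D.F
  let T := FractionRing (E₀ ⊗[K] D.F)
  let inc : E₀ ⊗[K] D.F →ₐ[E₀] AlgebraicClosure T :=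
    (IsScalarTower.toAlgHom E₀ T (AlgebraicClosure T)).comp
      (IsScalarTower.toAlgHom E₀ (E₀ ⊗[K] D.F) T)
  let σ : D.F →ₐ[K] AlgebraicClosure T :=
    (inc.restrictScalars K).comp Algebra.TensorProduct.includeRight
  refine ⟨AlgebraicClosure T, inferInstance, inferInstance, inferInstance, inferInstance,
    inferInstance, D.ofHom σ, D.loc_ofHom σ, ?_⟩
  have hinc : Function.Injective inc :=
    (algebraMap T (AlgebraicClosure T)).injective.comp (IsFractionRing.injective _ T)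
  have hg : D.genHom (D.ofHom σ) (D.loc_ofHom σ) = σ :=
    AlgHom.ext fun x => by rw [D.genHom_apply, D.val_ofHom]
  have heq : Algebra.TensorProduct.lift (Algebra.ofId E₀ (AlgebraicClosure T))
      (D.genHom (D.ofHom σ) (D.loc_ofHom σ)) (fun _ _ => Commute.all _ _) = inc := by
    rw [hg]
    exact Algebra.TensorProduct.ext (by ext) (AlgHom.ext fun x => by simp [σ])
  rw [heq]
  exact hinc

end Generic

end FLTAgent.AbVarTors
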