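import Mathlib
import Fermat.Agent.AbVarTors.SquareExt

/-!
# The theorem of the square along a curve

For a point `Q` in the function field of a curve over `M`, the class of the pullback of a polar
divisor is additive in constant translations (`cls_square`) and its degree is invariant under them
(`degCls_transl`). Both are first proved for translations by generic points (`square_generic`: the
combination is principal, since an element integral along all reductions killing one of the two
generic points is constant) and then specialised.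
-/

set_option autoImplicit false
set_option linter.unusedSectionVars false
set_option linter.style.haveILetI false

universe u

noncomputable section

open AlgebraicCurve Module FLTAgent.Reduction

namespace FLTAgent.AbVarTors

section Aux

variable {M L : Type u} [Field M] [Field L] [Algebra M L] [IsAlgClosed M] [FF.IsFF M L]

theorem extP'_id (v : Place M L) : extP' (IsExt.id (M₀ := M) (L₀ := L)) v = v := by
  classical
  by_contra hne
  have hC := curveData_of_isFF M L
  obtain ⟨f, -, hf⟩ := FF.exists_forall_ord_eq {v, extP' IsExt.id v}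
    (fun w => if w = v then (1 : ℤ) else 0)
  have h := ord_extP' (IsExt.id (M₀ := M) (L₀ := L)) v f
  rw [AlgHom.id_apply, hf v (by simp), hf _ (by simp), if_pos rfl, if_neg hne] at h
  exact zero_ne_one h

/-- A nonconstant function regular on a finite set of places. -/
theorem exists_regular_on (T : Finset (Place M L)) :
    ∃ f : L, (∀ c : M, f ≠ algebraMap M L c) ∧ ∀ w ∈ T, 0 ≤ w.ord f := by
  classical
  haveI := FF.infinite_places (K := M) (F := L)
  obtain ⟨v, hv⟩ := Infinite.exists_notMem_finset T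
  have hC := curveData_of_isFF M L
  obtain ⟨C, hCC⟩ := hC.exists_C
  set n : ℕ := (C + 1).toNat + 1
  obtain ⟨f, hf, hf0, hord⟩ := hC.exists_exact v C hCC
    (D := Finsupp.single v (n : ℤ)) (by rw [hC.degree_single]; omega)
  rw [Finsupp.single_eq_same] at hord
  refine ⟨f, fun c hc => ?_, fun w hw => ?_⟩
  · rw [hc, FF.ord_algebraMap] at hord
    omega
  · have := (mem_L_iff.mp hf w).resolve_left hf0
    rw [Finsupp.single_apply, if_neg (fun h : v = w => hv (h ▸ hw)), neg_zero] at this
    exact this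

/-- An element algebraic over an algebraically closed field lies in it. -/
theorem mem_range_of_isAlgebraic {E : Type u} [Field E] [Algebra M E] {f : E}
    (h : IsAlgebraic M f) : f ∈ Set.range (algebraMap M E) := by
  haveI := (IntermediateField.isAlgebraic_adjoin_simple h.isIntegral)
  obtain ⟨c, hc⟩ := (IsAlgClosed.algebraMap_bijective_of_isIntegral (k := M)
    (K := IntermediateField.adjoin M {f})).2 ⟨f, IntermediateField.mem_adjoin_simple_self M f⟩
  exact ⟨c, congrArg Subtype.val hc⟩

end Aux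

namespace AVData

variable {K M L : Type u} [Field K] [IsAlgClosed K] [Field M] [Algebra K M] [Field L] [Algebra M L]
  [Algebra K L] [IsScalarTower K M L] [IsAlgClosed M] [FF.IsFF M L]
variable {g : ℕ} (D : AVData K g) (x : D.F)

theorem transl_id (u : D.Pt M) (Q : D.Pt L) :
    D.transl (AlgHom.id M L) u Q = D.map (IsScalarTower.toAlgHom K M L) u + Q := by
  rw [transl, show (AlgHom.id M L).restrictScalars K = AlgHom.id K L from rfl, D.map_id]

/-- Degrees are preserved by reduction. -/
theorem degCls_red {M₂ L₂ : Type u} [Field M₂] [Algebra K M₂] [Algebra M M₂]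
    [IsScalarTower K M M₂] [IsAlgClosed M₂] [Field L₂] [Algebra M₂ L₂] [Algebra M L₂]
    [IsScalarTower M M₂ L₂] [Algebra K L₂] [IsScalarTower K M₂ L₂] [IsScalarTower K M L₂]
    [FF.IsFF M₂ L₂] {e : L →ₐ[M] L₂} {R : KRes K M₂ M} (hR : FixesConst (M₀ := M) R)
    (he : IsExt M₂ e) (hs : Function.Surjective R.π) (u : D.Pt M₂) (Q : D.Pt L) :
    D.degCls x (D.transl e u Q) (M := M₂) =
      D.degCls x (D.map (IsScalarTower.toAlgHom K M L) (D.spec R u) + Q) (M := M) := by
  have hle : D.loc (D.transl (AlgHom.id M L) (D.spec R u) Q) ≤ D.loc (D.transl e u Q) := by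
    rw [← D.spec_gauss_transl hR he IsExt.id hs u Q]
    exact D.loc_spec_le _ _
  have h' := D.isDenom_den x (D.transl (AlgHom.id M L) (D.spec R u) Q)
  have h := D.isDenom_of_le (x := x) hle
  rw [← D.transl_id, D.degCls_eq x h, D.degCls_eq x h',
    ← D.mapDomain_polar hR he IsExt.id hs x u Q h h']
  exact ((isRed_placeRed hR he IsExt.id hs).degree_mapDomain _).symm

/-- The degree does not depend on a constant translation. -/
theorem degCls_transl (u : D.Pt M) (Q : D.Pt L) :
    D.degCls x (D.map (IsScalarTower.toAlgHom K M L) u + Q) (M := M) = D.degCls x Q (M := M) := by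
  obtain ⟨M₁, _, _, _, _, _, t, ht⟩ := exists_genericPt D M
  haveI := (isExt_cextHom M M₁ L).isFF
  have key : ∀ t₀ : D.Pt M, D.degCls x (D.transl (cextHom M M₁ L) t Q) (M := M₁) =
      D.degCls x (D.map (IsScalarTower.toAlgHom K M L) t₀ + Q) (M := M) := fun t₀ => by
    obtain ⟨R, hR, hs, hspec⟩ := exists_extendsRes_spec D (KRes.ofAlgHom (AlgHom.id K M))
      (fun a => ⟨⟨a, trivial⟩, rfl⟩) ht t₀
    rw [D.degCls_red x (hR.fixesConst fun a => ⟨trivial, rfl⟩) (isExt_cextHom M M₁ L) hs, hspec]
  rw [← key u, key 0, map_zero, zero_add]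

section SquareStep

variable {M₁ M₂ L₂ : Type u} [Field M₁] [Algebra K M₁] [IsAlgClosed M₁] [Algebra M M₁]
  [IsScalarTower K M M₁]
  [Field M₂] [Algebra K M₂] [Algebra M₁ M₂] [IsScalarTower K M₁ M₂] [IsAlgClosed M₂]
  [Algebra M M₂] [IsScalarTower K M M₂] [IsScalarTower M M₁ M₂]
  [Field L₂] [Algebra M₂ L₂] [Algebra M L₂] [IsScalarTower M M₂ L₂] [Algebra K L₂]
  [IsScalarTower K M₂ L₂] [IsScalarTower K M L₂] [FF.IsFF M₂ L₂]
  {e : L →ₐ[M] L₂} (he : IsExt M₂ e)
  {t : D.Pt M₁} (ht : IsGenericPt D M t) {s : D.Pt M₂} (hs' : IsGenericPt D M₁ s)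

include ht hs'

/-- An element integral along all reductions killing one of the two generic points is constant. -/
theorem exists_const_of_integral (f : M₂)
    (h : ∀ R : KRes K M₂ M, FixesConst (M₀ := M) R → Function.Surjective R.π →
      (D.spec R (D.map (IsScalarTower.toAlgHom K M₁ M₂) t) = 0 ∨ D.spec R s = 0) → f ∈ R.V) :
    ∃ c : M, f = algebraMap M M₂ c := by
  let R₀ := KRes.ofAlgHom (AlgHom.id K M)
  have hs₀ : Function.Surjective R₀.π := fun a => ⟨⟨a, trivial⟩, rfl⟩
  have hR₀ : FixesConst (M₀ := M) R₀ := fun a => ⟨trivial, rfl⟩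
  obtain ⟨f₁, rfl⟩ : f ∈ Set.range (algebraMap M₁ M₂) := by
    by_contra hf
    have htr : Transcendental M₁ f := fun halg => hf (mem_range_of_isAlgebraic halg)
    obtain ⟨R₁, h₁, hs₁, ht₁⟩ := exists_extendsRes_spec D R₀ hs₀ ht 0
    obtain ⟨R, hR, hs, hmem⟩ := exists_extendsRes_notMem R₁ hs₁ htr
    exact hmem (h R (hR.fixesConst (h₁.fixesConst hR₀)) hs
      (Or.inl ((hR.spec_map D t).trans ht₁)))
  by_contra hc
  have htr : Transcendental M f₁ := fun halg => by
    obtain ⟨c, hc'⟩ := mem_range_of_isAlgebraic halg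
    exact hc ⟨c, by rw [← hc', ← IsScalarTower.algebraMap_apply]⟩
  obtain ⟨R₁, h₁, hs₁, hmem₁⟩ := exists_extendsRes_notMem R₀ hs₀ htr
  obtain ⟨R, hR, hs, hspec⟩ := exists_extendsRes_spec D R₁ hs₁ hs' 0
  have hmem := h R (hR.fixesConst (h₁.fixesConst hR₀)) hs (Or.inr hspec)
  have hf0 : f₁ ≠ 0 := fun h0 => htr (h0 ▸ isAlgebraic_zero)
  have hinv : f₁⁻¹ ∈ R₁.V := (R₁.V.mem_or_inv_mem f₁).resolve_left hmem₁
  obtain ⟨hi, hi'⟩ := hR ⟨_, hinv⟩
  have hzero : R₁.π ⟨_, hinv⟩ = 0 := by
    by_contra hne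
    exact hmem₁ (inv_inv f₁ ▸ KRes.inv_mem_of_ne R₁ hinv hne)
  have h1 : R.π (⟨_, hmem⟩ * ⟨_, hi⟩) = 1 := by
    rw [show (⟨_, hmem⟩ * ⟨_, hi⟩ : R.V) = 1 from Subtype.ext (by
      show algebraMap M₁ M₂ f₁ * algebraMap M₁ M₂ f₁⁻¹ = 1
      rw [← map_mul, mul_inv_cancel₀ hf0, map_one]), map_one]
  rw [map_mul, hi', hzero, mul_zero] at h1
  exact zero_ne_one h1

include he

/-- The combination of classes of the theorem of the square vanishes for the generic points. -/
theorem square_generic (Q : D.Pt L) :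
    (D.cls x (D.transl (M := M₂) (L := L₂) e (s + D.map (IsScalarTower.toAlgHom K M₁ M₂) t) Q) +
        D.cls x (D.transl (M := M₂) e 0 Q) -
        D.cls x (D.transl (M := M₂) e s Q) -
        D.cls x (D.transl (M := M₂) e (D.map (IsScalarTower.toAlgHom K M₁ M₂) t) Q) : Pic M₂ L₂) = 0 := by
  classical
  set t₂ := D.map (IsScalarTower.toAlgHom K M₁ M₂) t
  set P : D.Pt M₂ → Divisor M₂ L₂ := fun u =>
    D.polar x (D.transl e u Q) (D.den x (D.transl e u Q))
  set Ψ : Divisor M₂ L₂ := P (s + t₂) + P 0 - P s - P t₂ with hΨ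
  have hmk : (D.cls x (D.transl e (s + t₂) Q) + D.cls x (D.transl (M := M₂) e 0 Q) -
      D.cls x (D.transl e s Q) - D.cls x (D.transl e t₂ Q) : Pic M₂ L₂) =
      QuotientAddGroup.mk Ψ := by
    rw [hΨ]; simp only [QuotientAddGroup.mk_add, QuotientAddGroup.mk_sub]; rfl
  have hdegΨ : Divisor.degree Ψ = 0 := by
    have hd : ∀ u, Divisor.degree (P u) =
        D.degCls x (D.map (e.restrictScalars K) Q) (M := M₂) := fun u =>
      D.degCls_transl (M := M₂) (L := L₂) x u (D.map (e.restrictScalars K) Q)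
    rw [hΨ, map_sub, map_sub, map_add, hd, hd, hd, hd]; ring
  obtain ⟨T, -, -, hTdeg, hT⟩ := FF.exists_nonspecial (K := M) (F := L)
    (Set.infinite_univ_iff.mpr FF.infinite_places) (fun _ : Unit => 0) (fun _ => map_zero _)
  set E : Divisor M L := ∑ v ∈ T, Finsupp.single v (1 : ℤ) with hE
  have hEnn : 0 ≤ E := Finset.sum_nonneg fun v _ => Finsupp.single_nonneg.2 zero_le_one
  have hell : ell E = 1 := by simpa using (hT ()).2
  obtain ⟨f, hf0, hfnn⟩ := FF.exists_mem_of_genusFF_le_degree
    (D := Finsupp.mapDomain (extP' he) E + Ψ) (by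
      rw [map_add, degree_mapDomain_extP', hTdeg, hdegΨ, genusFF_ext K he, add_zero])
  have hC₂ := curveData_of_isFF M₂ L₂
  set Dt : Divisor M₂ L₂ := Finsupp.mapDomain (extP' he) E + Ψ + divOf f with hDt
  have hDtnn : 0 ≤ Dt := fun w => by
    rw [hDt, Finsupp.add_apply, hC₂.divOf_apply]; exact hfnn w
  -- reductions killing one of the points send `Dt` to `E`
  have hred : ∀ (R : KRes K M₂ M) (hR : FixesConst (M₀ := M) R) (hs : Function.Surjective R.π),
      (D.spec R t₂ = 0 ∨ D.spec R s = 0) →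
      Finsupp.mapDomain (placeRed hR he IsExt.id hs) Dt = E := by
    intro R hR hs h0
    have hψ : redPic hR he IsExt.id hs (QuotientAddGroup.mk Ψ : Pic M₂ L₂) = 0 := by
      rw [← hmk, map_sub, map_sub, map_add, D.redPic_cls, D.redPic_cls, D.redPic_cls,
        D.redPic_cls, map_add, map_zero]
      rcases h0 with h0 | h0 <;> rw [h0] <;> simp
    refine (FF.existsUnique_effective_of_ell_eq_one hell).unique ⟨?_, ?_⟩ ⟨hEnn, ?_⟩
    · exact (isRed_placeRed hR he IsExt.id hs).mapDomain_nonneg hDtnn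
    · show _ ∈ Divisor.principal (K := M) (F := L)
      rw [← QuotientAddGroup.eq_zero_iff, QuotientAddGroup.mk_sub, ← redPic_mk hR he IsExt.id hs,
        hDt, QuotientAddGroup.mk_add, QuotientAddGroup.mk_add, map_add, map_add, hψ,
        (QuotientAddGroup.eq_zero_iff (divOf f)).mpr (hC₂.isPrincipal_divOf hf0), map_zero,
        add_zero, add_zero, redPic_mk, ← Finsupp.mapDomain_comp,
        Finsupp.mapDomain_congr (g := id) (fun v _ => by
          rw [Function.comp_apply, placeRed_extP, extP'_id]; rfl), Finsupp.mapDomain_id, sub_self]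
    · show _ ∈ Divisor.principal (K := M) (F := L)
      rw [sub_self]; exact zero_mem _
  -- the support of `Dt` is constant
  have hsupp : ∀ w, Dt w ≠ 0 → w ∈ Set.range (extP' he) := by
    intro w hw
    by_contra hnr
    obtain ⟨z, hznc, hz⟩ := exists_regular_on E.support
    have hord : ∀ c : M, w.ord (e (z - algebraMap M L c)) = 0 := fun c => by
      by_contra hne
      obtain ⟨v, hv⟩ := exists_eq_extP' he hne
      exact hnr ⟨v, hv.symm⟩
    obtain ⟨c, hc⟩ := D.exists_const_of_integral ht hs' (valAt w (e z)) fun R hR hs h0 => by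
      have hpos : 0 < Dt w := lt_of_le_of_ne (Finsupp.le_def.mp hDtnn w) (Ne.symm hw)
      have hle : Dt w ≤ E (placeRed hR he IsExt.id hs w) := by
        rw [← hred R hR hs h0]
        exact le_mapDomain_of_nonneg _ Dt _ (fun a _ => Finsupp.le_def.mp hDtnn a) rfl
      obtain ⟨-, hmem, -⟩ := centre hR he IsExt.id hs w (z := z)
        (hz _ (Finsupp.mem_support_iff.mpr (by omega)))
      exact hmem
    have hne : e (z - algebraMap M L c) ≠ 0 :=
      (map_ne_zero e).mpr (sub_ne_zero.mpr (hznc c))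
    have h0 : w.ord (e z) = 0 := by simpa using hord 0
    have hv : valAt w (e (z - algebraMap M L c)) = 0 := by
      have h1 : Vanish w (e (algebraMap M L c)) 0 := by
        rw [e.commutes, IsScalarTower.algebraMap_apply M M₂ L₂]; exact Vanish.const _
      rw [map_sub, hC₂.valAt_sub (Or.inr h0.ge) h1, e.commutes,
        IsScalarTower.algebraMap_apply M M₂ L₂, valAt_algebraMap, hc, sub_self]
    exact (valAt_inv hC₂ hne (hord c)).1 hv
  obtain ⟨R₁, h₁, hs₁, -⟩ := exists_extendsRes_spec D (KRes.ofAlgHom (AlgHom.id K M))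
    (fun a => ⟨⟨a, trivial⟩, rfl⟩) ht 0
  obtain ⟨R, hR', hs, hspec⟩ := exists_extendsRes_spec D R₁ hs₁ hs' 0
  have hR : FixesConst (M₀ := M) R := hR'.fixesConst (h₁.fixesConst fun a => ⟨trivial, rfl⟩)
  have hE₁ : Finsupp.mapDomain (extP' he)
      (Finsupp.comapDomain (extP' he) Dt (extP'_injective he).injOn) = Dt :=
    Finsupp.mapDomain_comapDomain _ (extP'_injective he) _
      fun w hw => hsupp w (Finsupp.mem_support_iff.mp hw)
  have hEE := hred R hR hs (Or.inr hspec)
  rw [← hE₁, ← Finsupp.mapDomain_comp, Finsupp.mapDomain_congr (g := id) (fun v _ => by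
          rw [Function.comp_apply, placeRed_extP, extP'_id]; rfl), Finsupp.mapDomain_id] at hEE
  rw [hmk, QuotientAddGroup.eq_zero_iff]
  rw [hEE] at hE₁
  have h2 : Ψ = -divOf f := by
    have := hE₁.trans hDt
    rw [eq_neg_iff_add_eq_zero]
    exact (add_eq_left.mp (by rw [← add_assoc]; exact this.symm))
  rw [h2]
  exact neg_mem (hC₂.isPrincipal_divOf hf0)

end SquareStep

/-- The theorem of the square. -/
theorem cls_square (s t : D.Pt M) (Q : D.Pt L) :
    (D.cls x (D.map (IsScalarTower.toAlgHom K M L) (s + t) + Q) + D.cls x Q : Pic M L) =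
      D.cls x (D.map (IsScalarTower.toAlgHom K M L) s + Q) +
        D.cls x (D.map (IsScalarTower.toAlgHom K M L) t + Q) := by
  obtain ⟨M₁, _, _, _, _, _, t₁, ht₁⟩ := exists_genericPt D M
  obtain ⟨M₂, _, _, _, _, _, s₂, hs₂⟩ := exists_genericPt D M₁
  letI : Algebra M M₂ := ((algebraMap M₁ M₂).comp (algebraMap M M₁)).toAlgebra
  haveI : IsScalarTower M M₁ M₂ := IsScalarTower.of_algebraMap_eq fun _ => rfl
  haveI : IsScalarTower K M M₂ := IsScalarTower.of_algebraMap_eq fun a => by
    rw [IsScalarTower.algebraMap_apply K M₁ M₂, IsScalarTower.algebraMap_apply K M M₁]; rfl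
  haveI := (isExt_cextHom M M₂ L).isFF
  have he := isExt_cextHom M M₂ L
  obtain ⟨R₁, h₁, hsR₁, hsp₁⟩ := exists_extendsRes_spec D (KRes.ofAlgHom (AlgHom.id K M))
    (fun a => ⟨⟨a, trivial⟩, rfl⟩) ht₁ t
  obtain ⟨R, hR', hsR, hsp⟩ := exists_extendsRes_spec D R₁ hsR₁ hs₂ s
  have hR : FixesConst (M₀ := M) R := hR'.fixesConst (h₁.fixesConst fun a => ⟨trivial, rfl⟩)
  have h := congrArg (redPic hR he IsExt.id hsR) (D.square_generic x he ht₁ hs₂ Q)
  rw [map_sub, map_sub, map_add, D.redPic_cls, D.redPic_cls, D.redPic_cls, D.redPic_cls,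
    map_add, map_zero, map_zero, hR'.spec_map D, hsp, hsp₁, D.transl_id, D.transl_id,
    D.transl_id, D.transl_id, map_zero, zero_add] at h
  rw [← sub_eq_zero, ← h]
  abel

end AVData

end FLTAgent.AbVarTors
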