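import Mathlib
import Fermat.Agent.AbVarTors.PlaceRes
import Fermat.Agent.AbVarTors.CubeLocal
import Fermat.Agent.AbVarTors.Square

/-!
# The theorem of the cube along a curve

The second difference of `n ↦ degCls x (c + n • P)` does not depend on `n` (`degCls_second_diff`).
Over an algebraic closure of the function field of the curve the theorem of the square gives a
function with divisor a second difference of translates. Its values at the diagonal place and at a
rational place lie in a finite extension of the function field; comparing their orders place by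
place and taking degrees gives `second_diff_of_ext`.
-/

set_option autoImplicit false
set_option linter.unusedSectionVars false
set_option linter.style.haveILetI false

universe u

noncomputable section

open AlgebraicCurve Module FLTAgent.Reduction IntermediateField TensorProduct

namespace FLTAgent.AbVarTors.AVData

variable {K M L : Type u} [Field K] [IsAlgClosed K] [Field M] [Algebra K M] [Field L] [Algebra M L]
  [Algebra K L] [IsScalarTower K M L] [IsAlgClosed M] [FF.IsFF M L]
variable {g : ℕ} (D : AVData K g) (x : D.F)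

/-- The polar divisor vanishes where the point stays generic. -/
theorem polar_one_eq_zero (P : D.Pt L) (S : Place M L)
    (hS : D.loc (D.spec (placeKRes K S) P) = ⊤) : D.polar x P 1 S = 0 := by
  have hx : x ∈ D.loc (D.spec (placeKRes K S) P) := hS.symm ▸ Algebra.mem_top
  have hP : x ∈ D.loc P := D.loc_spec_le _ _ hx
  rw [D.polar_eq x (D.isDenom_one hP) S (D.isDenom_one hx) (D.isDenom_one hP), div_one, D.val_one,
    S.ord_one]

theorem degCls_translate_eq_polar {k : IntermediateField K M} {c : D.Pt M}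
    (hc : Algebra.trdeg k (adjoin k (Set.range (D.ev c))) = g) {P : D.Pt L}
    (hP : Algebra.trdeg k (adjoin k (Set.range (D.ev P))) = 1)
    (hgen : adjoin M (Set.range (D.ev P)) = ⊤) (m : ℤ) :
    D.degCls x (D.map (IsScalarTower.toAlgHom K M L) c + m • P) (M := M) =
      Divisor.degree
        (poleDiv (D.val (D.map (IsScalarTower.toAlgHom K M L) c + m • P) x) : Divisor M L) := by
  set Z := D.map (IsScalarTower.toAlgHom K M L) c + m • P
  have hZ : x ∈ D.loc Z := (D.loc_translate_eq_top k hc hP hgen m).symm ▸ Algebra.mem_top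
  rw [D.degCls_eq x (D.isDenom_one hZ)]
  have h := D.polar_translate k x (AlgHom.id M L) hc hP hgen m
  rw [show ((AlgHom.id M L).restrictScalars K) = AlgHom.id K L from rfl, D.map_id] at h
  rw [h]
  rfl

section Ext

variable {M₁ L₁ : Type u} [Field M₁] [Algebra K M₁] [Algebra M M₁] [IsScalarTower K M M₁]
  [Algebra L M₁] [IsScalarTower M L M₁] [IsScalarTower K L M₁] [IsAlgClosed M₁]
  [Algebra.IsAlgebraic L M₁]
  [Field L₁] [Algebra M₁ L₁] [Algebra M L₁] [IsScalarTower M M₁ L₁] [Algebra K L₁]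
  [IsScalarTower K M₁ L₁] [IsScalarTower K M L₁] [FF.IsFF M₁ L₁]

/-- The second difference, computed after extending the constants to an algebraic closure of the
function field. -/
theorem second_diff_of_ext {e : L →ₐ[M] L₁} (he : IsExt M₁ e)
    (k : IntermediateField K M) [IsAlgClosed k]
    (c : D.Pt M) (hc : Algebra.trdeg k (adjoin k (Set.range (D.ev c))) = g)
    (P : D.Pt L) (hP : Algebra.trdeg k (adjoin k (Set.range (D.ev P))) = 1)
    (hgen : adjoin M (Set.range (D.ev P)) = ⊤) (n : ℤ) :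
    ∃ c' : D.Pt M,
      2 * D.degCls x (D.map (IsScalarTower.toAlgHom K M L) c + (n + 1) • P) (M := M) -
          D.degCls x (D.map (IsScalarTower.toAlgHom K M L) c + (n + 2) • P) (M := M) -
          D.degCls x (D.map (IsScalarTower.toAlgHom K M L) c + (n + 0) • P) (M := M) =
        2 * D.degCls x (D.map (IsScalarTower.toAlgHom K M L) c' + (1 : ℤ) • P) (M := M) -
          D.degCls x (D.map (IsScalarTower.toAlgHom K M L) c' + (2 : ℤ) • P) (M := M) -
          D.degCls x (D.map (IsScalarTower.toAlgHom K M L) c' + (0 : ℤ) • P) (M := M) := by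
  classical
  let jM := IsScalarTower.toAlgHom K M L
  let σ := IsScalarTower.toAlgHom K L M₁
  let Q := D.map jM c + n • P
  let t := D.map σ P
  let eK := e.restrictScalars K
  let Pj := fun j : ℤ => D.transl e (j • t) Q
  -- the rational place and the constant it gives
  obtain ⟨v₀, hv₀⟩ := D.exists_rational_place k P hP hgen
  set q := D.spec (placeKRes K v₀) P with hq
  set c' := c + n • q with hc'
  have hc'g : Algebra.trdeg k (adjoin k (Set.range (D.ev c'))) = g := by
    refine le_antisymm (D.trdeg_adjoin_ev_le _) ?_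
    rw [← hc]
    have hle : adjoin k (Set.range (D.ev c)) ≤ adjoin k (Set.range (D.ev c')) := by
      refine adjoin_le_iff.mpr ?_
      have hq' : Set.range (D.ev q) ⊆ (adjoin k (Set.range (D.ev c')) : Set M) :=
        fun y hy => (bot_le : (⊥ : IntermediateField k M) ≤ _) (hv₀ hy)
      have h := D.range_ev_sub_over (P := c') (Q := n • q)
        (F₁ := adjoin k (Set.range (D.ev c'))) (subset_adjoin k _) (D.range_ev_zsmul_over hq' n)
      rwa [hc', add_sub_cancel_right] at h
    exact trdeg_le_of_injective (inclusion hle) (inclusion_injective hle)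
  refine ⟨c', ?_⟩
  clear_value c'
  let Z := fun j : ℤ => D.map jM c + (n + j) • P
  let W := fun j : ℤ => D.map jM c' + j • P
  have hZtop : ∀ j, D.loc (Z j) = ⊤ := fun j => D.loc_translate_eq_top k hc hP hgen _
  have hWtop : ∀ j, D.loc (W j) = ⊤ := fun j => D.loc_translate_eq_top k hc'g hP hgen _
  -- the diagonal place
  obtain ⟨Rd₀, hRd₀, -⟩ := exists_kres_of_hom (K := M₁) (cmap M₁ e) he.inj
    (Algebra.TensorProduct.lift (Algebra.ofId M₁ M₁) (IsScalarTower.toAlgHom M L M₁)
      fun _ _ => Commute.all _ _)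
    (fun a => ⟨a ⊗ₜ 1, by simp⟩)
  have hRd₀' : FixesConst (M₀ := M₁) (show KRes M₁ L₁ M₁ from Rd₀) := fun a => by
    refine ⟨Rd₀.mem a, ?_⟩
    exact Rd₀.map_algebraMap a
  obtain ⟨Rd, hRd⟩ := exists_place_of_kres (K := M₁) Rd₀ hRd₀'
  have hRde : ∀ y : L, ∃ h : eK y ∈ (placeKRes K Rd).V,
      (placeKRes K Rd).π ⟨eK y, h⟩ = σ y := by
    intro y
    obtain ⟨h, h'⟩ := hRd₀ (1 ⊗ₜ y)
    have hy : cmap M₁ e (1 ⊗ₜ y) = e y := by rw [cmap_tmul, map_one, one_mul]
    obtain ⟨h1, h2, -⟩ := hRd _ h
    have key := h2.trans h'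
    rw [hy] at h1 key
    refine ⟨mem_placeKRes.mpr (mem_placeKRes.mp h1), ?_⟩
    show valAt Rd (e y) = _
    rw [key]
    simp [σ]
  have hspecd : ∀ j, D.spec (placeKRes K Rd) (Pj j) = D.map σ (Z j) := by
    intro j
    have h := D.spec_map (placeKRes K Rd) (KRes.ofAlgHom (AlgHom.id K L)) eK σ
      (fun a _ => hRde a) Q
    rw [D.spec_ofAlgHom, D.map_id] at h
    simp only [Pj, transl]
    rw [map_add, D.spec_place_const, h, ← map_zsmul, ← map_add]
    congr 1
    simp only [Q, Z, add_smul]
    abel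
  -- the constant place
  set R₀ := extP' he v₀ with hR₀
  have hR₀e : ∀ (y : L) (hy : y ∈ (placeKRes K v₀).V), ∃ h : eK y ∈ (placeKRes K R₀).V,
      (placeKRes K R₀).π ⟨eK y, h⟩ =
        IsScalarTower.toAlgHom K M M₁ ((placeKRes K v₀).π ⟨y, hy⟩) := by
    intro y hy
    have hnn : 0 ≤ v₀.ord y := Vanish.zero_iff.mp (mem_placeKRes.mp hy)
    refine ⟨mem_placeKRes.mpr (Vanish.zero_iff.mpr (by
      show 0 ≤ R₀.ord (e y); rw [hR₀, ord_extP']; exact hnn)), ?_⟩
    show valAt R₀ (e y) = algebraMap M M₁ (valAt v₀ y)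
    refine valAt_eq ?_
    have hd : e y - algebraMap M₁ L₁ (algebraMap M M₁ (valAt v₀ y)) =
        e (y - algebraMap M L (valAt v₀ y)) := by
      rw [map_sub, e.commutes, ← IsScalarTower.algebraMap_apply]
    rw [hd]
    rcases (curveData_of_isFF M L).exists_valAt (mem_placeKRes.mp hy) with h0 | h0
    · exact Or.inl (by rw [h0, map_zero])
    · exact Or.inr (by rw [hR₀, ord_extP']; exact h0)
  have hspec0 : ∀ j, D.spec (placeKRes K R₀) (Pj j) = D.map σ (W j) := by
    intro j
    have hQ : D.spec (placeKRes K v₀) Q = c' := by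
      simp only [Q]
      rw [map_add, map_zsmul, D.spec_place_const, ← hq, hc']
    have h := D.spec_map (placeKRes K R₀) (placeKRes K v₀) eK (IsScalarTower.toAlgHom K M M₁)
      hR₀e Q
    rw [hQ] at h
    simp only [Pj, transl, W]
    rw [map_add, D.spec_place_const, h, map_add, map_zsmul, ← D.map_comp, add_comm,
      show σ.comp jM = IsScalarTower.toAlgHom K M M₁ from
        AlgHom.ext fun a => (IsScalarTower.algebraMap_apply M L M₁ a).symm]
  have hdtop : ∀ j, D.loc (D.spec (placeKRes K Rd) (Pj j)) = ⊤ := fun j => by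
    rw [hspecd, D.loc_map, hZtop]
  have h0top : ∀ j, D.loc (D.spec (placeKRes K R₀) (Pj j)) = ⊤ := fun j => by
    rw [hspec0, D.loc_map, hWtop]
  have hPtop : ∀ j, D.IsDenom x (Pj j) 1 := fun j =>
    D.isDenom_one (D.loc_spec_le _ _ ((hdtop j).symm ▸ Algebra.mem_top))
  -- the function given by the theorem of the square
  have hsq := D.cls_square x t t (D.map eK Q) (M := M₁)
  have e0 : Pj 0 = D.map eK Q := by simp [Pj, transl, eK]
  have e1 : Pj 1 = D.map (IsScalarTower.toAlgHom K M₁ L₁) t + D.map eK Q := by simp [Pj, transl, eK]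
  have e2 : Pj 2 = D.map (IsScalarTower.toAlgHom K M₁ L₁) (t + t) + D.map eK Q := by
    simp [Pj, transl, eK, two_zsmul]
  rw [← e2, ← e1, ← e0, D.cls_eq x (hPtop 2), D.cls_eq x (hPtop 1), D.cls_eq x (hPtop 0),
    ← QuotientAddGroup.mk_add, ← QuotientAddGroup.mk_add] at hsq
  obtain ⟨f, hf, hdiv₀⟩ := QuotientAddGroup.eq.mp hsq.symm
  have hdiv : ∀ S : Place M₁ L₁, S.ord f =
      D.polar x (Pj 2) 1 S - 2 * D.polar x (Pj 1) 1 S + D.polar x (Pj 0) 1 S := fun S => by
    rw [← hdiv₀ S]
    simp only [Finsupp.add_apply, Finsupp.neg_apply]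
    ring
  have hfd : Rd.ord f = 0 := by
    rw [hdiv, D.polar_one_eq_zero x _ _ (hdtop 2), D.polar_one_eq_zero x _ _ (hdtop 1),
      D.polar_one_eq_zero x _ _ (hdtop 0)]
    rfl
  have hf0 : R₀.ord f = 0 := by
    rw [hdiv, D.polar_one_eq_zero x _ _ (h0top 2), D.polar_one_eq_zero x _ _ (h0top 1),
      D.polar_one_eq_zero x _ _ (h0top 0)]
    rfl
  -- the field generated by the two values
  let N : IntermediateField L M₁ := adjoin L {valAt Rd f, valAt R₀ f}
  haveI : FiniteDimensional L N :=
    finiteDimensional_adjoin fun y _ => (Algebra.IsAlgebraic.isAlgebraic y).isIntegral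
  haveI : FF.IsFF M N := by
    haveI : Algebra.EssFiniteType M L :=
      IntermediateField.fg_top_iff.mp (hgen ▸ D.fg_adjoin_ev P)
    haveI : Algebra.EssFiniteType M N := Algebra.EssFiniteType.comp M L N
    refine isFF_of_fg (IntermediateField.fg_top_iff.mpr inferInstance) ?_
    rw [← trdeg_tower M L N, trdeg_eq_one_of_isFF,
      trdeg_eq_zero (R := L) (A := N), add_zero]
  haveI : IsScalarTower K M N :=
    IsScalarTower.of_algebraMap_eq fun y => Subtype.ext (IsScalarTower.algebraMap_apply K M M₁ y)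
  let ι : L →ₐ[M] N := IsScalarTower.toAlgHom M L N
  let τ : N →ₐ[K] M₁ := N.val.restrictScalars K
  let a : N := ⟨valAt Rd f, subset_adjoin L _ (Set.mem_insert _ _)⟩
  let b : N := ⟨valAt R₀ f, subset_adjoin L _ (Set.mem_insert_of_mem _ rfl)⟩
  have ha : a ≠ 0 := fun h => valAt_ne_zero_of_ord hf hfd (congrArg Subtype.val h)
  have hb : b ≠ 0 := fun h => valAt_ne_zero_of_ord hf hf0 (congrArg Subtype.val h)
  let pol := fun Y : D.Pt L => (D.polar x (D.map (ι.restrictScalars K) Y) 1 : Divisor M N)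
  have hmain : ∀ w : Place M N,
      w.ord a + 2 * pol (Z 1) w - pol (Z 2) w - pol (Z 0) w =
        w.ord b + 2 * pol (W 1) w - pol (W 2) w - pol (W 0) w := by
    intro w
    -- a residue map of the algebraic closure above the place
    let Ow : Subalgebra M N :=
      { w.toValuationSubring.toSubring with algebraMap_mem' := w.algebraMap_mem' }
    let φw : Ow →ₐ[M] M :=
      { toRingHom := (placeKRes M w).π
        commutes' := fun m => (placeKRes M w).map_algebraMap m }
    obtain ⟨R, hR, hs⟩ := exists_kres_of_hom (K := K) (τ.comp (Ow.val.restrictScalars K))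
      (τ.toRingHom.injective.comp Subtype.val_injective) (φw.restrictScalars K)
      (fun m => ⟨algebraMap M Ow m, φw.commutes m⟩)
    have hRw : ∀ (y : N) (hy : y ∈ (placeKRes K w).V), ∃ h : τ y ∈ R.V,
        R.π ⟨τ y, h⟩ = AlgHom.id K M ((placeKRes K w).π ⟨y, hy⟩) := fun y hy => by
      obtain ⟨h, h'⟩ := hR ⟨y, hy⟩
      exact ⟨h, h'⟩
    have hRfix : FixesConst (M₀ := M) R := fun m => by
      obtain ⟨h, h'⟩ := hRw (algebraMap M N m) (mem_placeKRes.mpr (Vanish.const m))
      have hm : τ (algebraMap M N m) = algebraMap M M₁ m := rfl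
      have hmem : algebraMap M M₁ m ∈ R.V := hm ▸ h
      refine ⟨hmem, (R.π_congr hmem h hm.symm).trans (h'.trans ?_)⟩
      show valAt w (algebraMap M N m) = _
      rw [valAt_algebraMap]
      rfl
    have hzero : ∀ y : N, R.IsResUnit (τ y) → w.ord y = 0 := by
      have hpos : ∀ y : N, R.IsResUnit (τ y) → ¬ 0 < w.ord y := by
        rintro y ⟨h, hne⟩ hpos
        obtain ⟨h', hv⟩ := hRw y (mem_placeKRes.mpr (Or.inr hpos.le))
        exact hne (hv.trans (valAt_eq_zero_of_vanish (Or.inr hpos)))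
      intro y hy
      have h1 := hpos y hy
      have h2 := hpos y⁻¹ (by rw [map_inv₀]; exact hy.inv)
      rw [w.ord_inv] at h2
      omega
    have hkey : ∀ Y : D.Pt L, D.loc Y = ⊤ → ∃ y : N, y ≠ 0 ∧ pol Y w = w.ord y ∧
        D.val (D.map σ Y) (D.den x (D.spec R (D.map σ Y))) = τ y := by
      intro Y hY
      have hcomp : D.map σ Y = D.map τ (D.map (ι.restrictScalars K) Y) := by
        rw [← D.map_comp]
        rfl
      have hsp : D.spec R (D.map σ Y) =
          D.spec (placeKRes K w) (D.map (ι.restrictScalars K) Y) := by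
        rw [hcomp, D.spec_map R (placeKRes K w) τ (AlgHom.id K M) hRw, D.map_id]
      rw [hsp]
      set YN := D.map (ι.restrictScalars K) Y
      set ε := D.den x (D.spec (placeKRes K w) YN)
      have htop : ∀ y : D.F, y ∈ D.loc YN := fun y => by
        rw [D.loc_map, hY]; exact Algebra.mem_top
      refine ⟨D.val YN ε, D.val_ne_zero_of_inv_mem YN (D.isDenom_den x _).1 (htop _) (htop _),
        ?_, ?_⟩
      · show D.polar x YN 1 w = _
        rw [D.polar_eq x (D.isDenom_one (htop x)) w (D.isDenom_den x _) (D.denom_spec x YN w),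
          div_one]
      · rw [hcomp, D.val_map]
    have hcomb : ∀ (r y₀ y₁ y₂ : N), r ≠ 0 → y₀ ≠ 0 → y₁ ≠ 0 → y₂ ≠ 0 →
        w.ord (r * y₁ ^ 2 / (y₂ * y₀)) = w.ord r + 2 * w.ord y₁ - w.ord y₂ - w.ord y₀ := by
      intro r y₀ y₁ y₂ hr h₀ h₁ h₂
      rw [FF.ord_div _ (mul_ne_zero hr (pow_ne_zero _ h₁)) (mul_ne_zero h₂ h₀),
        w.ord_mul hr (pow_ne_zero _ h₁), w.ord_mul h₂ h₀, FF.ord_pow]
      push_cast
      ring
    obtain ⟨z₀, hz₀, pz₀, vz₀⟩ := hkey _ (hZtop 0)
    obtain ⟨z₁, hz₁, pz₁, vz₁⟩ := hkey _ (hZtop 1)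
    obtain ⟨z₂, hz₂, pz₂, vz₂⟩ := hkey _ (hZtop 2)
    obtain ⟨w₀, hw₀, pw₀, vw₀⟩ := hkey _ (hWtop 0)
    obtain ⟨w₁, hw₁, pw₁, vw₁⟩ := hkey _ (hWtop 1)
    obtain ⟨w₂, hw₂, pw₂, vw₂⟩ := hkey _ (hWtop 2)
    have hcmp := D.valAt_compare hRfix he IsExt.id hs x ((0 : ℤ) • t) ((1 : ℤ) • t) ((2 : ℤ) • t) Q
      hf hdiv Rd R₀
      (fun u hu => by
        simp only [List.mem_cons, List.not_mem_nil, or_false] at hu
        rcases hu with rfl | rfl | rfl <;> exact hdtop _)
      (fun u hu => by
        simp only [List.mem_cons, List.not_mem_nil, or_false] at hu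
        rcases hu with rfl | rfl | rfl <;> exact h0top _)
    have d0 := hspecd 0; have d1 := hspecd 1; have d2 := hspecd 2
    have s0 := hspec0 0; have s1 := hspec0 1; have s2 := hspec0 2
    simp only [Pj] at d0 d1 d2 s0 s1 s2
    simp only [d0, d1, d2, s0, s1, s2, vz₀, vz₁, vz₂, vw₀, vw₁, vw₂] at hcmp
    change R.IsResUnit (τ a * τ z₁ ^ 2 / (τ z₂ * τ z₀) / (τ b * τ w₁ ^ 2 / (τ w₂ * τ w₀))) at hcmp
    simp only [← map_pow, ← map_mul, ← map_div₀] at hcmp
    have h := hzero _ hcmp
    rw [FF.ord_div _ (div_ne_zero (mul_ne_zero ha (pow_ne_zero _ hz₁)) (mul_ne_zero hz₂ hz₀))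
      (div_ne_zero (mul_ne_zero hb (pow_ne_zero _ hw₁)) (mul_ne_zero hw₂ hw₀)),
      hcomb a z₀ z₁ z₂ ha hz₀ hz₁ hz₂, hcomb b w₀ w₁ w₂ hb hw₀ hw₁ hw₂] at h
    rw [pz₀, pz₁, pz₂, pw₀, pw₁, pw₂]
    omega
  -- degrees
  have hC := curveData_of_isFF M N
  have hsum : (divOf a : Divisor M N) + (pol (Z 1) + pol (Z 1)) - pol (Z 2) - pol (Z 0) =
      divOf b + (pol (W 1) + pol (W 1)) - pol (W 2) - pol (W 0) := by
    refine Finsupp.ext fun w => ?_
    simp only [Finsupp.sub_apply, Finsupp.add_apply, hC.divOf_apply]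
    have := hmain w
    linarith
  have hdeg := congrArg (Divisor.degree (K := M) (F := N)) hsum
  simp only [map_add, map_sub, hC.degree_divOf, zero_add] at hdeg
  have hpolZ : ∀ j, Divisor.degree (pol (Z j)) =
      (finrank L N : ℤ) * D.degCls x (Z j) (M := M) := fun j => by
    simp only [pol, Z]
    rw [D.polar_translate k x ι hc hP hgen, D.degCls_translate_eq_polar x hc hP hgen]
    exact degree_poleDiv_algebraMap _
  have hpolW : ∀ j, Divisor.degree (pol (W j)) =
      (finrank L N : ℤ) * D.degCls x (W j) (M := M) := fun j => by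
    simp only [pol, W]
    rw [D.polar_translate k x ι hc'g hP hgen, D.degCls_translate_eq_polar x hc'g hP hgen]
    exact degree_poleDiv_algebraMap _
  rw [hpolZ, hpolZ, hpolZ, hpolW, hpolW, hpolW] at hdeg
  have hpos : (finrank L N : ℤ) ≠ 0 := by exact_mod_cast (Module.finrank_pos (R := L) (M := N)).ne'
  refine mul_left_cancel₀ hpos ?_
  simp only [Z, W, jM] at hdeg
  linear_combination hdeg

end Ext

/-- The theorem of the cube along a curve defined over `k`, translated by a point generic
over `k`. -/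
theorem degCls_second_diff (k : IntermediateField K M) [IsAlgClosed k]
    (c : D.Pt M) (hc : Algebra.trdeg k (adjoin k (Set.range (D.ev c))) = g)
    (P : D.Pt L) (hP : Algebra.trdeg k (adjoin k (Set.range (D.ev P))) = 1)
    (hgen : adjoin M (Set.range (D.ev P)) = ⊤) (n : ℤ) :
    let C := D.map (IsScalarTower.toAlgHom K M L) c
    D.degCls x (C + (n + 2) • P) (M := M) - 2 * D.degCls x (C + (n + 1) • P) (M := M) +
        D.degCls x (C + n • P) (M := M) =
      D.degCls x ((2 : ℤ) • P) (M := M) - 2 * D.degCls x P (M := M) +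
        D.degCls x (0 : D.Pt L) (M := M) := by
  intro C
  haveI : FF.IsFF (AlgebraicClosure L) (CExt M (AlgebraicClosure L) L) :=
    (isExt_cextHom M (AlgebraicClosure L) L).isFF
  obtain ⟨c', h⟩ := D.second_diff_of_ext x (isExt_cextHom M (AlgebraicClosure L) L)
    k c hc P hP hgen n
  rw [D.degCls_transl x c', D.degCls_transl x c', D.degCls_transl x c', one_smul, zero_smul,
    add_zero] at h
  linear_combination -h

end FLTAgent.AbVarTors.AVData
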