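import Mathlib
import Fermat.Agent.AbVarTors.Square
import Fermat.Agent.AbVarTors.Fields
import Fermat.Agent.AbVarTors.Count.Rank
import Fermat.Agent.AbVarTors.Degree

/-!
# Preparations for the height computation

Rank bounds from transcendence degrees, genericity of the translate `c + m • P` and absence of
indeterminacy (`loc_translate`, `translate_no_indeterminacy`), the identification of `degCls` with
the degree of the divisor of poles (`degCls_translate`), and the elementary fact that an even
sequence vanishing at `0` with constant second difference is quadratic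
(`quadratic_of_second_diff`).
-/

set_option autoImplicit false
set_option linter.unusedSectionVars false
set_option linter.style.haveILetI false

universe u

noncomputable section

open AlgebraicCurve Module IntermediateField FLTAgent.Reduction

namespace FLTAgent.AbVarTors

namespace TR

variable {k Ω : Type u} [Field k] [Field Ω] [Algebra k Ω]

/-- The rank of a set is bounded by the transcendence degree of the field it generates. -/
theorem rk_le_of_trdeg_adjoin_le {S : Set Ω} {n : ℕ} (h : Algebra.trdeg k (adjoin k S) ≤ n) :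
    rk k S ≤ n := by
  obtain ⟨B, hB⟩ := (AlgebraicIndependent.matroid k Ω).exists_isBasis' S
  let y : B → adjoin k S := fun b => ⟨b, subset_adjoin k S (hB.subset b.2)⟩
  have hy : AlgebraicIndependent k y := AlgebraicIndependent.of_comp (adjoin k S).val
    (AlgebraicIndependent.matroid_indep_iff.mp hB.indep)
  have h1 : Cardinal.mk B ≤ n := hy.cardinalMk_le_trdeg.trans h
  haveI : Finite B :=
    Cardinal.mk_lt_aleph0_iff.mp (h1.trans_lt Cardinal.natCast_lt_aleph0)
  rw [rk, ← hB.encard_eq_eRk, ← (Set.toFinite B).cast_ncard_eq, Nat.cast_le, ← Nat.card_coe_set_eq]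
  have h2 := Cardinal.toNat_le_toNat h1 Cardinal.natCast_lt_aleph0
  rwa [Cardinal.toNat_natCast] at h2

theorem rk_eq_of_trdeg_adjoin {S : Set Ω} {n : ℕ} (h : Algebra.trdeg k (adjoin k S) = n) :
    rk k S = n := by
  have h1 := rk_le_of_trdeg_adjoin_le h.le
  obtain ⟨m, hm⟩ := ENat.ne_top_iff_exists.mp (ne_top_of_le_ne_top (ENat.natCast_ne_top n) h1)
  have h2 : Algebra.trdeg k (adjoin k S) = m := trdeg_eq_of_rk (by rw [rk_adjoin, ← hm])
  rw [h, Nat.cast_inj] at h2
  rw [← hm, h2]

theorem trdeg_adjoin_le_of_rk_le {S : Set Ω} {n : ℕ} (h : rk k S ≤ n) :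
    Algebra.trdeg k (adjoin k S) ≤ n := by
  obtain ⟨m, hm⟩ := ENat.ne_top_iff_exists.mp (ne_top_of_le_ne_top (ENat.natCast_ne_top n) h)
  rw [trdeg_eq_of_rk (n := m) (by rw [rk_adjoin, ← hm]), Nat.cast_le]
  rw [← hm, Nat.cast_le] at h
  exact h

/-- An element transcendental over a set raises its rank. -/
theorem rk_insert_of_transcendental {S : Set Ω} {t : Ω} (h : Transcendental (adjoin k S) t) :
    rk k (insert t S) = rk k S + 1 :=
  (AlgebraicIndependent.matroid k Ω).eRk_insert_eq_add_one
    ⟨Set.mem_univ t, fun h' => h (mem_closure_iff.mp h')⟩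

end TR

namespace AVData

variable {K k M L : Type u} [Field K] [IsAlgClosed K] [Field k] [Algebra K k] [Field M]
  [Algebra K M] [Algebra k M] [IsScalarTower K k M] [Field L] [Algebra M L] [Algebra K L]
  [IsScalarTower K M L] [Algebra k L] [IsScalarTower K k L] [IsScalarTower k M L]
  [IsAlgClosed M] [FF.IsFF M L]
variable {g : ℕ} (D : AVData K g)

theorem exists_transcendental_coord (P : D.Pt L) (hgen : adjoin M (Set.range (D.ev P)) = ⊤) :
    ∃ t ∈ Set.range (D.ev P), Transcendental M t := by
  by_contra hcon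
  push Not at hcon
  have hle : adjoin M (Set.range (D.ev P)) ≤ algebraicClosure M L :=
    adjoin_le_iff.mpr fun t ht => mem_algebraicClosure_iff.mpr (not_not.mp (hcon t ht))
  obtain ⟨x, hx, -⟩ := FF.IsFF.exists_sep (K := M) (F := L)
  exact hx (mem_algebraicClosure_iff.mp (hle (hgen ▸ IntermediateField.mem_top)))

/-- The translate of a multiple of `P` by a point generic over `k` is generic over `k`. -/
theorem rk_translate (c : D.Pt M) (hc : Algebra.trdeg k (adjoin k (Set.range (D.ev c))) = g)
    (P : D.Pt L) (hP : Algebra.trdeg k (adjoin k (Set.range (D.ev P))) = 1)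
    (hgen : adjoin M (Set.range (D.ev P)) = ⊤) (n : ℤ) :
    (g : ℕ∞) ≤
      TR.rk k (Set.range (D.ev (D.map (IsScalarTower.toAlgHom K M L) c + n • P))) := by
  set C := D.map (IsScalarTower.toAlgHom K M L) c with hC
  set Q := C + n • P with hQ
  set φ := IsScalarTower.toAlgHom k M L with hφ
  have himg : Set.range (D.ev C) = φ '' Set.range (D.ev c) := by
    rw [hC, D.range_ev_map]
    rfl
  have hmap : adjoin k (Set.range (D.ev C)) = (adjoin k (Set.range (D.ev c))).map φ := by
    rw [himg, adjoin_map]
  have hC' : TR.rk k (Set.range (D.ev C)) = g := TR.rk_eq_of_trdeg_adjoin (by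
    rw [hmap, ← ((adjoin k (Set.range (D.ev c))).equivMap φ).trdeg_eq, hc])
  obtain ⟨t, ht, htr⟩ := D.exists_transcendental_coord P hgen
  have hle : adjoin k (Set.range (D.ev C)) ≤ φ.fieldRange := by
    rw [hmap]
    rintro _ ⟨a, -, rfl⟩
    exact ⟨a, rfl⟩
  have htr' : Transcendental (adjoin k (Set.range (D.ev C))) t := fun halg => htr (by
    refine halg.ringHom_of_comp_eq
      ((AlgEquiv.ofInjectiveField φ).symm.toAlgHom.comp (IntermediateField.inclusion hle)).toRingHom
      (RingHom.id L) ?_ (RingHom.ext fun a => ?_)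
    · exact RingHom.injective _
    · show algebraMap M L ((AlgEquiv.ofInjectiveField φ).symm (IntermediateField.inclusion hle a))
          = (a : L)
      exact congrArg Subtype.val
        ((AlgEquiv.ofInjectiveField φ).apply_symm_apply (IntermediateField.inclusion hle a)))
  have h1 : (g : ℕ∞) + 1 ≤ TR.rk k (Set.range (D.ev C) ∪ Set.range (D.ev P)) := by
    rw [← hC', ← TR.rk_insert_of_transcendental htr']
    exact TR.rk_mono (Set.insert_subset (Or.inr ht) Set.subset_union_left)
  have h2 : TR.rk k (Set.range (D.ev C) ∪ Set.range (D.ev P)) ≤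
      TR.rk k (Set.range (D.ev Q) ∪ Set.range (D.ev P)) := by
    rw [← TR.rk_adjoin (Set.range (D.ev Q) ∪ Set.range (D.ev P))]
    refine TR.rk_mono (Set.union_subset ?_ (Set.subset_union_right.trans (subset_adjoin k _)))
    rw [show C = Q - n • P by rw [hQ, add_sub_cancel_right]]
    exact D.range_ev_sub_over (Set.subset_union_left.trans (subset_adjoin k _))
      (D.range_ev_zsmul_over (Set.subset_union_right.trans (subset_adjoin k _)) n)
  have hP' : TR.rk k (Set.range (D.ev P)) = 1 := TR.rk_eq_of_trdeg_adjoin (by rw [hP, Nat.cast_one])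
  have h3 := (h1.trans h2).trans (TR.rk_union_le _ _)
  rw [hP'] at h3
  exact (ENat.add_le_add_iff_right ENat.one_ne_top).mp h3

theorem loc_translate (c : D.Pt M) (hc : Algebra.trdeg k (adjoin k (Set.range (D.ev c))) = g)
    (P : D.Pt L) (hP : Algebra.trdeg k (adjoin k (Set.range (D.ev P))) = 1)
    (hgen : adjoin M (Set.range (D.ev P)) = ⊤) (n : ℤ) :
    D.loc (D.map (IsScalarTower.toAlgHom K M L) c + n • P) = ⊤ := by
  refine D.loc_eq_top_of_trdeg_over (k := k) _ ?_
  set Q := D.map (IsScalarTower.toAlgHom K M L) c + n • P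
  have hle : TR.rk k (Set.range (D.ev Q)) ≤ g :=
    TR.rk_le_of_trdeg_adjoin_le (D.trdeg_adjoin_ev_le Q)
  have h : TR.rk k (Set.range (D.ev Q)) = g := le_antisymm hle (D.rk_translate c hc P hP hgen n)
  exact (TR.trdeg_eq_of_rk (by rw [TR.rk_adjoin, h])).ge

/-- The translated curve meets no indeterminacy. -/
theorem translate_no_indeterminacy (c : D.Pt M)
    (hc : Algebra.trdeg k (adjoin k (Set.range (D.ev c))) = g)
    (P : D.Pt L) (hP : Algebra.trdeg k (adjoin k (Set.range (D.ev P))) = 1)
    (n : ℤ) (x : D.F) (R : Place M L) (e : D.F)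
    (he : D.IsDenom x
      (D.spec (placeKRes K R) (D.map (IsScalarTower.toAlgHom K M L) c + n • P)) e) :
    ¬(D.ev _ ⟨e, he.2.1⟩ = 0 ∧ D.ev _ ⟨e * x, he.2.2.1⟩ = 0) := by
  rintro ⟨h1, h2⟩
  have h := D.trdeg_add_two_le _ he h1 h2
  have hb : Algebra.trdeg k (adjoin k (Set.range (D.ev (D.spec (placeKRes K R) (n • P))))) ≤ 1 := by
    refine (D.trdeg_adjoin_ev_spec_le (placeKRes K R) (fun a => ?_) (n • P)).trans
      ((trdeg_le_of_injective (IntermediateField.inclusion (D.adjoin_ev_zsmul_le P n))
        (IntermediateField.inclusion_injective _)).trans hP.le)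
    refine ⟨mem_placeKRes.mpr ?_, ?_⟩
    · rw [IsScalarTower.algebraMap_apply k M L]; exact Vanish.const _
    · show valAt R (algebraMap k L a) = algebraMap k M a
      rw [IsScalarTower.algebraMap_apply k M L, valAt_algebraMap]
  set S := D.spec (placeKRes K R) (n • P) with hS
  set Q := D.spec (placeKRes K R) (D.map (IsScalarTower.toAlgHom K M L) c + n • P) with hQ
  have hQc : c = Q - S := by
    rw [hQ, hS, map_add, D.spec_place_const, add_sub_cancel_right]
  obtain ⟨m, hm⟩ : ∃ m : ℕ, TR.rk k (Set.range (D.ev Q)) = m :=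
    (ENat.ne_top_iff_exists.mp (ne_top_of_le_ne_top (ENat.natCast_ne_top g)
      (TR.rk_le_of_trdeg_adjoin_le (D.trdeg_adjoin_ev_le Q)))).imp fun _ h => h.symm
  have h3 : TR.rk k (Set.range (D.ev c)) ≤
      TR.rk k (Set.range (D.ev Q) ∪ Set.range (D.ev S)) := by
    rw [← TR.rk_adjoin (Set.range (D.ev Q) ∪ Set.range (D.ev S)), hQc]
    exact TR.rk_mono (D.range_ev_sub_over (Set.subset_union_left.trans (subset_adjoin k _))
      (Set.subset_union_right.trans (subset_adjoin k _)))
  rw [TR.rk_eq_of_trdeg_adjoin hc] at h3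
  have h4 := (h3.trans (TR.rk_union_le _ _)).trans
    (add_le_add hm.le (TR.rk_le_of_trdeg_adjoin_le (n := 1) (by rwa [Nat.cast_one])))
  rw [← Nat.cast_add, Nat.cast_le] at h4
  have h5 : (m : Cardinal) + 2 ≤ g := by
    refine le_trans (add_le_add ?_ le_rfl) h
    exact (TR.trdeg_eq_of_rk (L := adjoin k (Set.range (D.ev Q)))
      (by rw [TR.rk_adjoin, hm])).ge.trans (D.trdeg_adjoin_ev_le_resField Q)
  norm_cast at h5
  omega

/-- The degree of the class of a generic translate is the degree of the polar divisor of the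
function. -/
theorem degCls_translate (c : D.Pt M) (hc : Algebra.trdeg k (adjoin k (Set.range (D.ev c))) = g)
    (P : D.Pt L) (hP : Algebra.trdeg k (adjoin k (Set.range (D.ev P))) = 1)
    (hgen : adjoin M (Set.range (D.ev P)) = ⊤) (n : ℤ) (x : D.F) :
    D.degCls x (D.map (IsScalarTower.toAlgHom K M L) c + n • P) (M := M) =
      Divisor.degree (poleDiv (D.val (D.map (IsScalarTower.toAlgHom K M L) c + n • P) x) :
        Divisor M L) := by
  have hx : x ∈ D.loc (D.map (IsScalarTower.toAlgHom K M L) c + n • P) := by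
    rw [D.loc_translate c hc P hP hgen n]; exact Algebra.mem_top
  rw [D.degCls_eq x (D.isDenom_one hx),
    D.polar_one_eq_poleDiv x hx (D.translate_no_indeterminacy c hc P hP n x)]

end AVData

/-- The degree of the polar divisor of a constant is zero. -/
theorem degree_poleDiv_of_not_transcendental {M L : Type u} [Field M] [IsAlgClosed M] [Field L]
    [Algebra M L] [FF.IsFF M L] {y : L} (hy : ¬Transcendental M y) :
    Divisor.degree (poleDiv y : Divisor M L) = 0 := by
  have halg : IsAlgebraic M y := not_not.mp hy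
  haveI : Algebra.IsAlgebraic M M⟮y⟯ := isAlgebraic_adjoin_simple halg.isIntegral
  obtain ⟨a, ha⟩ := (IsAlgClosed.algebraMap_bijective_of_isIntegral (k := M) (K := M⟮y⟯)).2
    ⟨y, mem_adjoin_simple_self M y⟩
  have ha' : algebraMap M L a = y := congrArg Subtype.val ha
  rw [show (poleDiv y : Divisor M L) = 0 from Finsupp.ext fun v => by
    rw [(curveData_of_isFF M L).poleDiv_apply, ← ha', FF.ord_algebraMap, Finsupp.zero_apply]
    simp, map_zero]

/-- A sequence with constant second difference, even, vanishing at zero is quadratic. -/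
theorem quadratic_of_second_diff (H : ℤ → ℤ)
    (hd : ∀ n, H (n + 2) - 2 * H (n + 1) + H n = H 2 - 2 * H 1 + H 0)
    (h0 : H 0 = 0) (he : H (-1) = H 1) (n : ℤ) : H n = n ^ 2 * H 1 := by
  have h2 : H 2 = 4 * H 1 := by
    have := hd (-1)
    norm_num at this
    rw [he, h0] at this
    linarith
  have key : ∀ m : ℕ, (H m = (m : ℤ) ^ 2 * H 1 ∧ H (m + 1) = ((m : ℤ) + 1) ^ 2 * H 1) ∧
      (H (-m) = (m : ℤ) ^ 2 * H 1 ∧ H (-m - 1) = ((m : ℤ) + 1) ^ 2 * H 1) := by
    intro m
    induction m with
    | zero =>
      refine ⟨⟨by simpa using h0, by simp⟩, by simpa using h0, ?_⟩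
      simpa using he
    | succ m ih =>
      obtain ⟨⟨a1, a2⟩, b1, b2⟩ := ih
      refine ⟨⟨by push_cast; exact a2, ?_⟩, ?_, ?_⟩
      · have := hd m
        push_cast
        rw [a1, a2, h2, h0] at this
        rw [show (m : ℤ) + 1 + 1 = m + 2 by ring]
        linear_combination this
      · push_cast
        rw [show -((m : ℤ) + 1) = -m - 1 by ring]
        exact b2
      · have := hd (-m - 2)
        push_cast
        rw [show -((m : ℤ) + 1) - 1 = -m - 2 by ring]
        rw [show -(m : ℤ) - 2 + 2 = -m by ring, show -(m : ℤ) - 2 + 1 = -m - 1 by ring, b1, b2, h2,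
          h0] at this
        linear_combination this
  obtain ⟨m, rfl | rfl⟩ := Int.eq_nat_or_neg n
  · exact (key m).1.1
  · rw [(key m).2.1, neg_pow_two]

end FLTAgent.AbVarTors
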