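import Mathlib
import Fermat.Agent.AbVarTors.HeightAux
import Fermat.Agent.AbVarTors.Cube

/-!
# The height of a multiple is quadratic

For an even function `x`, a point `P` generating a curve over `k` and `c` generic over `k`, the
degree of the function field over `M⟮x(c + n • P)⟯` is `n ^ 2` times that over `M⟮x(c + P)⟯`
(`finrank_translate_zsmul`): the theorem of the cube makes the degree of the pulled back polar
divisor quadratic in `n`.
-/

set_option autoImplicit false
set_option linter.style.haveILetI false

universe u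

noncomputable section

open AlgebraicCurve Module IntermediateField FLTAgent.Reduction

namespace FLTAgent.AbVarTors.AVData

variable {K : Type u} [Field K] [IsAlgClosed K] {g : ℕ} (D : AVData K g)

/-- Let `k` be algebraically closed, `c` a generic point over `k`, and `P` a point of the function
field `L/M` defined over `k` which generates `L` over `M`. If `x` is even and `x(c + P)` is not
constant, then the degree of `x(c + n • P)` is `n ^ 2` times that of `x(c + P)`. -/
theorem finrank_translate_zsmul {M L : Type u} [Field M] [IsAlgClosed M] [Algebra K M]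
    [Field L] [Algebra M L] [Algebra K L] [IsScalarTower K M L] [FF.IsFF M L]
    (k : IntermediateField K M) [IsAlgClosed k]
    (c : D.Pt M) (hc : Algebra.trdeg k (adjoin k (Set.range (D.ev c))) = g)
    (P : D.Pt L) (hP : Algebra.trdeg k (adjoin k (Set.range (D.ev P))) = 1)
    (hgen : adjoin M (Set.range (D.ev P)) = ⊤)
    (x : D.F) (hx : D.IsEvenFn x) (n : ℤ) (hn : n ≠ 0)
    (h1 : Transcendental M (D.val (D.map (IsScalarTower.toAlgHom K M L) c + P) x)) :
    Transcendental M (D.val (D.map (IsScalarTower.toAlgHom K M L) c + n • P) x) ∧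
    Module.finrank M⟮D.val (D.map (IsScalarTower.toAlgHom K M L) c + n • P) x⟯ L =
      n.natAbs ^ 2 * Module.finrank M⟮D.val (D.map (IsScalarTower.toAlgHom K M L) c + P) x⟯ L := by
  set ι := IsScalarTower.toAlgHom K M L
  set C := D.map ι c with hC
  -- the degree function
  let H : ℤ → ℤ := fun m => D.degCls x (C + m • P) (M := M)
  have htr : ∀ Q : D.Pt L, D.degCls x (C + Q) (M := M) = D.degCls x Q (M := M) := fun Q =>
    D.degCls_transl x c Q
  have hdeg : ∀ m : ℤ, H m = Divisor.degree (poleDiv (D.val (C + m • P) x) : Divisor M L) :=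
    fun m => D.degCls_translate c hc P hP hgen m x
  have hH0 : H 0 = 0 := by
    rw [hdeg]
    refine degree_poleDiv_of_not_transcendental fun h => h ?_
    rw [zero_smul, add_zero, hC, D.val_map]
    exact isAlgebraic_algebraMap (D.val c x)
  have hneg : H (-1) = H 1 := by
    have hc' : Algebra.trdeg k (adjoin k (Set.range (D.ev (-c)))) = g := by
      rw [D.adjoin_ev_neg]; exact hc
    have e : D.map ι (-c) + (-1 : ℤ) • P = -(C + (1 : ℤ) • P) := by
      rw [hC, map_neg, neg_smul, ← neg_add]
    have h2 := D.degCls_translate (-c) hc' P hP hgen (-1) x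
    rw [e, D.val_neg_of_isEvenFn hx _ (D.loc_translate c hc P hP hgen 1), ← hdeg 1, ← e,
      D.degCls_transl x (-c) ((-1 : ℤ) • P)] at h2
    show D.degCls x (C + (-1 : ℤ) • P) (M := M) = H 1
    rw [htr, h2]
  have hd : ∀ m : ℤ, H (m + 2) - 2 * H (m + 1) + H m = H 2 - 2 * H 1 + H 0 := fun m => by
    have h := D.degCls_second_diff x k c hc P hP hgen m
    show D.degCls x (C + (m + 2) • P) (M := M) - 2 * D.degCls x (C + (m + 1) • P) (M := M) +
        D.degCls x (C + m • P) (M := M) = D.degCls x (C + (2 : ℤ) • P) (M := M) -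
          2 * D.degCls x (C + (1 : ℤ) • P) (M := M) + D.degCls x (C + (0 : ℤ) • P) (M := M)
    rw [htr ((2 : ℤ) • P), htr ((1 : ℤ) • P), htr ((0 : ℤ) • P), one_smul, zero_smul]
    exact h
  have hquad := quadratic_of_second_diff H hd hH0 hneg n
  haveI := FF.finiteDimensional_adjoin_of_transcendental h1
  have hH1 : H 1 = (Module.finrank M⟮D.val (C + P) x⟯ L : ℤ) := by
    rw [hdeg, one_smul, degree_poleDiv_eq_finrank h1]
  have hpos : 0 < H 1 := by
    rw [hH1]
    exact_mod_cast Module.finrank_pos
  have htn : Transcendental M (D.val (C + n • P) x) := fun hcon => by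
    have h0 := degree_poleDiv_of_not_transcendental (M := M) (not_not.mpr hcon)
    rw [← hdeg n, hquad] at h0
    have : (0 : ℤ) < n ^ 2 := by positivity
    exact (mul_pos this hpos).ne' h0
  refine ⟨htn, ?_⟩
  haveI := FF.finiteDimensional_adjoin_of_transcendental htn
  have hn2 : (Module.finrank M⟮D.val (C + n • P) x⟯ L : ℤ) =
      ((n.natAbs ^ 2 * Module.finrank M⟮D.val (C + P) x⟯ L : ℕ) : ℤ) := by
    rw [← degree_poleDiv_eq_finrank htn, ← hdeg n, hquad, hH1, Nat.cast_mul, Nat.cast_pow,
      Int.natAbs_sq]
  exact_mod_cast hn2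

end FLTAgent.AbVarTors.AVData
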