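import Mathlib
import Fermat.Agent.AbVarTors.Denom
import Fermat.Agent.AbVarTors.Count.Compare
import Fermat.Agent.AbVarTors.Count.BaseChange
import Fermat.Agent.AbVarTors.Count.Kernel

/-!
# The number of torsion points prime to the characteristic

`AVData.natCard_torsion`: for the birational data `AVData K g` of an abelian variety over an
algebraically closed field, the `n`-torsion of the `K`-points has `n ^ (2 * g)` elements when `n`
is invertible in `K`.

`GenSys.degree_zsmul` computes the degree of the multiplication by `n` after adjoining the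
coordinates of auxiliary generic points, `relfinrank_base_change` removes these coordinates, and
`natCard_torsion_of_degree` turns the degree into a count of points.
-/

set_option autoImplicit false
set_option linter.style.haveILetI false

universe u

noncomputable section

open IntermediateField

namespace FLTAgent.AbVarTors.AVData

variable {K : Type u} [Field K] [IsAlgClosed K] {g : ℕ} (D : AVData K g)

/-- An endomorphism of the function field is a finite extension. -/
theorem finiteDimensional_fieldRange (σ : D.F →ₐ[K] D.F) : FiniteDimensional σ.fieldRange D.F := by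
  haveI : Algebra.EssFiniteType K D.F := IntermediateField.fg_top_iff.mp D.fg
  haveI : Algebra.EssFiniteType σ.fieldRange D.F := Algebra.EssFiniteType.of_comp K _ D.F
  have h1 : Algebra.trdeg K σ.fieldRange = g := by
    rw [← D.trdeg_eq]
    exact (AlgEquiv.ofInjectiveField σ).trdeg_eq.symm
  have h2 := trdeg_add_eq K σ.fieldRange (A := D.F)
  rw [h1, D.trdeg_eq] at h2
  haveI : Algebra.IsAlgebraic σ.fieldRange D.F := by
    rw [← trdeg_eq_zero_iff]
    exact Cardinal.eq_of_add_eq_add_left
      (a := (g : Cardinal)) (h2.trans (add_zero _).symm) Cardinal.natCast_lt_aleph0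
  exact Algebra.finite_of_essFiniteType_of_isAlgebraic

/-- There are `n ^ (2 * g)` points killed by `n` when `n` is invertible in `K`. -/
theorem natCard_torsion (n : ℕ) (hn : (n : K) ≠ 0) :
    Nat.card {P : D.Pt K // n • P = 0} = n ^ (2 * g) := by
  obtain ⟨G⟩ := exists_genSys D
  have hn0 : (n : ℤ) ≠ 0 := by
    intro h
    exact hn (by rw [Int.natCast_eq_zero.mp h, Nat.cast_zero])
  obtain ⟨hl, hrk, hdeg⟩ := G.degree_zsmul (n : ℤ) hn0
  have hη : (n : ℤ) • G.η₀ = D.map (G.σ none) (n • D.η) := by
    rw [natCast_zsmul, map_nsmul]
    rfl
  have h : D.loc (n • D.η) = ⊤ := by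
    rw [← D.loc_map (G.σ none), ← hη]
    exact hl
  have hcomp : ∀ f, D.genHom _ hl f = G.σ none (D.genHom _ h f) := fun f => by
    rw [D.genHom_apply, D.genHom_apply, ← D.val_map, hη]
  refine D.natCard_torsion_of_degree n hn h ?_
  set F₀ := (D.genHom (n • D.η) h).fieldRange with hF₀
  haveI : FiniteDimensional F₀ D.F := D.finiteDimensional_fieldRange (D.genHom (n • D.η) h)
  rw [← relfinrank_base_change (G.σ none) (adjoin K G.C)
    (G.injective_lift_of_rk G.rk_C_union_none) F₀, ← Int.natAbs_natCast n, ← hdeg]
  congr 1
  · have e : G.σ none '' (F₀ : Set D.F) = Set.range (D.genHom _ hl) := by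
      rw [hF₀, AlgHom.coe_fieldRange, ← Set.range_comp]
      exact congrArg Set.range (funext fun f => (hcomp f).symm)
    rw [e, adjoin_union, adjoin_self, ← adjoin_union]
  · rw [GenSys.full, adjoin_union, adjoin_self, ← adjoin_union]

end FLTAgent.AbVarTors.AVData
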