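import Mathlib
import Fermat.Prelude.Def_GoodReductionJacobian_RelativeGroupLawKernel

/-!
# Multiplication by an invertible integer is formally unramified

On a commutative group scheme, smooth and separated over a field, formal unramifiedness of
multiplication by `n` is checked on square zero thickenings `R ⟶ R/I`: on points congruent to the
unit the group law is `a, b ↦ a + b - e` in the coordinates of an affine chart around the unit
(`coord_mul`, `coord_nsmul`), so `n • x` determines `x` when `n` is invertible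
(`formallyUnramified_schemeNsmul`).
-/

set_option autoImplicit false
set_option linter.style.haveILetI false

noncomputable section

open CategoryTheory CategoryTheory.Limits AlgebraicGeometry NeronModelInfra GoodReductionJacobian

universe u

namespace FLTAgent.AbVarTors

/-- The morphism of spectra of a ring map with nilpotent kernel is surjective on points. -/
theorem surjective_specMap {R S : CommRingCat.{u}} (φ : R ⟶ S)
    (hφ : Function.Surjective φ.hom) (hI : RingHom.ker φ.hom ≤ nilradical R) :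
    Function.Surjective (Spec.map φ).base := by
  intro x
  have h : x ∈ Set.range (PrimeSpectrum.comap φ.hom) := by
    rw [range_comap_of_surjective _ φ.hom hφ]
    haveI := x.2
    exact hI.trans (nilradical_le_prime x.asIdeal)
  exact h

/-- Triples congruent along a ring map. -/
def tripleSub {R S : Type u} [CommRing R] [CommRing S] (φ : R →+* S) : Subring (R × R × R) :=
  RingHom.eqLocus (φ.comp (RingHom.fst R (R × R)))
      (φ.comp ((RingHom.fst R R).comp (RingHom.snd R (R × R)))) ⊓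
    RingHom.eqLocus (φ.comp ((RingHom.fst R R).comp (RingHom.snd R (R × R))))
      (φ.comp ((RingHom.snd R R).comp (RingHom.snd R (R × R))))

theorem mem_tripleSub {R S : Type u} [CommRing R] [CommRing S] {φ : R →+* S} {a b c : R} :
    (a, b, c) ∈ tripleSub φ ↔ φ a = φ b ∧ φ b = φ c := Iff.rfl

section Triple

variable {R S : CommRingCat.{u}} (φ : R ⟶ S)

/-- The ring of triples. -/
abbrev tripleRing : CommRingCat.{u} := CommRingCat.of (tripleSub φ.hom)

/-- First projection. -/
def tripleFst : tripleRing φ ⟶ R :=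
  CommRingCat.ofHom ((RingHom.fst R (R × R)).comp (tripleSub φ.hom).subtype)

/-- Middle projection. -/
def tripleMid : tripleRing φ ⟶ R :=
  CommRingCat.ofHom
    (((RingHom.fst R R).comp (RingHom.snd R (R × R))).comp (tripleSub φ.hom).subtype)

/-- Last projection. -/
def tripleLast : tripleRing φ ⟶ R :=
  CommRingCat.ofHom
    (((RingHom.snd R R).comp (RingHom.snd R (R × R))).comp (tripleSub φ.hom).subtype)

/-- The diagonal. -/
def tripleDiag : R ⟶ tripleRing φ :=
  CommRingCat.ofHom (((RingHom.id R).prod ((RingHom.id R).prod (RingHom.id R))).codRestrict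
    (tripleSub φ.hom) fun _ => ⟨rfl, rfl⟩)

/-- `(a, b, c) ↦ a - b + c`, multiplicative as the kernel squares to zero. -/
def tripleSum (hI : RingHom.ker φ.hom ^ 2 = ⊥) : tripleRing φ ⟶ R :=
  CommRingCat.ofHom
    { toFun := fun p => p.1.1 - p.1.2.1 + p.1.2.2
      map_one' := by simp
      map_zero' := by simp
      map_add' := fun p q => by simp; ring
      map_mul' := fun p q => by
        obtain ⟨⟨a, b, c⟩, hab, hbc⟩ := p
        obtain ⟨⟨a', b', c'⟩, hab', hbc'⟩ := q
        have key : ∀ x y : R, φ.hom x = 0 → φ.hom y = 0 → x * y = 0 := fun x y hx hy => by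
          rw [← Ideal.mem_bot, ← hI, pow_two]
          exact Ideal.mul_mem_mul hx hy
        have h1 := key (a - b) (c' - b') (by rw [map_sub, sub_eq_zero]; exact hab)
          (by rw [map_sub, sub_eq_zero]; exact hbc'.symm)
        have h2 := key (c - b) (a' - b') (by rw [map_sub, sub_eq_zero]; exact hbc.symm)
          (by rw [map_sub, sub_eq_zero]; exact hab')
        show a * a' - b * b' + c * c' = (a - b + c) * (a' - b' + c')
        linear_combination -h1 - h2 }

theorem tripleDiag_fst : tripleDiag φ ≫ tripleFst φ = 𝟙 R := rfl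

theorem tripleDiag_mid : tripleDiag φ ≫ tripleMid φ = 𝟙 R := rfl

theorem tripleDiag_last : tripleDiag φ ≫ tripleLast φ = 𝟙 R := rfl

theorem tripleDiag_sum (hI : RingHom.ker φ.hom ^ 2 = ⊥) :
    tripleDiag φ ≫ tripleSum φ hI = 𝟙 R := by
  ext a
  show a - a + a = a
  ring

theorem triple_hom_ext {B : CommRingCat.{u}} {g h : B ⟶ tripleRing φ}
    (h₁ : g ≫ tripleFst φ = h ≫ tripleFst φ) (h₂ : g ≫ tripleMid φ = h ≫ tripleMid φ)
    (h₃ : g ≫ tripleLast φ = h ≫ tripleLast φ) : g = h :=
  CommRingCat.hom_ext <| RingHom.ext fun b => Subtype.ext <|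
    Prod.ext (congrArg (fun k : B ⟶ R => k.hom b) h₁) <|
      Prod.ext (congrArg (fun k : B ⟶ R => k.hom b) h₂) (congrArg (fun k : B ⟶ R => k.hom b) h₃)

theorem surjective_tripleMid : Function.Surjective (tripleMid φ).hom := fun a =>
  ⟨(tripleDiag φ).hom a, rfl⟩

theorem ker_tripleMid_le (hI : RingHom.ker φ.hom ^ 2 = ⊥) :
    RingHom.ker (tripleMid φ).hom ≤ nilradical (tripleRing φ) := by
  rintro ⟨⟨a, b, c⟩, hab, hbc⟩ (hb : b = 0)
  have key : ∀ x : R, φ.hom x = 0 → x ^ 2 = 0 := fun x hx => by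
    rw [← Ideal.mem_bot, ← hI]
    exact Ideal.pow_mem_pow hx 2
  subst hb
  refine mem_nilradical.mpr ⟨2, Subtype.ext (Prod.ext ?_ (Prod.ext ?_ ?_))⟩
  · exact key a ((show φ.hom a = φ.hom 0 from hab).trans (map_zero φ.hom))
  · exact zero_pow two_ne_zero
  · exact key c ((show φ.hom c = φ.hom 0 from hbc.symm).trans (map_zero φ.hom))

end Triple

section Law

variable {K : Type u} [Field K] {A : Scheme.{u}} {f : A ⟶ Spec (CommRingCat.of K)}
  (L : RelativeGroupLaw K f)

/-- The unit composed. -/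
theorem one_eq {T : Scheme.{u}} (t : T ⟶ Spec (CommRingCat.of K)) :
    (L.one t).1 = t ≫ (L.one (𝟙 (Spec (CommRingCat.of K)))).1 :=
  (congrArg Subtype.val (L.one_natural (𝟙 _) t t (Category.comp_id t))).symm

theorem comp_mul {T T' : Scheme.{u}} {t : T ⟶ Spec (CommRingCat.of K)}
    {t' : T' ⟶ Spec (CommRingCat.of K)} {ψ : T' ⟶ T} (hψ : ψ ≫ t = t')
    (x y : SchemeHomOver t f) :
    ψ ≫ (L.mul t x y).1 =
      (L.mul t' (schemeHomOverComp ψ hψ x) (schemeHomOverComp ψ hψ y)).1 :=
  congrArg Subtype.val (L.mul_natural t t' ψ hψ x y)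

/-- `[n]` on a point is `n` times the point. -/
theorem comp_schemeNsmul {T : Scheme.{u}} {t : T ⟶ Spec (CommRingCat.of K)}
    (x : SchemeHomOver t f) (n : ℕ) : x.1 ≫ L.schemeNsmul n = (L.nsmul t n x).1 := by
  have h := congrArg Subtype.val
    (L.nsmul_natural f t x.1 x.2 n RelativeGroupLaw.idPoint)
  have e : schemeHomOverComp x.1 x.2 (RelativeGroupLaw.idPoint (f := f)) = x :=
    Subtype.ext (Category.comp_id x.1)
  rw [e] at h
  exact h

/-- An affine open containing the unit sections. -/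
theorem exists_affine_unit : ∃ U : A.Opens, IsAffineOpen U ∧
    ∀ {T : Scheme.{u}} (t : T ⟶ Spec (CommRingCat.of K)),
      Set.range (L.one t).1.base ⊆ U := by
  obtain ⟨U, hU, hxU, -⟩ := exists_isAffineOpen_mem_and_subset
    (x := (L.one (𝟙 (Spec (CommRingCat.of K)))).1.base (IsLocalRing.closedPoint K))
    (U := (⊤ : A.Opens)) trivial
  refine ⟨U, hU, fun {T} t => ?_⟩
  rintro _ ⟨x, rfl⟩
  rw [one_eq L t, Scheme.Hom.comp_apply,
    Subsingleton.elim (α := PrimeSpectrum K) (t.base x) (IsLocalRing.closedPoint K)]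
  exact hxU

variable {U : A.Opens} (hU : IsAffineOpen U)

theorem exists_coord {R : CommRingCat.{u}} {x : Spec R ⟶ A}
    (h : Set.range x.base ⊆ U) : ∃ a : Γ(A, U) ⟶ R, x = Spec.map a ≫ hU.fromSpec := by
  refine ⟨Spec.preimage (IsOpenImmersion.lift hU.fromSpec x (by rw [hU.range_fromSpec]; exact h)),
    ?_⟩
  rw [Spec.map_preimage, IsOpenImmersion.lift_fac]

theorem coord_inj {R : CommRingCat.{u}} {a b : Γ(A, U) ⟶ R}
    (h : Spec.map a ≫ hU.fromSpec = Spec.map b ≫ hU.fromSpec) : a = b :=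
  Spec.map_injective ((cancel_mono hU.fromSpec).mp h)

theorem range_subset_of_comp {R S : CommRingCat.{u}} {φ : R ⟶ S}
    (hφ : Function.Surjective φ.hom) (hI : RingHom.ker φ.hom ≤ nilradical R)
    {x : Spec R ⟶ A} (h : Set.range (Spec.map φ ≫ x).base ⊆ U) : Set.range x.base ⊆ U := by
  rintro _ ⟨y, rfl⟩
  obtain ⟨z, rfl⟩ := surjective_specMap φ hφ hI y
  exact h ⟨z, Scheme.Hom.comp_apply _ _ _⟩

/-- The group law on points congruent to the unit. -/
theorem coord_mul {R S : CommRingCat.{u}} (φ : R ⟶ S) (hI : RingHom.ker φ.hom ^ 2 = ⊥)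
    (hone : ∀ {T : Scheme.{u}} (t : T ⟶ Spec (CommRingCat.of K)),
      Set.range (L.one t).1.base ⊆ U)
    (t : Spec R ⟶ Spec (CommRingCat.of K)) (x y : SchemeHomOver t f) (a e b : Γ(A, U) ⟶ R)
    (ha : x.1 = Spec.map a ≫ hU.fromSpec) (he : (L.one t).1 = Spec.map e ≫ hU.fromSpec)
    (hb : y.1 = Spec.map b ≫ hU.fromSpec) (hae : a ≫ φ = e ≫ φ) (hbe : b ≫ φ = e ≫ φ) :
    ∃ c : Γ(A, U) ⟶ R, (L.mul t x y).1 = Spec.map c ≫ hU.fromSpec ∧
      ∀ r, c.hom r = a.hom r - e.hom r + b.hom r := by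
  set t' : Spec (tripleRing φ) ⟶ Spec (CommRingCat.of K) := Spec.map (tripleDiag φ) ≫ t with ht'
  have hsec : ∀ q : tripleRing φ ⟶ R, tripleDiag φ ≫ q = 𝟙 R → Spec.map q ≫ t' = t :=
    fun q hq => by rw [ht', ← Category.assoc, ← Spec.map_comp, hq, Spec.map_id, Category.id_comp]
  have h1 := hsec _ (tripleDiag_fst φ)
  have h2 := hsec _ (tripleDiag_mid φ)
  have h3 := hsec _ (tripleDiag_last φ)
  have h4 := hsec _ (tripleDiag_sum φ hI)
  let tri : ∀ p q r : Γ(A, U) ⟶ R, p ≫ φ = q ≫ φ → r ≫ φ = q ≫ φ →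
      (Γ(A, U) ⟶ tripleRing φ) := fun p q r hp hr =>
    CommRingCat.ofHom ((p.hom.prod (q.hom.prod r.hom)).codRestrict (tripleSub φ.hom)
      fun s => ⟨congrArg (fun k : Γ(A, U) ⟶ S => k.hom s) hp,
        (congrArg (fun k : Γ(A, U) ⟶ S => k.hom s) hr).symm⟩)
  have proj : ∀ (p q r : Γ(A, U) ⟶ R) (hp : p ≫ φ = q ≫ φ) (hr : r ≫ φ = q ≫ φ),
      tri p q r hp hr ≫ tripleFst φ = p ∧ tri p q r hp hr ≫ tripleMid φ = q ∧
        tri p q r hp hr ≫ tripleLast φ = r := fun p q r hp hr => ⟨rfl, rfl, rfl⟩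
  -- a point of the triples with given coordinates lies over the base
  have lift : ∀ (p r : Γ(A, U) ⟶ R) (hp : p ≫ φ = e ≫ φ) (hr : r ≫ φ = e ≫ φ)
      (u v : SchemeHomOver t f), u.1 = Spec.map p ≫ hU.fromSpec →
      v.1 = Spec.map r ≫ hU.fromSpec →
      (Spec.map (tri p e r hp hr) ≫ hU.fromSpec) ≫ f = t' := by
    intro p r hp hr u v hu hv
    rw [← Spec.map_preimage ((Spec.map (tri p e r hp hr) ≫ hU.fromSpec) ≫ f),
      ← Spec.map_preimage t']
    refine congrArg Spec.map ?_
    obtain ⟨e1, e2, e3⟩ := proj p e r hp hr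
    have k : ∀ (q : tripleRing φ ⟶ R) (w : Γ(A, U) ⟶ R) (z : SchemeHomOver t f),
        Spec.map q ≫ t' = t → tri p e r hp hr ≫ q = w → z.1 = Spec.map w ≫ hU.fromSpec →
        Spec.preimage ((Spec.map (tri p e r hp hr) ≫ hU.fromSpec) ≫ f) ≫ q =
          Spec.preimage t' ≫ q := by
      intro q w z hq hw hz
      apply Spec.map_injective
      simp only [Spec.map_comp, Spec.map_preimage]
      rw [hq, ← Category.assoc, ← Category.assoc, ← Spec.map_comp, hw, ← hz, z.2]
    exact triple_hom_ext φ (k _ p u h1 e1 hu) (k _ e (L.one t) h2 e2 he) (k _ r v h3 e3 hv)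
  let z₁ : SchemeHomOver t' f :=
    ⟨Spec.map (tri a e e hae rfl) ≫ hU.fromSpec, lift a e hae rfl x (L.one t) ha he⟩
  let z₂ : SchemeHomOver t' f :=
    ⟨Spec.map (tri e e b rfl hbe) ≫ hU.fromSpec, lift e b rfl hbe (L.one t) y he hb⟩
  -- components
  have comp : ∀ (q : tripleRing φ ⟶ R) (hq : Spec.map q ≫ t' = t) (u v : SchemeHomOver t f),
      Spec.map q ≫ z₁.1 = u.1 → Spec.map q ≫ z₂.1 = v.1 →
      Spec.map q ≫ (L.mul t' z₁ z₂).1 = (L.mul t u v).1 := by
    intro q hq u v hu hv
    rw [comp_mul L hq]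
    congr 2 <;> exact Subtype.ext (by assumption)
  have coordq : ∀ (q : tripleRing φ ⟶ R) (k : Γ(A, U) ⟶ tripleRing φ) (w : Γ(A, U) ⟶ R),
      k ≫ q = w → Spec.map q ≫ Spec.map k ≫ hU.fromSpec = Spec.map w ≫ hU.fromSpec :=
    fun q k w h => by rw [← Category.assoc, ← Spec.map_comp, h]
  have w1 : Spec.map (tripleFst φ) ≫ (L.mul t' z₁ z₂).1 = x.1 := by
    rw [comp _ h1 x (L.one t) ((coordq _ _ _ (proj a e e hae rfl).1).trans ha.symm)
      ((coordq _ _ _ (proj e e b rfl hbe).1).trans he.symm), L.mul_one]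
  have w2 : Spec.map (tripleMid φ) ≫ (L.mul t' z₁ z₂).1 = (L.one t).1 := by
    rw [comp _ h2 (L.one t) (L.one t) ((coordq _ _ _ (proj a e e hae rfl).2.1).trans he.symm)
      ((coordq _ _ _ (proj e e b rfl hbe).2.1).trans he.symm), L.mul_one]
  have w3 : Spec.map (tripleLast φ) ≫ (L.mul t' z₁ z₂).1 = y.1 := by
    rw [comp _ h3 (L.one t) y ((coordq _ _ _ (proj a e e hae rfl).2.2).trans he.symm)
      ((coordq _ _ _ (proj e e b rfl hbe).2.2).trans hb.symm), L.one_mul]
  obtain ⟨d, hd⟩ := exists_coord hU (range_subset_of_comp (surjective_tripleMid φ)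
    (ker_tripleMid_le φ hI) (x := (L.mul t' z₁ z₂).1) (by rw [w2]; exact hone t))
  rw [hd] at w1 w2 w3
  have hd' : d = tri a e b hae hbe := by
    refine triple_hom_ext φ ?_ ?_ ?_ <;> apply coord_inj hU <;>
      rw [Spec.map_comp, Category.assoc]
    · exact w1.trans ha
    · exact w2.trans he
    · exact w3.trans hb
  refine ⟨d ≫ tripleSum φ hI, ?_, fun r => by rw [hd']; rfl⟩
  rw [Spec.map_comp, Category.assoc, ← hd]
  refine (comp _ h4 x y ?_ ?_).symm
  · refine (coordq _ _ a ?_).trans ha.symm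
    ext r
    show a.hom r - e.hom r + e.hom r = a.hom r
    ring
  · refine (coordq _ _ b ?_).trans hb.symm
    ext r
    show e.hom r - e.hom r + b.hom r = b.hom r
    ring

/-- Multiples on points congruent to the unit. -/
theorem coord_nsmul {R S : CommRingCat.{u}} (φ : R ⟶ S) (hI : RingHom.ker φ.hom ^ 2 = ⊥)
    (hone : ∀ {T : Scheme.{u}} (t : T ⟶ Spec (CommRingCat.of K)),
      Set.range (L.one t).1.base ⊆ U)
    (t : Spec R ⟶ Spec (CommRingCat.of K)) (x : SchemeHomOver t f) (a e : Γ(A, U) ⟶ R)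
    (ha : x.1 = Spec.map a ≫ hU.fromSpec) (he : (L.one t).1 = Spec.map e ≫ hU.fromSpec)
    (hae : a ≫ φ = e ≫ φ) (n : ℕ) :
    ∃ c : Γ(A, U) ⟶ R, (L.nsmul t n x).1 = Spec.map c ≫ hU.fromSpec ∧
      ∀ r, c.hom r = e.hom r + (n : R) * (a.hom r - e.hom r) := by
  induction n with
  | zero => exact ⟨e, he, fun r => by simp⟩
  | succ n ih =>
    obtain ⟨c, hc, hcr⟩ := ih
    have hce : c ≫ φ = e ≫ φ := by
      ext r
      have h := congrArg (fun k : Γ(A, U) ⟶ S => k.hom r) hae
      simp only [CommRingCat.hom_comp, RingHom.comp_apply] at h ⊢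
      rw [hcr, map_add, map_mul, map_sub, h, sub_self, mul_zero, add_zero]
    obtain ⟨d, hd, hdr⟩ := coord_mul L hU φ hI hone t (L.nsmul t n x) x c e a hc he ha hce hae
    refine ⟨d, hd, fun r => ?_⟩
    rw [hdr, hcr, Nat.cast_succ]
    ring

end Law

section Unramified

variable {K : Type u} [Field K] {A : Scheme.{u}} {f : A ⟶ Spec (CommRingCat.of K)}
  (L : RelativeGroupLaw K f)

/-- Multiplication by an invertible integer is formally unramified. -/
theorem formallyUnramified_schemeNsmul (hc : L.IsCommutative) (n : ℕ) (hn : (n : K) ≠ 0) :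
    FormallyUnramified (L.schemeNsmul n) := by
  refine FormallyUnramified.of_hom_ext _ fun R S φ hφ hI g₁ g₂ hres hn' => ?_
  obtain ⟨U, hU, hone⟩ := exists_affine_unit L
  set t := g₁ ≫ f with ht
  have hg₂ : g₂ ≫ f = t := by
    rw [ht, ← L.schemeNsmul_over n, ← Category.assoc, ← Category.assoc, hn']
  let x₁ : SchemeHomOver t f := ⟨g₁, rfl⟩
  let x₂ : SchemeHomOver t f := ⟨g₂, hg₂⟩
  letI : CommGroup (SchemeHomOver t f) := { L.pointGroup t with mul_comm := hc t }
  have hpow : ∀ (m : ℕ) (x : SchemeHomOver t f), L.nsmul t m x = x ^ m := fun m x => by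
    induction m with
    | zero => rfl
    | succ m ih => rw [pow_succ, RelativeGroupLaw.nsmul_succ, ih]; rfl
  have hn1 : L.nsmul t n (x₁ / x₂) = L.one t := by
    rw [hpow, div_pow, ← hpow, ← hpow,
      show L.nsmul t n x₁ = L.nsmul t n x₂ from
        Subtype.ext (by rw [← comp_schemeNsmul, ← comp_schemeNsmul]; exact hn'),
      div_self']
    rfl
  -- the difference reduces to the unit
  set tS := Spec.map φ ≫ t with htS
  have hres' : Spec.map φ ≫ (x₁ / x₂).1 = (L.one tS).1 := by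
    rw [show x₁ / x₂ = L.mul t x₁ (L.inv t x₂) from div_eq_mul_inv x₁ x₂, comp_mul L htS.symm]
    have h1 : schemeHomOverComp (Spec.map φ) htS.symm x₁ =
        schemeHomOverComp (Spec.map φ) htS.symm x₂ := Subtype.ext hres
    rw [h1, ← L.mul_natural t tS (Spec.map φ) htS.symm, L.mul_inv_cancel,
      L.one_natural t tS (Spec.map φ) htS.symm]
  have hker : RingHom.ker φ.hom ≤ nilradical R := fun z hz => mem_nilradical.mpr
    ⟨2, by rw [← Ideal.mem_bot, ← hI]; exact Ideal.pow_mem_pow hz 2⟩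
  obtain ⟨a, ha⟩ := exists_coord hU
    (range_subset_of_comp hφ hker (x := (x₁ / x₂).1) (by rw [hres']; exact hone tS))
  obtain ⟨e, he⟩ := exists_coord hU (hone t)
  have hae : a ≫ φ = e ≫ φ := by
    apply coord_inj hU
    rw [Spec.map_comp, Category.assoc, Spec.map_comp, Category.assoc, ← ha, ← he, hres',
      ← L.one_natural t tS (Spec.map φ) htS.symm]
    rfl
  obtain ⟨c, hcx, hcr⟩ := coord_nsmul L hU φ hI hone t _ a e ha he hae n
  rw [hn1, he] at hcx
  have hce := coord_inj hU hcx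
  have hunit : IsUnit (n : R) := by
    rw [← map_natCast (Spec.preimage t).hom]
    exact (Ne.isUnit hn).map _
  have hd : x₁ / x₂ = 1 := by
    refine Subtype.ext ?_
    show (x₁ / x₂).1 = (L.one t).1
    rw [ha, he]
    congr 2
    ext r
    have h := hcr r
    rw [← hce, eq_comm, add_eq_left, hunit.mul_right_eq_zero, sub_eq_zero] at h
    exact h
  exact congrArg Subtype.val (div_eq_one.mp hd)

end Unramified

end FLTAgent.AbVarTors
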